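import Fermat.Agent.QComp.LevelPar
import Fermat.Agent.Top.SupportCoker
import Fermat.Agent.Petersson.Bound
import Fermat.Agent.Spc.Divis
import Fermat.Agent.JZ.FieldInputs
import Mathlib.LinearAlgebra.Eigenspace.Charpoly

/-!
# A polynomial relation for the Hecke operators on the torsion of `J₀(N)`

For a prime `ℓ ∤ N` there is a monic `f ∈ ℤ[X]` with `f(T_ℓ) = 0` on all torsion points of `J₀(N)`
and `f(± (ℓ + 1)) ≠ 0`.
-/

set_option autoImplicit false
set_option linter.unusedSectionVars false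

noncomputable section

open CongruenceSubgroup ModularCurve ModularCurve.Period Polynomial
open Fermat.Agent.Period Fermat.Agent.Top CuspForm Fermat.Agent.Newform Fermat.Agent.Petersson
open Fermat.Agent.QComp

namespace Fermat.Agent.Mazur

local notation "conjA" => ((starRingEnd ℂ : ℂ →+* ℂ) : ℂ →+ ℂ)

/-- `± (ℓ + 1)` is not an eigenvalue of `T_ℓ` on cusp forms. -/
theorem eq_zero_of_hOp_eigen {N : ℕ} [NeZero N] (ℓ : Nat.Primes) (hℓ : ¬ (ℓ : ℕ) ∣ N) {ε : ℂ}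
    (hε : ε ^ 2 = 1) {F : CuspForm (Gamma0 N) 2} (h : hOp N ℓ F = (ε * ((ℓ : ℕ) + 1)) • F) :
    F = 0 := by
  apply DFunLike.coe_injective
  refine eq_zero_of_heckeT_eigen ℓ.2 hℓ (IntStr.IsCF.of_cuspForm F) hε ?_
  rw [hOp_of_not_dvd hℓ] at h
  have h1 := congrArg (fun G : CuspForm (Gamma0 N) 2 => (G : UpperHalfPlane → ℂ)) h
  simp only [CuspForm.coe_heckeTLin_apply] at h1
  exact h1

/-- `± (ℓ + 1)` is not an eigenvalue of `T_ℓ` on parabolic cohomology. -/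
theorem eq_zero_of_hop_eigen {N : ℕ} [NeZero N] (ℓ : Nat.Primes) (hℓ : ¬ (ℓ : ℕ) ∣ N) {ε : ℂ}
    (hε : ε ^ 2 = 1) {ψ : Additive (Gamma0 N) →+ ℂ} (hψ : IsParabolicHom (Gamma0 N) ψ)
    (h : hop N ℓ ψ = (ε * ((ℓ : ℕ) + 1)) • ψ) : ψ = 0 := by
  obtain ⟨F, G, rfl⟩ := exists_period_conj_period hψ
  set c : ℂ := ε * ((ℓ : ℕ) + 1) with hc
  have hreal : (starRingEnd ℂ) c = c := by
    rcases sq_eq_one_iff_of_ne_zero' hε with rfl | rfl <;> simp [hc]
  have h2 := eq_zero_of_period_add_conj (hOp N ℓ F - c • F) (hOp N ℓ G - c • G) (by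
    rw [map_sub, map_sub, periodLin_hOp, periodLin_hOp, map_smul, map_smul]
    rw [map_add, hop_conj_comp] at h
    have h3 : AddMonoidHom.comp conjA (hop N ℓ (periodLin N G) - c • periodLin N G) =
        AddMonoidHom.comp conjA (hop N ℓ (periodLin N G)) -
          c • AddMonoidHom.comp conjA (periodLin N G) := by
      refine AddMonoidHom.ext fun γ => ?_
      change (starRingEnd ℂ) (hop N ℓ (periodLin N G) γ - c * periodLin N G γ) =
        (starRingEnd ℂ) (hop N ℓ (periodLin N G) γ) - c * (starRingEnd ℂ) (periodLin N G γ)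
      rw [map_sub, map_mul, hreal]
    rw [h3, sub_add_sub_comm, h, smul_add, sub_self])
  have hF := eq_zero_of_hOp_eigen ℓ hℓ hε (sub_eq_zero.mp h2.1)
  have hG := eq_zero_of_hOp_eigen ℓ hℓ hε (sub_eq_zero.mp h2.2)
  rw [hF, hG, map_zero, AddMonoidHom.comp_zero, add_zero]

/-- The characteristic polynomial of `T_ℓ` on integral parabolic cohomology. -/
def heckePoly (N : ℕ) [NeZero N] (ℓ : Nat.Primes) : ℤ[X] := (hopPar N ℤ ℓ).charpoly

theorem heckePoly_monic (N : ℕ) [NeZero N] (ℓ : Nat.Primes) : (heckePoly N ℓ).Monic :=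
  LinearMap.charpoly_monic _

theorem aeval_heckePoly (N : ℕ) [NeZero N] (ℓ : Nat.Primes) :
    aeval (hopPar N ℤ ℓ) (heckePoly N ℓ) = 0 := LinearMap.aeval_self_charpoly _

theorem heckePoly_eval_ne_zero (N : ℕ) [NeZero N] (ℓ : Nat.Primes) (hℓ : ¬ (ℓ : ℕ) ∣ N) {ε : ℤ}
    (hε : ε ^ 2 = 1) : (heckePoly N ℓ).eval (ε * ((ℓ : ℕ) + 1)) ≠ 0 := by
  intro h
  have h1 : (hopPar N ℤ ℓ).HasEigenvalue (ε * ((ℓ : ℕ) + 1)) :=
    (Module.End.hasEigenvalue_iff_isRoot_charpoly _ _).mpr h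
  obtain ⟨v, hv⟩ := h1.exists_hasEigenvector
  have hv0 := hv.2
  have hv1 : hopPar N ℤ ℓ v = (ε * ((ℓ : ℕ) + 1) : ℤ) • v := hv.apply_eq_smul
  apply hv0
  have h2 : (Int.castAddHom ℂ).comp v.1 = 0 := by
    refine eq_zero_of_hop_eigen (N := N) ℓ hℓ (ε := (ε : ℂ)) (by exact_mod_cast hε) ?_ ?_
    · intro γ hγ
      change (((v.1 (Additive.ofMul γ) : ℤ)) : ℂ) = 0
      rw [v.2 γ hγ, Int.cast_zero]
    · rw [hop_comp_left]
      have h3 : hop N ℓ v.1 = (ε * ((ℓ : ℕ) + 1) : ℤ) • v.1 := congrArg Subtype.val hv1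
      rw [h3]
      refine AddMonoidHom.ext fun γ => ?_
      change (((ε * ((ℓ : ℕ) + 1) : ℤ) • (v.1 γ : ℤ) : ℤ) : ℂ) = _ * ((v.1 γ : ℤ) : ℂ)
      push_cast [smul_eq_mul]
      ring
  apply Subtype.ext
  refine AddMonoidHom.ext fun γ => ?_
  have h3 := DFunLike.congr_fun h2 γ
  change ((v.1 γ : ℤ) : ℂ) = 0 at h3
  exact_mod_cast h3

theorem aeval_natural {A B : Type*} [AddCommGroup A] [AddCommGroup B] (S : Module.End ℤ A)
    (T : Module.End ℤ B) (ι : A →+ B) (h : ∀ a, ι (S a) = T (ι a)) (f : ℤ[X]) (a : A) :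
    ι (aeval S f a) = aeval T f (ι a) := by
  induction f using Polynomial.induction_on' generalizing a with
  | add p q hp hq => rw [map_add, map_add, LinearMap.add_apply, LinearMap.add_apply, map_add, hp, hq]
  | monomial n c =>
    have hpow : ∀ (n : ℕ) (a : A), ι ((S ^ n) a) = (T ^ n) (ι a) := by
      intro n
      induction n with
      | zero => intro a; simp
      | succ n ih =>
        intro a
        rw [pow_succ', pow_succ', Module.End.mul_apply, Module.End.mul_apply, h, ih]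
    rw [aeval_monomial, aeval_monomial, Module.End.mul_apply, Module.End.mul_apply,
      Module.algebraMap_end_apply, Module.algebraMap_end_apply, map_zsmul, hpow]

/-- **The Hecke polynomial kills the torsion of `J₀(N)`.** -/
theorem aeval_heckeOperatorBar_eq_zero (N : ℕ) [NeZero N] (ℓ : Nat.Primes) (hℓ : ¬ (ℓ : ℕ) ∣ N)
    {n : ℕ} (hn : n ≠ 0) {x : JZero N} (hx : n • x = 0) :
    aeval (heckeOperatorBar N ℓ) (heckePoly N ℓ) x = 0 := by
  obtain ⟨c, hc, H⟩ := exists_supportMap_bounded N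
  have : FF.IsFnField (AlgebraicClosure ℚ) (JZ.FN (AlgebraicClosure ℚ) N) :=
    JZ.modularFieldInputsBar.fnField N
  obtain ⟨y, hy⟩ := Spc.divisible (AlgebraicClosure ℚ) (JZ.FN (AlgebraicClosure ℚ) N) hc x
  have hy' : (n * c) • y = 0 := by
    rw [mul_smul]
    exact (congrArg (fun z => n • z) hy).trans hx
  obtain ⟨ι, -, -, h3, h4⟩ := H (n * c) (mul_ne_zero hn hc)
  obtain ⟨φ, hφ⟩ := h4 y hy'
  have hx' : x = ι φ := hy.symm.trans hφ
  rw [hx', ← aeval_natural (hopPar N ℤ ℓ) (heckeOperatorBar N ℓ) ι (h3 ℓ hℓ), aeval_heckePoly,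
    LinearMap.zero_apply, map_zero]

/-- The form requested for the Eisenstein descent. -/
theorem exists_heckePoly (N : ℕ) [NeZero N] (ℓ : Nat.Primes) (hℓ : ¬ (ℓ : ℕ) ∣ N) :
    ∃ f : ℤ[X], f.Monic ∧ f.eval ((ℓ : ℕ) + 1 : ℤ) ≠ 0 ∧ f.eval (-((ℓ : ℕ) + 1) : ℤ) ≠ 0 ∧
      ∀ (n : ℕ) (_ : n ≠ 0) (x : JZero N), n • x = 0 → aeval (heckeOperatorBar N ℓ) f x = 0 := by
  refine ⟨heckePoly N ℓ, heckePoly_monic N ℓ, ?_, ?_,
    fun n hn x hx => aeval_heckeOperatorBar_eq_zero N ℓ hℓ hn hx⟩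
  · have := heckePoly_eval_ne_zero N ℓ hℓ (ε := 1) (by norm_num)
    rwa [one_mul] at this
  · have := heckePoly_eval_ne_zero N ℓ hℓ (ε := -1) (by norm_num)
    rwa [neg_one_mul] at this

end Fermat.Agent.Mazur
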