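import Mathlib
import Fermat.Agent.Frob.Minkowski
import Fermat.Agent.CFT.Hilbert90
import Fermat.Agent.CFT.GalInst
import Fermat.Agent.CFT.SLevTame
import Fermat.Agent.CFT.Loc.UnrGlob

/-!
# Base cases of the Eisenstein descent over `ℚ`

Cocycles of `Gal(ℚ̄/ℚ)` with values in `ℤ/r` or `μ_r`, unramified outside `r` and "flat" at `r`.
-/

set_option autoImplicit false

open scoped Pointwise
open Fermat.Agent.Frob Fermat.Agent.CFT

namespace Fermat.Agent.Mazur

local notation "Qb" => AlgebraicClosure ℚ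
local notation "GQ" => AlgebraicClosure ℚ ≃ₐ[ℚ] AlgebraicClosure ℚ

/-- `σ` acting on units -/
noncomputable def uact (σ : GQ) : Qbˣ →* Qbˣ := Units.map ((σ : Qb →+* Qb) : Qb →* Qb)

@[simp] lemma coe_uact (σ : GQ) (x : Qbˣ) : ((uact σ x : Qbˣ) : Qb) = σ x := rfl

lemma uact_mul (σ τ : GQ) (x : Qbˣ) : uact (σ * τ) x = uact σ (uact τ x) := Units.ext rfl

/-- Hilbert 90 for a subgroup of the absolute Galois group. -/
theorem hilb90 (H : Subgroup GQ) (c : GQ → Qbˣ)
    (hc : ∀ σ ∈ H, ∀ τ ∈ H, c (σ * τ) = c σ * uact σ (c τ))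
    (hL : ∃ U ∈ galLevels ℚ Qb, ∀ σ ∈ H, ∀ u ∈ H, u ∈ U → c (σ * u) = c σ) :
    ∃ β : Qbˣ, ∀ σ ∈ H, uact σ β = c σ * β := by
  have hG := (isGal_galLevels (k := ℚ) (Ω := Qb)).restrict H
  let f : H → Additive Qbˣ := fun σ => Additive.ofMul (c σ)
  have hf : f ∈ Z1 ((galLevels ℚ Qb).restrict H) (uRep H Qb) := by
    refine mem_Z1.2 ⟨?_, ?_⟩
    · obtain ⟨U, hU, h⟩ := hL
      refine ⟨U.subgroupOf H, ⟨U, hU, le_rfl⟩, fun g s hs => ?_⟩
      change Additive.ofMul (c (g * s)) = Additive.ofMul (c g)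
      rw [h g g.2 s s.2 hs]
    · intro g h
      apply uRep_ext
      change ((c (g * h) : Qbˣ) : Qb) = _
      rw [hc g g.2 h h.2, mul_comm]
      rfl
  obtain ⟨β, hβ⟩ := mem_B1.1 (hilbert90 hG hf)
  refine ⟨β.toMul, fun σ hσ => ?_⟩
  have h1 := hβ ⟨σ, hσ⟩
  have h2 : (Additive.ofMul (c σ) : Additive Qbˣ) + β = uRep H Qb ⟨σ, hσ⟩ β := by
    rw [show (Additive.ofMul (c σ) : Additive Qbˣ) = f ⟨σ, hσ⟩ from rfl, h1]; abel
  have h3 := congrArg Additive.toMul h2
  rw [toMul_add] at h3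
  change c σ * β.toMul = _ at h3
  rw [h3]
  exact Units.ext rfl

/-- A natural number all of whose valuations are divisible by `r` is an `r`-th power. -/
lemma exists_pow_eq_of_dvd_factorization {r n : ℕ} (hn : n ≠ 0)
    (h : ∀ q, q.Prime → r ∣ n.factorization q) : ∃ m : ℕ, m ^ r = n := by
  refine ⟨∏ q ∈ n.primeFactors, q ^ (n.factorization q / r), ?_⟩
  rw [← Finset.prod_pow]
  conv_rhs => rw [← Nat.prod_factorization_pow_eq_self hn]
  rw [Finsupp.prod, Nat.support_factorization]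
  refine Finset.prod_congr rfl fun q hq => ?_
  rw [← pow_mul, Nat.div_mul_cancel (h q (Nat.prime_of_mem_primeFactors hq))]

/-- A rational number all of whose valuations are divisible by `r` is `±` an `r`-th power. -/
lemma exists_pow_eq_of_dvd_padicValRat {r : ℕ} (hr : r ≠ 0) {x : ℚ} (hx : x ≠ 0)
    (h : ∀ q : ℕ, q.Prime → (r : ℤ) ∣ padicValRat q x) :
    ∃ y : ℚ, y ≠ 0 ∧ (x = y ^ r ∨ x = - y ^ r) := by
  have hnum : x.num ≠ 0 := Rat.num_ne_zero.2 hx
  have key : ∀ q : ℕ, q.Prime → r ∣ x.num.natAbs.factorization q ∧ r ∣ x.den.factorization q := by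
    intro q hq
    have : Fact q.Prime := ⟨hq⟩
    have h1 := h q hq
    rw [padicValRat_def, padicValInt] at h1
    have hcop := x.reduced
    by_cases hd : q ∣ x.den
    · have hn : ¬ q ∣ x.num.natAbs := fun h2 => hq.one_lt.ne' (Nat.dvd_one.1 (hcop ▸ Nat.dvd_gcd h2 hd))
      have h3 : padicValNat q x.num.natAbs = 0 := padicValNat.eq_zero_of_not_dvd hn
      rw [h3] at h1
      rw [Nat.factorization_def _ hq, Nat.factorization_def _ hq, h3]
      refine ⟨dvd_zero _, ?_⟩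
      have h4 : (r : ℤ) ∣ (padicValNat q x.den : ℤ) := by simpa using h1
      exact_mod_cast h4
    · have h3 : padicValNat q x.den = 0 := padicValNat.eq_zero_of_not_dvd hd
      rw [h3] at h1
      rw [Nat.factorization_def _ hq, Nat.factorization_def _ hq, h3]
      refine ⟨?_, dvd_zero _⟩
      have h4 : (r : ℤ) ∣ (padicValNat q x.num.natAbs : ℤ) := by simpa using h1
      exact_mod_cast h4
  obtain ⟨a, ha⟩ := exists_pow_eq_of_dvd_factorization (Int.natAbs_ne_zero.2 hnum)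
    (fun q hq => (key q hq).1)
  obtain ⟨b, hb⟩ := exists_pow_eq_of_dvd_factorization x.den_ne_zero (fun q hq => (key q hq).2)
  have hb' : ((b : ℚ)) ^ r = x.den := by exact_mod_cast hb
  have ha' : ((a : ℚ)) ^ r = x.num.natAbs := by exact_mod_cast ha
  have hxe : x = x.num / x.den := (Rat.num_div_den x).symm
  have hor : x = ((a : ℚ) / b) ^ r ∨ x = - ((a : ℚ) / b) ^ r := by
    rw [div_pow, ha', hb']
    rcases Int.natAbs_eq x.num with h1 | h1
    · left
      have h2 : (x.num : ℚ) = (x.num.natAbs : ℚ) := by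
        have := congrArg (Int.cast : ℤ → ℚ) h1
        rwa [Int.cast_natCast] at this
      rw [← h2]; exact hxe
    · right
      have h2 : (x.num : ℚ) = -(x.num.natAbs : ℚ) := by
        have := congrArg (Int.cast : ℤ → ℚ) h1
        rwa [Int.cast_neg, Int.cast_natCast] at this
      rw [← neg_div, ← h2]; exact hxe
  refine ⟨(a : ℚ) / b, ?_, hor⟩
  intro h0
  rw [h0, zero_pow hr] at hor
  rcases hor with h | h
  · exact hx h
  · exact hx (by rw [h, neg_zero])

/-- in `ℚ̄`: a rational number which is a `q`-power times a unit at a place above `q`. -/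
lemma padicValRat_eq_of_valuation_eq_one {q : ℕ} (hq : q.Prime) {A : ValuationSubring Qb}
    (hA : A.LiesOverPrime q) {x : ℚ} (hx : x ≠ 0) {n : ℤ}
    (h : A.valuation ((x : Qb) * (q : Qb) ^ (-n)) = 1) : padicValRat q x = n := by
  have : Fact q.Prime := ⟨hq⟩
  have hq0 : (q : ℚ) ≠ 0 := by exact_mod_cast hq.ne_zero
  have hvq : A.valuation (q : Qb) < 1 := (ValuationSubring.mem_nonunits_iff _).1 hA
  -- integers prime to `q` are units
  have hint : ∀ m : ℤ, ¬ (q : ℤ) ∣ m → A.valuation (m : Qb) = 1 := by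
    intro m hm
    have h1 := natCast_notMem_nonunits A hq hA hm
    exact valuation_eq_one_of_notMem_nonunits (by exact_mod_cast intCast_mem A.toSubring m) h1
  set k := padicValRat q x with hk
  -- `x = q^k * a / b`
  obtain ⟨a, b, ha, hb, hab⟩ : ∃ a b : ℤ, ¬ (q : ℤ) ∣ a ∧ ¬ (q : ℤ) ∣ b ∧
      x * b = (q : ℚ) ^ k * a := by
    have hnum : x.num ≠ 0 := Rat.num_ne_zero.2 hx
    have hfn : ∃ a : ℤ, ¬ (q : ℤ) ∣ a ∧ x.num = (q : ℤ) ^ (padicValInt q x.num) * a := by
      obtain ⟨a, ha⟩ := padicValInt_dvd (p := q) x.num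
      refine ⟨a, ?_, ha⟩
      rintro ⟨a', rfl⟩
      have : (q : ℤ) ^ (padicValInt q x.num + 1) ∣ x.num := ⟨a', by rw [pow_succ]; linarith [ha]⟩
      rw [padicValInt_dvd_iff] at this
      rcases this with h2 | h2
      · exact hnum h2
      · omega
    have hfd : ∃ b : ℕ, ¬ q ∣ b ∧ x.den = q ^ (padicValNat q x.den) * b := by
      obtain ⟨b, hb⟩ := pow_padicValNat_dvd (p := q) (n := x.den)
      refine ⟨b, ?_, hb⟩
      rintro ⟨b', rfl⟩
      have : q ^ (padicValNat q x.den + 1) ∣ x.den := ⟨b', by rw [pow_succ]; rw [mul_assoc]; exact hb⟩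
      have h3 := (padicValNat_dvd_iff_le x.den_ne_zero).1 this
      omega
    obtain ⟨a, ha, ha'⟩ := hfn
    obtain ⟨b, hb, hb'⟩ := hfd
    refine ⟨a, b, ha, by exact_mod_cast hb, ?_⟩
    have hd0 : (x.den : ℚ) ≠ 0 := by exact_mod_cast x.den_ne_zero
    have h1 : x * x.den = x.num := Rat.mul_den_eq_num x
    rw [hk, padicValRat_def, zpow_sub₀ hq0, zpow_natCast, zpow_natCast]
    have h2 : ((x.num : ℤ) : ℚ) = (q : ℚ) ^ (padicValInt q x.num) * a := by exact_mod_cast congrArg (Int.cast : ℤ → ℚ) ha'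
    have h3 : ((x.den : ℕ) : ℚ) = (q : ℚ) ^ (padicValNat q x.den) * b := by exact_mod_cast congrArg (Nat.cast : ℕ → ℚ) hb'
    rw [h2, h3] at h1
    have hqn : (q : ℚ) ^ (padicValNat q x.den) ≠ 0 := pow_ne_zero _ hq0
    field_simp
    push_cast
    linear_combination h1
  have hx' : A.valuation (x : Qb) = A.valuation (q : Qb) ^ k := by
    have h1 : (x : Qb) * (b : Qb) = (q : Qb) ^ k * (a : Qb) := by
      have := congrArg (algebraMap ℚ Qb) hab
      simpa using this
    have h2 := congrArg A.valuation h1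
    rw [map_mul, map_mul, hint a ha, hint b hb, mul_one, mul_one, map_zpow₀] at h2
    exact h2
  rw [map_mul, hx', map_zpow₀, ← zpow_add₀ (by rw [Ne, map_eq_zero]; exact_mod_cast hq.ne_zero)] at h
  have h0 : k + -n = 0 := by
    by_contra hne
    rcases lt_or_gt_of_ne hne with hlt | hgt
    · obtain ⟨m, hm⟩ := Int.eq_ofNat_of_zero_le (by omega : 0 ≤ -(k + -n))
      have h3 : A.valuation (q : Qb) ^ (-(k + -n)) = 1 := by rw [zpow_neg, h, inv_one]
      rw [hm, zpow_natCast] at h3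
      have hm0 : m ≠ 0 := by rintro rfl; simp at hm; omega
      exact hvq.ne (eq_one_of_pow_eq_one_val hm0 h3)
    · obtain ⟨m, hm⟩ := Int.eq_ofNat_of_zero_le (by omega : 0 ≤ (k + -n))
      rw [hm, zpow_natCast] at h
      have hm0 : m ≠ 0 := by rintro rfl; simp at hm; omega
      exact hvq.ne (eq_one_of_pow_eq_one_val hm0 h)
  omega

/-- the twisted (`μ_r`) base case. -/
theorem mu_case {r : ℕ} (hr : r.Prime) {A : ValuationSubring Qb} (hA : A.LiesOverPrime r)
    (B : ℕ → ValuationSubring Qb) (hB : ∀ q, q.Prime → (B q).LiesOverPrime q)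
    (c : GQ → Qbˣ) (hc : ∀ σ τ, c (σ * τ) = c σ * uact σ (c τ)) (hcr : ∀ σ, c σ ^ r = 1)
    (hL : ∃ U ∈ galLevels ℚ Qb, ∀ σ ∈ U, c σ = 1)
    (hI : ∀ q, q.Prime → q ≠ r → ∀ σ ∈ (B q).inertiaSubgroupIn ℚ, c σ = 1)
    (hval : ∃ β : Qbˣ, A.valuation (β : Qb) = 1 ∧ ∀ σ ∈ A.inertiaSubgroupIn ℚ, uact σ β = c σ * β) :
    ∃ η : Qbˣ, (η ^ r = 1 ∨ η ^ r = -1) ∧ ∀ σ, uact σ η = c σ * η := by
  obtain ⟨β₀, hβ₀⟩ := hilb90 ⊤ c (fun σ _ τ _ => hc σ τ) (by
    obtain ⟨U, hU, h⟩ := hL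
    refine ⟨U, hU, fun σ _ u _ hu => ?_⟩
    rw [hc, h u hu, map_one, mul_one])
  have hβ : ∀ σ, uact σ β₀ = c σ * β₀ := fun σ => hβ₀ σ trivial
  -- `β₀^r` is rational
  have hfix : ∀ σ : GQ, σ ((β₀ : Qb) ^ r) = (β₀ : Qb) ^ r := by
    intro σ
    have h1 : uact σ (β₀ ^ r) = β₀ ^ r := by rw [map_pow, hβ, mul_pow, hcr, one_mul]
    have h2 := congrArg (Units.val) h1
    simpa using h2
  obtain ⟨b, hb⟩ : ∃ b : ℚ, algebraMap ℚ Qb b = (β₀ : Qb) ^ r := by
    have h1 : (β₀ : Qb) ^ r ∈ (⊥ : IntermediateField ℚ Qb) :=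
      (InfiniteGalois.mem_bot_iff_fixed (k := ℚ) (K := Qb) _).2 hfix
    obtain ⟨b, hb⟩ := IntermediateField.mem_bot.1 h1
    exact ⟨b, hb⟩
  have hb0 : b ≠ 0 := by
    rintro rfl
    rw [map_zero] at hb
    exact pow_ne_zero r β₀.ne_zero hb.symm
  have hβr : ((b : ℚ) : Qb) = (β₀ : Qb) ^ r := by rw [← hb]; simp
  have hdvd : ∀ q : ℕ, q.Prime → (r : ℤ) ∣ padicValRat q b := by
    intro q hq
    by_cases hqr : q = r
    · subst hqr
      obtain ⟨β, hβ1, hβ2⟩ := hval
      obtain ⟨n, hn1, hn2⟩ := Loc.exists_zpow_of_inertia hq hA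
        (y := ((β₀ / β : Qbˣ) : Qb)) (Units.ne_zero _) (by
          intro τ hτ
          have h1 : uact τ (β₀ / β) = β₀ / β := by
            rw [map_div, hβ, hβ2 τ hτ, mul_div_mul_left_eq_div]
          have h2 := congrArg (Units.val) h1
          simpa using h2)
      refine ⟨n, ?_⟩
      apply padicValRat_eq_of_valuation_eq_one hq hA hb0
      have h3 : A.valuation (((β₀ / β : Qbˣ) : Qb) * (q : Qb) ^ (-n)) = 1 := by
        apply le_antisymm ((A.valuation_le_one_iff _).2 hn1)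
        have h4 := (A.valuation_le_one_iff _).2 hn2
        rw [map_inv₀] at h4
        exact (inv_le_one₀ (by
          rw [zero_lt_iff, Ne, map_eq_zero]
          exact mul_ne_zero (Units.ne_zero _) (zpow_ne_zero _ (by exact_mod_cast hq.ne_zero)))).1 h4
      have h5 : (b : Qb) * (q : Qb) ^ (-((q : ℤ) * n)) =
          (((β₀ / β : Qbˣ) : Qb) * (q : Qb) ^ (-n)) ^ q * (β : Qb) ^ q := by
        rw [hβr, mul_pow, Units.val_div_eq_div_val, div_pow, ← zpow_natCast ((q : Qb) ^ (-n)),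
          ← zpow_mul]
        have : (β : Qb) ^ q ≠ 0 := pow_ne_zero _ β.ne_zero
        field_simp
        ring_nf
      rw [h5, map_mul, map_pow, map_pow, h3, hβ1]
      simp
    · obtain ⟨n, hn1, hn2⟩ := Loc.exists_zpow_of_inertia hq (hB q hq)
        (y := (β₀ : Qb)) (Units.ne_zero _) (by
          intro τ hτ
          have h1 : uact τ β₀ = β₀ := by rw [hβ, hI q hq hqr τ hτ, one_mul]
          have h2 := congrArg (Units.val) h1
          simpa using h2)
      refine ⟨n, ?_⟩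
      apply padicValRat_eq_of_valuation_eq_one hq (hB q hq) hb0
      have h3 : (B q).valuation ((β₀ : Qb) * (q : Qb) ^ (-n)) = 1 := by
        apply le_antisymm (((B q).valuation_le_one_iff _).2 hn1)
        have h4 := ((B q).valuation_le_one_iff _).2 hn2
        rw [map_inv₀] at h4
        exact (inv_le_one₀ (by
          rw [zero_lt_iff, Ne, map_eq_zero]
          exact mul_ne_zero (Units.ne_zero _) (zpow_ne_zero _ (by exact_mod_cast hq.ne_zero)))).1 h4
      have h5 : (b : Qb) * (q : Qb) ^ (-((r : ℤ) * n)) = ((β₀ : Qb) * (q : Qb) ^ (-n)) ^ r := by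
        rw [hβr, mul_pow, ← zpow_natCast ((q : Qb) ^ (-n)), ← zpow_mul]
        ring_nf
      rw [h5, map_pow, h3, one_pow]
  obtain ⟨y, hy0, hy⟩ := exists_pow_eq_of_dvd_padicValRat hr.ne_zero hb0 hdvd
  have hyQ : (y : Qb) ≠ 0 := by exact_mod_cast hy0
  refine ⟨β₀ / Units.mk0 (y : Qb) hyQ, ?_, fun σ => ?_⟩
  · rcases hy with h | h
    · left
      apply Units.ext
      rw [div_pow]
      push_cast
      rw [← hβr, h]
      push_cast
      exact div_self (pow_ne_zero _ hyQ)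
    · right
      apply Units.ext
      rw [div_pow]
      push_cast
      rw [← hβr, h]
      push_cast
      rw [neg_div]
      congr 1
      exact div_self (pow_ne_zero _ hyQ)
  · have h1 : uact σ (Units.mk0 (y : Qb) hyQ) = Units.mk0 (y : Qb) hyQ := by
      apply Units.ext
      simp
    rw [map_div, hβ, h1, mul_div_assoc]

/-- the untwisted base case : Minkowski. -/
theorem triv_case {M : Type*} [AddCommGroup M] (c : GQ → M) (hc : ∀ σ τ, c (σ * τ) = c σ + c τ)
    (hL : ∃ U ∈ galLevels ℚ Qb, ∀ σ ∈ U, c σ = 0)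
    (B : ℕ → ValuationSubring Qb) (hB : ∀ q, q.Prime → (B q).LiesOverPrime q)
    (hI : ∀ q, q.Prime → ∀ σ ∈ (B q).inertiaSubgroupIn ℚ, c σ = 0) (σ : GQ) : c σ = 0 := by
  let f : GQ →* Multiplicative M :=
    { toFun := fun σ => Multiplicative.ofAdd (c σ)
      map_one' := by
        have h := hc 1 1
        rw [one_mul] at h
        rw [show c 1 = 0 by simpa using h]
        rfl
      map_mul' := fun σ τ => by rw [hc]; rfl }
  have h1 := eq_one_of_unramified f (by
    obtain ⟨U, hU, h⟩ := hL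
    obtain ⟨F, hF, hFU⟩ := mem_galLevels.1 hU
    refine ⟨F, hF, fun σ hσ => ?_⟩
    have : c σ = 0 := h σ (hFU ((IntermediateField.mem_fixingSubgroup_iff _ _).2 hσ))
    change Multiplicative.ofAdd (c σ) = 1
    rw [this]; rfl) (by
    intro q hq A' hA' τ hτ
    obtain ⟨g, rfl⟩ := exists_smul_eq hq (hB q hq) hA'
    rw [mem_inertiaSubgroupIn_smul_iff] at hτ
    have h2 : f (g⁻¹ * τ * g) = 1 := by
      change Multiplicative.ofAdd (c _) = 1
      rw [hI q hq _ hτ]; rfl
    rw [map_mul, map_mul, map_inv, mul_comm, ← mul_assoc, mul_inv_cancel, one_mul] at h2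
    exact h2) σ
  exact Multiplicative.ofAdd.injective h1

/-- if inertia at `r` fixes the `r`-th roots of unity then `r = 2`. -/
theorem eq_two_of_inertia_fixes {r : ℕ} (hr : r.Prime) {A : ValuationSubring Qb}
    (hA : A.LiesOverPrime r)
    (h : ∀ σ ∈ A.inertiaSubgroupIn ℚ, ∀ ζ : Qb, ζ ^ r = 1 → σ ζ = ζ) : r = 2 := by
  have hr0 : (r : Qb) ≠ 0 := by exact_mod_cast hr.ne_zero
  have : NeZero (r : Qb) := ⟨hr0⟩
  obtain ⟨ζ, hζ⟩ := HasEnoughRootsOfUnity.exists_primitiveRoot Qb r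
  have hfd : FiniteDimensional ℚ (IntermediateField.adjoin ℚ {ζ}) :=
    IntermediateField.adjoin.finiteDimensional (Algebra.IsIntegral.isIntegral ζ)
  have h1 : IntermediateField.adjoin ℚ {ζ} = ⊥ := by
    apply eq_bot_of_inertia_fixes _ hfd
    intro ℓ hℓ A' hA' σ hσ x hx
    have hσζ : ∀ ζ' : Qb, ζ' ^ r = 1 → σ ζ' = ζ' := by
      intro ζ' hζ'
      by_cases hℓr : ℓ = r
      · subst hℓr
        obtain ⟨g, rfl⟩ := exists_smul_eq hℓ hA hA'
        rw [mem_inertiaSubgroupIn_smul_iff] at hσ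
        have h2 := h _ hσ (g⁻¹ ζ') (by rw [← map_pow, hζ', map_one])
        have h3 := congrArg g h2
        rw [← AlgEquiv.mul_apply, ← AlgEquiv.mul_apply, ← AlgEquiv.mul_apply] at h3
        have h4 : g * (g⁻¹ * σ * g * g⁻¹) = σ := by group
        have h5 : g * (g⁻¹ * σ * g) * g⁻¹ = σ := by group
        rw [h5, mul_inv_cancel] at h3
        exact h3
      · exact inertia_apply_rootOfUnity hℓ hA'
          (fun hd => hℓr ((Nat.prime_dvd_prime_iff_eq hℓ hr).1 hd)) hσ hζ'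
    have h4 : IntermediateField.adjoin ℚ {ζ} ≤ IntermediateField.fixedField (Subgroup.zpowers σ) := by
      rw [IntermediateField.adjoin_simple_le_iff, IntermediateField.mem_fixedField_iff]
      intro τ hτ
      obtain ⟨n, rfl⟩ := Subgroup.mem_zpowers_iff.1 hτ
      have h6 : σ ∈ MulAction.stabilizer GQ ζ := hσζ ζ hζ.pow_eq_one
      exact (MulAction.stabilizer GQ ζ).zpow_mem h6 n
    have h5 := h4 hx
    rw [IntermediateField.mem_fixedField_iff] at h5
    exact h5 σ (Subgroup.mem_zpowers σ)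
  have h2 : ζ ∈ (⊥ : IntermediateField ℚ Qb) := h1 ▸ IntermediateField.mem_adjoin_simple_self ℚ ζ
  obtain ⟨a, ha⟩ := IntermediateField.mem_bot.1 h2
  have ha' : a ^ r = 1 := by
    have := hζ.pow_eq_one
    rw [← ha, ← map_pow] at this
    exact (algebraMap ℚ Qb).injective (by rw [this, map_one])
  have h3 : a = 1 ∨ a = -1 := by
    have h4 : |a| ^ r = 1 := by rw [← abs_pow, ha', abs_one]
    have h5 : |a| = 1 := (pow_eq_one_iff_of_nonneg (abs_nonneg a) hr.ne_zero).1 h4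
    exact eq_or_eq_neg_of_abs_eq h5
  have h4 : ζ ^ 2 = 1 := by
    rw [← ha, ← map_pow]
    rcases h3 with rfl | rfl <;> simp
  have h5 := hζ.dvd_of_pow_eq_one 2 h4
  exact (Nat.prime_dvd_prime_iff_eq hr Nat.prime_two).1 h5

end Fermat.Agent.Mazur
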