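import Mathlib

/-!
# Explicit bounds for `Δ` and `j` on the upper half plane
-/

set_option autoImplicit false

noncomputable section

open UpperHalfPlane hiding I
open Complex Function ModularForm EisensteinSeries Filter
open scoped Real Topology MatrixGroups ModularForm ArithmeticFunction.sigma

namespace Fermat.Agent.Mazur

/-- an infinite product close to one -/
lemma norm_tprod_sub_one_le {f : ℕ → ℂ} (hf : Summable fun n => ‖f n‖)
    (hm : Multipliable fun n => 1 + f n) :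
    ‖∏' n, (1 + f n) - 1‖ ≤ Real.exp (∑' n, ‖f n‖) - 1 := by
  have h1 : Tendsto (fun s : Finset ℕ => ‖∏ n ∈ s, (1 + f n) - 1‖) atTop
      (𝓝 ‖∏' n, (1 + f n) - 1‖) := (hm.hasProd.sub_const 1).norm
  refine le_of_tendsto h1 (Eventually.of_forall fun s => ?_)
  refine (s.norm_prod_one_add_sub_one_le f).trans ?_
  gcongr
  exact hf.sum_le_tsum s fun i _ => norm_nonneg _

lemma exp_five_le : (100 : ℝ) ≤ Real.exp 5 := by
  have h1 : (2.718 : ℝ) ≤ Real.exp 1 := by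
    have := Real.exp_one_gt_d9
    linarith
  have h2 : Real.exp 5 = Real.exp 1 ^ 5 := by
    rw [← Real.exp_nat_mul]
    norm_num
  rw [h2]
  calc (100 : ℝ) ≤ 2.718 ^ 5 := by norm_num
    _ ≤ Real.exp 1 ^ 5 := pow_le_pow_left₀ (by norm_num) h1 5

lemma norm_cexp_eq (z : ℍ) : ‖cexp (2 * π * I * z)‖ = Real.exp (-(2 * π * z.im)) := by
  rw [Complex.norm_exp]
  congr 1
  simp [mul_comm]

lemma six_mul_im {z : ℍ} (hz : 3 ≤ 4 * z.im ^ 2) : 5 ≤ 2 * π * z.im := by
  have h1 : (0.866 : ℝ) ≤ z.im := by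
    by_contra hlt
    push Not at hlt
    have h2 := z.im_pos
    nlinarith
  have h2 := Real.pi_gt_d2
  nlinarith

lemma exp_neg_le {z : ℍ} (hz : 3 ≤ 4 * z.im ^ 2) : Real.exp (-(2 * π * z.im)) ≤ 1 / 100 := by
  rw [Real.exp_neg, one_div]
  exact inv_anti₀ (by norm_num) (exp_five_le.trans (Real.exp_le_exp.2 (six_mul_im hz)))

/-- two-sided bound for `Δ` -/
theorem norm_discriminant_bounds {z : ℍ} (hz : 3 ≤ 4 * z.im ^ 2) :
    (1 / 2) * Real.exp (-(2 * π * z.im)) ≤ ‖discriminant z‖ ∧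
      ‖discriminant z‖ ≤ 2 * Real.exp (-(2 * π * z.im)) := by
  set q : ℂ := cexp (2 * π * I * z) with hq
  set r : ℝ := Real.exp (-(2 * π * z.im)) with hr
  have hqr : ‖q‖ = r := norm_cexp_eq z
  have hr0 : 0 < r := Real.exp_pos _
  have hr1 : r ≤ 1 / 100 := exp_neg_le hz
  have hprod : discriminant z = q * (∏' n : ℕ, (1 + (-q ^ (n + 1)))) ^ 24 := by
    rw [discriminant_eq_q_prod]
    have h1 : ∀ n : ℕ, (1 - eta_q n z) = 1 + (-q ^ (n + 1)) := fun n => by
      rw [eta_q_eq_pow, ← hq, sub_eq_add_neg]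
    have h2 : Periodic.qParam 1 (z : ℂ) = q := by
      rw [hq, Periodic.qParam]
      congr 1
      push_cast
      ring
    have hm := multipliableLocallyUniformlyOn_eta.multipliable z.2
    rw [h2, hm.tprod_pow]
    simp_rw [h1]
  have hm : Multipliable fun n : ℕ => 1 + (-q ^ (n + 1)) := by
    have := multipliable_one_sub_pow (q := q) (by rw [hqr]; linarith)
    simpa [sub_eq_add_neg] using this
  have hnorm : ∀ n : ℕ, ‖-q ^ (n + 1)‖ = r * r ^ n := fun n => by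
    rw [norm_neg, norm_pow, hqr, pow_succ']
  have hs : Summable fun n : ℕ => ‖-q ^ (n + 1)‖ := by
    simp_rw [hnorm]
    exact (summable_geometric_of_lt_one hr0.le (by linarith)).mul_left r
  have hsum : ∑' n : ℕ, ‖-q ^ (n + 1)‖ ≤ 1 / 99 := by
    simp_rw [hnorm]
    rw [tsum_mul_left, tsum_geometric_of_lt_one hr0.le (by linarith), ← div_eq_mul_inv,
      div_le_div_iff₀ (by linarith) (by norm_num)]
    linarith
  set P : ℂ := ∏' n : ℕ, (1 + (-q ^ (n + 1))) with hP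
  have hP1 : ‖P - 1‖ ≤ 1 / 98 := by
    refine (norm_tprod_sub_one_le hs hm).trans ?_
    have h1 : Real.exp (∑' n : ℕ, ‖-q ^ (n + 1)‖) ≤ Real.exp (1 / 99) := Real.exp_le_exp.2 hsum
    have h2 : Real.exp (1 / 99) ≤ 99 / 98 := by
      have h3 : (98 / 99 : ℝ) ≤ Real.exp (-(1 / 99)) := by
        have := Real.add_one_le_exp (-(1 / 99) : ℝ)
        linarith
      rw [Real.exp_neg] at h3
      have h4 := Real.exp_pos (1 / 99 : ℝ)
      rw [le_inv_comm₀ (by norm_num) h4] at h3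
      linarith
    linarith
  have hPu : ‖P‖ ≤ 99 / 98 := by
    have := norm_le_norm_sub_add P 1
    rw [norm_one] at this
    linarith
  have hPl : 97 / 98 ≤ ‖P‖ := by
    have := norm_sub_norm_le (1 : ℂ) P
    rw [norm_one, norm_sub_rev] at this
    linarith
  rw [hprod, norm_mul, norm_pow, hqr]
  constructor
  · have h1 : (1 / 2 : ℝ) ≤ ‖P‖ ^ 24 :=
      le_trans (by norm_num) (pow_le_pow_left₀ (by norm_num) hPl 24)
    nlinarith
  · have h1 : ‖P‖ ^ 24 ≤ 2 :=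
      (pow_le_pow_left₀ (norm_nonneg _) hPu 24).trans (by norm_num)
    nlinarith

/-- the function `|Δ| y⁶` is invariant -/
theorem norm_discriminant_smul (γ : SL(2, ℤ)) (τ : ℍ) :
    ‖discriminant (γ • τ)‖ * (γ • τ).im ^ 6 = ‖discriminant τ‖ * τ.im ^ 6 := by
  have h1 : discriminant (γ • τ) = denom γ τ ^ (12 : ℤ) * discriminant τ :=
    SlashInvariantForm.slash_action_eqn'' (Γ := 𝒮ℒ) CuspForm.discriminant
      (γ := (γ : GL (Fin 2) ℝ)) ⟨γ, rfl⟩ τ
  have hd : denom γ τ ≠ 0 := denom_ne_zero _ _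
  have h2 : (γ • τ).im = τ.im / ‖denom γ τ‖ ^ 2 := by
    rw [ModularGroup.im_smul_eq_div_normSq, Complex.normSq_eq_norm_sq]
  have hd' : ‖denom γ τ‖ ≠ 0 := norm_ne_zero_iff.2 hd
  rw [h1, h2, norm_mul, norm_zpow]
  have h3 : ‖denom γ τ‖ ^ (12 : ℤ) = ‖denom γ τ‖ ^ 12 := by norm_cast
  rw [h3]
  field_simp

/-- `|Δ| y⁶ ≤ 1` -/
theorem norm_discriminant_mul_le (τ : ℍ) : ‖discriminant τ‖ * τ.im ^ 6 ≤ 1 := by
  obtain ⟨γ, hγ⟩ := ModularGroup.exists_smul_mem_fd τ
  rw [← norm_discriminant_smul γ τ]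
  have hz := ModularGroup.three_le_four_mul_im_sq_of_mem_fd hγ
  set z := γ • τ with hz'
  have h1 := (norm_discriminant_bounds hz).2
  have hy := z.im_pos
  have h2 : (2 * π * z.im) ^ 6 / 720 ≤ Real.exp (2 * π * z.im) := by
    have := Real.pow_div_factorial_le_exp (2 * π * z.im) (by positivity) 6
    simpa [Nat.factorial] using this
  have h3 : 2 * z.im ^ 6 ≤ (2 * π * z.im) ^ 6 / 720 := by
    have hpi : (6 : ℝ) ≤ 2 * π := by
      have := Real.pi_gt_three
      linarith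
    rw [mul_pow]
    have h4 : (6 : ℝ) ^ 6 ≤ (2 * π) ^ 6 := pow_le_pow_left₀ (by norm_num) hpi 6
    have h5 : 0 < z.im ^ 6 := by positivity
    rw [le_div_iff₀ (by norm_num)]
    nlinarith
  have h4 : Real.exp (-(2 * π * z.im)) * Real.exp (2 * π * z.im) = 1 := by
    rw [← Real.exp_add, neg_add_cancel, Real.exp_zero]
  have h5 := Real.exp_pos (-(2 * π * z.im))
  calc ‖discriminant z‖ * z.im ^ 6 ≤ (2 * Real.exp (-(2 * π * z.im))) * z.im ^ 6 := by gcongr
    _ = Real.exp (-(2 * π * z.im)) * (2 * z.im ^ 6) := by ring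
    _ ≤ Real.exp (-(2 * π * z.im)) * Real.exp (2 * π * z.im) := by
        gcongr
        exact h3.trans h2
    _ = 1 := h4

lemma n4_le (n : ℕ) : ((n : ℝ) + 1) ^ 4 ≤ 16 ^ n := by
  have h : (n + 1) ^ 4 ≤ 16 ^ n := by
    have h1 : n + 1 ≤ 2 ^ n := Nat.lt_two_pow_self
    calc (n + 1) ^ 4 ≤ (2 ^ n) ^ 4 := Nat.pow_le_pow_left h1 4
      _ = 16 ^ n := by rw [← pow_mul, mul_comm, pow_mul]; norm_num
  exact_mod_cast h

/-- `E₄` is close to `1` near the cusp -/
theorem norm_E4_sub_one_le {z : ℍ} (hr : Real.exp (-(2 * π * z.im)) ≤ 1 / 1000) :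
    ‖E₄ z - 1‖ ≤ 1 / 4 := by
  set q : ℂ := cexp (2 * π * I * z) with hq
  set r : ℝ := Real.exp (-(2 * π * z.im)) with hr'
  have hqr : ‖q‖ = r := norm_cexp_eq z
  have hr0 : 0 < r := Real.exp_pos _
  have h0 : E₄ z = 1 - (2 * (4 : ℕ) / bernoulli 4) *
      ∑' n : ℕ+, (σ (4 - 1) n : ℂ) * cexp (2 * π * I * z) ^ (n : ℤ) :=
    EisensteinSeries.q_expansion_bernoulli (k := 4) (by norm_num) (by decide) z
  have hb : (bernoulli 4 : ℚ) = -1 / 30 := by
    rw [bernoulli_eq_bernoulli'_of_ne_one (by norm_num), bernoulli'_four]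
  rw [h0, hb, sub_sub_cancel_left, norm_neg, norm_mul]
  have h1 : ‖(2 * (4 : ℕ) / ((-1 / 30 : ℚ) : ℂ) : ℂ)‖ = 240 := by
    push_cast
    rw [norm_div, norm_div]
    norm_num
  rw [h1, ← hq]
  have hsum : Summable fun n : ℕ => r * (16 * r) ^ n :=
    (summable_geometric_of_lt_one (by positivity) (by linarith)).mul_left r
  have hsum' : ∑' n : ℕ, r * (16 * r) ^ n ≤ 1 / 984 := by
    rw [tsum_mul_left, tsum_geometric_of_lt_one (by positivity) (by linarith), ← div_eq_mul_inv,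
      div_le_div_iff₀ (by linarith) (by norm_num)]
    linarith
  have h2 : ‖∑' n : ℕ+, (σ (4 - 1) n : ℂ) * q ^ (n : ℤ)‖ ≤ 1 / 984 := by
    rw [tsum_pnat_eq_tsum_succ (f := fun n : ℕ => (σ (4 - 1) n : ℂ) * q ^ (n : ℤ))]
    refine (tsum_of_norm_bounded hsum.hasSum fun n => ?_).trans hsum'
    rw [norm_mul, Complex.norm_natCast, norm_zpow, zpow_natCast, hqr]
    have h3 : ((σ (4 - 1) (n + 1) : ℕ) : ℝ) ≤ 16 ^ n := by
      have h4 := ArithmeticFunction.sigma_le_pow_succ (4 - 1) (n + 1)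
      have h5 : ((σ (4 - 1) (n + 1) : ℕ) : ℝ) ≤ (((n + 1) ^ (4 - 1 + 1) : ℕ) : ℝ) := by
        exact_mod_cast h4
      refine h5.trans ?_
      push_cast
      exact n4_le n
    calc ((σ (4 - 1) (n + 1) : ℕ) : ℝ) * r ^ (n + 1) ≤ 16 ^ n * r ^ (n + 1) := by gcongr
      _ = r * (16 * r) ^ n := by rw [mul_pow]; ring
  linarith

/-- the size of `1/q` in terms of `j` -/
theorem exp_le_norm_j {z : ℍ} (hz : 3 ≤ 4 * z.im ^ 2) :
    Real.exp (2 * π * z.im) ≤ 8 * ‖E₄ z ^ 3 / discriminant z‖ + 1000 := by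
  have hinv : Real.exp (2 * π * z.im) = (Real.exp (-(2 * π * z.im)))⁻¹ := by
    rw [Real.exp_neg, inv_inv]
  set r : ℝ := Real.exp (-(2 * π * z.im)) with hr'
  have hr0 : 0 < r := Real.exp_pos _
  rw [hinv]
  by_cases hr : r ≤ 1 / 1000
  · have h1 := norm_E4_sub_one_le hr
    have h2 : 3 / 4 ≤ ‖E₄ z‖ := by
      have := norm_sub_norm_le (1 : ℂ) (E₄ z)
      rw [norm_one, norm_sub_rev] at this
      linarith
    have h3 : (1 / 4 : ℝ) ≤ ‖E₄ z‖ ^ 3 :=
      le_trans (by norm_num) (pow_le_pow_left₀ (by norm_num) h2 3)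
    have h4 := (norm_discriminant_bounds hz).2
    have h5 : 0 < ‖discriminant z‖ := norm_pos_iff.2 (discriminant_ne_zero z)
    rw [norm_div, norm_pow]
    have h6 : (1 / 4) / (2 * r) ≤ ‖E₄ z‖ ^ 3 / ‖discriminant z‖ := by
      gcongr
    have h7 : r⁻¹ = 8 * ((1 / 4) / (2 * r)) := by
      field_simp
      norm_num
    rw [h7]
    linarith
  · push Not at hr
    have h1 : r⁻¹ ≤ 1000 := by
      rw [inv_le_comm₀ hr0 (by norm_num)]
      linarith
    have h2 := norm_nonneg (E₄ z ^ 3 / discriminant z)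
    linarith

end Fermat.Agent.Mazur
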