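import Fermat.Agent.Mazur.Inst

/-!
# Mazur's theorem on the reductions of rational points of `X_0(p)`
-/

set_option autoImplicit false
set_option linter.unusedSectionVars false
set_option linter.style.haveILetI false

noncomputable section

open scoped Pointwise
open ModularCurve AlgebraicCurve Fermat.Agent.Frob Fermat.Agent.CFT Fermat.Agent.Red

namespace Fermat.Agent.Mazur

local notation "Qb" => AlgebraicClosure ℚ
local notation "GQ" => AlgebraicClosure ℚ ≃ₐ[ℚ] AlgebraicClosure ℚ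

section Forms

variable (p : ℕ) [hp : Fact p.Prime]

/-- the connected part of the torsion at a place above `r` has multiplicative type: on the
elements of `r`-power torsion reducing to zero and on which `T_r` is invertible, inertia acts
through the cyclotomic character -/
def CycForm (r : Nat.Primes) (A : ValuationSubring Qb) {J : Type} [AddCommGroup J]
    (red : JZero p →+ J) : Prop :=
  ∀ (k : ℕ) (x : JZero p), red x = 0 → ((r : ℕ) ^ k) • x = 0 →
    (∃ M : ℕ, 0 < M ∧ (heckeOperatorBar p r)^[M] x = x) →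
    ∀ σ ∈ A.inertiaSubgroupIn ℚ, ∀ a : ℕ, (∀ ζ : Qb, ζ ^ ((r : ℕ) ^ k) = 1 → σ ζ = ζ ^ a) →
      σ • x = a • x

lemma exists_iterate_eq {α : Type*} (T : α → α) (H : Set α) (hfin : H.Finite)
    (hm : Set.MapsTo T H H) (hinj : Set.InjOn T H) {x : α} (hx : x ∈ H) :
    ∃ M : ℕ, 0 < M ∧ T^[M] x = x := by
  have : Finite H := hfin
  have h1 : Function.Injective (hm.restrict T H H) := hm.restrict_inj.2 hinj
  obtain ⟨M, hM, h2⟩ := h1.mem_periodicPts ⟨x, hx⟩
  refine ⟨M, hM, ?_⟩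
  have h3 := congrArg Subtype.val h2
  rw [hm.iterate_restrict] at h3
  exact h3

/-- inertia at `p` acts unipotently of level two -/
def UniForm (r : ℕ) : Prop :=
  ∀ A : ValuationSubring Qb, A.LiesOverPrime p → ∀ σ ∈ A.inertiaSubgroupIn ℚ,
    ∀ τ ∈ A.inertiaSubgroupIn ℚ, ∀ x : JZero p, (∃ n : ℕ, (r ^ n) • x = 0) →
      σ • (τ • x - x) = τ • x - x

/-- the two local inputs on `J₀(p)` -/
structure GeoInputs : Prop where
  cyc : ∀ r : Nat.Primes, (r : ℕ) ≠ p → ∀ A : ValuationSubring Qb, A.LiesOverPrime r →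
    ∃ (J : Type) (_ : AddCommGroup J) (red : JZero p →+ J), IsReduction p r A red ∧
      CycForm p r A red
  uni : ∀ r : ℕ, r.Prime → r ≠ p → UniForm p r

variable {p}

/-- **The input of the Eisenstein descent for `J₀(p)`.** -/
theorem eisInput {r : ℕ} (hr : r.Prime) (hrp : r ≠ p) {A : ValuationSubring Qb}
    (hA : A.LiesOverPrime r) {J : Type} [AddCommGroup J] {red : JZero p →+ J}
    (hred : IsReduction p ⟨r, hr⟩ A red) (hcyc : CycForm p ⟨r, hr⟩ A red) (huni : UniForm p r)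
    {B : ℕ → ValuationSubring Qb} (hB : ∀ q, q.Prime → (B q).LiesOverPrime q) :
    letI := hMod p
    ∃ M M1 M2 : ℕ, M ≠ 0 ∧ M1 ≠ 0 ∧ M2 ≠ 0 ∧
      EisInput r p (JZero p) (HR p) (eisIdeal p r) A B red.ker M M1 M2 := by
  letI := hMod p
  have hsm : ∀ (t : HR p) (x : JZero p), t • x = evJ p t x := fun t x => rfl
  obtain ⟨w1, w2, M1, M2, hM1, hM2, hw⟩ := exists_w p r hr hrp
  obtain ⟨φ, hφ⟩ := exists_isFrobeniusAt A hr hA
  obtain ⟨ℓ, hℓ1, hℓ⟩ := Nat.exists_infinite_primes (max r p + 1)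
  have hℓr : ℓ ≠ r := by
    have := le_max_left r p
    omega
  have hℓp : ℓ ≠ p := by
    have := le_max_right r p
    omega
  obtain ⟨_, w, _, M, _, hM, hwl⟩ := exists_w p ℓ hℓ hℓp
  obtain ⟨g, hg⟩ := exists_isFrobeniusAt (B ℓ) hℓ (hB ℓ hℓ)
  have hstab : ∀ (t : HR p), ∀ x ∈ red.ker, t • x ∈ red.ker := by
    intro t x hx
    rw [hsm]
    exact evJ_mem p red.ker (fun q y hy => hred.hecke q y hy) t x hx
  have hrmem : (r : HR p) ∈ eisIdeal p r := by
    rw [mem_eisIdeal, map_natCast]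
  refine ⟨M, M1, M2, hM, hM1, hM2, ?_⟩
  refine
    { comm := fun t σ x => ?_
      level := exists_level_jzero p
      finTor := fun n hn => finite_tor_jzero p hn
      div := fun n hn x => div_jzero p hn x
      rmem := hrmem
      unr := fun q hq hqr hqp σ hσ x hx => ?_
      uni := fun σ hσ τ hτ x hx => huni (B p) (hB p hp.out) σ hσ τ hτ x hx
      quad := fun k hk g a ha => ?_
      kerA := fun σ hσ x => ?_
      decA := fun σ hσ x hx => hred.decomposition σ hσ x hx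
      stab := hstab
      cyc := fun σ hσ k a ha x hx hxV => ?_
      frobr := ?_
      frobl := ?_ }
  · rw [hsm, hsm, evJ_smul]
  · obtain ⟨J', _, red', h'⟩ := exists_isReduction p ⟨q, hq⟩ hqp (B q) (hB q hq)
    obtain ⟨n, hn⟩ := hx
    rw [← sub_eq_zero]
    refine h'.injective (r ^ n) (fun h => hqr ?_) _ hn ?_
    · exact (Nat.prime_dvd_prime_iff_eq hq hr).1 (hq.dvd_of_dvd_pow h)
    · rw [map_sub, h'.inertia σ hσ x, sub_self]
  · obtain ⟨t, ht, h⟩ := exists_quad p hr hk g ha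
    exact ⟨t, ht, fun x hx => h x hx⟩
  · rw [AddMonoidHom.mem_ker, map_sub, hred.inertia σ hσ x, sub_self]
  · set H : AddSubgroup (JZero p) :=
      red.ker ⊓ (VK (JZero p) (eisIdeal p r) (r ^ k)).toAddSubgroup with hH
    have hmemH : ∀ y, y ∈ H ↔ y ∈ red.ker ∧ y ∈ VK (JZero p) (eisIdeal p r) (r ^ k) :=
      fun y => Iff.rfl
    have hT : ∀ y : JZero p, heckeOperatorBar p ⟨r, hr⟩ y = gen p r hr hrp • y := by
      intro y
      rw [hsm, evJ_gen]
    have hfin : (H : Set (JZero p)).Finite := by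
      have h1 := finite_tor_jzero p (pow_ne_zero k hr.ne_zero)
      exact Set.Finite.subset (s := (tor (JZero p) (r ^ k) : Set (JZero p))) h1
        (fun y hy => mem_tor.2 hy.2.1)
    refine hcyc k x hx hxV.1 (exists_iterate_eq _ (H : Set (JZero p)) hfin (fun y hy => ?_) ?_
      ((hmemH x).2 ⟨hx, hxV⟩)) σ hσ a ha
    · rw [hT]
      exact (hmemH _).2 ⟨hstab _ _ hy.1, (VK (JZero p) (eisIdeal p r) (r ^ k)).smul_mem _ hy.2⟩
    · suffices h : ∀ y ∈ H, heckeOperatorBar p ⟨r, hr⟩ y = 0 → y = 0 by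
        intro y hy z hz hyz
        rw [← sub_eq_zero]
        exact h _ (H.sub_mem hy hz) (by rw [map_sub, hyz, sub_self])
      intro y hy h0
      rw [hT] at h0
      obtain ⟨-, j, hj⟩ := hy.2
      set s : HR p := 1 - gen p r hr hrp with hs
      have hsmem : s ∈ eisIdeal p r := by
        rw [mem_eisIdeal, hs, map_sub, map_one, eisZ_gen]
        exact ⟨-1, by ring⟩
      have h1 : y = s • y := by rw [hs, sub_smul, one_smul, h0, sub_zero]
      have h2 : ∀ i : ℕ, y = (s ^ i) • y := by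
        intro i
        induction i with
        | zero => rw [pow_zero, one_smul]
        | succ i ih => rw [pow_succ, mul_smul, ← h1]; exact ih
      rw [h2 j]
      exact hj _ (Ideal.pow_mem_pow hsmem j)
  · refine ⟨φ, ((isFrobeniusAt_iff A φ r).1 hφ).1, gen p r hr hrp, w1, w2, fun x => ?_, ?_, ?_⟩
    · rw [AddMonoidHom.mem_ker, hsm, evJ_gen]
      exact hred.frobenius φ hφ x
    · rintro x ⟨n, hn⟩
      exact (hw (r ^ n) (pow_ne_zero n hr.ne_zero) x hn).1
    · rintro x ⟨n, hn⟩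
      exact (hw (r ^ n) (pow_ne_zero n hr.ne_zero) x hn).2
  · refine ⟨ℓ, (Nat.coprime_primes hℓ hr).2 hℓr, gen p ℓ hℓ hℓp, w, ?_, g, fun k => ⟨?_, ?_⟩⟩
    · rintro x ⟨n, hn⟩
      exact (hwl (r ^ n) (pow_ne_zero n hr.ne_zero) x hn).2
    · intro ζ hζ
      exact RepTwo.frobenius_apply_root hℓ hr hℓr (hB ℓ hℓ) hg hζ
    · intro x hx
      have h1 := (QComp.jZeroES p r).frob ℓ hℓ (by
        intro h
        rcases hℓ.dvd_mul.1 h with h | h
        · exact hℓp ((Nat.prime_dvd_prime_iff_eq hℓ hp.out).1 h)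
        · exact hℓr ((Nat.prime_dvd_prime_iff_eq hℓ hr).1 h)) (B ℓ) (hB ℓ hℓ) g hg x ⟨k, hx⟩
      rw [hsm, evJ_gen]
      exact h1

/-- the class `(P) - (∞)` -/
def ptDiv (P : Place Qb (JZ.FN Qb p)) : Divisor.degZero (K := Qb) (F := JZ.FN Qb p) :=
  ⟨Finsupp.single P 1 - Finsupp.single (Cusp.cuspInf p) 1, by
    rw [Divisor.mem_degZero, map_sub, Divisor.degree_single, Divisor.degree_single,
      FF.deg_eq_one, FF.deg_eq_one, sub_self]⟩

/-- the class `(P) - (0)` -/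
def ptDiv0 (P : Place Qb (JZ.FN Qb p)) : Divisor.degZero (K := Qb) (F := JZ.FN Qb p) :=
  ⟨Finsupp.single P 1 - Finsupp.single (Cusp.cuspZero p) 1, by
    rw [Divisor.mem_degZero, map_sub, Divisor.degree_single, Divisor.degree_single,
      FF.deg_eq_one, FF.deg_eq_one, sub_self]⟩

/-- the class `(P) - (∞)` in `J₀(p)` -/
def ptClass (P : Place Qb (JZ.FN Qb p)) : JZero p := Pic0.mk (ptDiv P)

lemma ptClass_sub (P : Place Qb (JZ.FN Qb p)) :
    ptClass P - Cusp.cuspClass p = Pic0.mk (ptDiv0 P) := by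
  have h : ptDiv P - Cusp.cuspDiv₀ p = ptDiv0 P := by
    apply Subtype.ext
    change (Finsupp.single P 1 - Finsupp.single (Cusp.cuspInf p) 1 : Divisor Qb (JZ.FN Qb p)) -
      (Finsupp.single (Cusp.cuspZero p) 1 - Finsupp.single (Cusp.cuspInf p) 1) =
      Finsupp.single P 1 - Finsupp.single (Cusp.cuspZero p) 1
    abel
  rw [← h]
  rfl

lemma smul_ptClass {P : Place Qb (JZ.FN Qb p)}
    (hP : ∀ σ : GQ, arithmeticGalois (modularFunctionFieldFull p) σ • P = P) (σ : GQ) :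
    σ • ptClass P = ptClass P := by
  rw [galois_smul_pic0_def, ptClass, SemilinearAut.pic0_smul_mk]
  refine congrArg Pic0.mk (Subtype.ext ?_)
  change arithmeticGalois (modularFunctionFieldFull p) σ •
    (Finsupp.single P 1 - Finsupp.single (Cusp.cuspInf p) 1 : Divisor Qb (JZ.FN Qb p)) =
    (Finsupp.single P 1 - Finsupp.single (Cusp.cuspInf p) 1 : Divisor Qb (JZ.FN Qb p))
  rw [smul_sub, SemilinearAut.smul_single, SemilinearAut.smul_single,
    Cusp.galois_smul_cuspInf, hP]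

lemma one_lt_eisensteinNumerator (hp' : p ∉ ({2, 3, 5, 7, 13} : Finset ℕ)) :
    eisensteinNumerator p ≠ 1 := by
  intro h
  rw [eisensteinNumerator] at h
  have h1 : (p - 1) / Nat.gcd (p - 1) 12 * Nat.gcd (p - 1) 12 = p - 1 :=
    Nat.div_mul_cancel (Nat.gcd_dvd_left _ _)
  rw [h, one_mul] at h1
  have h2 : p - 1 ∣ 12 := by
    rw [← h1]
    exact Nat.gcd_dvd_right _ _
  have h3 : p - 1 ≤ 12 := Nat.le_of_dvd (by norm_num) h2
  have h4 := hp.out
  have h5 : p ≤ 13 := by omega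
  interval_cases p <;> revert h2 h4 hp' <;> decide

/-- **Mazur's key step** on a rational point with cuspidal reductions. -/
theorem ct (hG : GeoInputs p) (hp' : p ∉ ({2, 3, 5, 7, 13} : Finset ℕ))
    (P : Place Qb (JZ.FN Qb p))
    (hP : ∀ σ : GQ, arithmeticGalois (modularFunctionFieldFull p) σ • P = P)
    {a b : Qb} (ha : HasVal P (Cusp.jE Qb p) a) (hb : HasVal P (Cusp.jEN Qb p) b)
    (h2 : ∀ A : ValuationSubring Qb, A.LiesOverPrime 2 → a ∉ A ∧ b * a⁻¹ ∈ A)
    (h3 : ∀ A : ValuationSubring Qb, A.LiesOverPrime 3 → a ∉ A ∧ b * a⁻¹ ∈ A)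
    {ℓ : ℕ} (hℓ : ℓ.Prime) (hℓp : ℓ ≠ p) {A : ValuationSubring Qb} (hA : A.LiesOverPrime ℓ)
    (haA : a ∉ A) (hbA : b * a⁻¹ ∉ A) : False := by
  have hℓ2 : ℓ ≠ 2 := by
    rintro rfl
    exact hbA (h2 A hA).2
  obtain ⟨r, hr, hrn⟩ := Nat.exists_prime_and_dvd (one_lt_eisensteinNumerator hp')
  have hrp : r ≠ p := by
    have h1 := Nat.le_of_dvd (by have := hp.out.two_le; omega)
      (hrn.trans (eisensteinNumerator_dvd p))
    have := hp.out.two_le
    omega
  -- the prime `s`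
  obtain ⟨s, hs, hsr, hsp, hsA⟩ : ∃ s : ℕ, s.Prime ∧ s ≠ r ∧ s ≠ p ∧
      ∀ A : ValuationSubring Qb, A.LiesOverPrime s → a ∉ A ∧ b * a⁻¹ ∈ A := by
    have hp2 : p ≠ 2 := by rintro rfl; exact hp' (by decide)
    have hp3 : p ≠ 3 := by rintro rfl; exact hp' (by decide)
    by_cases h : r = 3
    · exact ⟨2, Nat.prime_two, by omega, hp2.symm, h2⟩
    · exact ⟨3, Nat.prime_three, fun h' => h h'.symm, hp3.symm, h3⟩
  obtain ⟨As, hAs⟩ := Frob.exists_liesOverPrime Qb hs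
  obtain ⟨Js, _, sps, hsps⟩ := exists_isReduction p ⟨s, hs⟩ hsp As hAs
  choose! B hB using fun (q : ℕ) (hq : q.Prime) => Frob.exists_liesOverPrime Qb hq
  letI := hMod p
  have hsm : ∀ (t : HR p) (x : JZero p), t • x = evJ p t x := fun t x => rfl
  have hR : ∀ {q : Nat.Primes} {A' : ValuationSubring Qb} {J : Type} [AddCommGroup J]
      {red : JZero p →+ J}, IsReduction p q A' red → ∀ (t : HR p) (x : JZero p), red x = 0 →
        red (t • x) = 0 := by
    intro q A' J _ red hred t x hx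
    rw [hsm]
    exact evJ_mem p red.ker (fun q y hy => hred.hecke q y hy) t x hx
  -- the core
  have core : ∀ (Ar : ValuationSubring Qb) (_ : Ar.LiesOverPrime r) (Jr : Type)
      (_ : AddCommGroup Jr) (redr : JZero p →+ Jr) (_ : IsReduction p ⟨r, hr⟩ Ar redr)
      (_ : CycForm p ⟨r, hr⟩ Ar redr) (Jl : Type) (_ : AddCommGroup Jl) (spl : JZero p →+ Jl)
      (_ : IsReduction p ⟨ℓ, hℓ⟩ A spl)
      (_ : (∀ x : JZero p, (∃ n : ℕ, (r ^ n) • x = 0) → spl x = 0 → x = 0) ∨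
        (r ≠ 2 ∧ ∀ x : JZero p, spl x = 0 → x ∈ redr.ker)), False := by
    intro Ar hAr Jr _ redr hredr hcycr Jl _ spl hspl hl
    obtain ⟨M, M1, M2, hM, hM1, hM2, I⟩ := eisInput hr hrp hAr hredr hcycr (hG.uni r hr hrp) hB
    refine I.contradiction hr hp.out hrp.symm hAr hB hM hM1 hM2 spl sps hspl.finite hsps.finite
      (fun t x hx => hR hspl t x hx) (fun t x hx => hR hsps t x hx) ?_ hl
      (c := Cusp.cuspClass p) (Cusp.addOrderOf_pos p).ne' (Cusp.prime_dvd_addOrderOf p hrn)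
      (fun t => ⟨eisZ p t, ?_⟩) ?_ (y := ptClass P) (smul_ptClass hP) ?_ ?_
    · rintro x ⟨n, hn⟩ hx
      refine hsps.injective (r ^ n) (fun h => hsr ?_) x hn hx
      exact (Nat.prime_dvd_prime_iff_eq hs hr).1 (hs.dvd_of_dvd_pow h)
    · rw [hsm, evJ_cuspClass]
    · intro t ht
      obtain ⟨m, hm⟩ := (mem_eisIdeal p).1 ht
      exact ⟨m, by rw [hsm, evJ_cuspClass, hm]⟩
    · exact hspl.cuspInf P a b ha hb haA hbA (ptDiv P) rfl
    · have h1 : sps (ptClass P - Cusp.cuspClass p) = 0 := by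
        rw [ptClass_sub]
        exact hsps.cuspZero P a b ha hb (hsA As hAs).1 (hsA As hAs).2 (ptDiv0 P) rfl
      rwa [map_sub, sub_eq_zero] at h1
  by_cases hℓr : ℓ = r
  · subst hℓr
    obtain ⟨Jr, _, redr, hredr, hcycr⟩ := hG.cyc ⟨ℓ, hr⟩ hrp A hA
    exact core A hA Jr _ redr hredr hcycr Jr _ redr hredr (Or.inr ⟨hℓ2, fun x hx => hx⟩)
  · obtain ⟨Ar, hAr⟩ := Frob.exists_liesOverPrime Qb hr
    obtain ⟨Jr, _, redr, hredr, hcycr⟩ := hG.cyc ⟨r, hr⟩ hrp Ar hAr
    obtain ⟨Jl, _, spl, hspl⟩ := exists_isReduction p ⟨ℓ, hℓ⟩ hℓp A hA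
    refine core Ar hAr Jr _ redr hredr hcycr Jl _ spl hspl (Or.inl ?_)
    rintro x ⟨n, hn⟩ hx
    refine hspl.injective (r ^ n) (fun h => hℓr ?_) x hn hx
    exact (Nat.prime_dvd_prime_iff_eq hℓ hr).1 (hℓ.dvd_of_dvd_pow h)

section Fricke

lemma place_ext {P Q : Place Qb (JZ.FN Qb p)} (h : ∀ f, P.ord f = Q.ord f) : P = Q := by
  apply Place.ext
  ext f
  constructor
  · intro hf
    exact FF.mem_of_ord_nonneg Q (by rw [← h]; exact FF.ord_nonneg_of_mem P hf)
  · intro hf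
    exact FF.mem_of_ord_nonneg P (by rw [h]; exact FF.ord_nonneg_of_mem Q hf)

lemma ord_fricke_smul (P : Place Qb (JZ.FN Qb p)) (x : JZ.FN Qb p) :
    (Cusp.fricke p • P).ord x = P.ord (Cusp.fricke p x) := by
  have h := Place.ord_smul (Cusp.fricke p) P (Cusp.fricke p x)
  rwa [Cusp.fricke_fricke] at h

lemma ord_gal_smul (σ : GQ) (P : Place Qb (JZ.FN Qb p)) (x : JZ.FN Qb p) :
    (arithmeticGalois (modularFunctionFieldFull p) σ • P).ord x =
      P.ord (arithmeticGalois (modularFunctionFieldFull p) σ⁻¹ • x) := by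
  have h1 : arithmeticGalois (modularFunctionFieldFull p) σ •
      (arithmeticGalois (modularFunctionFieldFull p) σ⁻¹ • x) = x := by
    rw [map_inv]
    exact smul_inv_smul _ x
  have h := SemilinearAut.ord_smul (arithmeticGalois (modularFunctionFieldFull p) σ) P
    (arithmeticGalois (modularFunctionFieldFull p) σ⁻¹ • x)
  rw [h1] at h
  exact h

lemma fricke_smul_fixed {P : Place Qb (JZ.FN Qb p)}
    (hP : ∀ σ : GQ, arithmeticGalois (modularFunctionFieldFull p) σ • P = P) (σ : GQ) :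
    arithmeticGalois (modularFunctionFieldFull p) σ • (Cusp.fricke p • P) =
      Cusp.fricke p • P := by
  apply place_ext
  intro f
  rw [ord_gal_smul, ord_fricke_smul, ord_fricke_smul, ← Cusp.smul_fricke, ← ord_gal_smul, hP]

lemma hasVal_fricke_smul {P : Place Qb (JZ.FN Qb p)} {f : JZ.FN Qb p} {c : Qb}
    (h : HasVal P f c) : HasVal (Cusp.fricke p • P) (Cusp.fricke p f) c := by
  rw [hasVal_iff] at h ⊢
  rw [ord_fricke_smul, map_sub, Cusp.fricke_fricke, AlgEquiv.commutes]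
  rcases h with h | h
  · left
    rw [sub_eq_zero] at h ⊢
    rw [h, AlgEquiv.commutes]
  · exact Or.inr h

/-- the same result with the cusps exchanged -/
theorem ct' (hG : GeoInputs p) (hp' : p ∉ ({2, 3, 5, 7, 13} : Finset ℕ))
    (P : Place Qb (JZ.FN Qb p))
    (hP : ∀ σ : GQ, arithmeticGalois (modularFunctionFieldFull p) σ • P = P)
    {a b : Qb} (ha : HasVal P (Cusp.jE Qb p) a) (hb : HasVal P (Cusp.jEN Qb p) b)
    (h2 : ∀ A : ValuationSubring Qb, A.LiesOverPrime 2 → b ∉ A ∧ a * b⁻¹ ∈ A)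
    (h3 : ∀ A : ValuationSubring Qb, A.LiesOverPrime 3 → b ∉ A ∧ a * b⁻¹ ∈ A)
    {ℓ : ℕ} (hℓ : ℓ.Prime) (hℓp : ℓ ≠ p) {A : ValuationSubring Qb} (hA : A.LiesOverPrime ℓ)
    (haA : b ∉ A) (hbA : a * b⁻¹ ∉ A) : False := by
  refine ct hG hp' (Cusp.fricke p • P) (fricke_smul_fixed hP) (a := b) (b := a) ?_ ?_ h2 h3 hℓ hℓp
    hA haA hbA
  · rw [← Cusp.fricke_jN]
    exact hasVal_fricke_smul hb
  · rw [← Cusp.fricke_j]
    exact hasVal_fricke_smul ha

end Fricke

end Forms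

end Fermat.Agent.Mazur
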