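import Fermat.Agent.Mazur.ValR2

/-!
# Counting
-/

set_option autoImplicit false

open scoped Pointwise
open Fermat.Agent.Frob Fermat.Agent.CFT

namespace Fermat.Agent.Mazur

local notation "Qb" => AlgebraicClosure ℚ
local notation "GQ" => AlgebraicClosure ℚ ≃ₐ[ℚ] AlgebraicClosure ℚ

section Gen

variable {V : Type} [AddCommGroup V] [Finite V]

/-- torsion -/
def tor (V : Type) [AddCommGroup V] (n : ℕ) : AddSubgroup V := (nsmulAddMonoidHom (α := V) n).ker

omit [Finite V] in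
lemma mem_tor {n : ℕ} {v : V} : v ∈ tor V n ↔ n • v = 0 := Iff.rfl

omit [Finite V] in
lemma card_eq_ker_mul_range {W : Type} [AddCommGroup W] (f : V →+ W) :
    Nat.card V = Nat.card f.ker * Nat.card f.range := by
  rw [mul_comm, f.ker.card_eq_card_quotient_mul_card_addSubgroup,
    Nat.card_congr (QuotientAddGroup.quotientKerEquivRange f).toEquiv]

lemma card_quotient_range (f : V →+ V) : Nat.card (V ⧸ f.range) = Nat.card f.ker := by
  have h1 := card_eq_ker_mul_range f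
  have h2 := f.range.card_eq_card_quotient_mul_card_addSubgroup
  have h3 : 0 < Nat.card f.range := Nat.card_pos
  rw [h1] at h2
  exact (Nat.eq_of_mul_eq_mul_right h3 h2).symm

lemma card_tor_char (n : ℕ) : Nat.card (tor (V →+ Additive Qbˣ) n) = Nat.card (tor V n) := by
  have h1 : Nat.card (tor (V →+ Additive Qbˣ) n) =
      Nat.card (ann (nsmulAddMonoidHom (α := V) n).range) := by
    apply Nat.card_congr
    refine Equiv.subtypeEquivRight fun l => ?_
    rw [mem_tor, mem_ann]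
    constructor
    · rintro h _ ⟨v, rfl⟩
      have h2 := DFunLike.congr_fun h v
      change l (n • v) = 0
      rw [map_nsmul]
      exact h2
    · intro h
      apply AddMonoidHom.ext
      intro v
      have h2 := h (n • v) ⟨v, rfl⟩
      rw [map_nsmul] at h2
      exact h2
  rw [h1, card_ann, card_quotient_range]
  rfl

/-- groups killed by `r ^ k` have `r`-power order -/
lemma exists_card_eq_pow {r k : ℕ} (hr : r.Prime) (h : ∀ v : V, (r ^ k) • v = 0) :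
    ∃ n, Nat.card V = r ^ n := by
  have : Fact r.Prime := ⟨hr⟩
  have hP : IsPGroup r (Multiplicative V) := by
    intro g
    exact ⟨k, Multiplicative.toAdd.injective (h g.toAdd)⟩
  obtain ⟨n, hn⟩ := (IsPGroup.iff_card).1 hP
  exact ⟨n, hn⟩

/-- coprime annihilators -/
lemma eq_zero_of_coprime_nsmul {X : Type*} [AddGroup X] {x : X} {a m : ℕ} (h : a.Coprime m)
    (ha : a • x = 0) (hm : m • x = 0) : x = 0 := by
  have h2 : addOrderOf x ∣ Nat.gcd a m :=
    Nat.dvd_gcd (addOrderOf_dvd_of_nsmul_eq_zero ha) (addOrderOf_dvd_of_nsmul_eq_zero hm)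
  rw [h, Nat.dvd_one, AddMonoid.addOrderOf_eq_one_iff] at h2
  exact h2

end Gen

section Fix

variable {r k q : ℕ} {V : Type} [AddCommGroup V]

/-- vectors fixed by inertia -/
noncomputable def fixI (ρ : GQ →* AddMonoid.End V) (B : ValuationSubring Qb) : AddSubgroup V where
  carrier := {v | ∀ σ ∈ B.inertiaSubgroupIn ℚ, ρ σ v = v}
  add_mem' := fun {a b} ha hb σ hσ => by rw [map_add, ha σ hσ, hb σ hσ]
  zero_mem' := fun σ _ => map_zero _
  neg_mem' := fun {a} ha σ hσ => by rw [map_neg, ha σ hσ]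

variable {ρ : GQ →* AddMonoid.End V} {B : ValuationSubring Qb}

lemma mem_fixI {v : V} : v ∈ fixI ρ B ↔ ∀ σ ∈ B.inertiaSubgroupIn ℚ, ρ σ v = v := Iff.rfl

/-- the operator `ρ τ - 1` -/
noncomputable def nu (ρ : GQ →* AddMonoid.End V) (τ : GQ) : V →+ V :=
  AddMonoidHom.mk' (fun v => ρ τ v - v) (fun v w => by rw [map_add]; abel)

lemma nu_apply (τ : GQ) (v : V) : nu ρ τ v = ρ τ v - v := rfl

lemma pow_sub_mem_range (τ : GQ) (n : ℕ) (v : V) : ρ (τ ^ n) v - v ∈ (nu ρ τ).range := by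
  induction n with
  | zero =>
    rw [pow_zero, map_one]
    change v - v ∈ _
    rw [sub_self]; exact zero_mem _
  | succ n ih =>
    have h1 : ρ (τ ^ (n + 1)) v - v = (ρ τ (ρ (τ ^ n) v) - ρ (τ ^ n) v) + (ρ (τ ^ n) v - v) := by
      rw [pow_succ', map_mul, end_mul_apply]; abel
    rw [h1]
    exact add_mem ⟨_, rfl⟩ ih

lemma pow_fix {τ : GQ} {v : V} (h : ρ τ v = v) (n : ℕ) : ρ (τ ^ n) v = v := by
  induction n with
  | zero => rw [pow_zero, map_one]; rfl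
  | succ n ih => rw [pow_succ', map_mul, end_mul_apply, ih, h]

/-- generator property -/
def IsGen (ρ : GQ →* AddMonoid.End V) (B : ValuationSubring Qb) (τ : GQ) : Prop :=
  τ ∈ B.inertiaSubgroupIn ℚ ∧ ∀ σ ∈ B.inertiaSubgroupIn ℚ, ∃ n : ℕ, ρ σ = ρ (τ ^ n)

lemma IsGen.ker_eq {τ : GQ} (h : IsGen ρ B τ) : (nu ρ τ).ker = fixI ρ B := by
  ext v
  rw [AddMonoidHom.mem_ker, nu_apply, sub_eq_zero, mem_fixI]
  constructor
  · intro hv σ hσ
    obtain ⟨n, hn⟩ := h.2 σ hσ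
    rw [hn, pow_fix hv]
  · intro hv
    exact hv τ h.1

/-- unipotence -/
def Uni (ρ : GQ →* AddMonoid.End V) (B : ValuationSubring Qb) : Prop :=
  ∀ σ ∈ B.inertiaSubgroupIn ℚ, ∀ τ ∈ B.inertiaSubgroupIn ℚ, ∀ v, ρ σ (ρ τ v - v) = ρ τ v - v

lemma Uni.range_le_ker (h : Uni ρ B) {τ : GQ} (hτ : τ ∈ B.inertiaSubgroupIn ℚ) :
    (nu ρ τ).range ≤ (nu ρ τ).ker := by
  rintro _ ⟨v, rfl⟩
  rw [AddMonoidHom.mem_ker, nu_apply, nu_apply, h τ hτ τ hτ, sub_self]

variable [Finite V]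

lemma exists_isGen (hr : r.Prime) (hq : q.Prime) (hqr : q ≠ r) (hB : B.LiesOverPrime q)
    (hadm : Adm r k ρ) (huni : Uni ρ B) : ∃ τ, IsGen ρ B τ := by
  obtain ⟨τ, h1, h2, -⟩ := exists_tame_gen hr hq hqr hB hadm huni
  exact ⟨τ, h1, fun σ hσ => ⟨(h2 σ hσ).choose, (h2 σ hσ).choose_spec.1⟩⟩

lemma card_le_fixI_sq (hr : r.Prime) (hq : q.Prime) (hqr : q ≠ r) (hB : B.LiesOverPrime q)
    (hadm : Adm r k ρ) (huni : Uni ρ B) : Nat.card V ≤ Nat.card (fixI ρ B) ^ 2 := by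
  obtain ⟨τ, hτ⟩ := exists_isGen hr hq hqr hB hadm huni
  rw [card_eq_ker_mul_range (nu ρ τ), ← hτ.ker_eq, pow_two]
  apply Nat.mul_le_mul_left
  exact Nat.card_le_card_of_injective (AddSubgroup.inclusion (huni.range_le_ker hτ.1))
    (AddSubgroup.inclusion_injective _)

omit [Finite V] in
lemma dual_inertia_apply (hr : r.Prime) (hq : q.Prime) (hqr : q ≠ r) (hB : B.LiesOverPrime q)
    (hadm : Adm r k ρ) {σ : GQ} (hσ : σ ∈ B.inertiaSubgroupIn ℚ) (l : V →+ Additive Qbˣ) (v : V) :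
    dualRep ρ σ l v = l (ρ σ⁻¹ v) := by
  rw [dualRep_apply]
  apply aact_eq_self (n := r ^ k) _ (hadm.nsmul_char l _)
  intro ζ hζ
  exact inertia_apply_rootOfUnity hq hB (fun h => hqr ((Nat.prime_dvd_prime_iff_eq hq hr).1
    (hq.dvd_of_dvd_pow h))) hσ hζ

omit [Finite V] in
lemma Uni.dual (hr : r.Prime) (hq : q.Prime) (hqr : q ≠ r) (hB : B.LiesOverPrime q)
    (hadm : Adm r k ρ) (huni : Uni ρ B) : Uni (dualRep ρ) B := by
  intro σ hσ τ hτ l
  apply AddMonoidHom.ext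
  intro v
  rw [dual_inertia_apply hr hq hqr hB hadm hσ, AddMonoidHom.sub_apply, AddMonoidHom.sub_apply,
    dual_inertia_apply hr hq hqr hB hadm hτ, dual_inertia_apply hr hq hqr hB hadm hτ,
    ← map_sub, ← map_sub]
  congr 1
  have h1 := huni τ⁻¹ (inv_mem hτ) σ⁻¹ (inv_mem hσ) v
  rw [map_sub] at h1
  have h2 : ρ τ⁻¹ (ρ σ⁻¹ v) - ρ σ⁻¹ v = ρ τ⁻¹ v - v := by
    have h3 : ρ τ⁻¹ (ρ σ⁻¹ v) - ρ σ⁻¹ v =
      (ρ τ⁻¹ (ρ σ⁻¹ v) - ρ τ⁻¹ v) - (ρ σ⁻¹ v - v) + (ρ τ⁻¹ v - v) := by abel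
    rw [h3, h1, sub_self, zero_add]
  exact h2

omit [Finite V] in
lemma fixI_dual (hr : r.Prime) (hq : q.Prime) (hqr : q ≠ r) (hB : B.LiesOverPrime q)
    (hadm : Adm r k ρ) {τ : GQ} (hτ : IsGen ρ B τ) :
    fixI (dualRep ρ) B = ann (nu ρ τ).range := by
  ext l
  rw [mem_fixI, mem_ann]
  constructor
  · rintro h _ ⟨v, rfl⟩
    have h1 := DFunLike.congr_fun (h τ⁻¹ (inv_mem hτ.1)) v
    rw [dual_inertia_apply hr hq hqr hB hadm (inv_mem hτ.1), inv_inv] at h1
    rw [nu_apply, map_sub, h1, sub_self]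
  · intro h σ hσ
    apply AddMonoidHom.ext
    intro v
    rw [dual_inertia_apply hr hq hqr hB hadm hσ]
    obtain ⟨n, hn⟩ := hτ.2 σ⁻¹ (inv_mem hσ)
    have h1 := h _ (pow_sub_mem_range τ n v)
    rw [hn, ← sub_eq_zero, ← map_sub, h1]

lemma card_fixI_dual (hr : r.Prime) (hq : q.Prime) (hqr : q ≠ r) (hB : B.LiesOverPrime q)
    (hadm : Adm r k ρ) (huni : Uni ρ B) :
    Nat.card (fixI (dualRep ρ) B) = Nat.card (fixI ρ B) := by
  obtain ⟨τ, hτ⟩ := exists_isGen hr hq hqr hB hadm huni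
  rw [fixI_dual hr hq hqr hB hadm hτ, card_ann, card_quotient_range, hτ.ker_eq]

end Fix

section SelBound

variable {r k N : ℕ} {A : ValuationSubring Qb} {B : ℕ → ValuationSubring Qb}
  {V : Type} [AddCommGroup V] [Finite V] {ρ : GQ →* AddMonoid.End V} {V0 : AddSubgroup V}

/-- the valuation condition for coboundaries -/
def ValBd (A : ValuationSubring Qb) (ρ : GQ →* AddMonoid.End V) (n : ℕ) : Prop :=
  ∀ (v : V) (l : V →+ Additive Qbˣ), ∃ β : Qbˣ, A.valuation (β : Qb) = 1 ∧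
    ∀ σ ∈ A.inertiaSubgroupIn ℚ, uact σ β = (n • l (ρ σ v - v)).toMul * β

lemma bd_isSel (hadm : Adm r k ρ) (hloc : LocCond r k A ρ V0)
    (hunr : ∀ q, q.Prime → q ≠ r → q ≠ N → ∀ σ ∈ (B q).inertiaSubgroupIn ℚ, ρ σ = 1)
    {n : ℕ} (hval : ValBd A ρ n) {v : V} (hv : v ∈ fixI ρ (B N)) :
    IsSel r A B ρ V0 (n • bd ρ v) where
  coc := ((IsCoc.bd hadm v).nsmul n).coc
  lc := ((IsCoc.bd hadm v).nsmul n).lc
  inert q hq hqr σ hσ := by
    have h1 : bd ρ v σ = 0 := by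
      by_cases hqN : q = N
      · subst hqN
        rw [bd_apply, hv σ hσ, sub_self]
      · rw [bd_apply, hunr q hq hqr hqN σ hσ]
        exact sub_self v
    rw [Pi.smul_apply, h1, smul_zero]
  atA σ hσ := V0.nsmul_mem (hloc.quot σ hσ v) n
  val l := by
    obtain ⟨l', hl'⟩ := exists_char_extend V0 l
    obtain ⟨β, h1, h2⟩ := hval v l'
    refine ⟨β, h1, fun σ hσ w hw => ?_⟩
    rw [h2 σ hσ]
    congr 2
    rw [← hl' w, hw, Pi.smul_apply, map_nsmul]
    rfl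

theorem card_fixI_le (hr : r.Prime) (hA : A.LiesOverPrime r)
    (hB : ∀ q, q.Prime → (B q).LiesOverPrime q) (hadm : Adm r k ρ) (hloc : LocCond r k A ρ V0)
    (hunr : ∀ q, q.Prime → q ≠ r → q ≠ N → ∀ σ ∈ (B q).inertiaSubgroupIn ℚ, ρ σ = 1)
    {n : ℕ} (hval : ValBd A ρ n) {M : ℕ} (hM : ∀ v : V, (∀ σ, ρ σ v = v) → M • v = 0) :
    Nat.card (fixI ρ (B N)) ≤ Nat.card (tor V (M * n)) * Nat.card V0 := by
  obtain ⟨hfin, hcard⟩ := card_sel_le (B := B) hr hA hB hadm hloc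
  let φ : fixI ρ (B N) →+ selZ r A B ρ V0 :=
    { toFun := fun v => ⟨n • bd ρ (v : V), bd_isSel hadm hloc hunr hval v.2⟩
      map_zero' := by
        apply Subtype.ext
        funext σ
        change n • (ρ σ 0 - 0) = 0
        rw [map_zero, sub_zero, smul_zero]
      map_add' := fun v w => by
        apply Subtype.ext
        change n • bd ρ ((v : V) + w) = n • bd ρ (v : V) + n • bd ρ (w : V)
        rw [bd_add, nsmul_add] }
  have hker : ∀ v : φ.ker, ((v : fixI ρ (B N)) : V) ∈ tor V (M * n) := by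
    intro v
    rw [mem_tor, mul_smul]
    apply hM
    intro σ
    have h1 := congrArg Subtype.val ((AddMonoidHom.mem_ker).1 v.2)
    have h2 : n • (ρ σ ((v : fixI ρ (B N)) : V) - ((v : fixI ρ (B N)) : V)) = 0 := congrFun h1 σ
    rw [nsmul_sub, sub_eq_zero] at h2
    rw [map_nsmul, h2]
  have h1 := finite_and_card_le_of_hom φ (X := tor V (M * n))
    (fun v => ⟨((v : fixI ρ (B N)) : V), hker v⟩) (by
      intro a b hab
      have h2 : ((a : fixI ρ (B N)) : V) = ((b : fixI ρ (B N)) : V) :=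
        congrArg (fun x : tor V (M * n) => (x : V)) hab
      exact Subtype.ext (Subtype.ext h2))
  exact h1.2.trans (Nat.mul_le_mul_left _ hcard)

/-- vectors fixed by inertia are fixed when the Selmer group is trivial -/
theorem fixed_of_mem_fixI (hr : r.Prime) (hA : A.LiesOverPrime r)
    (hB : ∀ q, q.Prime → (B q).LiesOverPrime q) (hadm : Adm r k ρ) (hloc : LocCond r k A ρ V0)
    (hunr : ∀ q, q.Prime → q ≠ r → q ≠ N → ∀ σ ∈ (B q).inertiaSubgroupIn ℚ, ρ σ = 1)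
    (hV0 : ∀ v ∈ V0, v = 0) {v : V} (hv : v ∈ fixI ρ (B N)) (σ : GQ) : ρ σ v = v := by
  obtain ⟨hfin, hcard⟩ := card_sel_le (B := B) hr hA hB hadm hloc
  have hval : ValBd A ρ 1 := by
    intro v l
    refine ⟨1, by simp, fun σ hσ => ?_⟩
    rw [hV0 _ (hloc.quot σ hσ v), map_zero, smul_zero, map_one, mul_one]; rfl
  have h1 := bd_isSel (N := N) (B := B) hadm hloc hunr hval hv
  have h2 : Nat.card V0 = 1 := by
    rw [Nat.card_eq_one_iff_unique]
    exact ⟨⟨fun a b => Subtype.ext ((hV0 a a.2).trans (hV0 b b.2).symm)⟩, ⟨0⟩⟩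
  rw [h2] at hcard
  have h3 := Finite.card_le_one_iff_subsingleton.1 hcard
  have h4 : (⟨1 • bd ρ v, h1⟩ : selZ r A B ρ V0) = 0 := Subsingleton.elim _ _
  have h5 : 1 • (ρ σ v - v) = 0 := congrFun (congrArg Subtype.val h4) σ
  rw [one_smul, sub_eq_zero] at h5
  exact h5

omit [Finite V] in
/-- invariants of the dual are killed by `M` -/
lemma dual_fixed_killed (hadm : Adm r k ρ) {g : GQ} {a : ℕ} (har : a.Coprime r)
    (ha : ∀ ζ : Qb, ζ ^ (r ^ k) = 1 → g ζ = ζ ^ a) {T w : V →+ V}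
    (hT : ∀ v, ρ g (ρ g v) - T (ρ g v) + a • v = 0) (hcomm : ∀ v, T (ρ g v) = ρ g (T v))
    {M : ℕ} (hw : ∀ v, w v + a • w v - T (w v) = M • v)
    {f : V →+ Additive Qbˣ} (hf : dualRep ρ g f = f) : M • f = 0 := by
  have h1 : ∀ v, f (ρ g v) = a • f v := by
    intro v
    rw [← aact_eq_nsmul ha (hadm.nsmul_char f v), ← dualRep_apply' (ρ := ρ) g f v, hf]
  have h2 : ∀ v, f (v + a • v - T v) = 0 := by
    intro v
    have h3 := congrArg f (hT v)
    rw [hcomm, map_add, map_sub, h1, h1, h1, map_nsmul, map_zero] at h3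
    have h4 : a • (f (v + a • v - T v)) = 0 := by
      rw [map_sub, map_add, map_nsmul, nsmul_sub, nsmul_add, ← h3]
      abel
    exact eq_zero_of_coprime_nsmul (Nat.Coprime.pow_right k har) h4 (hadm.nsmul_char f _)
  apply AddMonoidHom.ext
  intro v
  have h3 := h2 (w v)
  rw [hw, map_nsmul] at h3
  exact h3

end SelBound

end Fermat.Agent.Mazur
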