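import Fermat.Agent.Mazur.Count

/-!
# The abstract Eisenstein descent
-/

set_option autoImplicit false

open scoped Pointwise
open Fermat.Agent.Frob Fermat.Agent.CFT

namespace Fermat.Agent.Mazur

local notation "Qb" => AlgebraicClosure ℚ
local notation "GQ" => AlgebraicClosure ℚ ≃ₐ[ℚ] AlgebraicClosure ℚ

/-- index lemma -/
lemma nsmul_mem_of_card_le {G : Type*} [AddCommGroup G] [Finite G] {r k m : ℕ} (hr : r.Prime)
    (h : ∀ g : G, (r ^ k) • g = 0) {H : AddSubgroup G} {C : ℕ} (hC : C = r ^ m)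
    (hcard : Nat.card G ≤ C * Nat.card H) (x : G) : C • x ∈ H := by
  have : Fact r.Prime := ⟨hr⟩
  have hP : IsPGroup r (Multiplicative (G ⧸ H)) := by
    intro g
    refine ⟨k, ?_⟩
    obtain ⟨g, rfl⟩ := QuotientAddGroup.mk_surjective (g.toAdd)
    apply Multiplicative.toAdd.injective
    change (r ^ k) • (QuotientAddGroup.mk g : G ⧸ H) = 0
    rw [← QuotientAddGroup.mk_nsmul, h]; rfl
  obtain ⟨n, hn⟩ := (IsPGroup.iff_card).1 hP
  have hn' : Nat.card (G ⧸ H) = r ^ n := hn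
  have h1 := H.card_eq_card_quotient_mul_card_addSubgroup
  rw [h1, hn', hC] at hcard
  have h2 : r ^ n ≤ r ^ m := le_of_mul_le_mul_right hcard Nat.card_pos
  have h3 : n ≤ m := (Nat.pow_le_pow_iff_right hr.one_lt).1 h2
  rw [← QuotientAddGroup.eq_zero_iff, QuotientAddGroup.mk_nsmul, hC]
  obtain ⟨j, rfl⟩ := Nat.exists_eq_add_of_le h3
  rw [pow_add, mul_comm, mul_smul, ← hn']
  rw [card_nsmul_eq_zero', smul_zero]

section Dual

variable {r k : ℕ} {A : ValuationSubring Qb} {V : Type} [AddCommGroup V] [Finite V]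
  {ρ : GQ →* AddMonoid.End V} {V0 : AddSubgroup V}

theorem ValBd.dual (hr : r.Prime) (hadm : Adm r k ρ) (hloc : LocCond r k A ρ V0) {n : ℕ}
    (hval : ValBd A ρ n) : ValBd A (dualRep ρ) n := by
  intro f L
  obtain ⟨x, hx⟩ := exists_eval V0 (L.comp (ann V0).subtype)
  obtain ⟨β, h1, h2⟩ := hval x f
  have hdual := hloc.dual hr hadm
  have hv1 : A.valuation (((f x).toMul : Qbˣ) : Qb) = 1 := by
    have h1 := congrArg Additive.toMul (hadm.nsmul_char f x)
    rw [toMul_nsmul] at h1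
    have h2 := congrArg Units.val h1
    rw [Units.val_pow_eq_pow_val, toMul_zero, Units.val_one] at h2
    have h3 : A.valuation (((f x).toMul : Qbˣ) : Qb) ^ (r ^ k) = 1 := by
      rw [← map_pow, h2, map_one]
    exact eq_one_of_pow_eq_one_val (pow_ne_zero k hr.ne_zero) h3
  refine ⟨(f x).toMul ^ n * β⁻¹, ?_, fun σ hσ => ?_⟩
  · rw [Units.val_mul, Units.val_pow_eq_pow_val, Units.val_inv_eq_inv_val, map_mul, map_pow,
      map_inv₀, hv1, h1, one_pow, inv_one, one_mul]
  · have e1 : L (dualRep ρ σ f - f) = (dualRep ρ σ f - f) x := hx ⟨_, hdual.quot σ hσ f⟩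
    obtain ⟨a, ha⟩ := exists_exp (pow_ne_zero k hr.ne_zero) σ
    have e2 : aact σ (f (ρ σ⁻¹ x)) = aact σ (f x) - f (ρ σ x - x) := by
      set w := ρ σ x - x with hw
      have hwV : w ∈ V0 := hloc.quot σ hσ x
      have hw' : ρ σ⁻¹ w ∈ V0 := by
        have h3 := V0.add_mem (hloc.quot σ⁻¹ (inv_mem hσ) w) hwV
        rwa [sub_add_cancel] at h3
      have h3 : ρ σ⁻¹ x = x - ρ σ⁻¹ w := by
        rw [hw, map_sub, ← end_mul_apply, ← map_mul, inv_mul_cancel, map_one]
        change _ = x - (x - _)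
        abel
      have h4 : w = a • ρ σ⁻¹ w := by
        rw [← hloc.cyc σ hσ a ha _ hw', ← end_mul_apply, ← map_mul, mul_inv_cancel, map_one]
        rfl
      rw [h3, map_sub, map_sub, aact_eq_nsmul ha (hadm.nsmul_char f (ρ σ⁻¹ w)), ← map_nsmul f, ← h4]
    rw [e1, AddMonoidHom.sub_apply, dualRep_apply, e2, map_mul, map_inv, h2 σ hσ, map_pow,
      ← toMul_aact]
    simp only [toMul_nsmul, toMul_sub]
    rw [div_pow, div_pow, mul_inv]
    generalize ((aact σ) (f x)).toMul ^ n = X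
    generalize (f (ρ σ x - x)).toMul ^ n = Y
    generalize (f x).toMul ^ n = Z
    rw [← mul_assoc (X / Y / Z), div_mul_cancel, div_eq_mul_inv, mul_assoc]

end Dual

section Main

variable {r k N : ℕ} {A : ValuationSubring Qb} {B : ℕ → ValuationSubring Qb}
  {R : Type} [CommRing R] {V : Type} [AddCommGroup V] [Module R V] [Finite V]
  {ρ : GQ →* AddMonoid.End V} {V0 : AddSubgroup V} {M M1 M2 : ℕ}

omit [Finite V] in
lemma CocA.exists_unit_of_PL (hr : r.Prime) (hA : A.LiesOverPrime r) (hadm : Adm r k ρ)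
    (hloc : LocCond r k A ρ V0) {c : GQ → V} (hc : CocA A ρ V0 c) (l : V →+ Additive Qbˣ) {n : ℕ}
    (h : (n : ZMod (r ^ k)) * PL r k A l c = 0) : ∃ β : Qbˣ, A.valuation (β : Qb) = 1 ∧
      ∀ σ ∈ A.inertiaSubgroupIn ℚ, uact σ β = (n • l (c σ)).toMul * β := by
  have h1 := (hc.nsmul n).twCoc hr hadm hloc l
  rw [← PL_nsmul hr hA hadm hloc hc] at h
  obtain ⟨β, h2, h3⟩ := h1.exists_unit hr hA (pow_ne_zero k hr.ne_zero) h
  refine ⟨β, h2, fun σ hσ => ?_⟩
  rw [h3 σ hσ, Pi.smul_apply, map_nsmul]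

omit [Finite V] in
theorem Std.valBd (hr : r.Prime) (hA : A.LiesOverPrime r) (S : Std r k N A B R ρ V0 M M1 M2) :
    ValBd A ρ (r * M1) := fun v l =>
  (CocA.bd S.adm S.loc v).exists_unit_of_PL hr hA S.adm S.loc l (S.delta_eq_zero hr hA l v)

/-- submodules of `V⁰` are small. -/
theorem Std.card_le_of_le (hr : r.Prime) (hN : N.Prime) (hNr : N ≠ r) (hA : A.LiesOverPrime r)
    (hB : ∀ q, q.Prime → (B q).LiesOverPrime q) (S : Std r k N A B R ρ V0 M M1 M2)
    (W : AddSubgroup V) (hW : ∀ σ, ∀ v ∈ W, ρ σ v ∈ W) (hWR : ∀ (t : R), ∀ v ∈ W, t • v ∈ W)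
    (hWV : W ≤ V0) : Nat.card W ≤ Nat.card (tor V M) ^ 2 := by
  have hadm := S.adm.sub hW
  have huni : Uni (subRep ρ W hW) (B N) := fun σ hσ τ hτ v => Subtype.ext (S.uni σ hσ τ hτ v)
  have hloc : LocCond r k A (subRep ρ W hW) ⊤ :=
    { quot := fun _ _ _ => trivial
      cyc := fun σ hσ a ha v _ => Subtype.ext (S.loc.cyc σ hσ a ha v (hWV v.2)) }
  have hadm' := hadm.dual hr
  have hloc' := hloc.dual hr hadm
  have huni' := huni.dual hr hN hNr (hB N hN) hadm
  have h1 := card_le_fixI_sq hr hN hNr (hB N hN) hadm' huni'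
  rw [card_char] at h1
  have hunr : ∀ q, q.Prime → q ≠ r → q ≠ N → ∀ σ ∈ (B q).inertiaSubgroupIn ℚ,
      dualRep (subRep ρ W hW) σ = 1 := by
    intro q hq hqr hqN σ hσ
    apply End_ext; intro l
    apply AddMonoidHom.ext; intro v
    rw [dual_inertia_apply hr hq hqr (hB q hq) hadm hσ]
    have h2 : subRep ρ W hW σ⁻¹ v = v :=
      Subtype.ext (by rw [coe_subRep, S.unr q hq hqr hqN _ (inv_mem hσ)]; rfl)
    rw [h2]; rfl
  have hbot : ∀ l ∈ ann (⊤ : AddSubgroup W), l = 0 := by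
    intro l hl
    apply AddMonoidHom.ext; intro v
    exact hl v trivial
  have hfix : ∀ f ∈ fixI (dualRep (subRep ρ W hW)) (B N), f ∈ tor (W →+ Additive Qbˣ) M := by
    intro f hf
    have h2 := fixed_of_mem_fixI hr hA hB hadm' hloc' hunr hbot hf
    obtain ⟨g, a, har, ha, T, w, hT, hw⟩ := S.frobl
    let T' : W →+ W :=
      { toFun := fun v => ⟨T • (v : V), hWR T v v.2⟩
        map_zero' := Subtype.ext (smul_zero T)
        map_add' := fun v v' => Subtype.ext (smul_add T _ _) }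
    let w' : W →+ W :=
      { toFun := fun v => ⟨w • (v : V), hWR w v v.2⟩
        map_zero' := Subtype.ext (smul_zero w)
        map_add' := fun v v' => Subtype.ext (smul_add w _ _) }
    refine dual_fixed_killed hadm har ha (T := T') (w := w') (fun v => Subtype.ext (hT v))
      (fun v => Subtype.ext (S.comm T g v).symm) (fun v => Subtype.ext ?_) (h2 g)
    change w • (v : V) + a • (w • (v : V)) - T • (w • (v : V)) = M • (v : V)
    rw [← hw, ← Nat.cast_smul_eq_nsmul R a]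
    module
  have h3 : Nat.card (fixI (dualRep (subRep ρ W hW)) (B N)) ≤
      Nat.card (tor (W →+ Additive Qbˣ) M) :=
    Nat.card_le_card_of_injective (AddSubgroup.inclusion hfix) (AddSubgroup.inclusion_injective _)
  rw [card_tor_char] at h3
  have h4 : Nat.card (tor W M) ≤ Nat.card (tor V M) := by
    refine Nat.card_le_card_of_injective (fun v : tor W M => (⟨((v : W) : V), ?_⟩ : tor V M)) ?_
    · exact congrArg Subtype.val (mem_tor.1 v.2)
    · intro a b hab
      have h5 : ((a : W) : V) = ((b : W) : V) := congrArg (fun x : tor V M => (x : V)) hab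
      exact Subtype.ext (Subtype.ext h5)
  exact h1.trans (Nat.pow_le_pow_left (h3.trans h4) 2)

/-- the valuation condition for cocycles -/
theorem Std.PL_eq_zero (hr : r.Prime) (hN : N.Prime) (hNr : N ≠ r) (hA : A.LiesOverPrime r)
    (hB : ∀ q, q.Prime → (B q).LiesOverPrime q) (S : Std r k N A B R ρ V0 M M1 M2)
    {c : GQ → V} (hc : CocA A ρ V0 c) (l : V →+ Additive Qbˣ) :
    ((r * M1 * (r * M2 * Nat.card (tor V M) ^ 2) : ℕ) : ZMod (r ^ k)) * PL r k A l c = 0 := by
  obtain ⟨φ, hφ, hmem⟩ := S.mem_of_D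
  obtain ⟨a, har, ha⟩ := exists_exp_coprime hr k φ
  obtain ⟨D, s, hD⟩ := S.exists_D hr hA hφ ha
  refine S.PL_apply_eq_zero hr hA hφ ha hD ?_ hc l
  let W0 : AddSubgroup V :=
    { carrier := {v | D • v = (a * s) • v}
      add_mem' := fun {v w} hv hw => by
        change D • (v + w) = (a * s) • (v + w)
        rw [smul_add, smul_add]
        exact congrArg₂ (· + ·) hv hw
      zero_mem' := by
        change D • (0 : V) = (a * s) • (0 : V)
        rw [smul_zero, smul_zero]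
      neg_mem' := fun {v} hv => by
        change D • (-v) = (a * s) • (-v)
        rw [smul_neg, smul_neg]
        exact congrArg _ hv }
  have hW0 : ∀ v, v ∈ W0 ↔ D • v = (a * s) • v := fun _ => Iff.rfl
  let W : AddSubgroup V := W0.map (nsmulAddMonoidHom (α := V) (r * M2))
  have hcard := S.card_le_of_le hr hN hNr hA hB W
    (by
      rintro σ _ ⟨v, hv, rfl⟩
      refine ⟨ρ σ v, ?_, ?_⟩
      · change D • ρ σ v = (a * s) • ρ σ v
        rw [← S.comm, (hW0 v).1 hv, map_zsmul]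
      · change (r * M2) • ρ σ v = ρ σ ((r * M2) • v)
        rw [map_nsmul])
    (by
      rintro t _ ⟨v, hv, rfl⟩
      refine ⟨t • v, ?_, ?_⟩
      · change D • (t • v) = (a * s) • (t • v)
        rw [smul_comm D t, (hW0 v).1 hv, smul_comm]
      · change (r * M2) • (t • v) = t • ((r * M2) • v)
        rw [smul_comm])
    (by
      rintro _ ⟨v, hv, rfl⟩
      exact hmem a har ha D s hD v hv)
  obtain ⟨n, hn⟩ := exists_card_eq_pow (V := W) (k := k) hr (fun v => Subtype.ext (S.adm.tors v))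
  obtain ⟨m, hm⟩ := exists_card_eq_pow (V := tor V M) (k := k) hr
    (fun v => Subtype.ext (S.adm.tors v))
  have hdvd : Nat.card W ∣ Nat.card (tor V M) ^ 2 := by
    rw [hn, hm, ← pow_mul] at hcard ⊢
    exact pow_dvd_pow _ ((Nat.pow_le_pow_iff_right hr.one_lt).1 hcard)
  intro v _ hv
  obtain ⟨j, hj⟩ := hdvd
  have h1 : (r * M2) • v ∈ W := ⟨v, hv, rfl⟩
  have h2 : Nat.card W • ((r * M2) • v) = 0 := by
    have h3 : Nat.card W • (⟨(r * M2) • v, h1⟩ : W) = 0 := card_nsmul_eq_zero'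
    exact congrArg Subtype.val h3
  rw [hj, mul_comm (r * M2), mul_smul, mul_comm (Nat.card W) j, mul_smul, h2, smul_zero]

omit [Finite V] in
lemma pow_unip {τ : GQ} (h : ∀ v, ρ τ (ρ τ v - v) = ρ τ v - v) (n : ℕ) (v : V) :
    ρ (τ ^ n) v = v + n • (ρ τ v - v) := by
  induction n with
  | zero => rw [pow_zero, map_one, zero_smul, add_zero]; rfl
  | succ n ih =>
    rw [pow_succ', map_mul, end_mul_apply, ih, map_add, map_nsmul, h, succ_nsmul]
    abel

omit [Finite V] in
lemma coc_pow_sub_mem {c : GQ → V} (hc : IsCoc ρ c) (τ : GQ) (n : ℕ) :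
    c (τ ^ n) - n • c τ ∈ (nu ρ τ).range := by
  induction n with
  | zero => rw [pow_zero, hc.map_one, zero_smul, sub_zero]; exact zero_mem _
  | succ n ih =>
    have h1 : c (τ ^ (n + 1)) - (n + 1) • c τ = (c (τ ^ n) - n • c τ) +
        (ρ (τ ^ n) (c τ) - c τ) := by
      rw [pow_succ, hc.coc, succ_nsmul]; abel
    rw [h1]
    exact add_mem ih (pow_sub_mem_range τ n _)

/-- the constant of the descent -/
noncomputable def descK (r N : ℕ) (V : Type) [AddCommGroup V] (M M1 M2 : ℕ) : ℕ :=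
  Nat.card (tor V (M * (r * M1))) ^ 2 *
    (r * M1 * (r * M2 * Nat.card (tor V M) ^ 2)) * Nat.card (tor V (M * (r * M1))) ^ 2 *
    ((N - 1) * (N ^ 2 - 1))

/-- **Abstract Eisenstein descent**. -/
theorem Std.descent (hr : r.Prime) (hN : N.Prime) (hNr : N ≠ r) (hA : A.LiesOverPrime r)
    (hB : ∀ q, q.Prime → (B q).LiesOverPrime q) (S : Std r k N A B R ρ V0 M M1 M2)
    {c : GQ → V} (hc : IsCoc ρ c)
    (hcI : ∀ q, q.Prime → q ≠ r → q ≠ N → ∀ σ ∈ (B q).inertiaSubgroupIn ℚ, c σ = 0)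
    (hcA : ∀ σ ∈ A.inertiaSubgroupIn ℚ, c σ ∈ V0) :
    ∃ w : V, ∀ σ, descK r N V M M1 M2 • c σ = ρ σ w - w := by
  have huni : Uni ρ (B N) := S.uni
  have hval := S.valBd hr hA
  have hloc' := S.loc.dual hr S.adm
  have hadm' := S.adm.dual hr
  -- the tame generator
  obtain ⟨τ, hτI, hgen, hfrob⟩ := exists_tame_gen hr hN hNr (hB N hN) S.adm huni
  have hτ : IsGen ρ (B N) τ := ⟨hτI, fun σ hσ => ⟨(hgen σ hσ).choose, (hgen σ hσ).choose_spec.1⟩⟩
  set C1 := Nat.card (tor V (M * (r * M1))) with hC1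
  obtain ⟨m, hm⟩ := exists_card_eq_pow (V := tor V (M * (r * M1))) (k := k) hr
    (fun v => Subtype.ext (S.adm.tors v))
  have hC1sq : C1 ^ 2 = r ^ (m * 2) := by rw [hC1, hm, pow_mul]
  -- invariants
  obtain ⟨g, a, har, ha, T, w0, hT, hw0⟩ := S.frobl
  have hM : ∀ v : V, (∀ σ, ρ σ v = v) → M • v = 0 := by
    intro v hv
    have h1 : ∀ v : V, (∀ σ, ρ σ v = v) → (1 + (a : R) - T) • v = 0 := by
      intro v hv
      have h1 := hT v
      rw [hv, hv] at h1
      rw [← h1, ← Nat.cast_smul_eq_nsmul R a]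
      module
    have h2 := h1 (w0 • v) (fun σ => by rw [S.comm, hv])
    rw [smul_smul, mul_comm _ w0, hw0] at h2
    exact h2
  have hMd : ∀ f : V →+ Additive Qbˣ, (∀ σ, dualRep ρ σ f = f) → M • f = 0 := by
    intro f hf
    refine dual_fixed_killed S.adm har ha (T := DistribSMul.toAddMonoidHom V T)
      (w := DistribSMul.toAddMonoidHom V w0) hT (fun v => (S.comm T g v).symm)
      (fun v => ?_) (hf g)
    change w0 • v + a • (w0 • v) - T • (w0 • v) = M • v
    rw [← hw0, ← Nat.cast_smul_eq_nsmul R a]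
    module
  have hunr' : ∀ q, q.Prime → q ≠ r → q ≠ N → ∀ σ ∈ (B q).inertiaSubgroupIn ℚ,
      dualRep ρ σ = 1 := by
    intro q hq hqr hqN σ hσ
    apply End_ext; intro l
    apply AddMonoidHom.ext; intro v
    rw [dual_inertia_apply hr hq hqr (hB q hq) S.adm hσ, S.unr q hq hqr hqN _ (inv_mem hσ)]
    rfl
  -- (I) and (II)
  have hI := card_fixI_le hr hA hB S.adm S.loc S.unr hval hM
  have hII := card_fixI_le hr hA hB hadm' hloc' hunr' (hval.dual hr S.adm S.loc) hMd
  rw [card_tor_char, card_ann, card_fixI_dual hr hN hNr (hB N hN) S.adm huni] at hII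
  rw [← hC1] at hI hII
  set F := Nat.card (fixI ρ (B N)) with hF
  have hV := V0.card_eq_card_quotient_mul_card_addSubgroup
  have hFpos : 0 < F := Nat.card_pos
  have hVF : Nat.card V ≤ F ^ 2 := card_le_fixI_sq hr hN hNr (hB N hN) S.adm huni
  -- kernel modulo image
  have hker : ∀ x, ρ τ x = x → C1 ^ 2 • x ∈ (nu ρ τ).range := by
    intro x hx
    have h1 := card_eq_ker_mul_range (nu ρ τ)
    have h2 : Nat.card (nu ρ τ).ker = F := by rw [hτ.ker_eq]
    have h3 : F * F ≤ C1 ^ 2 * Nat.card V := by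
      calc F * F ≤ (C1 * Nat.card V0) * (C1 * Nat.card (V ⧸ V0)) := Nat.mul_le_mul hI hII
        _ = C1 ^ 2 * Nat.card V := by rw [hV]; ring
    rw [h1, h2] at h3
    have h4 : F ≤ C1 ^ 2 * Nat.card (nu ρ τ).range := by
      have h5 : F * F ≤ F * (C1 ^ 2 * Nat.card (nu ρ τ).range) := by
        calc F * F ≤ _ := h3
          _ = _ := by ring
      exact Nat.le_of_mul_le_mul_left h5 hFpos
    have hle := huni.range_le_ker hτI
    have h5 : Nat.card (nu ρ τ).ker ≤ C1 ^ 2 *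
        Nat.card ((nu ρ τ).range.addSubgroupOf (nu ρ τ).ker) := by
      rw [h2]
      refine h4.trans (Nat.mul_le_mul_left _ ?_)
      exact (Nat.card_congr (AddSubgroup.addSubgroupOfEquivOfLe hle).toEquiv).ge
    have hxk : x ∈ (nu ρ τ).ker := by
      rw [AddMonoidHom.mem_ker, nu_apply, hx, sub_self]
    exact nsmul_mem_of_card_le hr (k := k) (fun v => Subtype.ext (S.adm.tors v)) hC1sq h5 ⟨x, hxk⟩
  -- Selmer modulo coboundaries
  obtain ⟨hfin, hcard⟩ := card_sel_le (B := B) hr hA hB S.adm S.loc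
  have hsel : ∀ z ∈ selZ r A B ρ V0, ∃ w, C1 ^ 2 • z = bd ρ w := by
    intro z hz
    let H : AddSubgroup (selZ r A B ρ V0) :=
      { carrier := {z | ∃ w, (z : GQ → V) = bd ρ w}
        add_mem' := by
          rintro a b ⟨w, hw⟩ ⟨w', hw'⟩
          exact ⟨w + w', by rw [bd_add, ← hw, ← hw']; rfl⟩
        zero_mem' := ⟨0, by funext σ; rw [bd_apply, map_zero, sub_zero]; rfl⟩
        neg_mem' := by
          rintro a ⟨w, hw⟩
          refine ⟨-w, ?_⟩
          funext σ
          rw [bd_apply, map_neg]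
          change -((a : GQ → V) σ) = _
          rw [hw, bd_apply]; abel }
    let φ : fixI ρ (B N) →+ H :=
      { toFun := fun v => ⟨⟨(r * M1) • bd ρ (v : V), bd_isSel S.adm S.loc S.unr hval v.2⟩,
          (r * M1) • (v : V), by funext σ; rw [bd_apply, map_nsmul, ← nsmul_sub]; rfl⟩
        map_zero' := by
          apply Subtype.ext
          apply Subtype.ext
          funext σ
          change (r * M1) • (ρ σ 0 - 0) = 0
          rw [map_zero, sub_zero, smul_zero]
        map_add' := fun v w => by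
          apply Subtype.ext
          apply Subtype.ext
          change (r * M1) • bd ρ ((v : V) + w) = (r * M1) • bd ρ (v : V) + (r * M1) • bd ρ (w : V)
          rw [bd_add, nsmul_add] }
    have hker' : ∀ v : φ.ker, ((v : fixI ρ (B N)) : V) ∈ tor V (M * (r * M1)) := by
      intro v
      rw [mem_tor, mul_smul]
      apply hM
      intro σ
      have h1 := congrArg (fun x : H => ((x : selZ r A B ρ V0) : GQ → V) σ)
        ((AddMonoidHom.mem_ker).1 v.2)
      have h2 : (r * M1) • (ρ σ ((v : fixI ρ (B N)) : V) - ((v : fixI ρ (B N)) : V)) = 0 := h1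
      rw [nsmul_sub, sub_eq_zero] at h2
      rw [map_nsmul, h2]
    have h1 := finite_and_card_le_of_hom φ (X := tor V (M * (r * M1)))
      (fun v => ⟨((v : fixI ρ (B N)) : V), hker' v⟩) (by
        intro a b hab
        have h2 : ((a : fixI ρ (B N)) : V) = ((b : fixI ρ (B N)) : V) :=
          congrArg (fun x : tor V (M * (r * M1)) => (x : V)) hab
        exact Subtype.ext (Subtype.ext h2))
    have h2 : F ≤ C1 * Nat.card H := h1.2
    have h3 : Nat.card V0 ≤ C1 * F := by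
      have h4 : F * Nat.card V0 ≤ F * (C1 * F) := by
        calc F * Nat.card V0 ≤ C1 * Nat.card (V ⧸ V0) * Nat.card V0 := Nat.mul_le_mul_right _ hII
          _ = C1 * Nat.card V := by rw [hV]; ring
          _ ≤ C1 * F ^ 2 := Nat.mul_le_mul_left _ hVF
          _ = F * (C1 * F) := by ring
      exact Nat.le_of_mul_le_mul_left h4 hFpos
    have h5 : Nat.card (selZ r A B ρ V0) ≤ C1 ^ 2 * Nat.card H := by
      calc Nat.card (selZ r A B ρ V0) ≤ Nat.card V0 := hcard
        _ ≤ C1 * F := h3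
        _ ≤ C1 * (C1 * Nat.card H) := Nat.mul_le_mul_left _ h2
        _ = C1 ^ 2 * Nat.card H := by ring
    exact nsmul_mem_of_card_le hr (k := k) (fun z => Subtype.ext (by
      funext σ
      exact S.adm.tors _)) hC1sq h5 ⟨z, hz⟩
  -- the analysis at `N`
  obtain ⟨φ, hφ⟩ := exists_isFrobeniusAt (B N) hN (hB N hN)
  obtain ⟨hρφ, hcφ⟩ := hfrob φ hφ
  have hνν : ∀ v, ρ τ (ρ τ v - v) = ρ τ v - v := huni τ hτI τ hτI
  have hexpφ : ∀ ζ : Qb, ζ ^ (r ^ k) = 1 → φ ζ = ζ ^ N := fun ζ hζ =>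
    CycChar.frobenius_apply_eq (hB N hN)
      (Nat.Coprime.pow_left k ((Nat.coprime_primes hr hN).2 hNr.symm)) hφ hζ
  obtain ⟨t, ht⟩ := S.quad φ N hexpφ
  have hNcop : N.Coprime r := (Nat.coprime_primes hN hr).2 hNr
  set x := c τ with hx
  set ν := nu ρ τ with hν
  have hνν' : ∀ v, ν (ν v) = 0 := fun v => by
    rw [hν, nu_apply, nu_apply, hνν, sub_self]
  have hφν : ∀ v, ρ φ (ν v) = N • ν (ρ φ v) := by
    intro v
    have h1 : ρ (φ * τ * φ⁻¹) (ρ φ v) = ρ (τ ^ N) (ρ φ v) := by rw [hρφ]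
    rw [pow_unip hνν, ← end_mul_apply, ← map_mul] at h1
    have h2 : φ * τ * φ⁻¹ * φ = φ * τ := by group
    rw [h2, map_mul, end_mul_apply] at h1
    rw [hν, nu_apply, nu_apply, map_sub, h1]
    abel
  have hφx : ρ φ x - N • x ∈ ν.range := by
    have h0 : φ * τ * φ⁻¹ * φ = φ * τ := by group
    have h1 := hc.coc (φ * τ * φ⁻¹) φ
    rw [h0, hc.coc φ τ, hcφ c hc, hρφ] at h1
    have h2 : ρ φ x - N • x = (c (τ ^ N) - N • c τ) + (ρ (τ ^ N) (c φ) - c φ) := by
      rw [hx, ← sub_eq_zero, ← sub_eq_zero.2 h1]; abel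
    rw [h2]
    exact add_mem (coc_pow_sub_mem hc τ N) (pow_sub_mem_range τ N _)
  have hνt : ∀ v, ν (t • v) = t • ν v := fun v => by
    rw [hν, nu_apply, nu_apply, S.comm, smul_sub]
  have hK1 : ((N - 1) * (N ^ 2 - 1)) • ν x = 0 := by
    set y := ν x with hy
    have e1 : ν (ρ φ x) = N • y := by
      obtain ⟨z, hz⟩ := hφx
      have h1 := hνν' z
      rw [hz, map_sub, map_nsmul, sub_eq_zero] at h1
      exact h1
    have e2 : ρ φ y = N • (N • y) := by rw [hy, hφν, e1]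
    have e3 : ρ φ (ρ φ y) = N • (N • (N • (N • y))) := by
      rw [e2, map_nsmul, map_nsmul, e2]
    have e4 : ν (ρ φ (ρ φ x)) = N • (N • y) := by
      have h1 := hφν (ρ φ x)
      rw [e1, map_nsmul, e2, ← sub_eq_zero, ← nsmul_sub] at h1
      have h2 := S.adm.eq_zero_of_coprime hNcop h1
      exact (sub_eq_zero.1 h2).symm
    have e5 := congrArg ν (ht x)
    rw [map_add, map_sub, hνt, map_nsmul, e1, e4, map_zero] at e5
    have e6 := ht y
    rw [e3, e2] at e6
    -- `N² y - N t y + N y = 0` and `N⁴ y - N² t y + N y = 0`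
    have e7 : N • (N • y - t • y + y) = 0 := by
      rw [← e5]
      rw [nsmul_add, nsmul_sub, smul_comm N t]
    have e8 := S.adm.eq_zero_of_coprime hNcop e7
    have e9 : N • (N • (N • (N • y)) - N • (t • y) + y) = 0 := by
      rw [← e6]
      simp only [← Nat.cast_smul_eq_nsmul R N]
      module
    have e10 := S.adm.eq_zero_of_coprime hNcop e9
    have hN1 : 1 ≤ N := hN.one_le
    have hN2 : 1 ≤ N ^ 2 := Nat.one_le_pow _ _ hN1
    have e11 : ((((N - 1) * (N ^ 2 - 1) : ℕ) : ℤ)) • y =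
        (N • (N • (N • y)) - N • (t • y) + y) - N • (N • y - t • y + y) := by
      push_cast [Nat.cast_sub hN1, Nat.cast_sub hN2]
      module
    rw [← natCast_zsmul, e11, e10, e8, smul_zero, sub_zero]
  set K1 := (N - 1) * (N ^ 2 - 1) with hK1def
  have hx1 : ρ τ (K1 • x) = K1 • x := by
    have h1 : ν (K1 • x) = 0 := by rw [map_nsmul, hK1]
    rw [hν, nu_apply, sub_eq_zero] at h1
    exact h1
  obtain ⟨w, hw⟩ := hker _ hx1
  -- the modified cocycle
  have hbw := IsCoc.bd S.adm w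
  have hc2 : IsCoc ρ (C1 ^ 2 • (K1 • c) + -bd ρ w) := ((hc.nsmul K1).nsmul (C1 ^ 2)).add hbw.neg
  have hc2τ : (C1 ^ 2 • (K1 • c) + -bd ρ w) τ = 0 := by
    change C1 ^ 2 • (K1 • c τ) + -(ρ τ w - w) = 0
    rw [← hw, nu_apply, add_neg_cancel]
  have hc2N : ∀ σ ∈ (B N).inertiaSubgroupIn ℚ, (C1 ^ 2 • (K1 • c) + -bd ρ w) σ = 0 := by
    intro σ hσ
    obtain ⟨n, -, h2⟩ := hgen σ hσ
    rw [h2 _ hc2]
    clear h2
    induction n with
    | zero => rw [pow_zero, hc2.map_one]
    | succ n ih => rw [show τ ^ (n + 1) = τ * τ ^ n from pow_succ' τ n, hc2.coc, ih, hc2τ, map_zero,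
        add_zero]
  have hc2A : CocA A ρ V0 (C1 ^ 2 • (K1 • c) + -bd ρ w) :=
    { toIsCoc := hc2
      atA := fun σ hσ => V0.add_mem (V0.nsmul_mem (V0.nsmul_mem (hcA σ hσ) _) _)
        (V0.neg_mem (S.loc.quot σ hσ w)) }
  set c2 := C1 ^ 2 • (K1 • c) + -bd ρ w with hc2def
  set K3 := r * M1 * (r * M2 * Nat.card (tor V M) ^ 2) with hK3
  have hsel2 : K3 • c2 ∈ selZ r A B ρ V0 :=
    { coc := (hc2.nsmul K3).coc
      lc := (hc2.nsmul K3).lc
      inert := by
        intro q hq hqr σ hσ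
        have h1 : c2 σ = 0 := by
          by_cases hqN : q = N
          · subst hqN
            exact hc2N σ hσ
          · change C1 ^ 2 • (K1 • c σ) + -(ρ σ w - w) = 0
            rw [hcI q hq hqr hqN σ hσ, S.unr q hq hqr hqN σ hσ]
            change C1 ^ 2 • (K1 • (0 : V)) + -(w - w) = 0
            simp
        rw [Pi.smul_apply, h1, smul_zero]
      atA := fun σ hσ => V0.nsmul_mem (hc2A.atA σ hσ) _
      val := by
        intro l
        obtain ⟨l', hl'⟩ := exists_char_extend V0 l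
        obtain ⟨β, h1, h2⟩ := hc2A.exists_unit_of_PL hr hA S.adm S.loc l'
          (S.PL_eq_zero hr hN hNr hA hB hc2A l')
        refine ⟨β, h1, fun σ hσ v hv => ?_⟩
        rw [h2 σ hσ]
        congr 2
        rw [← hl' v, hv, Pi.smul_apply, map_nsmul] }
  obtain ⟨w', hw'⟩ := hsel _ hsel2
  refine ⟨w' + (C1 ^ 2 * K3) • w, fun σ => ?_⟩
  have h1 := congrFun hw' σ
  have h2 : C1 ^ 2 • (K3 • (C1 ^ 2 • (K1 • c σ) + -(ρ σ w - w))) = ρ σ w' - w' := h1
  have h3 : descK r N V M M1 M2 = C1 ^ 2 * K3 * C1 ^ 2 * K1 := rfl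
  rw [h3, map_add, map_nsmul]
  have h4 : (C1 ^ 2 * K3 * C1 ^ 2 * K1) • c σ =
      C1 ^ 2 • (K3 • (C1 ^ 2 • (K1 • c σ) + -(ρ σ w - w))) + (C1 ^ 2 * K3) • (ρ σ w - w) := by
    module
  rw [h4, h2]
  module

end Main

end Fermat.Agent.Mazur
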