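import Mathlib

/-!
# Characters of finite abelian groups with values in `ℚ̄ˣ`
-/

set_option autoImplicit false

namespace Fermat.Agent.Mazur

local notation "Qb" => AlgebraicClosure ℚ

variable {V : Type*} [AddCommGroup V] [Finite V]

instance instEnough (n : ℕ) [NeZero n] : HasEnoughRootsOfUnity Qb n := by
  have : NeZero (n : Qb) := ⟨by exact_mod_cast NeZero.ne n⟩
  infer_instance

/-- characters separate points -/
theorem exists_char_ne_zero {v : V} (hv : v ≠ 0) : ∃ l : V →+ Additive Qbˣ, l v ≠ 0 := by
  have : NeZero (Monoid.exponent (Multiplicative V)) := ⟨Monoid.exponent_ne_zero_of_finite⟩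
  obtain ⟨φ, hφ⟩ := CommGroup.exists_apply_ne_one_of_hasEnoughRootsOfUnity
    (Multiplicative V) Qb (a := Multiplicative.ofAdd v) (by simpa using hv)
  exact ⟨MonoidHom.toAdditiveRight φ, hφ⟩

theorem char_ext {v w : V} (h : ∀ l : V →+ Additive Qbˣ, l v = l w) : v = w := by
  by_contra hne
  obtain ⟨l, hl⟩ := exists_char_ne_zero (sub_ne_zero.2 hne)
  rw [map_sub, h l, sub_self] at hl
  exact hl rfl

/-- characters extend from subgroups -/
theorem exists_char_extend (W : AddSubgroup V) (l : W →+ Additive Qbˣ) :
    ∃ l' : V →+ Additive Qbˣ, ∀ w : W, l' w = l w := by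
  have : NeZero (Monoid.exponent (Multiplicative V)) := ⟨Monoid.exponent_ne_zero_of_finite⟩
  let H : Subgroup (Multiplicative V) := AddSubgroup.toSubgroup W
  let φ : H →* Qbˣ :=
    { toFun := fun h => (l ⟨Multiplicative.toAdd (h : Multiplicative V), h.2⟩).toMul
      map_one' := by
        change (l 0).toMul = 1
        rw [map_zero]; rfl
      map_mul' := fun a b => by
        change (l (⟨Multiplicative.toAdd (a : Multiplicative V), a.2⟩ +
          ⟨Multiplicative.toAdd (b : Multiplicative V), b.2⟩)).toMul = _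
        rw [map_add]; rfl }
  obtain ⟨ψ, hψ⟩ := MonoidHom.domRestrict_surjective (M := Qb) H φ
  refine ⟨MonoidHom.toAdditiveRight ψ, fun w => ?_⟩
  have h1 := DFunLike.congr_fun hψ (⟨Multiplicative.ofAdd (w : V), w.2⟩ : H)
  exact congrArg Additive.ofMul h1

/-- a character of a quotient -/
theorem card_char : Nat.card (V →+ Additive Qbˣ) = Nat.card V := by
  have : NeZero (Monoid.exponent (Multiplicative V)) := ⟨Monoid.exponent_ne_zero_of_finite⟩
  rw [Nat.card_congr (MonoidHom.toAdditiveRight (α := V) (β := Qbˣ)).symm]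
  exact CommGroup.card_monoidHom_of_hasEnoughRootsOfUnity (Multiplicative V) Qb

instance : Finite (V →+ Additive Qbˣ) :=
  Nat.finite_of_card_ne_zero (by rw [card_char]; exact Nat.card_pos.ne')

end Fermat.Agent.Mazur
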