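import Fermat.Agent.Mazur.Key

/-!
# The dual Galois module
-/

set_option autoImplicit false

open scoped Pointwise
open Fermat.Agent.Frob Fermat.Agent.CFT Polynomial

namespace Fermat.Agent.Mazur

local notation "Qb" => AlgebraicClosure ℚ
local notation "GQ" => AlgebraicClosure ℚ ≃ₐ[ℚ] AlgebraicClosure ℚ

/-- the action on `Additive Qbˣ` -/
noncomputable def aact (σ : GQ) : Additive Qbˣ →+ Additive Qbˣ := MonoidHom.toAdditive (uact σ)

lemma toMul_aact (σ : GQ) (x : Additive Qbˣ) : (aact σ x).toMul = uact σ x.toMul := rfl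

lemma aact_mul (σ τ : GQ) (x : Additive Qbˣ) : aact (σ * τ) x = aact σ (aact τ x) := rfl

lemma aact_one (x : Additive Qbˣ) : aact 1 x = x := by
  apply Additive.toMul.injective
  exact Units.ext rfl

lemma aact_inv_apply (σ : GQ) (x : Additive Qbˣ) : aact σ⁻¹ (aact σ x) = x := by
  rw [← aact_mul, inv_mul_cancel, aact_one]

lemma aact_apply_inv (σ : GQ) (x : Additive Qbˣ) : aact σ (aact σ⁻¹ x) = x := by
  rw [← aact_mul, mul_inv_cancel, aact_one]

lemma aact_eq_nsmul {n : ℕ} {σ : GQ} {a : ℕ} (h : ∀ ζ : Qb, ζ ^ n = 1 → σ ζ = ζ ^ a)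
    {x : Additive Qbˣ} (hx : n • x = 0) : aact σ x = a • x := by
  apply Additive.toMul.injective
  rw [toMul_aact, toMul_nsmul]
  apply Units.ext
  rw [coe_uact, Units.val_pow_eq_pow_val]
  apply h
  have := congrArg (fun y => ((Additive.toMul y : Qbˣ) : Qb)) hx
  simpa using this

lemma aact_eq_self {n : ℕ} {σ : GQ} (h : ∀ ζ : Qb, ζ ^ n = 1 → σ ζ = ζ)
    {x : Additive Qbˣ} (hx : n • x = 0) : aact σ x = x := by
  rw [aact_eq_nsmul (a := 1) (fun ζ hζ => by rw [pow_one]; exact h ζ hζ) hx, one_nsmul]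

variable {V : Type} [AddCommGroup V]

lemma End_ext {M : Type*} [AddCommGroup M] {f g : AddMonoid.End M} (h : ∀ v, f v = g v) : f = g :=
  AddMonoidHom.ext h

lemma dvd_of_pow_eq {r : ℕ} (hr : r ≠ 0) {ζ : Qb} (hζ : IsPrimitiveRoot ζ r) {a b : ℕ}
    (h : ζ ^ a = ζ ^ b) : (r : ℤ) ∣ (b : ℤ) - a := by
  have hu : IsPrimitiveRoot (hζ.isUnit hr).unit r := by
    rw [← IsPrimitiveRoot.coe_units_iff]; exact hζ
  rw [← hu.zpow_eq_one_iff_dvd, zpow_sub, zpow_natCast, zpow_natCast, mul_inv_eq_one]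
  apply Units.ext
  rw [Units.val_pow_eq_pow_val, Units.val_pow_eq_pow_val]
  exact h.symm

/-- the dual representation -/
noncomputable def dualRep (ρ : GQ →* AddMonoid.End V) :
    GQ →* AddMonoid.End (V →+ Additive Qbˣ) where
  toFun σ :=
    { toFun := fun l => (aact σ).comp (l.comp (ρ σ⁻¹ : V →+ V))
      map_zero' := by
        apply AddMonoidHom.ext; intro v
        change aact σ 0 = 0
        rw [map_zero]
      map_add' := fun l m => by
        apply AddMonoidHom.ext; intro v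
        change aact σ (l _ + m _) = aact σ (l _) + aact σ (m _)
        rw [map_add] }
  map_one' := by
    apply AddMonoidHom.ext; intro l
    apply AddMonoidHom.ext; intro v
    change aact 1 (l (ρ 1⁻¹ v)) = l v
    rw [aact_one, inv_one, map_one]; rfl
  map_mul' σ τ := by
    apply AddMonoidHom.ext; intro l
    apply AddMonoidHom.ext; intro v
    change aact (σ * τ) (l (ρ (σ * τ)⁻¹ v)) = aact σ (aact τ (l (ρ τ⁻¹ (ρ σ⁻¹ v))))
    rw [aact_mul, mul_inv_rev, map_mul, end_mul_apply]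

variable {ρ : GQ →* AddMonoid.End V}

lemma dualRep_apply (σ : GQ) (l : V →+ Additive Qbˣ) (v : V) :
    dualRep ρ σ l v = aact σ (l (ρ σ⁻¹ v)) := rfl

lemma dualRep_apply' (σ : GQ) (l : V →+ Additive Qbˣ) (v : V) :
    dualRep ρ σ l (ρ σ v) = aact σ (l v) := by
  rw [dualRep_apply, ← end_mul_apply, ← map_mul, inv_mul_cancel, map_one]; rfl

/-- the fixing subgroup of roots of unity is open -/
lemma exists_level_mu {n : ℕ} (hn : n ≠ 0) :
    ∃ U ∈ galLevels ℚ Qb, ∀ σ ∈ U, ∀ ζ : Qb, ζ ^ n = 1 → σ ζ = ζ := by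
  have : NeZero n := ⟨hn⟩
  have : NeZero (n : Qb) := ⟨by exact_mod_cast hn⟩
  obtain ⟨ζ₀, hζ₀⟩ := HasEnoughRootsOfUnity.exists_primitiveRoot Qb n
  have hfd : FiniteDimensional ℚ (IntermediateField.adjoin ℚ {ζ₀}) :=
    IntermediateField.adjoin.finiteDimensional (Algebra.IsIntegral.isIntegral ζ₀)
  refine ⟨(IntermediateField.adjoin ℚ {ζ₀}).fixingSubgroup, mem_galLevels.2 ⟨_, hfd, le_rfl⟩, ?_⟩
  intro σ hσ ζ hζ
  obtain ⟨b, -, rfl⟩ := hζ₀.eq_pow_of_pow_eq_one hζ
  rw [map_pow, (IntermediateField.mem_fixingSubgroup_iff _ _).1 hσ ζ₀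
    (IntermediateField.mem_adjoin_simple_self ℚ ζ₀)]

lemma dual_pow_apply {f : AddMonoid.End V} {F : AddMonoid.End (V →+ Additive Qbˣ)}
    (h : ∀ l v, F l v = l (f v)) (n : ℕ) (l : V →+ Additive Qbˣ) (v : V) :
    (F ^ n) l v = l ((f ^ n) v) := by
  induction n generalizing v with
  | zero => rfl
  | succ n ih =>
    rw [pow_succ', pow_succ, end_mul_apply, end_mul_apply, h, ih]

variable {r k : ℕ}

lemma Adm.nsmul_char (h : Adm r k ρ) (l : V →+ Additive Qbˣ) (v : V) : (r ^ k) • l v = 0 := by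
  rw [← map_nsmul, h.tors, map_zero]

theorem Adm.dual (hr : r.Prime) (h : Adm r k ρ) : Adm r k (dualRep ρ) where
  tors l := by
    apply AddMonoidHom.ext; intro v
    exact h.nsmul_char l v
  level := by
    obtain ⟨U, hU, h1⟩ := h.level
    obtain ⟨U', hU', h2⟩ := exists_level_mu (pow_ne_zero k hr.ne_zero)
    refine ⟨U ⊓ U', Levels.inf_mem hU hU', fun σ hσ => ?_⟩
    apply AddMonoidHom.ext; intro l
    apply AddMonoidHom.ext; intro v
    change aact σ (l (ρ σ⁻¹ v)) = l v
    rw [h1 σ⁻¹ (U.inv_mem hσ.1), aact_eq_self (h2 σ hσ.2) (h.nsmul_char l _)]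
    rfl
  nilp σ a ha := by
    -- exponents
    obtain ⟨b, hb⟩ := exists_exp (pow_ne_zero (k + 1) hr.ne_zero) σ
    obtain ⟨a', ha'⟩ := exists_exp hr.ne_zero σ⁻¹
    have hbr : ∀ ζ : Qb, ζ ^ r = 1 → σ ζ = ζ ^ b := fun ζ hζ => hb ζ (by
      rw [pow_succ', pow_mul, hζ, one_pow])
    have : NeZero (r : Qb) := ⟨by exact_mod_cast hr.ne_zero⟩
    obtain ⟨ζ₀, hζ₀⟩ := HasEnoughRootsOfUnity.exists_primitiveRoot Qb r
    have hmod1 : (r : ℤ) ∣ (b : ℤ) - a := by
      have h1 := (ha ζ₀ hζ₀.pow_eq_one).symm.trans (hbr ζ₀ hζ₀.pow_eq_one)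
      exact dvd_of_pow_eq hr.ne_zero hζ₀ h1
    have hmod2 : (r : ℤ) ∣ (b : ℤ) * a' - 1 := by
      have h1 : ζ₀ ^ (b * a') = ζ₀ := by
        rw [pow_mul, ← hbr ζ₀ hζ₀.pow_eq_one, ← ha' (σ ζ₀) (by
          rw [← map_pow, hζ₀.pow_eq_one, map_one]), ← AlgEquiv.mul_apply, inv_mul_cancel]
        rfl
      have h2 := dvd_of_pow_eq hr.ne_zero hζ₀ (a := 1) (b := b * a') (by rw [pow_one, h1])
      push_cast at h2
      exact h2
    obtain ⟨m, hm⟩ := hmod1
    obtain ⟨n, hn⟩ := hmod2
    -- the operator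
    let X : AddMonoid.End (V →+ Additive Qbˣ) :=
      { toFun := fun l => l.comp (ρ σ⁻¹ : V →+ V)
        map_zero' := by ext v; rfl
        map_add' := fun l m => by ext v; rfl }
    have hXa : ∀ l v, X l v = l (ρ σ⁻¹ v) := fun _ _ => rfl
    have hρX : dualRep ρ σ = (b : AddMonoid.End (V →+ Additive Qbˣ)) * X := by
      apply End_ext; intro l
      apply AddMonoidHom.ext; intro v
      rw [end_mul_apply, AddMonoid.End.natCast_apply]
      change aact σ (l (ρ σ⁻¹ v)) = b • (l (ρ σ⁻¹ v))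
      rw [aact_eq_nsmul (n := r ^ k) (fun ζ hζ => hb ζ (by rw [pow_succ, pow_mul, hζ, one_pow]))
        (h.nsmul_char l _)]
    have hQ : IsNilpotent ((X - 1) * (X - (a' : AddMonoid.End (V →+ Additive Qbˣ)))) := by
      obtain ⟨j, hj⟩ := h.nilp σ⁻¹ a' ha'
      refine ⟨j, ?_⟩
      apply End_ext; intro l
      apply AddMonoidHom.ext; intro v
      rw [dual_pow_apply (f := (ρ σ⁻¹ - 1) * (ρ σ⁻¹ - (a' : AddMonoid.End V))) _ j l v, hj]
      · change l 0 = 0
        rw [map_zero]
      · intro l v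
        change X (X l - (a' : AddMonoid.End (V →+ Additive Qbˣ)) l) v -
          (X l - (a' : AddMonoid.End (V →+ Additive Qbˣ)) l) v =
          l (ρ σ⁻¹ (ρ σ⁻¹ v - (a' : AddMonoid.End V) v) - (ρ σ⁻¹ v - (a' : AddMonoid.End V) v))
        rw [AddMonoid.End.natCast_apply, AddMonoid.End.natCast_apply]
        simp only [map_sub, map_nsmul, hXa, AddMonoidHom.sub_apply]
        rfl
    have hr0 : IsNilpotent ((r : AddMonoid.End (V →+ Additive Qbˣ))) := by
      refine ⟨k, ?_⟩
      rw [← Nat.cast_pow]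
      apply End_ext; intro l
      rw [AddMonoid.End.natCast_apply]
      apply AddMonoidHom.ext; intro v
      exact h.nsmul_char l v
    -- polynomial identity
    have hpoly : ((b : ℤ[X]) * Polynomial.X - 1) * ((b : ℤ[X]) * Polynomial.X - (a : ℤ[X])) =
        ((a * b : ℤ[X])) * ((Polynomial.X - 1) * (Polynomial.X - (a' : ℤ[X]))) +
        (r : ℤ[X]) * ((b : ℤ[X]) * (m : ℤ[X]) * (Polynomial.X - (a' : ℤ[X])) * Polynomial.X +
          (n : ℤ[X]) * (a : ℤ[X]) * (Polynomial.X - 1) + (r : ℤ[X]) * (n : ℤ[X]) * (m : ℤ[X]) *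
          Polynomial.X) := by
      have hm' : (b : ℤ[X]) - (a : ℤ[X]) = (r : ℤ[X]) * (m : ℤ[X]) := by
        have := congrArg (Int.cast : ℤ → ℤ[X]) hm
        push_cast at this
        exact this
      have hn' : (b : ℤ[X]) * (a' : ℤ[X]) - 1 = (r : ℤ[X]) * (n : ℤ[X]) := by
        have := congrArg (Int.cast : ℤ → ℤ[X]) hn
        push_cast at this
        exact this
      linear_combination ((b : ℤ[X]) * (Polynomial.X - (a' : ℤ[X])) + (r : ℤ[X]) * (n : ℤ[X])) *
        Polynomial.X * hm' + ((a : ℤ[X]) * (Polynomial.X - 1) +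
        ((b : ℤ[X]) - (a : ℤ[X])) * Polynomial.X ) * hn'
    set f := aeval (R := ℤ) X with hf
    have h1 := congrArg f hpoly
    have h2 : dualRep ρ σ - 1 = f ((b : ℤ[X]) * Polynomial.X - 1) := by
      rw [hρX, hf]; simp
    have h3 : dualRep ρ σ - (a : AddMonoid.End (V →+ Additive Qbˣ)) =
        f ((b : ℤ[X]) * Polynomial.X - (a : ℤ[X])) := by
      rw [hρX, hf]; simp
    rw [h2, h3, ← map_mul, h1, map_add]
    apply Commute.isNilpotent_add
    · exact (Commute.all _ _).map f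
    · rw [map_mul]
      apply Commute.isNilpotent_mul_left
      · exact (Commute.all _ _).map f
      · have : f ((Polynomial.X - 1) * (Polynomial.X - (a' : ℤ[X]))) =
            (X - 1) * (X - (a' : AddMonoid.End (V →+ Additive Qbˣ))) := by
          rw [hf]; simp
        rw [this]; exact hQ
    · rw [map_mul]
      apply Commute.isNilpotent_mul_right
      · exact (Commute.all _ _).map f
      · rw [map_natCast]; exact hr0

/-- annihilators -/
def ann (W : AddSubgroup V) : AddSubgroup (V →+ Additive Qbˣ) where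
  carrier := {l | ∀ w ∈ W, l w = 0}
  add_mem' := fun {a b} ha hb w hw => by
    rw [AddMonoidHom.add_apply, ha w hw, hb w hw, add_zero]
  zero_mem' := fun _ _ => rfl
  neg_mem' := fun {a} ha w hw => by rw [AddMonoidHom.neg_apply, ha w hw, neg_zero]

lemma mem_ann {W : AddSubgroup V} {l : V →+ Additive Qbˣ} : l ∈ ann W ↔ ∀ w ∈ W, l w = 0 := Iff.rfl

/-- annihilators are duals of quotients -/
noncomputable def annEquiv (W : AddSubgroup V) : ann W ≃ ((V ⧸ W) →+ Additive Qbˣ) where
  toFun l := QuotientAddGroup.lift W (l : V →+ Additive Qbˣ) (fun w hw => l.2 w hw)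
  invFun m := ⟨m.comp (QuotientAddGroup.mk' W), fun w hw => by
    change m (QuotientAddGroup.mk w) = 0
    rw [(QuotientAddGroup.eq_zero_iff w).2 hw, map_zero]⟩
  left_inv l := Subtype.ext (AddMonoidHom.ext fun v => rfl)
  right_inv m := AddMonoidHom.ext fun v => by
    obtain ⟨v, rfl⟩ := QuotientAddGroup.mk_surjective v
    rfl

lemma card_ann [Finite V] (W : AddSubgroup V) : Nat.card (ann W) = Nat.card (V ⧸ W) := by
  rw [Nat.card_congr (annEquiv W), card_char]

/-- an element killed by the annihilator -/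
lemma mem_of_ann [Finite V] {W : AddSubgroup V} {v : V} (h : ∀ l ∈ ann W, l v = 0) : v ∈ W := by
  rw [← QuotientAddGroup.eq_zero_iff]
  apply char_ext
  intro m
  rw [map_zero]
  exact h _ ((annEquiv W).symm m).2

/-- characters of the annihilator are evaluations -/
lemma exists_eval [Finite V] (W : AddSubgroup V) (L : ann W →+ Additive Qbˣ) :
    ∃ v : V, ∀ l : ann W, L l = (l : V →+ Additive Qbˣ) v := by
  let ev : V →+ (ann W →+ Additive Qbˣ) :=
    { toFun := fun v =>
        { toFun := fun l => (l : V →+ Additive Qbˣ) v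
          map_zero' := rfl
          map_add' := fun _ _ => rfl }
      map_zero' := by ext l; exact congrArg _ (map_zero (l : V →+ Additive Qbˣ))
      map_add' := fun v w => by
        apply AddMonoidHom.ext
        intro l
        exact map_add (l : V →+ Additive Qbˣ) v w }
  have hker : ev.ker ≤ W := by
    intro v hv
    apply mem_of_ann
    intro l hl
    exact DFunLike.congr_fun ((AddMonoidHom.mem_ker).1 hv) ⟨l, hl⟩
  have hcard : Nat.card (ann W →+ Additive Qbˣ) ≤ Nat.card ev.range := by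
    rw [card_char, card_ann, ← Nat.card_congr (QuotientAddGroup.quotientKerEquivRange ev).toEquiv]
    have h1 := W.card_eq_card_quotient_mul_card_addSubgroup
    have h2 := ev.ker.card_eq_card_quotient_mul_card_addSubgroup
    have h3 : Nat.card ev.ker ≤ Nat.card W :=
      Nat.card_le_card_of_injective (AddSubgroup.inclusion hker) (AddSubgroup.inclusion_injective hker)
    have h4 : 0 < Nat.card W := Nat.card_pos
    have h5 : Nat.card (V ⧸ W) * Nat.card W = Nat.card (V ⧸ ev.ker) * Nat.card ev.ker := by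
      rw [← h1, h2]
    by_contra hlt
    push Not at hlt
    have h6 : Nat.card (V ⧸ ev.ker) * Nat.card ev.ker < Nat.card (V ⧸ W) * Nat.card W :=
      lt_of_le_of_lt (Nat.mul_le_mul_left _ h3) ((Nat.mul_lt_mul_right h4).2 hlt)
    rw [h5] at h6
    exact lt_irrefl _ h6
  have hsurj : ev.range = ⊤ := by
    apply AddSubgroup.eq_top_of_le_card
    exact hcard
  have hL : L ∈ ev.range := by rw [hsurj]; trivial
  obtain ⟨v, hv⟩ := hL
  exact ⟨v, fun l => by rw [← hv]; rfl⟩

/-- local condition for the dual -/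
theorem LocCond.dual {A : ValuationSubring Qb} {V0 : AddSubgroup V} (hr : r.Prime)
    (hadm : Adm r k ρ) (h : LocCond r k A ρ V0) : LocCond r k A (dualRep ρ) (ann V0) where
  quot σ hσ l := by
    intro v hv
    obtain ⟨a, ha⟩ := exists_exp (pow_ne_zero k hr.ne_zero) σ
    have h1 := h.cyc σ hσ a ha v hv
    have hin : ρ σ⁻¹ v ∈ V0 := by
      have h2 := h.quot σ⁻¹ (inv_mem hσ) v
      have h3 := V0.add_mem h2 hv
      rwa [sub_add_cancel] at h3
    have h2 : v = a • (ρ σ⁻¹ v) := by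
      rw [← h.cyc σ hσ a ha _ hin, ← end_mul_apply, ← map_mul, mul_inv_cancel, map_one]
      rfl
    rw [AddMonoidHom.sub_apply, dualRep_apply, aact_eq_nsmul ha (hadm.nsmul_char l _), ← map_nsmul,
      ← h2, sub_self]
  cyc σ hσ a ha l hl := by
    apply AddMonoidHom.ext; intro v
    have h2 := h.quot σ⁻¹ (inv_mem hσ) v
    have h3 := hl _ h2
    rw [map_sub, sub_eq_zero] at h3
    rw [dualRep_apply, aact_eq_nsmul ha (hadm.nsmul_char l _), h3]
    rfl

end Fermat.Agent.Mazur
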