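import Fermat.Agent.Mazur.VK

/-!
# The endgame of the Eisenstein descent
-/

set_option autoImplicit false

open scoped Pointwise
open Fermat.Agent.Frob Fermat.Agent.CFT

namespace Fermat.Agent.Mazur

local notation "Qb" => AlgebraicClosure ℚ
local notation "GQ" => AlgebraicClosure ℚ ≃ₐ[ℚ] AlgebraicClosure ℚ

section Proj

variable {J : Type} [AddCommGroup J] {R : Type} [CommRing R] [Module R J]

/-- the projector to the `𝔪`-primary part -/
theorem exists_proj (mI : Ideal R) {n : ℕ} (hfin : Finite (tor J n)) :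
    ∃ e : R, (∀ x : J, n • x = 0 → e • x ∈ VK J mI n) ∧ ∀ x ∈ VK J mI n, e • x = x := by
  -- the annihilator
  let 𝔞 : Ideal R :=
    { carrier := {t | ∀ x : J, n • x = 0 → t • x = 0}
      add_mem' := fun {s t} hs ht x hx => by rw [add_smul, hs x hx, ht x hx, add_zero]
      zero_mem' := fun x _ => zero_smul R x
      smul_mem' := fun s t ht x hx => by
        change (s * t) • x = 0
        rw [mul_smul, ht x hx, smul_zero] }
  have h𝔞 : ∀ t, t ∈ 𝔞 ↔ ∀ x : J, n • x = 0 → t • x = 0 := fun _ => Iff.rfl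
  have hfinS : Finite (R ⧸ 𝔞) := by
    let g : R → (tor J n → J) := fun t x => t • (x : J)
    have hg : ∀ s t : R, g s = g t → (Ideal.Quotient.mk 𝔞 s) = Ideal.Quotient.mk 𝔞 t := by
      intro s t h
      rw [Ideal.Quotient.eq, h𝔞]
      intro x hx
      have := congrFun h ⟨x, hx⟩
      rw [sub_smul]
      exact sub_eq_zero.2 this
    have hgmem : ∀ t : R, ∀ x : tor J n, t • (x : J) ∈ tor J n := by
      intro t x
      rw [mem_tor, smul_comm, mem_tor.1 x.2, smul_zero]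
    let g' : R → (tor J n → tor J n) := fun t x => ⟨t • (x : J), hgmem t x⟩
    let f : (R ⧸ 𝔞) → (tor J n → tor J n) := fun q => g' (Quotient.out q)
    refine Finite.of_injective f ?_
    intro a b hab
    have h1 := hg (Quotient.out a) (Quotient.out b) (by
      funext x
      exact congrArg Subtype.val (congrFun hab x))
    have ha : Ideal.Quotient.mk 𝔞 (Quotient.out a) = a := Quotient.out_eq a
    have hb : Ideal.Quotient.mk 𝔞 (Quotient.out b) = b := Quotient.out_eq b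
    rw [ha, hb] at h1
    exact h1
  set π := Ideal.Quotient.mk 𝔞 with hπ
  have hsurj : Function.Surjective π := Ideal.Quotient.mk_surjective
  set m := mI.map π with hm
  -- stabilisation
  obtain ⟨i, hi⟩ := IsArtinian.monotone_stabilizes (R := R ⧸ 𝔞) (M := R ⧸ 𝔞)
    ⟨fun i => OrderDual.toDual (m ^ i), fun i j hij => Ideal.pow_le_pow_right hij⟩
  have hi' : ∀ j, i ≤ j → m ^ i = m ^ j := fun j hj => hi j hj
  have hidem : IsIdempotentElem (m ^ i) := by
    change m ^ i * m ^ i = m ^ i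
    rw [← pow_add, ← hi' (i + i) (Nat.le_add_left i i)]
  obtain ⟨f, hf, hf'⟩ := (Ideal.isIdempotentElem_iff_of_fg (m ^ i)
    (IsNoetherian.noetherian (m ^ i))).1 hidem
  obtain ⟨F, rfl⟩ := hsurj f
  refine ⟨1 - F, fun x hx => ⟨by rw [smul_comm, hx, smul_zero], i, fun t ht => ?_⟩, fun x hx => ?_⟩
  · have h1 : π t ∈ m ^ i := by rw [hm, ← Ideal.map_pow]; exact Ideal.mem_map_of_mem _ ht
    rw [hf', Ideal.mem_span_singleton'] at h1
    obtain ⟨s, hs⟩ := h1
    have h2 : π (t * (1 - F)) = 0 := by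
      rw [map_mul, map_sub, map_one, ← hs, mul_sub, mul_one, mul_assoc, hf.eq, sub_self]
    have h3 : t * (1 - F) ∈ 𝔞 := Ideal.Quotient.eq_zero_iff_mem.1 h2
    rw [← mul_smul]
    exact h3 x hx
  · obtain ⟨h1, j, hj⟩ := hx
    have h2 : π F ∈ m ^ (i + j) := by
      rw [← hi' (i + j) (Nat.le_add_right _ _), hf']
      exact Ideal.mem_span_singleton_self _
    rw [hm, ← Ideal.map_pow, Ideal.mem_map_iff_of_surjective _ hsurj] at h2
    obtain ⟨F', hF', hFF'⟩ := h2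
    have h3 : F - F' ∈ 𝔞 := by
      rw [← Ideal.Quotient.eq]; exact hFF'.symm
    have h4 := h3 x h1
    rw [sub_smul, hj F' (Ideal.pow_le_pow_right (Nat.le_add_left _ _) hF'), sub_zero] at h4
    rw [sub_smul, one_smul, h4, sub_zero]

/-- powers of the Eisenstein ideal acting on an Eisenstein element -/
lemma eis_pow {mI : Ideal R} {r : ℕ} {c : J} (hc0 : ∀ t : R, ∃ s : ℤ, t • c = s • c)
    (hc : ∀ t ∈ mI, ∃ s : ℤ, t • c = ((r : ℤ) * s) • c)
    (j : ℕ) : ∀ t ∈ mI ^ j, ∃ s : ℤ, t • c = ((r : ℤ) ^ j * s) • c := by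
  induction j with
  | zero =>
    intro t _
    obtain ⟨s, hs⟩ := hc0 t
    exact ⟨s, by rw [pow_zero, one_mul, hs]⟩
  | succ j ih =>
    intro t ht
    rw [pow_succ] at ht
    refine Submodule.mul_induction_on ht (fun a ha b hb => ?_) (fun a b ha hb => ?_)
    · obtain ⟨s, hs⟩ := ih a ha
      obtain ⟨s', hs'⟩ := hc b hb
      refine ⟨s * s', ?_⟩
      rw [mul_smul, hs', smul_comm a, hs, smul_smul]
      congr 1
      ring
    · obtain ⟨s, hs⟩ := ha
      obtain ⟨s', hs'⟩ := hb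
      refine ⟨s + s', ?_⟩
      rw [add_smul, hs, hs', ← add_smul]
      congr 1
      ring

/-- a finite image has an exponent -/
lemma exists_exponent {G G' : Type*} [AddCommGroup G] [AddCommGroup G'] (f : G →+ G')
    (Q : AddSubgroup G) (h : (f '' (Q : Set G)).Finite) :
    ∃ n : ℕ, n ≠ 0 ∧ ∀ x ∈ Q, n • f x = 0 := by
  have hfin : Finite (Q.map f) := h
  refine ⟨Nat.card (Q.map f), Nat.card_pos.ne', fun x hx => ?_⟩
  have h1 : Nat.card (Q.map f) • (⟨f x, x, hx, rfl⟩ : Q.map f) = 0 := card_nsmul_eq_zero'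
  exact congrArg Subtype.val h1

end Proj

section Final

variable {r N : ℕ} {J : Type} [AddCommGroup J] [DistribMulAction GQ J] {R : Type}
  [CommRing R] [Module R J] {mI : Ideal R} {A : ValuationSubring Qb}
  {B : ℕ → ValuationSubring Qb} {K0 : AddSubgroup J} {M M1 M2 : ℕ}

/-- rational points -/
def fixQ (J : Type) [AddCommGroup J] [DistribMulAction GQ J] : AddSubgroup J where
  carrier := {x | ∀ σ : GQ, σ • x = x}
  add_mem' := fun {a b} ha hb σ => by rw [smul_add, ha σ, hb σ]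
  zero_mem' := fun σ => smul_zero σ
  neg_mem' := fun {a} ha σ => by rw [smul_neg, ha σ]

lemma mem_fixQ {x : J} : x ∈ fixQ J ↔ ∀ σ : GQ, σ • x = x := Iff.rfl

lemma EisInput.bigK_ne_zero (I : EisInput r N J R mI A B K0 M M1 M2) (hr : r.Prime)
    (hN : N.Prime) (hM : M ≠ 0) (hM1 : M1 ≠ 0) (hM2 : M2 ≠ 0) : bigK r N J M M1 M2 ≠ 0 := by
  have h1 := I.finTor (M * (r * M1)) (mul_ne_zero hM (mul_ne_zero hr.ne_zero hM1))
  have h2 := I.finTor M hM
  have h3 : 2 ≤ N := hN.two_le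
  have h4 : N - 1 ≠ 0 := by omega
  have h5 : N ^ 2 - 1 ≠ 0 := by
    have : 2 ^ 2 ≤ N ^ 2 := Nat.pow_le_pow_left h3 2
    omega
  have h6 : Nat.card (tor J (M * (r * M1))) ≠ 0 := Nat.card_pos.ne'
  have h7 : Nat.card (tor J M) ≠ 0 := Nat.card_pos.ne'
  unfold bigK
  exact mul_ne_zero (mul_ne_zero (mul_ne_zero (pow_ne_zero _ h6) (mul_ne_zero
    (mul_ne_zero hr.ne_zero hM1) (mul_ne_zero (mul_ne_zero hr.ne_zero hM2) (pow_ne_zero _ h7))))
    (pow_ne_zero _ h6)) (mul_ne_zero h4 h5)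

/-- fixed vectors in the local part vanish for odd `r` -/
lemma EisInput.eq_zero_of_fixed (I : EisInput r N J R mI A B K0 M M1 M2) (hr : r.Prime)
    (hr2 : r ≠ 2) (hA : A.LiesOverPrime r) {k : ℕ} (hk : k ≠ 0) {x : J} (hx : x ∈ K0)
    (hxV : x ∈ VK J mI (r ^ k)) (hfix : ∀ σ : GQ, σ • x = x) : x = 0 := by
  have h1 : ∃ σ ∈ A.inertiaSubgroupIn ℚ, ∃ ζ : Qb, ζ ^ r = 1 ∧ σ ζ ≠ ζ := by
    by_contra hcon
    push Not at hcon
    exact hr2 (eq_two_of_inertia_fixes hr hA hcon)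
  obtain ⟨σ, hσ, ζ, hζ, hne⟩ := h1
  obtain ⟨b, hb⟩ := exists_exp (pow_ne_zero k hr.ne_zero) σ
  have h2 := I.cyc σ hσ k b hb x hx hxV
  rw [hfix] at h2
  have hζk : ζ ^ (r ^ k) = 1 := by
    obtain ⟨j, rfl⟩ := Nat.exists_eq_succ_of_ne_zero hk
    rw [pow_succ', pow_mul, hζ, one_pow]
  have hζ0 : ζ ≠ 0 := by
    rintro rfl
    rw [zero_pow hr.ne_zero] at hζ
    exact zero_ne_one hζ
  have h3 : ¬ (r : ℤ) ∣ (b : ℤ) - 1 := by
    rintro ⟨j, hj⟩
    apply hne
    rw [hb ζ hζk, ← zpow_natCast, show (b : ℤ) = (r : ℤ) * j + 1 by linarith,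
      zpow_add₀ hζ0, zpow_mul, zpow_natCast, hζ, one_zpow, one_mul, zpow_one]
  have hcop : IsCoprime ((b : ℤ) - 1) (((r ^ k : ℕ) : ℤ)) := by
    push_cast
    apply IsCoprime.pow_right
    exact ((Nat.prime_iff_prime_int.1 hr).coprime_iff_not_dvd.2 h3).symm
  obtain ⟨u, v, huv⟩ := hcop
  have h4 : ((b : ℤ) - 1) • x = 0 := by
    rw [sub_smul, one_smul, natCast_zsmul, ← h2, sub_self]
  have h5 : x = (u * ((b : ℤ) - 1) + v * ((r ^ k : ℕ) : ℤ)) • x := by rw [huv, one_smul]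
  rw [h5, add_smul, mul_smul, h4, smul_zero, zero_add, mul_smul, natCast_zsmul, hxV.1, smul_zero]

/-- **The Eisenstein contradiction.** -/
theorem EisInput.contradiction (I : EisInput r N J R mI A B K0 M M1 M2) (hr : r.Prime)
    (hN : N.Prime) (hNr : N ≠ r) (hA : A.LiesOverPrime r)
    (hB : ∀ q, q.Prime → (B q).LiesOverPrime q) (hM : M ≠ 0) (hM1 : M1 ≠ 0) (hM2 : M2 ≠ 0)
    {Jl Js : Type} [AddCommGroup Jl] [AddCommGroup Js] (spl : J →+ Jl) (sps : J →+ Js)
    (hlfin : (spl '' (fixQ J : Set J)).Finite) (hsfin : (sps '' (fixQ J : Set J)).Finite)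
    (hlR : ∀ (t : R) (x : J), spl x = 0 → spl (t • x) = 0)
    (hsR : ∀ (t : R) (x : J), sps x = 0 → sps (t • x) = 0)
    (hsinj : ∀ x : J, (∃ n : ℕ, (r ^ n) • x = 0) → sps x = 0 → x = 0)
    (hl : (∀ x : J, (∃ n : ℕ, (r ^ n) • x = 0) → spl x = 0 → x = 0) ∨
      (r ≠ 2 ∧ ∀ x : J, spl x = 0 → x ∈ K0))
    {c : J} (hcfin : addOrderOf c ≠ 0) (hcr : r ∣ addOrderOf c)
    (hc0 : ∀ t : R, ∃ s : ℤ, t • c = s • c)
    (hcm : ∀ t ∈ mI, ∃ s : ℤ, t • c = ((r : ℤ) * s) • c)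
    {y : J} (hy : ∀ σ : GQ, σ • y = y) (hyl : spl y = 0) (hys : sps y = sps c) : False := by
  -- constants
  have hbig := I.bigK_ne_zero hr hN hM hM1 hM2
  obtain ⟨b, K', hK', hbK⟩ := Nat.exists_eq_pow_mul_and_not_dvd hbig r hr.ne_one
  obtain ⟨nl, hnl, hnl'⟩ := exists_exponent spl (fixQ J) hlfin
  obtain ⟨ns, hns, hns'⟩ := exists_exponent sps (fixQ J) hsfin
  obtain ⟨al, ml, hml, hal⟩ := Nat.exists_eq_pow_mul_and_not_dvd hnl r hr.ne_one
  obtain ⟨as, ms, hms, has⟩ := Nat.exists_eq_pow_mul_and_not_dvd hns r hr.ne_one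
  obtain ⟨v, n', hn', hv⟩ := Nat.exists_eq_pow_mul_and_not_dvd hcfin r hr.ne_one
  have hv0 : v ≠ 0 := by
    rintro rfl
    rw [pow_zero, one_mul] at hv
    exact hn' (hv ▸ hcr)
  set d := al + as + v with hd
  set k := b + d with hk
  have hk0 : k ≠ 0 := by omega
  have hcop : ∀ {m : ℕ}, ¬ r ∣ m → ∀ j, m.Coprime (r ^ j) := fun hm j =>
    Nat.Coprime.pow_right j ((hr.coprime_iff_not_dvd.2 hm).symm)
  -- the projector
  obtain ⟨e, he1, he2⟩ := exists_proj mI (I.finTor (r ^ k) (pow_ne_zero k hr.ne_zero))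
  obtain ⟨z, hz, hze⟩ := I.descent hr hN hNr hA hB hk0 he1 hy
  have hfixR : ∀ (t : R) {x : J}, x ∈ fixQ J → t • x ∈ fixQ J := fun t x hx σ => by
    rw [I.comm, hx σ]
  have hey : e • y ∈ fixQ J := hfixR e hy
  -- step (1)
  obtain ⟨z1, hz1, hz1e⟩ : ∃ z1 ∈ fixQ J, (r ^ b) • (e • y) = (r ^ k) • z1 := by
    have h1 : IsCoprime (K' : ℤ) ((r ^ k : ℕ) : ℤ) := Nat.isCoprime_iff_coprime.2 (hcop hK' k)
    obtain ⟨α, β, hαβ⟩ := h1
    refine ⟨α • z + β • ((r ^ b) • (e • y)), add_mem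
      (AddSubgroup.zsmul_mem _ (show z ∈ fixQ J from hz) _) (AddSubgroup.zsmul_mem _ (AddSubgroup.nsmul_mem _ hey _) _), ?_⟩
    have h2 : (r ^ b) • (e • y) = (α * (K' : ℤ) + β * ((r ^ k : ℕ) : ℤ)) • ((r ^ b) • (e • y)) := by
      rw [hαβ, one_smul]
    refine h2.trans ?_
    rw [add_smul, mul_smul, mul_smul, natCast_zsmul, natCast_zsmul, smul_smul K' (r ^ b),
      mul_comm K', ← hbK, hze, nsmul_add, smul_comm (r ^ k) α z, smul_comm (r ^ k) β]
  -- step (2)
  set t := e • y - (r ^ d) • z1 with ht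
  have htQ : t ∈ fixQ J := sub_mem hey (AddSubgroup.nsmul_mem _ hz1 _)
  have htb : (r ^ b) • t = 0 := by
    rw [ht, nsmul_sub, hz1e, smul_smul, ← pow_add, ← hk, sub_self]
  -- step (3)
  have hred : ∀ {G : Type} [AddCommGroup G] (f : J →+ G) (a m : ℕ), ¬ r ∣ m → a ≤ d →
      (∀ x ∈ fixQ J, (r ^ a * m) • f x = 0) → ∀ x ∈ fixQ J, m • f ((r ^ d) • x) = 0 := by
    intro G _ f a m _ had hf x hx
    have h1 := hf x hx
    rw [map_nsmul, smul_smul]
    obtain ⟨j, hj⟩ := Nat.exists_eq_add_of_le had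
    rw [hj, pow_add, show m * (r ^ a * r ^ j) = r ^ j * (r ^ a * m) by ring, mul_smul, h1,
      smul_zero]
  have hsplt : spl t = 0 := by
    have h1 : spl (e • y) = 0 := hlR e y hyl
    have h2 := hred spl al ml hml (by omega) (fun x hx => by rw [← hal]; exact hnl' x hx) z1 hz1
    have h3 : ml • spl t = 0 := by
      rw [ht, map_sub, h1, zero_sub, smul_neg, h2, neg_zero]
    have h4 : (r ^ b) • spl t = 0 := by rw [← map_nsmul, htb, map_zero]
    exact eq_zero_of_coprime_nsmul (hcop hml b) h3 h4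
  -- step (4)
  have het : e • t = 0 := by
    rcases hl with h | ⟨hr2, h⟩
    · rw [h t ⟨b, htb⟩ hsplt, smul_zero]
    · have htk : (r ^ k) • t = 0 := by
        rw [hk, pow_add, mul_comm, mul_smul, htb, smul_zero]
      exact I.eq_zero_of_fixed hr hr2 hA hk0 (I.stab e t (h t hsplt)) (he1 t htk)
        (hfixR e htQ)
  -- step (5)
  have h5 : e • (e • y) = (r ^ d) • (e • z1) := by
    rw [ht, smul_sub, sub_eq_zero] at het
    rw [het, smul_comm]
  -- step (6)
  have h6 : ms • sps (e • (e • c)) = 0 := by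
    have h1 : sps (e • (e • y)) = sps (e • (e • c)) := by
      have h2 : sps (y - c) = 0 := by rw [map_sub, hys, sub_self]
      have h3 := hsR e _ (hsR e _ h2)
      rw [smul_sub, smul_sub, map_sub, sub_eq_zero] at h3
      exact h3
    rw [← h1, h5]
    exact hred sps as ms hms (by omega) (fun x hx => by rw [← has]; exact hns' x hx) _
      (hfixR e hz1)
  -- step (7)
  set cr := n' • c with hcr'
  have hcrv : (r ^ v) • cr = 0 := by
    rw [hcr', smul_smul, ← hv, addOrderOf_nsmul_eq_zero]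
  have hcrne : cr ≠ 0 := by
    intro h0
    have h1 := addOrderOf_dvd_of_nsmul_eq_zero h0
    rw [hv] at h1
    exact hn' ((dvd_pow_self r hv0).trans ((dvd_mul_right _ _).trans h1))
  have hcrk : (r ^ k) • cr = 0 := by
    rw [show k = (b + al + as) + v by omega, pow_add, mul_smul, hcrv, smul_zero]
  have hcrV : cr ∈ VK J mI (r ^ k) := by
    refine ⟨hcrk, v, fun t ht => ?_⟩
    obtain ⟨s, hs⟩ := eis_pow hc0 hcm v t ht
    rw [hcr', smul_comm t n' c, hs, smul_comm n' _ c, ← hcr', mul_comm, mul_smul]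
    have h1 : ((r : ℤ) ^ v) • cr = 0 := by
      rw [show ((r : ℤ) ^ v) = ((r ^ v : ℕ) : ℤ) by push_cast; rfl, natCast_zsmul, hcrv]
    rw [h1, smul_zero]
  have hecr : e • (e • cr) = cr := by rw [he2 cr hcrV, he2 cr hcrV]
  have h7 : ms • sps cr = 0 := by
    rw [← hecr, hcr', smul_comm e n' c, smul_comm e n' (e • c), map_nsmul, smul_comm ms n', h6,
      smul_zero]
  have h8 : (r ^ v) • sps cr = 0 := by rw [← map_nsmul, hcrv, map_zero]
  exact hcrne (hsinj cr ⟨v, hcrv⟩ (eq_zero_of_coprime_nsmul (hcop hms v) h7 h8))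

end Final

end Fermat.Agent.Mazur
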