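import Fermat.Agent.Mazur.CT
import Fermat.Agent.QComp.ModStrong

/-!
# Inertia at `p` on `J₀(p)`
-/

set_option autoImplicit false

noncomputable section

open ModularCurve AlgebraicCurve Fermat.Agent.Frob

namespace Fermat.Agent.Mazur

theorem uniForm (p : ℕ) [hp : Fact p.Prime] {r : ℕ} (hr : r.Prime) (hrp : r ≠ p) :
    UniForm p r := by
  intro A hA σ hσ τ hτ x hx
  have key : ∀ (N : ℕ) [NeZero N], N = 1 * p → ∀ x : JZero N, (∃ n : ℕ, (r ^ n) • x = 0) →
      σ • (τ • x - x) = τ • x - x := by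
    intro N _ hN
    subst hN
    intro x hx
    exact QComp.a34_strong (M := 1) (q := p)
      (fun h => hp.out.one_lt.ne' (Nat.dvd_one.1 h)) hr hrp A hA hτ hσ x hx
  exact key p (one_mul p).symm x hx

end Fermat.Agent.Mazur
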