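import Fermat.Agent.Mazur.Stmts
import Fermat.Agent.Mazur.Uni
import Fermat.Agent.Ord.B3

/-!
# The local inputs
-/

set_option autoImplicit false

noncomputable section

open ModularCurve AlgebraicCurve Fermat.Agent.Frob Fermat.Agent.Red

namespace Fermat.Agent.Mazur

theorem geoInputs (p : ℕ) [hp : Fact p.Prime] : GeoInputs p where
  cyc := fun r hrp A hA => by
    haveI : Fact (r : ℕ).Prime := ⟨r.2⟩
    have hN : ¬ (r : ℕ) ∣ p := fun h => hrp ((Nat.prime_dvd_prime_iff_eq r.2 hp.out).1 h)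
    refine ⟨_, _, _, isReduction_redJ p hA (ESh.residue_eq_zero_iff' A)
      IsLocalRing.residue_surjective hN, ?_⟩
    rintro n x hx hn ⟨M, hM, hTx⟩ σ hσ a ha
    exact Ord.b3 hA (ESh.residue_eq_zero_iff' A) IsLocalRing.residue_surjective hN hM hσ hx hn
      hTx ha
  uni := fun r hr hrp => uniForm p hr hrp

end Fermat.Agent.Mazur
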