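import Fermat.Agent.Mazur.Endgame
import Fermat.Agent.Mazur.HeckePoly
import Fermat.Agent.Red.JPack
import Fermat.Agent.QComp.OpsJ
import Fermat.Agent.QComp.Geom
import Fermat.Agent.Cusp.Hecke
import Fermat.Agent.Cusp.Order
import Fermat.Agent.ChebFull.Places
import Fermat.Agent.Spc.Divis

/-!
# The Eisenstein descent for `J₀(p)`
-/

set_option autoImplicit false
set_option linter.unusedSectionVars false
set_option linter.style.haveILetI false

noncomputable section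

open scoped Pointwise
open ModularCurve AlgebraicCurve Fermat.Agent.Frob Fermat.Agent.CFT Fermat.Agent.Red

namespace Fermat.Agent.Mazur

local notation "Qb" => AlgebraicClosure ℚ
local notation "GQ" => AlgebraicClosure ℚ ≃ₐ[ℚ] AlgebraicClosure ℚ

section Hecke

variable (p : ℕ) [hp : Fact p.Prime]

/-- polynomials in the Hecke operators `T_ℓ`, `ℓ ≠ p` -/
abbrev HR : Type := RepTwo.HeckePoly p ∅

/-- evaluation of Hecke polynomials on `J₀(p)` -/
def evJ : HR p →ₐ[ℤ] Module.End ℤ (JZero p) := (QComp.opsJ p p ∅).ev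

/-- Hecke polynomials acting on `J₀(p)` -/
@[reducible] def hMod : Module (HR p) (JZero p) :=
  Module.compHom (JZero p) (evJ p).toRingHom

/-- the Eisenstein character `T_ℓ ↦ 1 + ℓ` -/
def eisZ : HR p →+* ℤ :=
  MvPolynomial.eval₂Hom (RingHom.id ℤ) (fun q : RepTwo.GoodPrime p ∅ => 1 + ((q : ℕ) : ℤ))

/-- the Eisenstein ideal at `r` -/
def eisIdeal (r : ℕ) : Ideal (HR p) := (Ideal.span {(r : ℤ)}).comap (eisZ p)

lemma mem_eisIdeal {r : ℕ} {t : HR p} : t ∈ eisIdeal p r ↔ (r : ℤ) ∣ eisZ p t := by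
  rw [eisIdeal, Ideal.mem_comap, Ideal.mem_span_singleton]

/-- the generator `T_ℓ` -/
def gen (ℓ : ℕ) (hℓ : ℓ.Prime) (hne : ℓ ≠ p) : HR p :=
  MvPolynomial.X ⟨ℓ, hℓ, fun h => hne ((Nat.prime_dvd_prime_iff_eq hℓ hp.out).1 h),
    Set.notMem_empty _⟩

@[simp] lemma eisZ_gen (ℓ : ℕ) (hℓ : ℓ.Prime) (hne : ℓ ≠ p) :
    eisZ p (gen p ℓ hℓ hne) = 1 + (ℓ : ℤ) := by
  rw [eisZ, gen, MvPolynomial.coe_eval₂Hom, MvPolynomial.eval₂_X]

lemma evJ_gen (ℓ : ℕ) (hℓ : ℓ.Prime) (hne : ℓ ≠ p) :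
    evJ p (gen p ℓ hℓ hne) = heckeOperatorBar p ⟨ℓ, hℓ⟩ :=
  RepTwo.HeckeOps.ev_X _ _

lemma evJ_induction {P : HR p → Prop} (t : HR p) (hC : ∀ a : ℤ, P (algebraMap ℤ (HR p) a))
    (hadd : ∀ s t, P s → P t → P (s + t))
    (hmul : ∀ (ℓ : ℕ) (hℓ : ℓ.Prime) (hne : ℓ ≠ p) (s : HR p), P s → P (s * gen p ℓ hℓ hne)) :
    P t := by
  induction t using MvPolynomial.induction_on with
  | C a => exact hC a
  | add s t hs ht => exact hadd s t hs ht
  | mul_X s q hs =>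
    have hne : (q : ℕ) ≠ p := by
      intro h
      exact q.2.2.1 (by rw [h])
    exact hmul q q.2.1 hne s hs

/-- stability under Hecke polynomials -/
lemma evJ_mem (K : AddSubgroup (JZero p))
    (h : ∀ (q : Nat.Primes), ∀ x ∈ K, heckeOperatorBar p q x ∈ K) (t : HR p) :
    ∀ x ∈ K, evJ p t x ∈ K := by
  induction t using evJ_induction p with
  | hC a =>
    intro x hx
    rw [AlgHom.commutes, Module.algebraMap_end_apply]
    exact K.zsmul_mem hx a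
  | hadd s t hs ht =>
    intro x hx
    rw [map_add, LinearMap.add_apply]
    exact K.add_mem (hs x hx) (ht x hx)
  | hmul ℓ hℓ hne s hs =>
    intro x hx
    rw [map_mul, Module.End.mul_apply, evJ_gen]
    exact hs _ (h ⟨ℓ, hℓ⟩ x hx)

/-- the action on the cuspidal class -/
lemma evJ_cuspClass (t : HR p) :
    evJ p t (Cusp.cuspClass p) = eisZ p t • Cusp.cuspClass p := by
  induction t using evJ_induction p with
  | hC a =>
    rw [AlgHom.commutes, Module.algebraMap_end_apply]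
    congr 1
    exact (eq_intCast (((eisZ p).comp (algebraMap ℤ (HR p)))) a).symm
  | hadd s t hs ht =>
    rw [map_add, LinearMap.add_apply, hs, ht, map_add, add_zsmul]
  | hmul ℓ hℓ hne s hs =>
    rw [map_mul, Module.End.mul_apply, evJ_gen,
      Cusp.heckeOperatorBar_cuspClass p ⟨ℓ, hℓ⟩ hne, map_nsmul, hs, map_mul, eisZ_gen,
      ← natCast_zsmul, smul_smul, mul_comm]
    push_cast
    rfl

lemma evJ_smul (t : HR p) (σ : GQ) (x : JZero p) : evJ p t (σ • x) = σ • evJ p t x :=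
  (QComp.opsJ p p ∅).ev_gal t σ x

lemma evJ_aeval_gen (ℓ : ℕ) (hℓ : ℓ.Prime) (hne : ℓ ≠ p) (f : Polynomial ℤ) :
    evJ p (Polynomial.aeval (gen p ℓ hℓ hne) f) =
      Polynomial.aeval (heckeOperatorBar p ⟨ℓ, hℓ⟩ : Module.End ℤ (JZero p)) f := by
  rw [← Polynomial.aeval_algHom_apply, evJ_gen]

lemma evJ_mul_apply (s t : HR p) (x : JZero p) : evJ p (s * t) x = evJ p s (evJ p t x) := by
  rw [map_mul]
  rfl

lemma evJ_add_apply (s t : HR p) (x : JZero p) : evJ p (s + t) x = evJ p s x + evJ p t x := by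
  rw [map_add]
  rfl

lemma evJ_sub_apply (s t : HR p) (x : JZero p) : evJ p (s - t) x = evJ p s x - evJ p t x := by
  rw [map_sub]
  rfl

lemma evJ_natCast (m : ℕ) (x : JZero p) : evJ p (m : HR p) x = m • x := by
  rw [map_natCast, Module.End.natCast_apply]

lemma exists_sign (u : ℤ) : ∃ ε : ℤ, ε * u = (u.natAbs : ℤ) := by
  rcases Int.natAbs_eq u with h | h
  · exact ⟨1, by rw [one_mul, ← h]⟩
  · exact ⟨-1, by rw [neg_one_mul]; linarith⟩

lemma w_alg {R : Type*} [CommRing R] {T l F G G' u u' ε ε' n n' : R}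
    (h1 : F - u = (T - (l + 1)) * G) (h2 : F - u' = (T + (l + 1)) * G') (h3 : ε * u = n)
    (h4 : ε' * u' = n') :
    -(ε * ε' * G * G') * ((1 + l) ^ 2 - T ^ 2) = n * n' + (ε * ε' * (F - u - u')) * F ∧
      ε * G * (1 + l - T) = n - ε * F := by
  subst h3 h4
  constructor
  · linear_combination (-(ε * ε' * (T + (l + 1)) * G')) * h1 - (ε * ε' * (F - u)) * h2
  · linear_combination ε * h1

/-- elements of the Hecke algebra annihilating the non-Eisenstein part -/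
lemma exists_w (ℓ : ℕ) (hℓ : ℓ.Prime) (hne : ℓ ≠ p) :
    ∃ (w1 w2 : HR p) (M1 M2 : ℕ), M1 ≠ 0 ∧ M2 ≠ 0 ∧
      ∀ (n : ℕ) (_ : n ≠ 0) (x : JZero p), n • x = 0 →
        evJ p (w1 * ((1 + (ℓ : HR p)) ^ 2 - gen p ℓ hℓ hne ^ 2)) x = M1 • x ∧
        evJ p (w2 * (1 + (ℓ : HR p) - gen p ℓ hℓ hne)) x = M2 • x := by
  obtain ⟨f, -, hf1, hf2, hf⟩ := exists_heckePoly p ⟨ℓ, hℓ⟩
    (fun h => hne ((Nat.prime_dvd_prime_iff_eq hℓ hp.out).1 h))
  obtain ⟨g, hg⟩ := Polynomial.X_sub_C_dvd_sub_C_eval (a := ((ℓ : ℤ) + 1)) (p := f)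
  obtain ⟨g', hg'⟩ := Polynomial.X_sub_C_dvd_sub_C_eval (a := (-((ℓ : ℤ) + 1))) (p := f)
  obtain ⟨T, hT⟩ : ∃ T, T = gen p ℓ hℓ hne := ⟨_, rfl⟩
  obtain ⟨u, hu⟩ : ∃ u, u = f.eval ((ℓ : ℤ) + 1) := ⟨_, rfl⟩
  obtain ⟨u', hu'⟩ : ∃ u', u' = f.eval (-((ℓ : ℤ) + 1)) := ⟨_, rfl⟩
  have hf1' : u ≠ 0 := by rw [hu]; exact hf1
  have hf2' : u' ≠ 0 := by rw [hu']; exact hf2
  rw [← hu] at hg
  rw [← hu'] at hg'
  obtain ⟨ε, hε⟩ := exists_sign u
  obtain ⟨ε', hε'⟩ := exists_sign u'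
  obtain ⟨G, hG⟩ : ∃ G : HR p, G = Polynomial.aeval T g := ⟨_, rfl⟩
  obtain ⟨G', hG'⟩ : ∃ G' : HR p, G' = Polynomial.aeval T g' := ⟨_, rfl⟩
  obtain ⟨F, hF⟩ : ∃ F : HR p, F = Polynomial.aeval T f := ⟨_, rfl⟩
  have h1 : F - (u : HR p) = (T - ((ℓ : HR p) + 1)) * G := by
    have := congrArg (Polynomial.aeval T) hg
    rw [map_sub, map_mul, map_sub, Polynomial.aeval_X, Polynomial.aeval_C, Polynomial.aeval_C,
      ← hF, ← hG, eq_intCast, eq_intCast] at this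
    rw [this]
    push_cast
    rfl
  have h2 : F - (u' : HR p) = (T + ((ℓ : HR p) + 1)) * G' := by
    have := congrArg (Polynomial.aeval T) hg'
    rw [map_sub, map_mul, map_sub, Polynomial.aeval_X, Polynomial.aeval_C, Polynomial.aeval_C,
      ← hF, ← hG', eq_intCast, eq_intCast] at this
    rw [this]
    push_cast
    rw [sub_neg_eq_add]
  have hε1 : (ε : HR p) * (u : HR p) = (u.natAbs : HR p) := by
    rw [← Int.cast_mul, hε, Int.cast_natCast]
  have hε1' : (ε' : HR p) * (u' : HR p) = (u'.natAbs : HR p) := by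
    rw [← Int.cast_mul, hε', Int.cast_natCast]
  obtain ⟨e1, e2⟩ := w_alg h1 h2 hε1 hε1'
  refine ⟨-((ε : HR p) * (ε' : HR p) * G * G'), (ε : HR p) * G, u.natAbs * u'.natAbs,
    u.natAbs, mul_ne_zero (Int.natAbs_ne_zero.2 hf1') (Int.natAbs_ne_zero.2 hf2'),
    Int.natAbs_ne_zero.2 hf1', fun n hn x hx => ?_⟩
  have hFx : evJ p F x = 0 := by
    rw [hF, hT, evJ_aeval_gen]
    exact hf n hn x hx
  rw [← hT]
  have key : ∀ (A B C D : HR p) (m : ℕ), A * B = (m : HR p) + C * F →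
      evJ p (A * B) x = m • x := by
    intro A B C _ m h
    rw [h, evJ_add_apply, evJ_mul_apply p C F, hFx, map_zero, add_zero, evJ_natCast]
  constructor
  · refine key _ _ ((ε : HR p) * (ε' : HR p) * (F - (u : HR p) - (u' : HR p))) 0 _ ?_
    rw [e1, Nat.cast_mul]
  · refine key _ _ (-(ε : HR p)) 0 _ ?_
    rw [e2, neg_mul, sub_eq_add_neg]

end Hecke

section Input

variable (p : ℕ) [hp : Fact p.Prime]

lemma exists_level_jzero (x : JZero p) : ∃ E : IntermediateField ℚ Qb, FiniteDimensional ℚ E ∧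
    ∀ σ : GQ, (∀ y ∈ E, σ y = y) → σ • x = x := by
  have := RepTwo.hasPrincipalDivisors_bar p
  exact JZ.exists_level_pic0_of_hasPrincipalDivisors (F₀ := modularFunctionFieldFull p) x

lemma finite_tor_jzero {n : ℕ} (hn : n ≠ 0) : Finite (tor (JZero p) n) := by
  have : FF.IsFnField Qb (JZ.FN Qb p) := JZ.modularFieldInputsBar.fnField p
  have := Spc.finite_torsion Qb (JZ.FN Qb p) hn
  refine Finite.of_injective (β := Pic0.torsion Qb (JZ.FN Qb p) n)
    (fun x => ⟨(x : JZero p), ?_⟩) ?_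
  · rw [Pic0.mem_torsion, natCast_zsmul]
    exact mem_tor.1 x.2
  · intro x y hxy
    exact Subtype.ext (congrArg (fun z : Pic0.torsion Qb (JZ.FN Qb p) n =>
      (z : Pic0 Qb (JZ.FN Qb p))) hxy)

lemma div_jzero {n : ℕ} (hn : n ≠ 0) (x : JZero p) : ∃ y, n • y = x := by
  have : FF.IsFnField Qb (JZ.FN Qb p) := JZ.modularFieldInputsBar.fnField p
  exact Spc.divisible Qb (JZ.FN Qb p) hn x

/-- the quadratic relation for all of the Galois group -/
lemma exists_quad {r : ℕ} (hr : r.Prime) {k : ℕ} (hk : k ≠ 0) (g : GQ)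
    {a : ℕ} (ha : ∀ ζ : Qb, ζ ^ (r ^ k) = 1 → g ζ = ζ ^ a) :
    ∃ t : HR p, t - 1 - (a : HR p) ∈ eisIdeal p r ∧ ∀ x : JZero p, (r ^ k) • x = 0 →
      g • g • x - evJ p t (g • x) + a • x = 0 := by
  haveI : Fact r.Prime := ⟨hr⟩
  have hrk : r ^ k ≠ 0 := pow_ne_zero k hr.ne_zero
  have hfin := finite_tor_jzero p hrk
  -- a finite level
  obtain ⟨U, hU, hUx⟩ := exists_level_finite
    (fun (x : tor (JZero p) (r ^ k)) σ => σ • (x : JZero p) = x) (fun x => by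
      obtain ⟨E, hE, h⟩ := exists_level_jzero p (x : JZero p)
      exact ⟨E.fixingSubgroup, mem_galLevels.2 ⟨E, hE, le_rfl⟩, fun σ hσ =>
        h σ ((IntermediateField.mem_fixingSubgroup_iff _ _).1 hσ)⟩)
  obtain ⟨E, hE, hEU⟩ := mem_galLevels.1 hU
  -- a primitive root of unity
  have : NeZero ((r ^ k : ℕ) : Qb) := ⟨by exact_mod_cast hrk⟩
  obtain ⟨ζ₀, hζ₀⟩ := HasEnoughRootsOfUnity.exists_primitiveRoot Qb (r ^ k)
  haveI := hE
  have hint : IsIntegral ℚ ζ₀ := (AlgebraicClosure.isAlgebraic ℚ).isAlgebraic ζ₀ |>.isIntegral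
  haveI : FiniteDimensional ℚ (IntermediateField.adjoin ℚ {ζ₀}) :=
    IntermediateField.adjoin.finiteDimensional hint
  haveI : FiniteDimensional ℚ (E ⊔ IntermediateField.adjoin ℚ {ζ₀} : IntermediateField ℚ Qb) :=
    IntermediateField.finiteDimensional_sup E _
  obtain ⟨ℓ, hℓ, hℓS, -, A, hA, φ, hφ, hφg⟩ :=
    ChebFull.exists_frobenius_eq (E ⊔ IntermediateField.adjoin ℚ {ζ₀}) g {p, r}
  have hℓp : ℓ ≠ p := fun h => hℓS (by simp [h])
  have hℓr : ℓ ≠ r := fun h => hℓS (by simp [h])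
  -- `φ = g` on the torsion
  have hx : ∀ x : JZero p, (r ^ k) • x = 0 → φ • x = g • x := by
    intro x hx
    have h1 : g⁻¹ * φ ∈ U := by
      apply hEU
      rw [IntermediateField.mem_fixingSubgroup_iff]
      intro y hy
      change g⁻¹ (φ y) = y
      rw [hφg y ((le_sup_left : E ≤ E ⊔ IntermediateField.adjoin ℚ {ζ₀}) hy)]
      exact inv_smul_smul g y
    have h2 := hUx _ h1 ⟨x, hx⟩
    have h3 : (g⁻¹ * φ) • x = x := h2
    rw [mul_smul, inv_smul_eq_iff] at h3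
    exact h3
  -- `ℓ ≡ a`
  have hζ : ζ₀ ^ a = ζ₀ ^ ℓ := by
    have h1 : φ ζ₀ = g ζ₀ := hφg ζ₀
      ((le_sup_right : IntermediateField.adjoin ℚ {ζ₀} ≤ E ⊔ IntermediateField.adjoin ℚ {ζ₀})
        (IntermediateField.mem_adjoin_simple_self ℚ ζ₀))
    rw [← ha ζ₀ hζ₀.pow_eq_one, ← h1]
    exact RepTwo.frobenius_apply_root hℓ hr hℓr hA hφ hζ₀.pow_eq_one
  have hdvd : ((r ^ k : ℕ) : ℤ) ∣ (ℓ : ℤ) - a := dvd_of_pow_eq hrk hζ₀ hζ
  refine ⟨gen p ℓ hℓ hℓp, ?_, fun x hxk => ?_⟩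
  · rw [mem_eisIdeal, map_sub, map_sub, eisZ_gen, map_one, map_natCast]
    have h1 : (r : ℤ) ∣ ((r ^ k : ℕ) : ℤ) := by
      push_cast
      exact dvd_pow_self _ hk
    have h2 := h1.trans hdvd
    rwa [show (1 + (ℓ : ℤ) - 1 - (a : ℤ)) = (ℓ : ℤ) - a by ring]
  · have h1 := (QComp.jZeroES p r).frob ℓ hℓ (by
      intro h
      rcases hℓ.dvd_mul.1 h with h | h
      · exact hℓp ((Nat.prime_dvd_prime_iff_eq hℓ hp.out).1 h)
      · exact hℓr ((Nat.prime_dvd_prime_iff_eq hℓ hr).1 h)) A hA φ hφ x ⟨k, hxk⟩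
    have hgx : (r ^ k) • (g • x) = 0 := by
      have h := smul_nsmul_comm g (r ^ k) x
      rw [hxk, smul_zero] at h
      exact h.symm
    rw [evJ_gen]
    rw [hx x hxk, hx (g • x) hgx] at h1
    obtain ⟨m, hm⟩ := hdvd
    have h2 : ℓ • x = a • x := by
      have h3 : ((ℓ : ℤ) - a) • x = 0 := by
        rw [hm, mul_comm, mul_smul, natCast_zsmul, hxk, smul_zero]
      rw [sub_smul, sub_eq_zero, natCast_zsmul, natCast_zsmul] at h3
      exact h3
    rw [← h2]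
    exact h1

end Input

end Fermat.Agent.Mazur
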