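import Fermat.Agent.Mazur.Sel

/-!
# The key inequality `|Z(V)| ≤ |V⁰|` : base case and induction
-/

set_option autoImplicit false

open scoped Pointwise
open Fermat.Agent.Frob Fermat.Agent.CFT

namespace Fermat.Agent.Mazur

local notation "Qb" => AlgebraicClosure ℚ
local notation "GQ" => AlgebraicClosure ℚ ≃ₐ[ℚ] AlgebraicClosure ℚ

/-- every automorphism acts on `n`-th roots of unity by some power -/
lemma exists_exp {n : ℕ} (hn : n ≠ 0) (σ : GQ) :
    ∃ a : ℕ, ∀ ζ : Qb, ζ ^ n = 1 → σ ζ = ζ ^ a := by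
  have : NeZero n := ⟨hn⟩
  have : NeZero (n : Qb) := ⟨by exact_mod_cast hn⟩
  obtain ⟨ζ₀, hζ₀⟩ := HasEnoughRootsOfUnity.exists_primitiveRoot Qb n
  have h1 : (σ ζ₀) ^ n = 1 := by rw [← map_pow, hζ₀.pow_eq_one, map_one]
  obtain ⟨a, -, ha⟩ := hζ₀.eq_pow_of_pow_eq_one h1
  refine ⟨a, fun ζ hζ => ?_⟩
  obtain ⟨b, -, rfl⟩ := hζ₀.eq_pow_of_pow_eq_one hζ
  rw [map_pow, ← ha, ← pow_mul, ← pow_mul, mul_comm]

lemma eq_neg_one_or_one_of_sq {x : Qbˣ} (h : x ^ 2 = 1) : x = 1 ∨ x = -1 := by
  have h1 : (x : Qb) ^ 2 = 1 := by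
    have := congrArg Units.val h
    rwa [Units.val_pow_eq_pow_val, Units.val_one] at this
  rcases sq_eq_one_iff.1 h1 with h | h
  · left; exact Units.ext h
  · right; exact Units.ext h

section Base

variable {r k : ℕ} {A : ValuationSubring Qb} {B : ℕ → ValuationSubring Qb} {V : Type}
  [AddCommGroup V] {ρ : GQ →* AddMonoid.End V} {V0 : AddSubgroup V}

lemma card_sel_bot_le (h : ∀ c, IsSel r A B ρ V0 c → c = 0) [Finite V] :
    Finite (selZ r A B ρ V0) ∧ Nat.card (selZ r A B ρ V0) ≤ Nat.card V0 := by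
  have : Subsingleton (selZ r A B ρ V0) :=
    ⟨fun a b => Subtype.ext ((h _ a.2).trans (h _ b.2).symm)⟩
  refine ⟨inferInstance, ?_⟩
  have h1 : Nat.card (selZ r A B ρ V0) ≤ 1 := Finite.card_le_one_iff_subsingleton.2 this
  exact h1.trans Nat.card_pos

/-- the character formula for the twisted case -/
lemma char_cyc {r : ℕ} {l₀ : V →+ Additive Qbˣ} (hr : ∀ x : V, r • x = 0)
    (hcyc : ∀ σ : GQ, ∀ a : ℕ, (∀ ζ : Qb, ζ ^ r = 1 → σ ζ = ζ ^ a) → ∀ x, ρ σ x = a • x)
    (hr0 : r ≠ 0) (σ : GQ) (x : V) : (l₀ (ρ σ x)).toMul = uact σ (l₀ x).toMul := by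
  obtain ⟨a, ha⟩ := exists_exp hr0 σ
  rw [hcyc σ a ha, map_nsmul, toMul_nsmul]
  apply Units.ext
  rw [Units.val_pow_eq_pow_val, coe_uact, ha]
  have h1 : (l₀ (r • x)).toMul = 1 := by rw [hr, map_zero]; rfl
  rw [map_nsmul, toMul_nsmul] at h1
  have := congrArg Units.val h1
  rwa [Units.val_pow_eq_pow_val] at this

theorem base_case [Finite V] (hr : r.Prime) (hA : A.LiesOverPrime r)
    (hB : ∀ q, q.Prime → (B q).LiesOverPrime q) (hcard : Nat.card V = r) (hk : k ≠ 0)
    (hloc : LocCond r k A ρ V0) {v : V} (hv0 : v ≠ 0)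
    (hact : (∀ σ, ρ σ v = v) ∨
      ∀ σ : GQ, ∀ a : ℕ, (∀ ζ : Qb, ζ ^ r = 1 → σ ζ = ζ ^ a) → ρ σ v = a • v) :
    Finite (selZ r A B ρ V0) ∧ Nat.card (selZ r A B ρ V0) ≤ Nat.card V0 := by
  have hFact : Fact r.Prime := ⟨hr⟩
  have hcardF : Fact (Nat.card V).Prime := ⟨hcard ▸ hr⟩
  have hkill : ∀ x : V, r • x = 0 := fun x => by rw [← hcard]; exact card_nsmul_eq_zero'
  have hgen : ∀ x : V, ∃ n : ℕ, x = n • v := by
    intro x
    have h1 : x ∈ AddSubgroup.zmultiples v := by
      rw [zmultiples_eq_top_of_prime_card hcard hv0]; trivial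
    rw [← mem_multiples_iff_mem_zmultiples] at h1
    obtain ⟨n, hn⟩ := h1
    exact ⟨n, hn.symm⟩
  obtain ⟨l₀, hl₀⟩ := exists_char_ne_zero hv0
  have hl₀inj : Function.Injective l₀ := by
    rw [← AddMonoidHom.ker_eq_bot_iff]
    rcases AddSubgroup.eq_bot_or_eq_top_of_prime_card l₀.ker with h | h
    · exact h
    · exfalso
      have : v ∈ l₀.ker := by rw [h]; trivial
      exact hl₀ this
  -- an integer killing a nonzero element is divisible by `r`
  have hdiv : ∀ {x : V} {n : ℤ}, x ≠ 0 → n • x = 0 → (r : ℤ) ∣ n := by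
    intro x n hx hn
    have h1 : addOrderOf x = r := addOrderOf_eq_prime (hkill x) hx
    rw [← h1]
    exact (addOrderOf_dvd_iff_zsmul_eq_zero).2 hn
  -- from inertia acting trivially by the cyclotomic character to `r = 2`
  have htwo : (∀ σ ∈ A.inertiaSubgroupIn ℚ, ∀ a : ℕ, (∀ ζ : Qb, ζ ^ (r ^ k) = 1 → σ ζ = ζ ^ a) →
      a • v = v) → r = 2 := by
    intro h
    apply eq_two_of_inertia_fixes hr hA
    intro σ hσ ζ hζ
    obtain ⟨a, ha⟩ := exists_exp (pow_ne_zero k hr.ne_zero) σ
    have h1 := h σ hσ a ha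
    have h2 : ((a : ℤ) - 1) • v = 0 := by
      rw [sub_smul, one_smul, natCast_zsmul, h1, sub_self]
    obtain ⟨m, hm⟩ := hdiv hv0 h2
    have h3 : ζ ^ (r ^ k) = 1 := by
      obtain ⟨j, rfl⟩ := Nat.exists_eq_succ_of_ne_zero hk
      rw [pow_succ', pow_mul, hζ, one_pow]
    rw [ha ζ h3]
    have hζ0 : ζ ≠ 0 := by
      rintro rfl
      rw [zero_pow hr.ne_zero] at hζ
      exact zero_ne_one hζ
    have h4 : ζ ^ ((a : ℤ)) = ζ := by
      rw [show (a : ℤ) = r * m + 1 by linarith, zpow_add₀ hζ0, zpow_mul, zpow_natCast, hζ,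
        one_zpow, one_mul, zpow_one]
    rwa [zpow_natCast] at h4
  -- for `r = 2` exponents are odd
  have hodd : r = 2 → ∀ σ : GQ, ∀ a : ℕ, (∀ ζ : Qb, ζ ^ r = 1 → σ ζ = ζ ^ a) →
      ∀ x : V, a • x = x := by
    intro h2 σ a ha x
    have h3 := ha (-1) (by rw [h2]; norm_num)
    rw [map_neg, map_one] at h3
    have hodd : Odd a := by
      by_contra hev
      rw [Nat.not_odd_iff_even] at hev
      rw [hev.neg_one_pow] at h3
      have : (2 : Qb) = 0 := by linear_combination -h3
      exact two_ne_zero this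
    obtain ⟨m, rfl⟩ := hodd
    rw [add_smul, one_smul, mul_comm, mul_smul]
    have := hkill x
    rw [h2] at this
    rw [this, smul_zero, zero_add]
  have hexp : ∀ σ : GQ, ∃ a : ℕ, ∀ ζ : Qb, ζ ^ r = 1 → σ ζ = ζ ^ a := exists_exp hr.ne_zero
  -- the two actual cases
  have caseI : (∀ σ, ρ σ v = v) → V0 = ⊥ →
      Finite (selZ r A B ρ V0) ∧ Nat.card (selZ r A B ρ V0) ≤ Nat.card V0 := by
    intro htriv hbot
    apply card_sel_bot_le
    intro c hc
    have htriv' : ∀ σ, ∀ x, ρ σ x = x := by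
      intro σ x
      obtain ⟨n, rfl⟩ := hgen x
      rw [map_nsmul, htriv]
    funext σ
    refine triv_case c (fun σ τ => by rw [hc.coc, htriv']) hc.lc
      (fun q => if q = r then A else B q) (fun q hq => ?_) (fun q hq τ hτ => ?_) σ
    · by_cases hqr : q = r
      · simp only [hqr, if_true]; exact hA
      · simp only [hqr, if_false]; exact hB q hq
    · by_cases hqr : q = r
      · simp only [hqr, if_true] at hτ
        have := hc.atA τ hτ
        rwa [hbot, AddSubgroup.mem_bot] at this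
      · simp only [hqr, if_false] at hτ
        exact hc.inert q hq hqr τ hτ
  have caseII : (∀ σ : GQ, ∀ a : ℕ, (∀ ζ : Qb, ζ ^ r = 1 → σ ζ = ζ ^ a) → ρ σ v = a • v) →
      V0 = ⊤ → Finite (selZ r A B ρ V0) ∧ Nat.card (selZ r A B ρ V0) ≤ Nat.card V0 := by
    intro hcyc htop
    have hcyc' : ∀ σ : GQ, ∀ a : ℕ, (∀ ζ : Qb, ζ ^ r = 1 → σ ζ = ζ ^ a) → ∀ x, ρ σ x = a • x := by
      intro σ a ha x
      obtain ⟨n, rfl⟩ := hgen x
      rw [map_nsmul, hcyc σ a ha, smul_comm]
    have hex : ∀ c : selZ r A B ρ V0, ∃ η : Qbˣ, (η ^ r = 1 ∨ η ^ r = -1) ∧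
        ∀ σ, uact σ η = (l₀ ((c : GQ → V) σ)).toMul * η := by
      rintro ⟨c, hc⟩
      have hc : IsSel r A B ρ V0 c := hc
      apply mu_case hr hA B hB (fun σ => (l₀ (c σ)).toMul)
      · intro σ τ
        rw [hc.coc, map_add, toMul_add, char_cyc hkill hcyc' hr.ne_zero]
      · intro σ
        rw [← toMul_nsmul, ← map_nsmul, hkill, map_zero]; rfl
      · obtain ⟨U, hU, h⟩ := hc.lc
        exact ⟨U, hU, fun σ hσ => by rw [h σ hσ, map_zero]; rfl⟩
      · intro q hq hqr σ hσ
        rw [hc.inert q hq hqr σ hσ, map_zero]; rfl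
      · obtain ⟨β, h1, h2⟩ := hc.val (l₀.comp V0.subtype)
        exact ⟨β, h1, fun σ hσ => h2 σ hσ ⟨c σ, hc.atA σ hσ⟩ rfl⟩
    choose η hη1 hη2 using hex
    let f : selZ r A B ρ V0 → rootsOfUnity r Qb := fun c => ⟨η c ^ 2, by
      rw [mem_rootsOfUnity, ← pow_mul, mul_comm, pow_mul]
      rcases hη1 c with h | h <;> rw [h]
      · rw [one_pow]
      · rw [neg_one_sq]⟩
    have hf : Function.Injective f := by
      intro a b hab
      have h1 : η a ^ 2 = η b ^ 2 := congrArg Subtype.val hab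
      have h2 : (η a / η b) ^ 2 = 1 := by rw [div_pow, h1, div_self']
      apply Subtype.ext
      funext σ
      apply hl₀inj
      have ha := hη2 a σ
      have hb := hη2 b σ
      have h3 : uact σ (η a / η b) = η a / η b := by
        rcases eq_neg_one_or_one_of_sq h2 with h | h
        · rw [h, map_one]
        · rw [h]; apply Units.ext; simp
      rw [map_div, ha, hb, mul_div_mul_comm] at h3
      have h4 : (l₀ ((a : GQ → V) σ)).toMul / (l₀ ((b : GQ → V) σ)).toMul = 1 := by
        have := congrArg (· / (η a / η b)) h3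
        simpa using this
      exact Additive.toMul.injective (div_eq_one.1 h4)
    have : NeZero r := ⟨hr.ne_zero⟩
    have hfinr : Finite (rootsOfUnity r Qb) := inferInstance
    refine ⟨Finite.of_injective f hf, (Nat.card_le_card_of_injective f hf).trans ?_⟩
    have h5 : Nat.card V0 = r := by rw [htop, AddSubgroup.card_top, hcard]
    rw [h5, HasEnoughRootsOfUnity.natCard_rootsOfUnity]
  rcases AddSubgroup.eq_bot_or_eq_top_of_prime_card V0 with hbot | htop
  · apply caseI _ hbot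
    rcases hact with htriv | hcyc
    · exact htriv
    · have h2 : r = 2 := by
        apply htwo
        intro σ hσ a ha
        have h1 := hloc.quot σ hσ v
        rw [hbot, AddSubgroup.mem_bot, sub_eq_zero] at h1
        rw [← hcyc σ a (fun ζ hζ => ha ζ (by
          obtain ⟨j, rfl⟩ := Nat.exists_eq_succ_of_ne_zero hk
          rw [pow_succ', pow_mul, hζ, one_pow]))]
        exact h1
      intro σ
      obtain ⟨a, ha⟩ := hexp σ
      rw [hcyc σ a ha, hodd h2 σ a ha]
  · apply caseII _ htop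
    rcases hact with htriv | hcyc
    · have h2 : r = 2 := by
        apply htwo
        intro σ hσ a ha
        rw [← hloc.cyc σ hσ a ha v (by rw [htop]; trivial), htriv]
      intro σ a ha
      rw [htriv, hodd h2 σ a ha]
    · exact hcyc

/-- **Key inequality**. -/
theorem card_sel_le [Finite V] (hr : r.Prime) (hA : A.LiesOverPrime r)
    (hB : ∀ q, q.Prime → (B q).LiesOverPrime q) (hadm : Adm r k ρ) (hloc : LocCond r k A ρ V0) :
    Finite (selZ r A B ρ V0) ∧ Nat.card (selZ r A B ρ V0) ≤ Nat.card V0 := by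
  obtain ⟨n, hn⟩ : ∃ n, Nat.card V = n := ⟨_, rfl⟩
  induction n using Nat.strong_induction_on generalizing V with
  | _ n ih =>
    by_cases hnt : Nontrivial V
    · have hk : k ≠ 0 := by
        rintro rfl
        obtain ⟨v, hv⟩ := exists_ne (0 : V)
        exact hv (by simpa using hadm.tors v)
      obtain ⟨v, hv0, hvr, hact⟩ := hadm.exists_line hr
      have : Fact r.Prime := ⟨hr⟩
      let W := AddSubgroup.zmultiples v
      have hWcard : Nat.card W = r := by
        rw [Nat.card_zmultiples, addOrderOf_eq_prime hvr hv0]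
      have hW : ∀ σ, ∀ x ∈ W, ρ σ x ∈ W := by
        intro σ x hx
        obtain ⟨m, rfl⟩ := AddSubgroup.mem_zmultiples_iff.1 hx
        rw [map_zsmul]
        apply W.zsmul_mem
        rcases hact with h | h
        · rw [h]; exact AddSubgroup.mem_zmultiples v
        · obtain ⟨a, ha⟩ := exists_exp hr.ne_zero σ
          rw [h σ a ha]
          exact W.nsmul_mem (AddSubgroup.mem_zmultiples v) a
      have hact' : (∀ σ, subRep ρ W hW σ ⟨v, AddSubgroup.mem_zmultiples v⟩ =
          ⟨v, AddSubgroup.mem_zmultiples v⟩) ∨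
          ∀ σ : GQ, ∀ a : ℕ, (∀ ζ : Qb, ζ ^ r = 1 → σ ζ = ζ ^ a) →
          subRep ρ W hW σ ⟨v, AddSubgroup.mem_zmultiples v⟩ =
            a • (⟨v, AddSubgroup.mem_zmultiples v⟩ : W) := by
        rcases hact with h | h
        · exact Or.inl fun σ => Subtype.ext (h σ)
        · exact Or.inr fun σ a ha => Subtype.ext (h σ a ha)
      have h1 := base_case (B := B) hr hA hB hWcard hk (hloc.sub hW)
        (v := (⟨v, AddSubgroup.mem_zmultiples v⟩ : W)) (fun h => hv0 (congrArg Subtype.val h)) hact'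
      have hlt : Nat.card (V ⧸ W) < n := by
        have h2 := W.card_eq_card_quotient_mul_card_addSubgroup
        rw [hWcard, hn] at h2
        have hpos : 0 < Nat.card (V ⧸ W) := Nat.card_pos
        rw [h2]
        exact (lt_mul_iff_one_lt_right hpos).2 hr.one_lt
      have h2 := ih _ hlt (V := V ⧸ W) (hadm.quot hW) (hloc.quotient hW) rfl
      have h3 := selZ_devissage hW h1.1 h2.1
      refine ⟨h3.1, h3.2.trans ((Nat.mul_le_mul h1.2 h2.2).trans ?_)⟩
      -- `|V0| = |V0 ∩ W| |V0 / (V0 ∩ W)|`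
      let f : V0 →+ (V ⧸ W) := (QuotientAddGroup.mk' W).comp V0.subtype
      have h4 : Nat.card f.ker * Nat.card f.range = Nat.card V0 := by
        rw [mul_comm, f.ker.card_eq_card_quotient_mul_card_addSubgroup,
          Nat.card_congr (QuotientAddGroup.quotientKerEquivRange f).toEquiv]
      rw [← h4]
      apply Nat.mul_le_mul
      · refine Nat.card_le_card_of_injective
          (fun w : V0.comap W.subtype => (⟨⟨((w : W) : V), w.2⟩, by
            rw [AddMonoidHom.mem_ker]
            exact (QuotientAddGroup.eq_zero_iff _).2 (w : W).2⟩ : f.ker)) ?_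
        intro a b hab
        have h5 := congrArg (fun x : f.ker => ((x : V0) : V)) hab
        exact Subtype.ext (Subtype.ext h5)
      · refine Nat.card_le_card_of_injective
          (fun w : V0.map (QuotientAddGroup.mk' W) => (⟨(w : V ⧸ W), by
            obtain ⟨x, hx, hx'⟩ := w.2
            exact ⟨⟨x, hx⟩, hx'⟩⟩ : f.range)) ?_
        intro a b hab
        have h5 := congrArg (fun x : f.range => (x : V ⧸ W)) hab
        exact Subtype.ext h5
    · apply card_sel_bot_le
      intro c _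
      funext σ
      rw [not_nontrivial_iff_subsingleton] at hnt
      exact Subsingleton.elim _ _

end Base

end Fermat.Agent.Mazur
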