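import Fermat.Agent.Mazur.Base
import Fermat.Agent.CycChar.Basic

/-!
# Stable lines in Galois modules of Eisenstein type
-/

set_option autoImplicit false

open scoped Pointwise
open Fermat.Agent.Frob Fermat.Agent.CFT Polynomial

namespace Fermat.Agent.Mazur

local notation "Qb" => AlgebraicClosure ℚ
local notation "GQ" => AlgebraicClosure ℚ ≃ₐ[ℚ] AlgebraicClosure ℚ

/-- Galois modules of Eisenstein type, killed by `r ^ k`. -/
structure Adm (r k : ℕ) {V : Type} [AddCommGroup V] (ρ : GQ →* AddMonoid.End V) : Prop where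
  tors : ∀ v : V, (r ^ k) • v = 0
  level : ∃ U ∈ galLevels ℚ Qb, ∀ σ ∈ U, ρ σ = 1
  nilp : ∀ σ : GQ, ∀ a : ℕ, (∀ ζ : Qb, ζ ^ r = 1 → σ ζ = ζ ^ a) →
    IsNilpotent ((ρ σ - 1) * (ρ σ - (a : AddMonoid.End V)))

lemma end_mul_apply {V : Type*} [AddCommGroup V] (f g : AddMonoid.End V) (v : V) :
    (f * g) v = f (g v) := rfl

section Unipotent

/-- unipotent elements in a ring where `r` is nilpotent have `r`-power order. -/
theorem exists_pow_eq_one_of_isNilpotent {R : Type*} [Ring R] {r k : ℕ} (hr : r.Prime)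
    (hk : (r : R) ^ k = 0) {f : R} (hf : IsNilpotent (f - 1)) : ∃ m, f ^ r ^ m = 1 := by
  obtain ⟨n, hn⟩ := hf
  have hcomm : Commute (f - 1) 1 := Commute.one_right _
  obtain ⟨g, hg⟩ := hcomm.exists_add_pow_prime_pow_eq hr n
  have h0 : (f - 1) ^ r ^ n = 0 := by
    obtain ⟨j, hj⟩ := Nat.exists_eq_add_of_le (Nat.lt_pow_self hr.one_lt (n := n)).le
    rw [hj, pow_add, hn, zero_mul]
  have h0' : ∃ g : R, f ^ r ^ n = 1 + (r : R) * g := by
    refine ⟨(f - 1) * 1 * g, ?_⟩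
    rw [sub_add_cancel, h0, one_pow, zero_add] at hg
    rw [hg]; simp only [mul_assoc]
  clear hg
  obtain ⟨g, hg⟩ := h0'
  -- `f ^ r ^ n = 1 + r * g`
  have h1 : ((r : ℤ[X]) ^ (k + 1)) ∣ (1 + (r : ℤ[X]) * X) ^ r ^ k - 1 ^ r ^ k :=
    dvd_sub_pow_of_dvd_sub ⟨X, by ring⟩ k
  obtain ⟨h, hh⟩ := h1
  have h2 := congrArg (aeval g) hh
  simp only [map_sub, map_pow, map_add, map_one, map_mul, map_natCast, aeval_X, one_pow] at h2
  rw [pow_succ', mul_assoc, ] at h2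
  refine ⟨n + k, ?_⟩
  rw [pow_add, pow_mul, hg]
  rw [hk, zero_mul, mul_zero] at h2
  exact sub_eq_zero.1 h2

end Unipotent

variable {r k : ℕ} {V : Type} [AddCommGroup V] {ρ : GQ →* AddMonoid.End V}

/-- the subgroup fixing the `r`-th roots of unity -/
def fixMu (r : ℕ) : Subgroup GQ where
  carrier := {σ | ∀ ζ : Qb, ζ ^ r = 1 → σ ζ = ζ}
  mul_mem' := fun {a b} ha hb ζ hζ => by
    rw [AlgEquiv.mul_apply, hb ζ hζ, ha ζ hζ]
  one_mem' := fun _ _ => rfl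
  inv_mem' := fun {a} ha ζ hζ => by
    have h := ha ζ hζ
    conv_lhs => rw [← h]
    rw [← AlgEquiv.mul_apply, inv_mul_cancel]; rfl

lemma mem_fixMu {σ : GQ} : σ ∈ fixMu r ↔ ∀ ζ : Qb, ζ ^ r = 1 → σ ζ = ζ := Iff.rfl

lemma conj_mem_fixMu {σ : GQ} (hσ : σ ∈ fixMu r) (τ : GQ) : τ⁻¹ * σ * τ ∈ fixMu r := by
  intro ζ hζ
  rw [AlgEquiv.mul_apply, AlgEquiv.mul_apply, hσ (τ ζ) (by rw [← map_pow, hζ, map_one]),
    ← AlgEquiv.mul_apply, inv_mul_cancel]
  rfl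

/-- existence of non-zero vectors fixed by the kernel of the cyclotomic character. -/
theorem Adm.exists_fixed [Finite V] [Nontrivial V] (hr : r.Prime) (h : Adm r k ρ) :
    ∃ v : V, v ≠ 0 ∧ ∀ σ ∈ fixMu r, ρ σ v = v := by
  classical
  have : Fact r.Prime := ⟨hr⟩
  have hk : ((r : AddMonoid.End V)) ^ k = 0 := by
    rw [← Nat.cast_pow]
    ext v
    rw [AddMonoid.End.natCast_apply, h.tors]; rfl
  let ρu : GQ →* (AddMonoid.End V)ˣ := ρ.toHomUnits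
  have hρu : ∀ σ, ((ρu σ : (AddMonoid.End V)ˣ) : AddMonoid.End V) = ρ σ := fun σ => rfl
  let Γ : Subgroup (AddMonoid.End V)ˣ := (fixMu r).map ρu
  have hP : IsPGroup r Γ := by
    rintro ⟨_, σ, hσ, rfl⟩
    have h1 : IsNilpotent (ρ σ - 1) := by
      obtain ⟨n, hn⟩ := h.nilp σ 1 (fun ζ hζ => by rw [pow_one]; exact hσ ζ hζ)
      refine ⟨2 * n, ?_⟩
      rw [pow_mul, pow_two]
      simpa using hn
    obtain ⟨m, hm⟩ := exists_pow_eq_one_of_isNilpotent hr hk h1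
    refine ⟨m, ?_⟩
    apply Subtype.ext
    apply Units.ext
    rw [SubmonoidClass.coe_pow, Units.val_pow_eq_pow_val]
    exact hm
  have h1 := hP.card_modEq_card_fixedPoints V
  have hdvd : r ∣ Nat.card V := by
    obtain ⟨v, hv⟩ := exists_ne (0 : V)
    have h2 : addOrderOf v ∣ r ^ k := addOrderOf_dvd_of_nsmul_eq_zero (h.tors v)
    obtain ⟨j, hj, hj'⟩ := (Nat.dvd_prime_pow hr).1 h2
    have hj0 : j ≠ 0 := by
      rintro rfl
      rw [pow_zero, AddMonoid.addOrderOf_eq_one_iff] at hj'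
      exact hv hj'
    exact (dvd_pow_self r hj0).trans (hj' ▸ addOrderOf_dvd_natCard v)
  have h2 : r ∣ Nat.card (MulAction.fixedPoints Γ V) :=
    (Nat.modEq_zero_iff_dvd).1 (h1.symm.trans ((Nat.modEq_zero_iff_dvd).2 hdvd))
  have h0 : (0 : V) ∈ MulAction.fixedPoints Γ V := by
    rintro ⟨g, hg⟩
    exact map_zero (g : AddMonoid.End V)
  have hpos : 0 < Nat.card (MulAction.fixedPoints Γ V) :=
    Nat.card_pos_iff.2 ⟨⟨⟨0, h0⟩⟩, inferInstance⟩
  have h3 : 1 < Nat.card (MulAction.fixedPoints Γ V) :=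
    lt_of_lt_of_le hr.one_lt (Nat.le_of_dvd hpos h2)
  have : Nontrivial (MulAction.fixedPoints Γ V) := (Finite.one_lt_card_iff_nontrivial).1 h3
  obtain ⟨⟨v, hv⟩, hne⟩ := exists_ne (⟨0, h0⟩ : MulAction.fixedPoints Γ V)
  refine ⟨v, fun h => hne (Subtype.ext h), fun σ hσ => ?_⟩
  exact hv ⟨ρu σ, σ, hσ, rfl⟩

/-- existence of stable lines. -/
theorem Adm.exists_line [Finite V] [Nontrivial V] (hr : r.Prime) (h : Adm r k ρ) :
    ∃ v : V, v ≠ 0 ∧ r • v = 0 ∧ ((∀ σ, ρ σ v = v) ∨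
      ∀ σ : GQ, ∀ a : ℕ, (∀ ζ : Qb, ζ ^ r = 1 → σ ζ = ζ ^ a) → ρ σ v = a • v) := by
  classical
  have : Fact r.Prime := ⟨hr⟩
  obtain ⟨v, hv0, hv⟩ := h.exists_fixed hr
  -- make it killed by `r`
  obtain ⟨v, hv0, hvr, hv⟩ : ∃ v : V, v ≠ 0 ∧ r • v = 0 ∧ ∀ σ ∈ fixMu r, ρ σ v = v := by
    have hex : ∃ n, r ^ n • v = 0 := ⟨k, h.tors v⟩
    set n := Nat.find hex with hn
    have h1 : r ^ n • v = 0 := Nat.find_spec hex
    have hn0 : n ≠ 0 := by
      intro h0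
      rw [h0, pow_zero, one_smul] at h1
      exact hv0 h1
    obtain ⟨j, hj⟩ := Nat.exists_eq_succ_of_ne_zero hn0
    refine ⟨r ^ j • v, Nat.find_min hex (by omega), ?_, fun σ hσ => ?_⟩
    · rw [smul_smul, ← pow_succ', ← Nat.succ_eq_add_one, ← hj]; exact h1
    · rw [map_nsmul, hv σ hσ]
  -- the subgroup of such vectors
  let W : AddSubgroup V :=
    { carrier := {v | r • v = 0 ∧ ∀ σ ∈ fixMu r, ρ σ v = v}
      add_mem' := fun {a b} ha hb => ⟨by rw [smul_add, ha.1, hb.1, add_zero], fun σ hσ => by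
        rw [map_add, ha.2 σ hσ, hb.2 σ hσ]⟩
      zero_mem' := ⟨smul_zero _, fun σ _ => map_zero _⟩
      neg_mem' := fun {a} ha => ⟨by rw [smul_neg, ha.1, neg_zero], fun σ hσ => by
        rw [map_neg, ha.2 σ hσ]⟩ }
  have hWst : ∀ σ : GQ, ∀ w ∈ W, ρ σ w ∈ W := by
    intro σ w hw
    refine ⟨by rw [← map_nsmul, hw.1, map_zero], fun τ hτ => ?_⟩
    have h1 := hw.2 _ (conj_mem_fixMu hτ σ)
    have h2 := congrArg (ρ σ) h1
    rw [← end_mul_apply, ← map_mul] at h2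
    have h3 : σ * (σ⁻¹ * τ * σ) = τ * σ := by group
    rw [h3, map_mul, end_mul_apply] at h2
    exact h2
  -- a generator
  let χ := ExtCitation.cycloChar r
  have hχ : ∀ σ : GQ, ∀ ζ : Qb, ζ ^ r = 1 → σ ζ = ζ ^ ((χ σ : (ZMod r)ˣ) : ZMod r).val :=
    fun σ ζ hζ => CycChar.apply_eq_pow_cycloChar r σ hζ
  obtain ⟨⟨_, σ₀, rfl⟩, hgen⟩ := IsCyclic.exists_generator (α := χ.range)
  have hgen' : ∀ σ : GQ, ∃ j : ℕ, χ σ = χ σ₀ ^ j := by
    intro σ
    have h1 := hgen ⟨χ σ, σ, rfl⟩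
    rw [← mem_powers_iff_mem_zpowers] at h1
    obtain ⟨j, hj⟩ := h1
    refine ⟨j, ?_⟩
    have := congrArg Subtype.val hj
    simpa using this.symm
  have hdec : ∀ σ : GQ, ∃ j : ℕ, χ σ = χ σ₀ ^ j ∧ σ * (σ₀ ^ j)⁻¹ ∈ fixMu r := by
    intro σ
    obtain ⟨j, hj⟩ := hgen' σ
    refine ⟨j, hj, ?_⟩
    intro ζ hζ
    have h1 : χ (σ * (σ₀ ^ j)⁻¹) = 1 := by rw [map_mul, map_inv, map_pow, hj, mul_inv_cancel]
    have h2 := hχ (σ * (σ₀ ^ j)⁻¹) ζ hζ
    rw [h1] at h2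
    have h3 : ((1 : (ZMod r)ˣ) : ZMod r).val = 1 := by
      rw [Units.val_one]
      have := Fact.mk hr.one_lt
      exact ZMod.val_one r
    rwa [h3, pow_one] at h2
  set a₀ := ((χ σ₀ : (ZMod r)ˣ) : ZMod r).val with ha₀
  obtain ⟨n, hn⟩ := h.nilp σ₀ a₀ (hχ σ₀)
  set M := (ρ σ₀ - 1) * (ρ σ₀ - (a₀ : AddMonoid.End V)) with hM
  have hMW : ∀ w ∈ W, M w ∈ W := by
    intro w hw
    rw [hM, end_mul_apply]
    have h1 : (ρ σ₀ - (a₀ : AddMonoid.End V)) w ∈ W := by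
      change ρ σ₀ w - (a₀ : AddMonoid.End V) w ∈ W
      rw [AddMonoid.End.natCast_apply]
      exact W.sub_mem (hWst _ _ hw) (W.nsmul_mem hw _)
    change ρ σ₀ _ - _ ∈ W
    exact W.sub_mem (hWst _ _ h1) h1
  -- a nonzero vector in `W` killed by `M`
  obtain ⟨w, hwW, hw0, hwM⟩ : ∃ w ∈ W, w ≠ 0 ∧ M w = 0 := by
    have hex : ∃ m, (M ^ m) v = 0 := ⟨n, by rw [hn]; rfl⟩
    set m := Nat.find hex with hm
    have h1 : (M ^ m) v = 0 := Nat.find_spec hex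
    have hm0 : m ≠ 0 := by
      intro h0
      rw [h0, pow_zero] at h1
      exact hv0 h1
    obtain ⟨j, hj⟩ := Nat.exists_eq_succ_of_ne_zero hm0
    refine ⟨(M ^ j) v, ?_, Nat.find_min hex (by omega), ?_⟩
    · clear hj hm0 h1 hm m hex
      induction j with
      | zero => exact ⟨hvr, hv⟩
      | succ j ih => rw [pow_succ', end_mul_apply]; exact hMW _ ih
    · rw [← end_mul_apply, ← pow_succ', ← Nat.succ_eq_add_one, ← hj]; exact h1
  -- powers of `σ₀`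
  have hfixpow : ∀ x ∈ W, ∀ σ : GQ, ∀ j : ℕ, σ * (σ₀ ^ j)⁻¹ ∈ fixMu r →
      ρ σ x = ρ (σ₀ ^ j) x := by
    intro x hx σ j hσ
    have h1 := (hWst (σ₀ ^ j) x hx).2 _ hσ
    rw [← end_mul_apply, ← map_mul] at h1
    rwa [inv_mul_cancel_right] at h1
  by_cases hu : (ρ σ₀ - (a₀ : AddMonoid.End V)) w = 0
  · -- `σ₀ w = a₀ w`
    have h1 : ρ σ₀ w = a₀ • w := by
      change ρ σ₀ w - (a₀ : AddMonoid.End V) w = 0 at hu
      rw [AddMonoid.End.natCast_apply, sub_eq_zero] at hu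
      exact hu
    refine ⟨w, hw0, hwW.1, Or.inr fun σ a ha => ?_⟩
    obtain ⟨j, hj, hj'⟩ := hdec σ
    rw [hfixpow w hwW σ j hj']
    have h2 : ∀ j : ℕ, ρ (σ₀ ^ j) w = (a₀ ^ j) • w := by
      intro j
      induction j with
      | zero => simp
      | succ j ih =>
        rw [pow_succ', map_mul, end_mul_apply, ih, map_nsmul, h1, smul_smul, pow_succ]
    rw [h2]
    have h3 : ((a : ZMod r)) = ((a₀ ^ j : ℕ) : ZMod r) := by
      rw [← CycChar.cycloChar_eq_of_forall r ha]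
      change ((χ σ : (ZMod r)ˣ) : ZMod r) = _
      rw [hj, ha₀]
      push_cast
      rw [ZMod.natCast_zmod_val]
    have h4 := (ZMod.natCast_eq_natCast_iff' _ _ _).1 h3
    have h5 : ∀ b : ℕ, b • w = (b % r) • w := by
      intro b
      conv_lhs => rw [← Nat.div_add_mod b r]
      rw [add_smul, mul_comm, mul_smul, hwW.1, smul_zero, zero_add]
    rw [h5 (a₀ ^ j), h5 a, h4]
  · -- the vector `u` is fixed
    set u := (ρ σ₀ - (a₀ : AddMonoid.End V)) w with hudef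
    have huW : u ∈ W := by
      change ρ σ₀ w - (a₀ : AddMonoid.End V) w ∈ W
      rw [AddMonoid.End.natCast_apply]
      exact W.sub_mem (hWst _ _ hwW) (W.nsmul_mem hwW _)
    have h1 : ρ σ₀ u = u := by
      have h2 : (ρ σ₀ - 1) u = 0 := by
        rw [hudef, ← end_mul_apply]; exact hwM
      change ρ σ₀ u - u = 0 at h2
      exact sub_eq_zero.1 h2
    refine ⟨u, hu, huW.1, Or.inl fun σ => ?_⟩
    obtain ⟨j, hj, hj'⟩ := hdec σ
    rw [hfixpow u huW σ j hj']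
    clear hj hj'
    induction j with
    | zero => simp
    | succ j ih => rw [pow_succ', map_mul, end_mul_apply, ih, h1]

end Fermat.Agent.Mazur
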