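import Mathlib

/-!
# Newton polygon argument for the polynomial of the modular unit
-/

set_option autoImplicit false

namespace Fermat.Agent.Mazur

open Polynomial

variable {K Γ : Type*} [Field K] [LinearOrderedCommGroupWithZero Γ] (w : Valuation K Γ)

/-- a sum with a strictly dominating term -/
lemma val_sum_dominant {ι : Type*} (s : Finset ι) (f : ι → K) {i₀ : ι} (hi : i₀ ∈ s)
    (h0 : 0 < w (f i₀)) (h : ∀ i ∈ s, i ≠ i₀ → w (f i) < w (f i₀)) :
    w (∑ i ∈ s, f i) = w (f i₀) := by
  classical
  rw [← Finset.add_sum_erase s f hi]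
  apply Valuation.map_add_eq_of_lt_left
  apply Valuation.map_sum_lt _ h0.ne'
  intro i hi
  exact h i (Finset.mem_of_mem_erase hi) (Finset.ne_of_mem_erase hi)

/-- the values of the roots -/
theorem newtonV {p : ℕ} (hp : 2 ≤ p) {F : K[X]} (hF : F.Monic) (hd : F.natDegree = p + 1) {α : Γ}
    (hα : 1 < α) (hk : ∀ k, 1 ≤ k → k ≤ p → w (F.coeff k) ≤ α ^ (p - k))
    (h1 : w (F.coeff 1) = α ^ (p - 1)) (h0 : w (F.coeff 0) ≤ 1) {t : K} (ht : F.eval t = 0)
    (ht0 : t ≠ 0) :
    (w t) ^ p ≤ α ^ (p - 1) ∧
      ((w t) ^ p < α ^ (p - 1) → w t * α ^ (p - 1) = w (F.coeff 0)) := by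
  have hα0 : 0 < α := zero_lt_one.trans hα
  have hτ0 : 0 < w t := by
    rw [zero_lt_iff]
    exact (Valuation.ne_zero_iff _).2 ht0
  have hsum : F.eval t = ∑ k ∈ Finset.range (p + 2), F.coeff k * t ^ k := by
    rw [Polynomial.eval_eq_sum_range, hd]
  rw [hsum] at ht
  have hlead : F.coeff (p + 1) = 1 := by
    have := hF.coeff_natDegree
    rwa [hd] at this
  constructor
  · by_contra hlt
    push Not at hlt
    have h1t : 1 < w t := by
      by_contra hle
      push Not at hle
      have h2 : w t ^ p ≤ 1 := pow_le_one₀ zero_le hle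
      have h3 : 1 ≤ α ^ (p - 1) := one_le_pow₀ hα.le
      exact absurd (h2.trans h3) (not_le.2 hlt)
    have hterm : ∀ k ∈ Finset.range (p + 2), k ≠ p + 1 →
        w (F.coeff k * t ^ k) < w (F.coeff (p + 1) * t ^ (p + 1)) := by
      intro k hkr hkne
      rw [Finset.mem_range] at hkr
      rw [hlead, one_mul, map_mul, map_pow, map_pow]
      rcases Nat.eq_zero_or_pos k with rfl | hk1
      · rw [pow_zero, mul_one]
        exact h0.trans_lt (one_lt_pow₀ h1t (by omega))
      · have hkp : k ≤ p := by omega
        have e1 : p + 1 = (p + 1 - k) + k := by omega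
        have key : α ^ (p - k) < w t ^ (p + 1 - k) := by
          rcases le_or_gt α (w t) with h | h
          · have e2 : p + 1 - k = (p - k) + 1 := by omega
            rw [e2, pow_succ]
            calc α ^ (p - k) ≤ w t ^ (p - k) := pow_le_pow_left₀ zero_le h _
              _ = w t ^ (p - k) * 1 := (mul_one _).symm
              _ < w t ^ (p - k) * w t := by
                  exact mul_lt_mul_of_pos_left h1t (pow_pos hτ0 _)
          · have e2 : p - 1 = (p - k) + (k - 1) := by omega
            have e3 : p = (p + 1 - k) + (k - 1) := by omega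
            have h2 : α ^ (p - k) * α ^ (k - 1) < w t ^ (p + 1 - k) * α ^ (k - 1) := by
              rw [← pow_add, ← e2]
              refine hlt.trans_le ?_
              conv_lhs => rw [e3, pow_add]
              gcongr
            exact lt_of_mul_lt_mul_right h2 zero_le
        rw [e1, pow_add]
        calc w (F.coeff k) * w t ^ k ≤ α ^ (p - k) * w t ^ k := by
              gcongr
              exact hk k hk1 hkp
          _ < w t ^ (p + 1 - k) * w t ^ k := mul_lt_mul_of_pos_right key (pow_pos hτ0 _)
    have h2 := val_sum_dominant w (Finset.range (p + 2)) (fun k => F.coeff k * t ^ k)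
      (i₀ := p + 1) (by simp) (by
        rw [hlead, one_mul, map_pow]
        exact pow_pos hτ0 _) hterm
    rw [ht, map_zero, hlead, one_mul, map_pow] at h2
    exact (pow_pos hτ0 _).ne h2
  · intro hlt
    have htα : w t < α := by
      have h2 : w t ^ p < α ^ p :=
        hlt.trans_le (pow_le_pow_right₀ hα.le (by omega))
      exact lt_of_pow_lt_pow_left₀ p zero_le h2
    -- split off the constant term
    have h2 : F.coeff 0 = -∑ k ∈ (Finset.range (p + 2)).erase 0, F.coeff k * t ^ k := by
      have h3 := Finset.add_sum_erase (Finset.range (p + 2)) (fun k => F.coeff k * t ^ k)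
        (a := 0) (by simp)
      rw [ht] at h3
      simp only [pow_zero, mul_one] at h3
      exact eq_neg_of_add_eq_zero_left h3
    rw [h2, Valuation.map_neg]
    have hpos : 0 < w (F.coeff 1 * t ^ 1) := by
      rw [map_mul, h1, pow_one]
      exact mul_pos (pow_pos hα0 _) hτ0
    have h3 := val_sum_dominant w ((Finset.range (p + 2)).erase 0)
      (fun k => F.coeff k * t ^ k) (i₀ := 1) (by simp) hpos ?_
    · rw [h3, pow_one, map_mul, h1, mul_comm]
    · intro k hkr hkne
      rw [Finset.mem_erase, Finset.mem_range] at hkr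
      rw [pow_one, map_mul _ (F.coeff 1), h1, map_mul, map_pow]
      obtain ⟨m, rfl⟩ : ∃ m, k = m + 2 := ⟨k - 2, by omega⟩
      rcases Nat.lt_or_ge (m + 2) (p + 1) with h | h
      · have e1 : p - 1 = (p - (m + 2)) + (m + 1) := by omega
        have h4 : w t ^ (m + 1) < α ^ (m + 1) := pow_lt_pow_left₀ htα zero_le (by omega)
        calc w (F.coeff (m + 2)) * w t ^ (m + 2)
            ≤ α ^ (p - (m + 2)) * w t ^ (m + 2) := by
              gcongr
              exact hk (m + 2) (by omega) (by omega)
          _ = α ^ (p - (m + 2)) * (w t ^ (m + 1) * w t) := by rw [← pow_succ]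
          _ < α ^ (p - (m + 2)) * (α ^ (m + 1) * w t) := by
              apply mul_lt_mul_of_pos_left _ (pow_pos hα0 _)
              exact mul_lt_mul_of_pos_right h4 hτ0
          _ = α ^ (p - 1) * w t := by rw [e1, pow_add _ (p - (m + 2)) (m + 1), mul_assoc]
      · have e1 : m + 2 = p + 1 := by omega
        rw [e1, hlead, map_one, one_mul, pow_succ]
        exact mul_lt_mul_of_pos_right hlt hτ0

/-- roots of monic integral polynomials are integral -/
theorem val_root_le_one {F : K[X]} (hF : F.Monic) (hk : ∀ k, w (F.coeff k) ≤ 1) {t : K}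
    (ht : F.eval t = 0) : w t ≤ 1 := by
  by_contra hlt
  push Not at hlt
  have h0 : 0 < w t := zero_lt_one.trans hlt
  have h2 := val_sum_dominant w (Finset.range (F.natDegree + 1)) (fun k => F.coeff k * t ^ k)
    (i₀ := F.natDegree) (by simp) (by
      rw [hF.coeff_natDegree, one_mul, map_pow]
      exact pow_pos h0 _) ?_
  · rw [← Polynomial.eval_eq_sum_range, ht, map_zero, hF.coeff_natDegree, one_mul, map_pow] at h2
    exact (pow_pos h0 _).ne h2
  · intro k hkr hkne
    rw [Finset.mem_range] at hkr
    rw [hF.coeff_natDegree, one_mul, map_mul, map_pow, map_pow]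
    calc w (F.coeff k) * w t ^ k ≤ 1 * w t ^ k := by
          gcongr
          exact hk k
      _ = w t ^ k := one_mul _
      _ < w t ^ F.natDegree := pow_lt_pow_right₀ hlt (by omega)

/-- ... and bounded below by the constant term -/
theorem const_le_val_root {F : K[X]} (hF : F.Monic)
    (hk : ∀ k, w (F.coeff k) ≤ 1) {t : K} (ht : F.eval t = 0) : w (F.coeff 0) ≤ w t := by
  have ht1 := val_root_le_one w hF hk ht
  have h3 := Finset.add_sum_erase (Finset.range (F.natDegree + 1)) (fun k => F.coeff k * t ^ k)
    (a := 0) (by simp)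
  rw [← Polynomial.eval_eq_sum_range, ht] at h3
  simp only [pow_zero, mul_one] at h3
  rw [eq_neg_of_add_eq_zero_left h3, Valuation.map_neg]
  apply Valuation.map_sum_le
  intro k hkr
  rw [Finset.mem_erase] at hkr
  rw [map_mul, map_pow]
  obtain ⟨m, rfl⟩ := Nat.exists_eq_succ_of_ne_zero hkr.1
  calc w (F.coeff (m + 1)) * w t ^ (m + 1) ≤ 1 * w t ^ (m + 1) := by
        gcongr
        exact hk _
    _ = w t ^ m * w t := by rw [one_mul, pow_succ]
    _ ≤ 1 * w t := by
        gcongr
        exact pow_le_one₀ zero_le ht1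
    _ = w t := one_mul _

end Fermat.Agent.Mazur
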