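import Fermat.Agent.Pts.Phi2
import Fermat.Agent.Cusp.Unit

set_option autoImplicit false
set_option linter.style.haveILetI false
set_option linter.unusedSectionVars false

/-!
# The minimal polynomial over `ℤ[j]` of the modular unit `p¹² Δ(pτ)/Δ(τ)`
-/

noncomputable section

namespace Fermat.Agent.Mazur

open UpperHalfPlane hiding I
open HahnSeries hiding C
open Complex Function ModularCurve Filter ModularForm EisensteinSeries
open scoped Real Manifold Topology MatrixGroups ModularForm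
open Fermat.Agent.ModFn Fermat.Agent.Eis Fermat.Agent.Pts Fermat.Agent.Cusp Polynomial

variable (p : ℕ) [hpF : Fact p.Prime]

/-- the modular unit `p¹² Δ(pτ)/Δ(τ)` -/
def Vf : ℍ → ℂ := fun τ => (p : ℂ) ^ 12 * discriminant (sc p τ) / discriminant τ

theorem Vf_eq (τ : ℍ) : Vf p τ = (p : ℂ) ^ 12 / Uf p τ := by
  have h1 := discriminant_ne_zero τ
  have h2 := discriminant_ne_zero (sc p τ)
  rw [Vf, Uf]
  field_simp

theorem Vf_smul (γ : SL(2, ℤ)) (hγ : γ ∈ CongruenceSubgroup.Gamma0 p) (τ : ℍ) :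
    Vf p (γ • τ) = Vf p τ := by
  rw [Vf_eq, Vf_eq, Uf_smul p γ hγ]

/-- The `p+1` conjugates of `p¹² Δ(pτ)/Δ(τ)`. -/
def vc (x : Option (ZMod p)) : ℍ → ℂ := fun τ => Vf p (rep p x • τ)

theorem vc_none : vc p none = Vf p := by
  funext τ
  simp [vc, rep]

theorem vc_some (y : ZMod p) (τ : ℍ) :
    vc p (some y) τ = discriminant (act !![(1 : ℤ), (y.val : ℤ); 0, (p : ℤ)] τ) /
      discriminant τ := by
  have hp : (p : ℂ) ≠ 0 := by exact_mod_cast hpF.out.ne_zero
  rw [vc, rep, mul_smul, Vf_eq, Uf_S]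
  have h1 : discriminant (ModularGroup.T ^ (y.val : ℤ) • τ) = discriminant τ := by
    rw [discriminant_smul]
    have h2 : denom (ModularGroup.T ^ (y.val : ℤ) : SL(2, ℤ)) τ = 1 := by
      rw [ModularGroup.denom_apply, ModularGroup.coe_T_zpow]
      simp
    rw [h2, one_zpow, one_mul]
  have h2 : scD p (ModularGroup.T ^ (y.val : ℤ) • τ) =
      act !![(1 : ℤ), (y.val : ℤ); 0, (p : ℤ)] τ := by
    apply UpperHalfPlane.ext
    have h3 := coe_act_upper 1 p (y.val : ℤ) τ
    push_cast at h3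
    rw [coe_scD, h3, ModularGroup.coe_T_zpow_smul_eq]
    push_cast
    ring
  have h3 := discriminant_ne_zero τ
  have h4 := discriminant_ne_zero (act !![(1 : ℤ), (y.val : ℤ); 0, (p : ℤ)] τ)
  rw [h1, h2]
  field_simp

theorem vc_smul (γ : SL(2, ℤ)) (x : Option (ZMod p)) (τ : ℍ) :
    vc p x (γ • τ) = vc p (idx p (rep p x * γ)) τ := by
  rw [vc, vc, ← mul_smul]
  have h1 : rep p x * γ * (rep p (idx p (rep p x * γ)))⁻¹ ∈ CongruenceSubgroup.Gamma0 p := by
    rw [← idx_eq_iff, idx_rep]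
  have h2 := Vf_smul p _ h1 (rep p (idx p (rep p x * γ)) • τ)
  rw [← mul_smul, inv_mul_cancel_right] at h2
  exact h2

/-- The characteristic polynomial at a point. -/
def Fv (τ : ℍ) : ℂ[X] := ∏ x : Option (ZMod p), (X - C (vc p x τ))

theorem Fv_smul (γ : SL(2, ℤ)) (τ : ℍ) : Fv p (γ • τ) = Fv p τ := by
  rw [Fv, Fv]
  simp only [vc_smul]
  exact (bijective_idx p γ).prod_comp (fun y => (X - C (vc p y τ)))

section Series

variable {O : Type*} [CommRing O] (i : O →+* ℂ) (ζ : Oˣ)

variable (O) in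
/-- the series of `Δ` -/
def dS : LaurentSeries O := HahnSeries.single (1 : ℤ) (1 : O) *
  HahnSeries.ofPowerSeries ℤ O (dedekindEtaUnit.map (Int.castRingHom O))

variable (O) in
/-- the series of `Δ⁻¹` -/
def dSi : LaurentSeries O := HahnSeries.single (-1 : ℤ) (1 : O) *
  HahnSeries.ofPowerSeries ℤ O (dedekindEtaUnitInv.map (Int.castRingHom O))

variable (O) in
theorem dS_mul_dSi : dS O * dSi O = 1 := by
  have hcast : (dedekindEtaUnit.map (Int.castRingHom O)) *
      (dedekindEtaUnitInv.map (Int.castRingHom O)) = 1 := by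
    rw [← map_mul, dedekindEtaUnit_mul_inv, map_one]
  calc dS O * dSi O = (HahnSeries.single (1 : ℤ) (1 : O) * HahnSeries.single (-1 : ℤ) (1 : O)) *
        (HahnSeries.ofPowerSeries ℤ O ((dedekindEtaUnit.map (Int.castRingHom O)) *
          (dedekindEtaUnitInv.map (Int.castRingHom O)))) := by
        rw [map_mul, dS, dSi]
        ring
    _ = 1 := by
        rw [hcast, map_one (HahnSeries.ofPowerSeries ℤ O), mul_one, HahnSeries.single_mul_single,
          add_neg_cancel, one_mul]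
        rfl

theorem coeffMap_dS : coeffMap i (dS O) = dS ℂ := by
  rw [dS, dS, map_mul, coeffMap_single, map_one i, coeffMap_ofPS']

theorem coeffMap_dSi : coeffMap i (dSi O) = dSi ℂ := by
  rw [dSi, dSi, map_mul, coeffMap_single, map_one i, coeffMap_ofPS']

theorem coeffMap_dS' {R S : Type*} [CommRing R] [CommRing S] (f : R →+* S) :
    coeffMap f (dS R) = dS S := by
  rw [dS, dS, map_mul, coeffMap_single, map_one f, coeffMap_ofPS']

theorem coeffMap_dSi' {R S : Type*} [CommRing R] [CommRing S] (f : R →+* S) :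
    coeffMap f (dSi R) = dSi S := by
  rw [dSi, dSi, map_mul, coeffMap_single, map_one f, coeffMap_ofPS']

theorem hasExp_dS : HasExp 1 discriminant (dS ℂ) := hasExp_discriminant

theorem hasExp_dSi : HasExp 1 (fun τ => (discriminant τ)⁻¹) (dSi ℂ) := by
  refine (hasExp_dS.inv discriminant_ne_zero).congr rfl ?_
  exact inv_eq_of_mul_eq_one_right (dS_mul_dSi ℂ)

/-- The formal conjugates, as series in `q^{1/p}`. -/
def sV (x : Option (ZMod p)) : LaurentSeries O :=
  match x with
  | none => HahnSeries.C ((p : O) ^ 12) * (qExpand O (p * p) (dS O) * qExpand O p (dSi O))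
  | some y => twist (ζ ^ (y.val : ℤ)) (dS O) * qExpand O p (dSi O)

theorem hasExp_sV (hζ : Units.map i.toMonoidHom ζ = zetaU p) (x : Option (ZMod p)) :
    HasExp p (vc p x) (coeffMap i (sV p ζ x)) := by
  have hi : HasExp (1 * p) (fun τ => (discriminant τ)⁻¹) (qExpand ℂ p (dSi ℂ)) :=
    hasExp_dSi.qExpand (m := p)
  rw [one_mul] at hi
  cases x with
  | none =>
    have h1 : HasExp 1 (fun τ => discriminant (sc p τ)) (qExpand ℂ p (dS ℂ)) := by
      have h := hasExp_dS.affine (a := p) (d := 1) 0 (sc p)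
        (g := fun τ => discriminant (sc p τ))
        (fun τ => by rw [coe_sc]; simp) (fun _ => rfl)
      refine h.congr rfl ?_
      rw [zpow_zero, twist_one]
    have h2 : HasExp (1 * p) (fun τ => discriminant (sc p τ)) (qExpand ℂ p (qExpand ℂ p (dS ℂ))) :=
      h1.qExpand (m := p)
    rw [one_mul, qExpand_qExpand] at h2
    have h3 := (h2.mul hi).smul ((p : ℂ) ^ 12)
    refine h3.congr ?_ ?_
    · funext τ
      rw [vc_none, Vf, Pi.smul_apply, Pi.mul_apply, smul_eq_mul, div_eq_mul_inv, mul_assoc]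
    · rw [sV, map_mul, map_mul, coeffMap_qExpand, coeffMap_qExpand, coeffMap_dS, coeffMap_dSi]
      congr 1
      rw [HahnSeries.C_apply, HahnSeries.C_apply, coeffMap_single, map_pow i, map_natCast i]
  | some y =>
    have h1 : HasExp (1 * p) (fun τ => discriminant (act !![(1 : ℤ), (y.val : ℤ); 0, (p : ℤ)] τ))
        (qExpand ℂ 1 (twist (zetaU (1 * p) ^ (y.val : ℤ)) (dS ℂ))) :=
      hasExp_dS.affine (a := 1) (d := p) (y.val : ℤ)
        (fun τ => act !![(1 : ℤ), (y.val : ℤ); 0, (p : ℤ)] τ)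
        (fun τ => by
          have h3 := coe_act_upper 1 p (y.val : ℤ) τ
          push_cast at h3 ⊢
          rw [h3]) (fun _ => rfl)
    rw [one_mul, qExpand_one_apply] at h1
    refine (h1.mul hi).congr ?_ ?_
    · funext τ
      rw [vc_some, Pi.mul_apply, div_eq_mul_inv]
    · rw [sV, map_mul, coeffMap_twist, coeffMap_qExpand, coeffMap_dS, coeffMap_dSi, map_zpow, hζ]

/-- The formal characteristic polynomial. -/
def FV : (LaurentSeries O)[X] := ∏ x : Option (ZMod p), (X - C (sV p ζ x))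

theorem exists_coeff_pairV (hζ : Units.map i.toMonoidHom ζ = zetaU p) (k : ℕ) :
    HasExp p (fun τ => (Fv p τ).coeff k) (coeffMap i ((FV p ζ).coeff k)) := by
  obtain ⟨F, hF⟩ : ∃ F : (pairs p i)[X], F = ∏ x : Option (ZMod p),
      (X - C (⟨(sV p ζ x, vc p x), hasExp_sV p i ζ hζ x⟩ : pairs p i)) := ⟨_, rfl⟩
  have h1 := (F.coeff k).2
  have h2 : ((F.coeff k : pairs p i) : LaurentSeries O × (ℍ → ℂ)).1 = (FV p ζ).coeff k := by
    have : F.map ((RingHom.fst _ _).comp (pairs p i).subtype) = FV p ζ := by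
      rw [hF, Polynomial.map_prod, FV]
      refine Finset.prod_congr rfl fun x _ => ?_
      rw [Polynomial.map_sub, Polynomial.map_X, Polynomial.map_C]
      rfl
    rw [← this, Polynomial.coeff_map]
    rfl
  have h3 : ((F.coeff k : pairs p i) : LaurentSeries O × (ℍ → ℂ)).2 =
      fun τ => (Fv p τ).coeff k := by
    funext τ
    have : F.map (((Pi.evalRingHom (fun _ : ℍ => ℂ) τ).comp (RingHom.snd _ _)).comp
        (pairs p i).subtype) = Fv p τ := by
      rw [hF, Polynomial.map_prod, Fv]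
      refine Finset.prod_congr rfl fun x _ => ?_
      rw [Polynomial.map_sub, Polynomial.map_X, Polynomial.map_C]
      rfl
    rw [← this, Polynomial.coeff_map]
    rfl
  rw [← h2, ← h3]
  exact h1

theorem ofPS_low (a : PowerSeries O) : OrdGE (HahnSeries.ofPowerSeries ℤ O a) 0 := fun _ hm =>
  ofPowerSeries_coeff_of_neg _ hm

theorem ordGE_single (n : ℤ) (c : O) : OrdGE (HahnSeries.single n c) n := fun m hm => by
  rw [HahnSeries.coeff_single_of_ne hm.ne]

theorem ordGE_dS : OrdGE (dS O) 1 := by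
  have := (ordGE_single (1) (1 : O)).mul
    (ofPS_low (dedekindEtaUnit.map (Int.castRingHom O)))
  rwa [add_zero] at this

theorem ordGE_dSi : OrdGE (dSi O) (-1) := by
  have := (ordGE_single (-1) (1 : O)).mul
    (ofPS_low (dedekindEtaUnitInv.map (Int.castRingHom O)))
  rwa [add_zero] at this

theorem coeff_dS : (dS O).coeff 1 = 1 := by
  have h := (ordGE_single (1) (1 : O)).coeff_mul_lowest
    (ofPS_low (dedekindEtaUnit.map (Int.castRingHom O)))
  rw [add_zero, HahnSeries.coeff_single_same, one_mul] at h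
  rw [dS, h]
  have h0 : ((0 : ℕ) : ℤ) = 0 := rfl
  rw [← h0, HahnSeries.ofPowerSeries_apply_coeff, PowerSeries.coeff_map,
    PowerSeries.coeff_zero_eq_constantCoeff_apply, constantCoeff_dedekindEtaUnit, map_one]

theorem coeff_dSi : (dSi O).coeff (-1) = 1 := by
  have h := (ordGE_dS (O := O)).coeff_mul_lowest (ordGE_dSi (O := O))
  rw [dS_mul_dSi, coeff_dS, one_mul] at h
  rw [← h]
  simp

theorem ordGE_qExp {φ : LaurentSeries O} {N : ℤ} (h : OrdGE φ N) (m : ℕ) [NeZero m] :
    OrdGE (qExpand O m φ) (m * N) := fun k hk => by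
  by_cases hd : (m : ℤ) ∣ k
  · obtain ⟨k', rfl⟩ := hd
    rw [qExpand_coeff_mul]
    apply h
    have hm : (0 : ℤ) < m := by exact_mod_cast Nat.pos_of_neZero m
    exact lt_of_mul_lt_mul_left hk hm.le
  · exact qExpand_coeff_of_not_dvd _ _ hd

theorem ordGE_sV_some (y : ZMod p) : OrdGE (sV (O := O) p ζ (some y)) (1 - p) := by
  have h1 : OrdGE (twist (ζ ^ (y.val : ℤ)) (dS O)) 1 := fun m hm => by
    rw [twist_coeff, ordGE_dS m hm, mul_zero]
  have h2 := h1.mul (ordGE_qExp (ordGE_dSi (O := O)) p)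
  refine h2.mono ?_
  omega

theorem isUnit_coeff_sV_some (y : ZMod p) :
    IsUnit ((sV (O := O) p ζ (some y)).coeff (1 - p)) := by
  have h1 : OrdGE (twist (ζ ^ (y.val : ℤ)) (dS O)) 1 := fun m hm => by
    rw [twist_coeff, ordGE_dS m hm, mul_zero]
  have h2 := h1.coeff_mul_lowest (ordGE_qExp (ordGE_dSi (O := O)) p)
  have h3 : (1 - p : ℤ) = 1 + (p : ℤ) * (-1) := by ring
  rw [sV, h3, h2, twist_coeff, coeff_dS, qExpand_coeff_mul, coeff_dSi, mul_one, mul_one]
  exact Units.isUnit _

theorem ordGE_sV_none : OrdGE (sV (O := O) p ζ none) ((p : ℤ) * p - p) := by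
  have h2 := (ordGE_qExp (ordGE_dS (O := O)) (p * p)).mul (ordGE_qExp (ordGE_dSi (O := O)) p)
  have h3 := (ordGE_single (0) ((p : O) ^ 12)).mul h2
  rw [sV]
  refine OrdGE.mono (show OrdGE _ _ from h3) ?_
  push_cast
  omega

theorem coeff_sV_none : (sV (O := O) p ζ none).coeff ((p : ℤ) * p - p) = (p : O) ^ 12 := by
  have h1 := ordGE_qExp (ordGE_dS (O := O)) (p * p)
  have h2 := ordGE_qExp (ordGE_dSi (O := O)) p
  have h3 := (ordGE_single (0) ((p : O) ^ 12)).coeff_mul_lowest (h1.mul h2)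
  rw [h1.coeff_mul_lowest h2, qExpand_coeff_mul, qExpand_coeff_mul, coeff_dS, coeff_dSi, mul_one,
    mul_one, HahnSeries.coeff_single_same, mul_one] at h3
  rw [sV]
  refine Eq.trans ?_ h3
  congr 1
  push_cast
  ring

theorem prod_lowV {ι : Type*} [DecidableEq ι] (c : ℤ) (s : ι → LaurentSeries O)
    (T : Finset ι) (hs : ∀ x ∈ T, OrdGE (s x) (-c)) (k : ℕ) :
    OrdGE ((∏ x ∈ T, (X - C (s x))).coeff k) (c * ((k : ℤ) - T.card)) := by
  induction T using Finset.induction_on generalizing k with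
  | empty =>
    rw [Finset.prod_empty, Polynomial.coeff_one, Finset.card_empty]
    split_ifs with h
    · intro m hm
      rw [HahnSeries.coeff_one]
      split_ifs with h2
      · subst h2
        subst h
        simp at hm
      · rfl
    · intro m _
      rfl
  | insert b T hb ih =>
    rw [Finset.prod_insert hb, sub_mul, Polynomial.coeff_sub, Polynomial.coeff_C_mul,
      Finset.card_insert_of_notMem hb]
    refine Pts.OrdGE.sub ?_ ?_
    · cases k with
      | zero =>
        intro m _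
        rw [Polynomial.coeff_X_mul_zero]
        rfl
      | succ k =>
        rw [Polynomial.coeff_X_mul]
        refine (ih (fun x hx => hs x (Finset.mem_insert_of_mem hx)) k).mono (le_of_eq ?_)
        push_cast
        ring
    · refine ((hs b (Finset.mem_insert_self _ _)).mul
        (ih (fun x hx => hs x (Finset.mem_insert_of_mem hx)) k)).mono (le_of_eq ?_)
      push_cast
      ring

/-- The part of `FV` from the finite conjugates. -/
def HV : (LaurentSeries O)[X] := ∏ y : ZMod p, (X - C (sV p ζ (some y)))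

theorem FV_eq : FV p ζ = (X - C (sV (O := O) p ζ none)) * HV p ζ := by
  rw [FV, Fintype.prod_option, HV]

theorem ordGE_HV (k : ℕ) : OrdGE ((HV (O := O) p ζ).coeff k) (((p : ℤ) - 1) * ((k : ℤ) - p)) := by
  have := prod_lowV ((p : ℤ) - 1) (fun y : ZMod p => sV p ζ (some y)) Finset.univ
    (fun y _ => by
      have := ordGE_sV_some (O := O) p ζ y
      rwa [neg_sub]) k
  rw [Finset.card_univ, ZMod.card] at this
  exact this

theorem isUnit_prod_lowV {ι : Type*} [DecidableEq ι] (c : ℤ) (s : ι → LaurentSeries O)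
    (T : Finset ι)
    (hs : ∀ x ∈ T, OrdGE (s x) (-c)) (hu : ∀ x ∈ T, IsUnit ((s x).coeff (-c))) :
    OrdGE (∏ x ∈ T, s x) (-(c * T.card)) ∧ IsUnit ((∏ x ∈ T, s x).coeff (-(c * T.card))) := by
  induction T using Finset.induction_on with
  | empty =>
    rw [Finset.prod_empty, Finset.card_empty]
    refine ⟨fun m hm => ?_, by simp⟩
    rw [HahnSeries.coeff_one, if_neg]
    simp only [Nat.cast_zero, mul_zero, neg_zero] at hm
    exact hm.ne
  | insert b T hb ih =>
    obtain ⟨h1, h2⟩ := ih (fun x hx => hs x (Finset.mem_insert_of_mem hx))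
      (fun x hx => hu x (Finset.mem_insert_of_mem hx))
    have h3 := hs b (Finset.mem_insert_self _ _)
    rw [Finset.prod_insert hb, Finset.card_insert_of_notMem hb]
    have h4 : (-(c * ((T.card + 1 : ℕ) : ℤ))) = -c + -(c * T.card) := by push_cast; ring
    rw [h4]
    refine ⟨h3.mul h1, ?_⟩
    rw [h3.coeff_mul_lowest h1]
    exact (hu b (Finset.mem_insert_self _ _)).mul h2

theorem HV_coeff_zero :
    OrdGE ((HV (O := O) p ζ).coeff 0) (-(((p : ℤ) - 1) * p)) ∧
    IsUnit (((HV (O := O) p ζ).coeff 0).coeff (-(((p : ℤ) - 1) * p))) := by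
  have h1 : (HV (O := O) p ζ).coeff 0 = (-1) ^ p * ∏ y : ZMod p, sV p ζ (some y) := by
    rw [Polynomial.coeff_zero_eq_eval_zero, HV, Polynomial.eval_prod]
    simp only [eval_sub, eval_X, eval_C, zero_sub]
    rw [Finset.prod_neg]
    simp [ZMod.card]
  obtain ⟨h2, h3⟩ := isUnit_prod_lowV ((p : ℤ) - 1) (fun y : ZMod p => sV p ζ (some y))
    Finset.univ (fun y _ => by
      have := ordGE_sV_some (O := O) p ζ y
      rwa [neg_sub]) (fun y _ => by
      have := isUnit_coeff_sV_some (O := O) p ζ y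
      rwa [neg_sub])
  rw [Finset.card_univ, ZMod.card] at h2 h3
  rw [h1]
  rcases neg_one_pow_eq_or (LaurentSeries O) p with h5 | h5
  · rw [h5, one_mul]
    exact ⟨h2, h3⟩
  · rw [h5, neg_mul, one_mul]
    refine ⟨fun m hm => ?_, ?_⟩
    · rw [HahnSeries.coeff_neg, h2 m hm, neg_zero]
    · rw [HahnSeries.coeff_neg]
      exact h3.neg

theorem HV_monic [Nontrivial O] : (HV (O := O) p ζ).Monic :=
  monic_prod_of_monic _ _ fun _ _ => monic_X_sub_C _

theorem FV_monic : (FV (O := O) p ζ).Monic :=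
  monic_prod_of_monic _ _ fun _ _ => monic_X_sub_C _

theorem FV_natDegree [Nontrivial O] : (FV (O := O) p ζ).natDegree = p + 1 := by
  rw [FV, natDegree_prod_of_monic _ _ fun _ _ => monic_X_sub_C _]
  simp [ZMod.card]

theorem FV_coeff_zero : (FV (O := O) p ζ).coeff 0 = -(sV p ζ none * (HV p ζ).coeff 0) := by
  rw [FV_eq, sub_mul, Polynomial.coeff_sub, Polynomial.coeff_C_mul,
    Polynomial.coeff_X_mul_zero, zero_sub]

theorem FV_coeff_succ (k : ℕ) : (FV (O := O) p ζ).coeff (k + 1) =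
    (HV p ζ).coeff k - sV p ζ none * (HV p ζ).coeff (k + 1) := by
  rw [FV_eq, sub_mul, Polynomial.coeff_sub, Polynomial.coeff_C_mul, Polynomial.coeff_X_mul]

theorem ordGE_FV_zero : OrdGE ((FV (O := O) p ζ).coeff 0) 0 := by
  rw [FV_coeff_zero]
  have h := (ordGE_sV_none (O := O) p ζ).mul (HV_coeff_zero (O := O) p ζ).1
  intro m hm
  rw [HahnSeries.coeff_neg, h m (by
    have : (p : ℤ) * p - p + -(((p : ℤ) - 1) * p) = 0 := by ring
    rw [this]
    exact hm), neg_zero]

theorem FV_coeff_zero_zero : ∃ u : Oˣ,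
    ((FV (O := O) p ζ).coeff 0).coeff 0 = (p : O) ^ 12 * u := by
  have h := (ordGE_sV_none (O := O) p ζ).coeff_mul_lowest (HV_coeff_zero (O := O) p ζ).1
  have e : (p : ℤ) * p - p + -(((p : ℤ) - 1) * p) = 0 := by ring
  rw [e, coeff_sV_none] at h
  obtain ⟨u, hu⟩ := (HV_coeff_zero (O := O) p ζ).2
  refine ⟨-u, ?_⟩
  rw [FV_coeff_zero, HahnSeries.coeff_neg, h, ← hu, Units.val_neg, mul_neg]

theorem ordGE_FV_succ (k : ℕ) :
    OrdGE ((FV (O := O) p ζ).coeff (k + 1)) (((p : ℤ) - 1) * ((k : ℤ) - p)) := by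
  rw [FV_coeff_succ]
  refine Pts.OrdGE.sub (ordGE_HV p ζ k) ?_
  refine ((ordGE_sV_none (O := O) p ζ).mul (ordGE_HV p ζ (k + 1))).mono ?_
  have h1 : (1 : ℤ) ≤ p := by exact_mod_cast hpF.out.pos
  push_cast
  nlinarith

theorem FV_coeff_one :
    IsUnit (((FV (O := O) p ζ).coeff 1).coeff (-(((p : ℤ) - 1) * p))) := by
  have h2 : (2 : ℤ) ≤ p := by exact_mod_cast hpF.out.two_le
  rw [show (1 : ℕ) = 0 + 1 from rfl, FV_coeff_succ, HahnSeries.coeff_sub,
    ((ordGE_sV_none (O := O) p ζ).mul (ordGE_HV p ζ (0 + 1))) _ ?_, sub_zero]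
  · exact (HV_coeff_zero (O := O) p ζ).2
  · push_cast
    nlinarith

end Series

end Fermat.Agent.Mazur
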