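import Fermat.Agent.Mazur.PV1
import Fermat.Agent.Mazur.NewtV
import Fermat.Agent.Pts.Qbar
import Fermat.Agent.Cusp.FrickeUnit

set_option autoImplicit false
set_option linter.style.haveILetI false
set_option linter.unusedSectionVars false

/-!
# The minimal polynomial over `ℤ[j]` of the modular unit `p¹² Δ(pτ)/Δ(τ)` (continued)
-/

noncomputable section

namespace Fermat.Agent.Mazur

open UpperHalfPlane hiding I
open HahnSeries hiding C
open Complex Function ModularCurve Filter ModularForm EisensteinSeries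
open scoped Real Manifold Topology MatrixGroups ModularForm
open Fermat.Agent.ModFn Fermat.Agent.Eis Fermat.Agent.Pts Fermat.Agent.Cusp
open Fermat.Agent.S24Lib Fermat.Agent.FF Polynomial

variable (p : ℕ) [hpF : Fact p.Prime]

section Series

variable {O : Type*} [CommRing O] (i : O →+* ℂ) (ζ : Oˣ)

theorem exists_coeff_polyV (hi : Injective i) (hζ : Units.map i.toMonoidHom ζ = zetaU p)
    (k n : ℕ) (hn : ∀ m : ℤ, m < -(n : ℤ) → ((FV p ζ).coeff k).coeff (p * m) = 0) :
    ∃ P : O[X], P.natDegree ≤ n ∧ (∀ τ, (Fv p τ).coeff k = P.eval₂ i (jH τ)) ∧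
      (FV p ζ).coeff k = P.eval₂ HahnSeries.C (qExpand O p (jqModC O)) ∧
      P.coeff n = ((FV p ζ).coeff k).coeff (-(p * n : ℤ)) := by
  have h1 := exists_coeff_pairV p i ζ hζ k
  have h2 : HasExp (1 * p) (fun τ => (Fv p τ).coeff k) (coeffMap i ((FV p ζ).coeff k)) := by
    rwa [one_mul]
  obtain ⟨h3, h4⟩ := h2.contract (fun τ => by
    have := Fv_smul p ModularGroup.T τ
    rw [T_smul_eq_vadd] at this
    simp only [Nat.cast_one]
    rw [this])
  rw [← coeffMap_contract] at h3 h4
  rw [← ModFn.coeffMap_qExpand] at h4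
  have h5 := coeffMap_injective hi h4
  obtain ⟨P, hP1, hP2, hP3⟩ := exists_polynomial_of_invariant i hi n h3
    (fun γ τ => by rw [Fv_smul]) (fun m hm => by rw [contract_coeff]; exact hn m hm)
  refine ⟨P, hP1, hP2, ?_, ?_⟩
  · conv_lhs => rw [← h5, hP3, Polynomial.hom_eval₂]
    congr 1
    ext x : 1
    simp
  · rw [← eval₂_jq_coeff hP1, ← hP3, contract_coeff]
    congr 1
    ring

theorem exists_coeff_leV (hi : Injective i) (hζ : Units.map i.toMonoidHom ζ = zetaU p) (k : ℕ)
    (hkp : k ≤ p) :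
    ∃ P : O[X], (k = 0 → P.natDegree ≤ 0 ∧ ∃ u : Oˣ, P.coeff 0 = (p : O) ^ 12 * u) ∧
      (1 ≤ k → P.natDegree ≤ p - k) ∧
      (∀ τ, (Fv p τ).coeff k = P.eval₂ i (jH τ)) ∧
      (FV p ζ).coeff k = P.eval₂ HahnSeries.C (qExpand O p (jqModC O)) ∧
      (k = 1 → IsUnit (P.coeff (p - 1))) := by
  have hp1 : (1 : ℤ) ≤ p := by exact_mod_cast hpF.out.pos
  rcases Nat.eq_zero_or_pos k with rfl | hk
  · obtain ⟨P, h1, h2, h3, h4⟩ := exists_coeff_polyV p i ζ hi hζ 0 0 (fun m hm => by
      apply ordGE_FV_zero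
      push_cast at hm ⊢
      nlinarith)
    refine ⟨P, fun _ => ⟨h1, ?_⟩, fun h => absurd h (by omega), h2, h3,
      fun h => absurd h (by omega)⟩
    obtain ⟨u, hu⟩ := FV_coeff_zero_zero (O := O) p ζ
    refine ⟨u, ?_⟩
    rw [h4, ← hu]
    congr 1
  · obtain ⟨P, h1, h2, h3, h4⟩ := exists_coeff_polyV p i ζ hi hζ k (p - k) (fun m hm => by
      obtain ⟨l, rfl⟩ := Nat.exists_eq_succ_of_ne_zero hk.ne'
      apply ordGE_FV_succ
      push_cast [Nat.cast_sub hkp] at hm ⊢
      have hl : (l : ℤ) + 1 ≤ p := by exact_mod_cast hkp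
      have h5 : (p : ℤ) * m ≤ p * (-(p - (l + 1)) - 1) :=
        mul_le_mul_of_nonneg_left (by omega) (by omega)
      nlinarith)
    refine ⟨P, fun h => absurd h (by omega), fun _ => h1, h2, h3, fun h => ?_⟩
    subst h
    rw [h4]
    have := FV_coeff_one (O := O) p ζ
    convert this using 2
    push_cast [Nat.cast_sub hkp]
    ring

/-- **The polynomial of the modular unit.** -/
theorem exists_PV [Nontrivial O] (hi : Injective i)
    (hζ : Units.map i.toMonoidHom ζ = zetaU p) :
    ∃ Φ : O[X][X], Φ.Monic ∧ Φ.natDegree = p + 1 ∧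
      (∀ k, 1 ≤ k → k ≤ p → (Φ.coeff k).natDegree ≤ p - k) ∧
      IsUnit ((Φ.coeff 1).coeff (p - 1)) ∧
      (Φ.coeff 0).natDegree ≤ 0 ∧ (∃ u : Oˣ, (Φ.coeff 0).coeff 0 = (p : O) ^ 12 * u) ∧
      (∀ τ, Φ.map (eval₂RingHom i (jH τ)) = Fv p τ) ∧
      Φ.map (eval₂RingHom HahnSeries.C (qExpand O p (jqModC O))) = FV p ζ := by
  have hp1 := hpF.out.pos
  choose P h1 h2 h3 h4 h5 using fun k : Fin (p + 1) =>
    exists_coeff_leV p i ζ hi hζ k (Nat.lt_succ_iff.1 k.2)
  let P' : ℕ → O[X] := fun k => if h : k < p + 1 then P ⟨k, h⟩ else 0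
  have hP' : ∀ k (h : k < p + 1), P' k = P ⟨k, h⟩ := fun k h => dif_pos h
  obtain ⟨Φ, hΦ⟩ : ∃ Φ : O[X][X], Φ = X ^ (p + 1) +
      ∑ k ∈ Finset.range (p + 1), C (P' k) * X ^ k := ⟨_, rfl⟩
  have hdeg : (∑ k ∈ Finset.range (p + 1), C (P' k) * X ^ k).degree <
      ((p + 1 : ℕ) : WithBot ℕ) := by
    refine (Polynomial.degree_sum_le _ _).trans_lt ?_
    rw [Finset.sup_lt_iff (WithBot.bot_lt_coe _)]
    intro k hk
    rw [Finset.mem_range] at hk
    refine (Polynomial.degree_C_mul_X_pow_le _ _).trans_lt ?_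
    exact_mod_cast hk
  have hmonic : Φ.Monic := by
    rw [hΦ]
    exact Polynomial.monic_X_pow_add (by simpa using hdeg)
  have hnat : Φ.natDegree = p + 1 := by
    rw [hΦ, Polynomial.natDegree_add_eq_left_of_degree_lt, Polynomial.natDegree_X_pow]
    rw [Polynomial.degree_X_pow]
    exact hdeg
  have hcoeff : ∀ k (h : k < p + 1), Φ.coeff k = P ⟨k, h⟩ := by
    intro k hk
    rw [← hP' k hk, hΦ, Polynomial.coeff_add, Polynomial.coeff_X_pow, if_neg (by omega), zero_add,
      Polynomial.finsetSum_coeff, Finset.sum_eq_single k]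
    · rw [Polynomial.coeff_C_mul_X_pow, if_pos rfl]
    · intro b _ hb
      rw [Polynomial.coeff_C_mul_X_pow, if_neg (Ne.symm hb)]
    · intro h
      exact absurd (Finset.mem_range.mpr hk) h
  have hFτ : ∀ τ, (Fv p τ).Monic ∧ (Fv p τ).natDegree = p + 1 := by
    intro τ
    refine ⟨monic_prod_of_monic _ _ fun _ _ => monic_X_sub_C _, ?_⟩
    rw [Fv, natDegree_prod_of_monic _ _ fun _ _ => monic_X_sub_C _]
    simp [ZMod.card]
  refine ⟨Φ, hmonic, hnat, ?_, ?_, ?_, ?_, ?_, ?_⟩
  · intro k hk1 hk2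
    rw [hcoeff k (by omega)]
    exact h2 ⟨k, by omega⟩ hk1
  · rw [hcoeff 1 (by omega)]
    exact h5 ⟨1, by omega⟩ rfl
  · rw [hcoeff 0 (by omega)]
    exact (h1 ⟨0, by omega⟩ rfl).1
  · rw [hcoeff 0 (by omega)]
    exact (h1 ⟨0, by omega⟩ rfl).2
  · intro τ
    rw [hΦ, Polynomial.map_add, Polynomial.map_pow, Polynomial.map_X, Polynomial.map_sum]
    conv_rhs => rw [(hFτ τ).1.as_sum, (hFτ τ).2]
    congr 1
    refine Finset.sum_congr rfl fun k hk => ?_
    rw [Polynomial.map_mul, Polynomial.map_C, Polynomial.map_pow, Polynomial.map_X,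
      hP' k (Finset.mem_range.1 hk)]
    have := h3 ⟨k, Finset.mem_range.1 hk⟩ τ
    rw [this]
    rfl
  · rw [hΦ, Polynomial.map_add, Polynomial.map_pow, Polynomial.map_X, Polynomial.map_sum]
    conv_rhs => rw [(FV_monic (O := O) p ζ).as_sum, FV_natDegree]
    congr 1
    refine Finset.sum_congr rfl fun k hk => ?_
    rw [Polynomial.map_mul, Polynomial.map_C, Polynomial.map_pow, Polynomial.map_X,
      hP' k (Finset.mem_range.1 hk)]
    have := h4 ⟨k, Finset.mem_range.1 hk⟩
    rw [this]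
    rfl

variable (O) in
/-- the series of `p¹² Δ(pτ)/Δ(τ)` -/
def vS : LaurentSeries O := HahnSeries.C ((p : O) ^ 12) * (qExpand O p (dS O) * dSi O)

theorem PV_jq [Nontrivial O] {Φ : O[X][X]}
    (h : Φ.map (eval₂RingHom HahnSeries.C (qExpand O p (jqModC O))) = FV p ζ) :
    (Φ.map (eval₂RingHom HahnSeries.C (jqModC O))).eval (vS p O) = 0 := by
  apply qExpand_injective (R := O) p
  rw [map_zero, ← Polynomial.eval₂_hom, Polynomial.eval₂_map]
  have h1 : ((qExpand O p).comp (eval₂RingHom HahnSeries.C (jqModC O))) =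
      eval₂RingHom HahnSeries.C (qExpand O p (jqModC O)) := by
    apply Polynomial.ringHom_ext
    · intro a
      simp
    · simp
  have h2 : qExpand O p (vS p O) = sV (O := O) p ζ none := by
    rw [vS, sV, map_mul, map_mul, qExpand_qExpand, qExpand_C]
  rw [h1, ← Polynomial.eval_map, h, h2, FV, Polynomial.eval_prod]
  exact Finset.prod_eq_zero (Finset.mem_univ (none : Option (ZMod p))) (by simp)

end Series

section PVQ

variable (K : Type*) [Field K] [IsAlgClosed K] (p : ℕ) [hpF : Fact p.Prime]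

/-- The properties of the polynomial of the modular unit. -/
structure IsPV [Algebra ℚ K] [Algebra K ℂ] (Φ : K[X][X]) : Prop where
  monic : Φ.Monic
  natDegree : Φ.natDegree = p + 1
  low : ∀ (A : ValuationSubring K) (a : K), A.valuation a ≤ 1 →
    ∀ k, A.valuation ((Φ.map (evalRingHom a)).coeff k) ≤ 1
  le : ∀ (A : ValuationSubring K) (a : K), 1 < A.valuation a → ∀ k, 1 ≤ k → k ≤ p →
    A.valuation ((Φ.map (evalRingHom a)).coeff k) ≤ A.valuation a ^ (p - k)
  eq : ∀ (A : ValuationSubring K) (a : K), 1 < A.valuation a →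
    A.valuation ((Φ.map (evalRingHom a)).coeff 1) = A.valuation a ^ (p - 1)
  const : ∀ (A : ValuationSubring K) (a : K),
    A.valuation ((Φ.map (evalRingHom a)).coeff 0) = A.valuation ((p : K) ^ 12)
  map_eq : ∀ (τ : ℍ) (a : K), algebraMap K ℂ a = jH τ →
    (Φ.map (evalRingHom a)).map (algebraMap K ℂ) = Fv p τ
  ev_eq : ∀ x : Pts.FN K p, (x : LaurentSeries K) = vS p K → Pts.ev (jF K p) x Φ = 0

theorem exists_isPV [Algebra ℚ K] [Algebra K ℂ] : ∃ Φ : K[X][X], IsPV K p Φ := by
  haveI : CharZero K := (algebraMap K ℂ).charZero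
  -- the ring of integers
  obtain ⟨z, hz⟩ := hasRoots_of_isAlgClosed K p p dvd_rfl
  have hzp : z ^ p = 1 := by
    apply (algebraMap K ℂ).injective
    rw [map_pow, hz, map_one]
    exact (Complex.isPrimitiveRoot_exp p (NeZero.ne p)).pow_eq_one
  have hzint : z ∈ integralClosure ℤ K := by
    refine IsIntegral.of_pow hpF.out.pos ?_
    rw [hzp]
    exact isIntegral_one
  have hp1 : p - 1 + 1 = p := Nat.sub_add_cancel hpF.out.one_lt.le
  obtain ⟨ζ, hζ⟩ : ∃ ζ : (integralClosure ℤ K)ˣ, ((ζ : integralClosure ℤ K) : K) = z := by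
    refine ⟨⟨⟨z, hzint⟩, ⟨z, hzint⟩ ^ (p - 1), ?_, ?_⟩, rfl⟩
    · rw [← pow_succ', hp1]
      apply Subtype.ext
      simpa using hzp
    · rw [← pow_succ, hp1]
      apply Subtype.ext
      simpa using hzp
  obtain ⟨i, hi⟩ : ∃ i : integralClosure ℤ K →+* ℂ,
    i = (algebraMap K ℂ).comp (integralClosure ℤ K).val.toRingHom := ⟨_, rfl⟩
  have hiinj : Function.Injective i := by
    rw [hi]
    exact (algebraMap K ℂ).injective.comp Subtype.val_injective
  have hζ' : Units.map i.toMonoidHom ζ = zetaU p := by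
    apply Units.ext
    change i ζ = _
    rw [hi]
    change algebraMap K ℂ ((ζ : integralClosure ℤ K) : K) = _
    rw [hζ, hz]
    rfl
  obtain ⟨Φ, h1, h2, h3, h4, h5, h6, h7, h8⟩ := exists_PV p i ζ hiinj hζ'
  have h9 := PV_jq p ζ h8
  obtain ⟨j, hj⟩ : ∃ j : integralClosure ℤ K →+* K, j = (integralClosure ℤ K).val.toRingHom :=
    ⟨_, rfl⟩
  have hringhom : ∀ a : K, (evalRingHom a).comp (mapRingHom j) = eval₂RingHom j a := by
    intro a
    apply Polynomial.ringHom_ext
    · intro c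
      simp
    · simp
  have hmapmap : ∀ a : K, (Φ.map (mapRingHom j)).map (evalRingHom a) =
      Φ.map (eval₂RingHom j a) := by
    intro a
    rw [Polynomial.map_map, hringhom]
  have hjint : ∀ (A : ValuationSubring K) (c : integralClosure ℤ K), A.valuation (j c) ≤ 1 := by
    intro A c
    rw [ValuationSubring.valuation_le_one_iff]
    have hc : IsIntegral ℤ (c : K) := c.2
    have h11 : IsIntegral A (c : K) := by
      obtain ⟨q, hq1, hq2⟩ := hc
      refine ⟨q.map (Int.castRingHom A), hq1.map _, ?_⟩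
      rw [Polynomial.eval₂_map]
      have : (algebraMap A K).comp (Int.castRingHom A) = algebraMap ℤ K := RingHom.ext_int _ _
      rw [this]
      exact hq2
    obtain ⟨y, hy⟩ := IsIntegrallyClosed.algebraMap_eq_of_integral h11
    rw [hj]
    have : (integralClosure ℤ K).val.toRingHom c = (y : K) := hy.symm
    rw [this]
    exact y.2
  have hunit : ∀ (A : ValuationSubring K) (u : (integralClosure ℤ K)ˣ),
      A.valuation (j u) = 1 := by
    intro A u
    apply le_antisymm (hjint A _)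
    have h11 := hjint A (((u⁻¹ : (integralClosure ℤ K)ˣ)) : integralClosure ℤ K)
    have h12 : A.valuation (j u) *
      A.valuation (j (((u⁻¹ : (integralClosure ℤ K)ˣ)) : integralClosure ℤ K)) = 1 := by
      rw [← map_mul, ← map_mul, Units.mul_inv, map_one, map_one]
    calc (1 : A.ValueGroup) = _ := h12.symm
      _ ≤ A.valuation (j u) * 1 := by gcongr
      _ = _ := mul_one _
  have hser : ∀ φ : LaurentSeries (integralClosure ℤ K),
      (coeffMap j).comp (eval₂RingHom HahnSeries.C φ) =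
      (eval₂RingHom (algebraMap K (LaurentSeries K)) (coeffMap j φ)).comp (mapRingHom j) := by
    intro φ
    apply Polynomial.ringHom_ext
    · intro a
      simp only [RingHom.comp_apply, coe_eval₂RingHom, Polynomial.eval₂_C, coe_mapRingHom,
        Polynomial.map_C]
      rw [HahnSeries.C_apply, coeffMap_single, algebraMap_laurent, HahnSeries.C_apply]
    · simp
  have hev : ∀ φ ψ : LaurentSeries (integralClosure ℤ K),
      (Φ.map (eval₂RingHom HahnSeries.C φ)).eval ψ = 0 →
      Pts.ev (coeffMap j φ) (coeffMap j ψ) (Φ.map (mapRingHom j)) = 0 := by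
    intro φ ψ h
    have h11 := congrArg (coeffMap j) h
    rw [map_zero, Polynomial.eval_map, Polynomial.hom_eval₂, hser] at h11
    rw [ev_apply, Polynomial.map_map, Polynomial.eval_map]
    exact h11
  have hFN : ∀ x y : Pts.FN K p, Pts.ev (x : LaurentSeries K) (y : LaurentSeries K)
      (Φ.map (mapRingHom j)) = 0 → Pts.ev x y (Φ.map (mapRingHom j)) = 0 := by
    intro x y h
    have h11 := map_ev (K := K) (S := Pts.FN K p) (T := LaurentSeries K)
      (algebraMap (Pts.FN K p) (LaurentSeries K)) (fun a => rfl) x y (Φ.map (mapRingHom j))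
    apply (algebraMap (Pts.FN K p) (LaurentSeries K)).injective
    rw [h11, map_zero]
    exact h
  have hvS : coeffMap j (vS p (integralClosure ℤ K)) = vS p K := by
    rw [vS, vS, map_mul, map_mul, ModFn.coeffMap_qExpand, coeffMap_dS', coeffMap_dSi',
      HahnSeries.C_apply, coeffMap_single, HahnSeries.C_apply, map_pow, map_natCast]
  refine ⟨Φ.map (mapRingHom j), h1.map _, ?_, ?_, ?_, ?_, ?_, ?_, ?_⟩
  · rw [h1.natDegree_map, h2]
  · intro A a ha k
    rw [hmapmap, Polynomial.coeff_map]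
    change A.valuation ((Φ.coeff k).eval₂ j a) ≤ 1
    rw [Polynomial.eval₂_eq_sum_range]
    refine A.valuation.map_sum_le fun m _ => ?_
    rw [map_mul, map_pow]
    calc A.valuation (j ((Φ.coeff k).coeff m)) * A.valuation a ^ m ≤ 1 * 1 := by
          gcongr
          · exact hjint A _
          · exact pow_le_one₀ zero_le ha
      _ = 1 := one_mul _
  · intro A a ha k hk1 hk2
    rw [hmapmap, Polynomial.coeff_map]
    exact eval₂_le _ j (hjint A) (h3 k hk1 hk2) ha.le
  · intro A a ha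
    rw [hmapmap, Polynomial.coeff_map]
    refine eval₂_eq _ j (hjint A) (h3 1 le_rfl hpF.out.one_lt.le) ?_ ha
    obtain ⟨u, hu⟩ := h4
    rw [← hu]
    exact hunit A u
  · intro A a
    rw [hmapmap, Polynomial.coeff_map]
    obtain ⟨u, hu⟩ := h6
    have h11 : Φ.coeff 0 = C ((Φ.coeff 0).coeff 0) := Polynomial.eq_C_of_natDegree_le_zero h5
    rw [h11, coe_eval₂RingHom, Polynomial.eval₂_C, hu, map_mul, map_mul, hunit, mul_one, map_pow,
      map_natCast]
  · intro τ a ha
    rw [hmapmap, Polynomial.map_map, ← h7]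
    congr 1
    apply Polynomial.ringHom_ext
    · intro c
      simp [hi, hj]
    · simp [ha]
  · intro x hx
    apply hFN
    have := hev _ _ h9
    rw [hvS, coeffMap_jqModC] at this
    rw [hx]
    exact this

end PVQ

end Fermat.Agent.Mazur
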