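import Fermat.Agent.Mazur.CT
import Fermat.Agent.Pts.Main

/-!
# Mazur's step three from the local inputs
-/

set_option autoImplicit false

noncomputable section

open WeierstrassCurve WeierstrassCurve.Affine ModularCurve AlgebraicCurve Fermat.Agent.Red

namespace Fermat.Agent.Mazur

local notation "Qb" => AlgebraicClosure ℚ

section Val

variable {A : ValuationSubring Qb} {a b : Qb} {p : ℕ}

lemma notMem_of_one_lt (h : 1 < A.valuation a) : a ∉ A := by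
  rw [← A.valuation_le_one_iff]
  exact not_le.2 h

lemma div_mem_of_pow_eq (hp : 1 ≤ p) (h : 1 < A.valuation a)
    (hb : A.valuation b ^ p = A.valuation a) : b * a⁻¹ ∈ A := by
  rw [← A.valuation_le_one_iff, map_mul, map_inv₀]
  have h0 : A.valuation a ≠ 0 := (zero_lt_one.trans h).ne'
  have h1 : 1 ≤ A.valuation b := by
    by_contra hlt
    push Not at hlt
    have := pow_le_one₀ (n := p) zero_le' hlt.le
    rw [hb] at this
    exact absurd h (not_lt.2 this)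
  have h2 : A.valuation b ≤ A.valuation a := by
    rw [← hb]
    exact le_self_pow₀ h1 (by omega)
  calc A.valuation b * (A.valuation a)⁻¹ ≤ A.valuation a * (A.valuation a)⁻¹ :=
        mul_le_mul_left h2 _
    _ = 1 := mul_inv_cancel₀ h0

lemma div_notMem_of_eq_pow (hp : 2 ≤ p) (h : 1 < A.valuation a)
    (hb : A.valuation b = A.valuation a ^ p) : b * a⁻¹ ∉ A := by
  rw [← A.valuation_le_one_iff, map_mul, map_inv₀, not_le, hb]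
  have h0 : A.valuation a ≠ 0 := (zero_lt_one.trans h).ne'
  obtain ⟨n, rfl⟩ := Nat.exists_eq_add_of_le hp
  rw [show 2 + n = (n + 1) + 1 by ring, pow_succ, mul_assoc, mul_inv_cancel₀ h0, mul_one]
  exact one_lt_pow₀ h (by omega)

end Val

/-- the rational point with values in the sense of `HasVal` -/
theorem exists_hasVal_place {p : ℕ} [hp : Fact p.Prime] (hp3 : 3 ≤ p) {W : WeierstrassCurve ℤ}
    (hΔ : W.Δ ≠ 0)
    (Q : ((W.map (Int.castRingHom ℚ))⁄(AlgebraicClosure ℚ)).Point) (hQ : Q ≠ 0)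
    (hpQ : p • Q = 0)
    (hstab : ∀ σ : AlgebraicClosure ℚ ≃ₐ[ℚ] AlgebraicClosure ℚ, ∃ k : ℤ, σ • Q = k • Q)
    {ℓ₀ : ℕ} (hℓ₀ : ℓ₀.Prime) (h₀Δ : (ℓ₀ : ℤ) ∣ W.Δ) (h₀c : ¬ (ℓ₀ : ℤ) ∣ W.c₄) :
    ∃ (x : Place (AlgebraicClosure ℚ) (JZ.FN Qb p)) (b : AlgebraicClosure ℚ),
      (∀ σ : AlgebraicClosure ℚ ≃ₐ[ℚ] AlgebraicClosure ℚ,
        arithmeticGalois (modularFunctionFieldFull p) σ • x = x) ∧
      (∀ σ : AlgebraicClosure ℚ ≃ₐ[ℚ] AlgebraicClosure ℚ, σ b = b) ∧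
      HasVal x (Cusp.jE Qb p) (Pts.jW W) ∧ HasVal x (Cusp.jEN Qb p) b ∧
      ∀ ℓ : ℕ, ℓ.Prime → ℓ ≠ p → (ℓ : ℤ) ∣ W.Δ → ¬ (ℓ : ℤ) ∣ W.c₄ →
        ∀ A : ValuationSubring (AlgebraicClosure ℚ), A.LiesOverPrime ℓ →
          1 < A.valuation (Pts.jW W) ∧
          (W.InZeroComponentAt A Q → A.valuation b = A.valuation (Pts.jW W) ^ p) ∧
          (¬ W.InZeroComponentAt A Q → A.valuation b ^ p = A.valuation (Pts.jW W)) := by
  obtain ⟨x, b, h1, h2, h3, h4, h5⟩ :=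
    Pts.exists_place_of_line hp.out hp3 hΔ Q hQ hpQ hstab hℓ₀ h₀Δ h₀c
  refine ⟨x, b, h1, h2, ?_, ?_, h5⟩
  · exact hasVal_iff.2 (Or.inr (h3 (Cusp.jE Qb p) (ModFn.coeffMap_jqModC (algebraMap ℚ Qb))))
  · refine hasVal_iff.2 (Or.inr (h4 (Cusp.jEN Qb p) fun _ => ?_))
    rw [Cusp.coe_jEN]
    exact congrArg _ (ModFn.coeffMap_jqModC (algebraMap ℚ Qb))

/-- **Mazur's step three** from the two local inputs. -/
theorem s15_of_geo {p : ℕ} (hp : p.Prime) (hG : ∀ [Fact p.Prime], GeoInputs p)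
    (hp' : p ∉ ({2, 3, 5, 7, 13} : Finset ℕ))
    (W : WeierstrassCurve ℤ) (hΔ : W.Δ ≠ 0)
    (Q : ((W.map (Int.castRingHom ℚ))⁄(AlgebraicClosure ℚ)).Point)
    (hQfix : ∀ σ : AlgebraicClosure ℚ ≃ₐ[ℚ] AlgebraicClosure ℚ, σ • Q = Q)
    (hQord : addOrderOf Q = p)
    (h2Δ : (2 : ℤ) ∣ W.Δ) (h2c₄ : ¬ (2 : ℤ) ∣ W.c₄)
    (h2 : ∀ A : ValuationSubring (AlgebraicClosure ℚ), A.LiesOverPrime 2 →
      ¬ W.InZeroComponentAt A Q)
    (h3Δ : (3 : ℤ) ∣ W.Δ) (h3c₄ : ¬ (3 : ℤ) ∣ W.c₄)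
    (h3 : ∀ A : ValuationSubring (AlgebraicClosure ℚ), A.LiesOverPrime 3 →
      ¬ W.InZeroComponentAt A Q)
    {ℓ : ℕ} (hℓ : ℓ.Prime) (hℓp : ℓ ≠ p) (hℓΔ : (ℓ : ℤ) ∣ W.Δ) (hℓc₄ : ¬ (ℓ : ℤ) ∣ W.c₄)
    (A : ValuationSubring (AlgebraicClosure ℚ)) (hA : A.LiesOverPrime ℓ) :
    ¬ W.InZeroComponentAt A Q := by
  haveI : Fact p.Prime := ⟨hp⟩
  intro hin
  have hp2 : p ≠ 2 := by rintro rfl; exact hp' (by decide)
  have hp3 : p ≠ 3 := by rintro rfl; exact hp' (by decide)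
  have hp3' : 3 ≤ p := by have := hp.two_le; omega
  have hQ : Q ≠ 0 := by
    rintro rfl
    rw [addOrderOf_zero] at hQord
    exact hp.ne_one hQord.symm
  have hpQ : p • Q = 0 := by rw [← hQord]; exact addOrderOf_nsmul_eq_zero Q
  obtain ⟨x, b, hfix, -, hxa, hxb, hval⟩ := exists_hasVal_place hp3' hΔ Q hQ hpQ
    (fun σ => ⟨1, by rw [hQfix σ, one_smul]⟩) (ℓ₀ := 2) Nat.prime_two h2Δ h2c₄
  obtain ⟨v1, v2, -⟩ := hval ℓ hℓ hℓp hℓΔ hℓc₄ A hA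
  refine ct hG hp' x hfix hxa hxb (fun A' hA' => ?_) (fun A' hA' => ?_) hℓ hℓp hA
    (notMem_of_one_lt v1) (div_notMem_of_eq_pow (by omega) v1 (v2 hin))
  · obtain ⟨u1, -, u3⟩ := hval 2 Nat.prime_two hp2.symm h2Δ h2c₄ A' hA'
    exact ⟨notMem_of_one_lt u1, div_mem_of_pow_eq (by omega) u1 (u3 (h2 A' hA'))⟩
  · obtain ⟨u1, -, u3⟩ := hval 3 Nat.prime_three hp3.symm h3Δ h3c₄ A' hA'
    exact ⟨notMem_of_one_lt u1, div_mem_of_pow_eq (by omega) u1 (u3 (h3 A' hA'))⟩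

end Fermat.Agent.Mazur
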