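import Fermat.Agent.Mazur.Line
import Fermat.Agent.Mazur.Dual

/-!
# The key inequality `|Z(V)| ≤ |V⁰|`
-/

set_option autoImplicit false

open scoped Pointwise
open Fermat.Agent.Frob Fermat.Agent.CFT

namespace Fermat.Agent.Mazur

local notation "Qb" => AlgebraicClosure ℚ
local notation "GQ" => AlgebraicClosure ℚ ≃ₐ[ℚ] AlgebraicClosure ℚ

/-! ### sub and quotient representations -/

section SubQuot

variable {V : Type} [AddCommGroup V] (ρ : GQ →* AddMonoid.End V) (W : AddSubgroup V)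
  (hW : ∀ σ, ∀ v ∈ W, ρ σ v ∈ W)

/-- subrepresentation -/
noncomputable def subRep : GQ →* AddMonoid.End W where
  toFun σ := ((ρ σ : V →+ V).comp W.subtype).codRestrict W (fun w => hW σ w w.2)
  map_one' := by
    ext w
    change ((ρ 1 (w : V) : V)) = w
    rw [map_one]; rfl
  map_mul' σ τ := by
    ext w
    change ((ρ (σ * τ) (w : V) : V)) = ρ σ (ρ τ w)
    rw [map_mul]; rfl

/-- quotient representation -/
noncomputable def quotRep : GQ →* AddMonoid.End (V ⧸ W) where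
  toFun σ := QuotientAddGroup.map W W (ρ σ) (fun v hv => hW σ v hv)
  map_one' := by
    ext w
    obtain ⟨w, rfl⟩ := QuotientAddGroup.mk_surjective w
    change (QuotientAddGroup.mk (ρ 1 w) : V ⧸ W) = QuotientAddGroup.mk w
    rw [map_one]; rfl
  map_mul' σ τ := by
    ext w
    obtain ⟨w, rfl⟩ := QuotientAddGroup.mk_surjective w
    change (QuotientAddGroup.mk (ρ (σ * τ) w) : V ⧸ W) = QuotientAddGroup.mk (ρ σ (ρ τ w))
    rw [map_mul]; rfl

variable {ρ W}

@[simp] lemma coe_subRep (σ : GQ) (w : W) : ((subRep ρ W hW σ w : W) : V) = ρ σ w := rfl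

@[simp] lemma quotRep_mk (σ : GQ) (v : V) :
    quotRep ρ W hW σ (QuotientAddGroup.mk v) = QuotientAddGroup.mk (ρ σ v) := rfl

end SubQuot

section Nilp

variable {V V' : Type} [AddCommGroup V] [AddCommGroup V'] {f : AddMonoid.End V}
  {f' : AddMonoid.End V'} (φ : V →+ V') (h : ∀ v, φ (f v) = f' (φ v))

include h in
lemma intertwine_pow (n : ℕ) (v : V) : φ ((f ^ n) v) = (f' ^ n) (φ v) := by
  induction n generalizing v with
  | zero => rfl
  | succ n ih => rw [pow_succ, pow_succ, end_mul_apply, end_mul_apply, ih, h]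

include h in
lemma isNilpotent_of_surjective (hφ : Function.Surjective φ) (hf : IsNilpotent f) :
    IsNilpotent f' := by
  obtain ⟨n, hn⟩ := hf
  refine ⟨n, ?_⟩
  ext v
  obtain ⟨v, rfl⟩ := hφ v
  rw [← intertwine_pow φ h, hn]
  exact map_zero φ

include h in
lemma isNilpotent_of_injective (hφ : Function.Injective φ) (hf : IsNilpotent f') :
    IsNilpotent f := by
  obtain ⟨n, hn⟩ := hf
  refine ⟨n, ?_⟩
  ext v
  apply hφ
  rw [intertwine_pow φ h, hn]
  exact (map_zero φ).symm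

end Nilp

section Adm

variable {r k : ℕ} {V : Type} [AddCommGroup V] {ρ : GQ →* AddMonoid.End V} {W : AddSubgroup V}
  (hW : ∀ σ, ∀ v ∈ W, ρ σ v ∈ W)

lemma Adm.of_injective {V' : Type} [AddCommGroup V'] {ρ' : GQ →* AddMonoid.End V'}
    (h : Adm r k ρ) (φ : V' →+ V) (hφ : Function.Injective φ)
    (hρ : ∀ σ v, φ (ρ' σ v) = ρ σ (φ v)) : Adm r k ρ' where
  tors v := hφ (by rw [map_nsmul, h.tors, map_zero])
  level := by
    obtain ⟨U, hU, h⟩ := h.level
    refine ⟨U, hU, fun σ hσ => ?_⟩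
    ext v
    apply hφ
    rw [hρ, h σ hσ]; rfl
  nilp σ a ha := by
    refine isNilpotent_of_injective φ ?_ hφ (h.nilp σ a ha)
    intro v
    have h1 : ∀ v, φ ((ρ' σ - (a : AddMonoid.End V')) v) = (ρ σ - (a : AddMonoid.End V)) (φ v) := by
      intro v
      change φ (ρ' σ v - (a : AddMonoid.End V') v) = ρ σ (φ v) - (a : AddMonoid.End V) (φ v)
      rw [AddMonoid.End.natCast_apply, AddMonoid.End.natCast_apply, map_sub, map_nsmul, hρ]
    have h2 : ∀ v, φ ((ρ' σ - 1) v) = (ρ σ - 1) (φ v) := by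
      intro v
      change φ (ρ' σ v - v) = ρ σ (φ v) - (φ v)
      rw [map_sub, hρ]
    rw [end_mul_apply, end_mul_apply, h2, h1]

lemma Adm.of_surjective {V' : Type} [AddCommGroup V'] {ρ' : GQ →* AddMonoid.End V'}
    (h : Adm r k ρ) (φ : V →+ V') (hφ : Function.Surjective φ)
    (hρ : ∀ σ v, φ (ρ σ v) = ρ' σ (φ v)) : Adm r k ρ' where
  tors v := by
    obtain ⟨v, rfl⟩ := hφ v
    rw [← map_nsmul, h.tors, map_zero]
  level := by
    obtain ⟨U, hU, h⟩ := h.level
    refine ⟨U, hU, fun σ hσ => ?_⟩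
    ext v
    obtain ⟨v, rfl⟩ := hφ v
    rw [← hρ, h σ hσ]; rfl
  nilp σ a ha := by
    refine isNilpotent_of_surjective φ ?_ hφ (h.nilp σ a ha)
    intro v
    have h1 : ∀ v, φ ((ρ σ - (a : AddMonoid.End V)) v) = (ρ' σ - (a : AddMonoid.End V')) (φ v) := by
      intro v
      change φ (ρ σ v - (a : AddMonoid.End V) v) = ρ' σ (φ v) - (a : AddMonoid.End V') (φ v)
      rw [AddMonoid.End.natCast_apply, AddMonoid.End.natCast_apply, map_sub, map_nsmul, hρ]
    have h2 : ∀ v, φ ((ρ σ - 1) v) = (ρ' σ - 1) (φ v) := by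
      intro v
      change φ (ρ σ v - v) = ρ' σ (φ v) - (φ v)
      rw [map_sub, hρ]
    rw [end_mul_apply, end_mul_apply, h2, h1]

lemma Adm.sub (h : Adm r k ρ) : Adm r k (subRep ρ W hW) :=
  h.of_injective W.subtype W.subtype_injective (fun _ _ => rfl)

lemma Adm.quot (h : Adm r k ρ) : Adm r k (quotRep ρ W hW) :=
  h.of_surjective (QuotientAddGroup.mk' W) (QuotientAddGroup.mk'_surjective W) (fun _ _ => rfl)

end Adm

/-- The shape of `V` at the place `A` above `r`. -/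
structure LocCond (r k : ℕ) (A : ValuationSubring Qb) {V : Type} [AddCommGroup V]
    (ρ : GQ →* AddMonoid.End V) (V0 : AddSubgroup V) : Prop where
  quot : ∀ σ ∈ A.inertiaSubgroupIn ℚ, ∀ v, ρ σ v - v ∈ V0
  cyc : ∀ σ ∈ A.inertiaSubgroupIn ℚ, ∀ a : ℕ, (∀ ζ : Qb, ζ ^ (r ^ k) = 1 → σ ζ = ζ ^ a) →
    ∀ v ∈ V0, ρ σ v = a • v

/-- Selmer cocycles. -/
structure IsSel (r : ℕ) (A : ValuationSubring Qb) (B : ℕ → ValuationSubring Qb) {V : Type}
    [AddCommGroup V] (ρ : GQ →* AddMonoid.End V) (V0 : AddSubgroup V) (c : GQ → V) : Prop where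
  coc : ∀ σ τ, c (σ * τ) = c σ + ρ σ (c τ)
  lc : ∃ U ∈ galLevels ℚ Qb, ∀ σ ∈ U, c σ = 0
  inert : ∀ q, q.Prime → q ≠ r → ∀ σ ∈ (B q).inertiaSubgroupIn ℚ, c σ = 0
  atA : ∀ σ ∈ A.inertiaSubgroupIn ℚ, c σ ∈ V0
  val : ∀ l : V0 →+ Additive Qbˣ, ∃ β : Qbˣ, A.valuation (β : Qb) = 1 ∧
    ∀ σ ∈ A.inertiaSubgroupIn ℚ, ∀ v : V0, (v : V) = c σ → uact σ β = (l v).toMul * β

section SelGroup

variable (r : ℕ) (A : ValuationSubring Qb) (B : ℕ → ValuationSubring Qb) {V : Type}
  [AddCommGroup V] (ρ : GQ →* AddMonoid.End V) (V0 : AddSubgroup V)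

/-- the group of Selmer cocycles -/
def selZ : AddSubgroup (GQ → V) where
  carrier := {c | IsSel r A B ρ V0 c}
  zero_mem' :=
    { coc := by simp
      lc := ⟨⊤, Levels.top_mem, fun _ _ => rfl⟩
      inert := fun _ _ _ _ _ => rfl
      atA := fun _ _ => V0.zero_mem
      val := fun l => ⟨1, by simp, fun σ _ v hv => by
        have : v = 0 := Subtype.ext hv
        rw [this, map_zero, map_one, mul_one]; rfl⟩ }
  add_mem' := fun {a b} ha hb =>
    { coc := fun σ τ => by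
        simp only [Pi.add_apply, ha.coc, hb.coc, map_add]; abel
      lc := by
        obtain ⟨U, hU, h⟩ := ha.lc
        obtain ⟨U', hU', h'⟩ := hb.lc
        exact ⟨U ⊓ U', Levels.inf_mem hU hU', fun σ hσ => by
          simp only [Pi.add_apply, h σ hσ.1, h' σ hσ.2, add_zero]⟩
      inert := fun q hq hqr σ hσ => by
        simp only [Pi.add_apply, ha.inert q hq hqr σ hσ, hb.inert q hq hqr σ hσ, add_zero]
      atA := fun σ hσ => V0.add_mem (ha.atA σ hσ) (hb.atA σ hσ)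
      val := fun l => by
        obtain ⟨β, h1, h2⟩ := ha.val l
        obtain ⟨β', h1', h2'⟩ := hb.val l
        refine ⟨β * β', by rw [Units.val_mul, map_mul, h1, h1', one_mul], fun σ hσ v hv => ?_⟩
        have hv' : v = ⟨a σ, ha.atA σ hσ⟩ + ⟨b σ, hb.atA σ hσ⟩ := Subtype.ext hv
        rw [hv', map_mul, h2 σ hσ ⟨a σ, ha.atA σ hσ⟩ rfl, h2' σ hσ ⟨b σ, hb.atA σ hσ⟩ rfl, map_add,
          toMul_add]
        exact mul_mul_mul_comm _ _ _ _ }
  neg_mem' := fun {a} ha =>
    { coc := fun σ τ => by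
        simp only [Pi.neg_apply, ha.coc, map_neg]; abel
      lc := by
        obtain ⟨U, hU, h⟩ := ha.lc
        exact ⟨U, hU, fun σ hσ => by simp only [Pi.neg_apply, h σ hσ, neg_zero]⟩
      inert := fun q hq hqr σ hσ => by
        simp only [Pi.neg_apply, ha.inert q hq hqr σ hσ, neg_zero]
      atA := fun σ hσ => V0.neg_mem (ha.atA σ hσ)
      val := fun l => by
        obtain ⟨β, h1, h2⟩ := ha.val l
        refine ⟨β⁻¹, by rw [Units.val_inv_eq_inv_val, map_inv₀, h1, inv_one], fun σ hσ v hv => ?_⟩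
        have hv' : v = - ⟨a σ, ha.atA σ hσ⟩ := Subtype.ext hv
        rw [hv', map_inv, h2 σ hσ ⟨a σ, ha.atA σ hσ⟩ rfl, map_neg, toMul_neg, mul_inv] }

variable {r A B ρ V0}

lemma mem_selZ {c : GQ → V} : c ∈ selZ r A B ρ V0 ↔ IsSel r A B ρ V0 c := Iff.rfl

end SelGroup

section Devissage

/-- cardinality estimate for homomorphisms -/
lemma finite_and_card_le_of_hom {G H : Type*} [AddGroup G] [AddGroup H] (φ : G →+ H)
    {X : Type*} [Finite X] [Finite H] (ψ : φ.ker → X) (hψ : Function.Injective ψ) :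
    Finite G ∧ Nat.card G ≤ Nat.card X * Nat.card H := by
  classical
  let s : H → G := fun h => if hh : ∃ g, φ g = h then hh.choose else 0
  have hs : ∀ g, φ (s (φ g)) = φ g := by
    intro g
    have hh : ∃ g', φ g' = φ g := ⟨g, rfl⟩
    simp only [s, dif_pos hh]
    exact hh.choose_spec
  let f : G → X × H := fun g => (ψ ⟨g - s (φ g), by
    rw [AddMonoidHom.mem_ker, map_sub, hs, sub_self]⟩, φ g)
  have hf : Function.Injective f := by
    intro a b hab
    have h1 := congrArg Prod.fst hab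
    have h2 : φ a = φ b := congrArg Prod.snd hab
    have h3 := congrArg Subtype.val (hψ h1)
    simp only at h3
    rw [h2] at h3
    exact sub_left_injective h3
  refine ⟨Finite.of_injective f hf, ?_⟩
  rw [← Nat.card_prod]
  exact Nat.card_le_card_of_injective f hf

variable {r k : ℕ} {A : ValuationSubring Qb} {B : ℕ → ValuationSubring Qb} {V : Type}
  [AddCommGroup V] {ρ : GQ →* AddMonoid.End V} {V0 : AddSubgroup V} {W : AddSubgroup V}
  (hW : ∀ σ, ∀ v ∈ W, ρ σ v ∈ W)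

lemma LocCond.sub (h : LocCond r k A ρ V0) :
    LocCond r k A (subRep ρ W hW) (V0.comap W.subtype) where
  quot σ hσ v := h.quot σ hσ v
  cyc σ hσ a ha v hv := Subtype.ext (h.cyc σ hσ a ha v hv)

lemma LocCond.quotient (h : LocCond r k A ρ V0) :
    LocCond r k A (quotRep ρ W hW) (V0.map (QuotientAddGroup.mk' W)) where
  quot σ hσ v := by
    obtain ⟨v, rfl⟩ := QuotientAddGroup.mk'_surjective W v
    exact ⟨_, h.quot σ hσ v, rfl⟩
  cyc σ hσ a ha v hv := by
    obtain ⟨v, hv, rfl⟩ := hv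
    change QuotientAddGroup.mk (ρ σ v) = _
    rw [h.cyc σ hσ a ha v hv]
    rfl

/-- image of a Selmer cocycle in a quotient -/
lemma IsSel.quotient {c : GQ → V} (h : IsSel r A B ρ V0 c) :
    IsSel r A B (quotRep ρ W hW) (V0.map (QuotientAddGroup.mk' W))
      (fun σ => (QuotientAddGroup.mk (c σ) : V ⧸ W)) where
  coc σ τ := by rw [h.coc]; rfl
  lc := by
    obtain ⟨U, hU, h⟩ := h.lc
    exact ⟨U, hU, fun σ hσ => by rw [h σ hσ]; rfl⟩
  inert q hq hqr σ hσ := by rw [h.inert q hq hqr σ hσ]; rfl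
  atA σ hσ := ⟨_, h.atA σ hσ, rfl⟩
  val l := by
    let π : V0 →+ V0.map (QuotientAddGroup.mk' W) :=
      ((QuotientAddGroup.mk' W).comp V0.subtype).codRestrict _ (fun v => ⟨v, v.2, rfl⟩)
    obtain ⟨β, h1, h2⟩ := h.val (l.comp π)
    refine ⟨β, h1, fun σ hσ v hv => ?_⟩
    have h3 := h2 σ hσ ⟨c σ, h.atA σ hσ⟩ rfl
    rw [h3]
    congr 2
    change l (π _) = l v
    congr 1
    exact Subtype.ext hv.symm

/-- Selmer cocycles with values in a subrepresentation -/
lemma IsSel.of_mem [Finite V] {c : GQ → V} (h : IsSel r A B ρ V0 c) (hc : ∀ σ, c σ ∈ W) :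
    IsSel r A B (subRep ρ W hW) (V0.comap W.subtype) (fun σ => (⟨c σ, hc σ⟩ : W)) where
  coc σ τ := Subtype.ext (h.coc σ τ)
  lc := by
    obtain ⟨U, hU, h⟩ := h.lc
    exact ⟨U, hU, fun σ hσ => Subtype.ext (h σ hσ)⟩
  inert q hq hqr σ hσ := Subtype.ext (h.inert q hq hqr σ hσ)
  atA σ hσ := h.atA σ hσ
  val l := by
    -- extend the character to `V0`
    let W' : AddSubgroup V0 := W.comap V0.subtype
    let l₁ : W' →+ Additive Qbˣ :=
      { toFun := fun w => l ⟨⟨((w : V0) : V), w.2⟩, (w : V0).2⟩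
        map_zero' := map_zero l
        map_add' := fun a b => map_add l ⟨⟨((a : V0) : V), a.2⟩, (a : V0).2⟩
          ⟨⟨((b : V0) : V), b.2⟩, (b : V0).2⟩ }
    obtain ⟨l', hl'⟩ := exists_char_extend W' l₁
    obtain ⟨β, h1, h2⟩ := h.val l'
    refine ⟨β, h1, fun σ hσ v hv => ?_⟩
    have h3 := h2 σ hσ ⟨c σ, h.atA σ hσ⟩ rfl
    rw [h3]
    congr 2
    have h4 := hl' ⟨⟨c σ, h.atA σ hσ⟩, hc σ⟩
    rw [h4]
    change l _ = l v
    congr 1
    exact Subtype.ext hv.symm

/-- dévissage -/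
lemma selZ_devissage [Finite V]
    (h1 : Finite (selZ r A B (subRep ρ W hW) (V0.comap W.subtype)))
    (h2 : Finite (selZ r A B (quotRep ρ W hW) (V0.map (QuotientAddGroup.mk' W)))) :
    Finite (selZ r A B ρ V0) ∧ Nat.card (selZ r A B ρ V0) ≤
      Nat.card (selZ r A B (subRep ρ W hW) (V0.comap W.subtype)) *
      Nat.card (selZ r A B (quotRep ρ W hW) (V0.map (QuotientAddGroup.mk' W))) := by
  let φ : selZ r A B ρ V0 →+ selZ r A B (quotRep ρ W hW) (V0.map (QuotientAddGroup.mk' W)) :=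
    { toFun := fun c => ⟨fun σ => QuotientAddGroup.mk ((c : GQ → V) σ), c.2.quotient hW⟩
      map_zero' := rfl
      map_add' := fun _ _ => rfl }
  have hker : ∀ c : φ.ker, ∀ σ, ((c : selZ r A B ρ V0) : GQ → V) σ ∈ W := by
    intro c σ
    have h3 := congrArg Subtype.val ((AddMonoidHom.mem_ker).1 c.2)
    have h4 := congrFun h3 σ
    exact (QuotientAddGroup.eq_zero_iff _).1 h4
  let ψ : φ.ker → selZ r A B (subRep ρ W hW) (V0.comap W.subtype) := fun c =>
    ⟨fun σ => ⟨((c : selZ r A B ρ V0) : GQ → V) σ, hker c σ⟩, (c : selZ r A B ρ V0).2.of_mem hW (hker c)⟩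
  have hψ : Function.Injective ψ := by
    intro a b hab
    have h3 := congrArg Subtype.val hab
    apply Subtype.ext
    apply Subtype.ext
    funext σ
    exact congrArg Subtype.val (congrFun h3 σ)
  exact finite_and_card_le_of_hom φ ψ hψ

end Devissage

end Fermat.Agent.Mazur
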