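import Fermat.Agent.Mazur.ValR

/-!
# The standing assumptions for the Eisenstein descent, and the analysis at `r`
-/

set_option autoImplicit false

open scoped Pointwise
open Fermat.Agent.Frob Fermat.Agent.CFT

namespace Fermat.Agent.Mazur

local notation "Qb" => AlgebraicClosure ℚ
local notation "GQ" => AlgebraicClosure ℚ ≃ₐ[ℚ] AlgebraicClosure ℚ

/-- inertia at `r` moves the roots of unity of order `r ^ 2`. -/
theorem exists_inertia_moves {r : ℕ} (hr : r.Prime) {A : ValuationSubring Qb}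
    (hA : A.LiesOverPrime r) :
    ∃ σ ∈ A.inertiaSubgroupIn ℚ, ∃ ζ : Qb, ζ ^ (r ^ 2) = 1 ∧ σ ζ ≠ ζ := by
  by_contra hcon
  push Not at hcon
  set n := r ^ 2 with hn
  have hn0 : n ≠ 0 := pow_ne_zero 2 hr.ne_zero
  have hr0 : (n : Qb) ≠ 0 := by exact_mod_cast hn0
  have : NeZero (n : Qb) := ⟨hr0⟩
  have : NeZero n := ⟨hn0⟩
  obtain ⟨ζ, hζ⟩ := HasEnoughRootsOfUnity.exists_primitiveRoot Qb n
  have hfd : FiniteDimensional ℚ (IntermediateField.adjoin ℚ {ζ}) :=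
    IntermediateField.adjoin.finiteDimensional (Algebra.IsIntegral.isIntegral ζ)
  have h1 : IntermediateField.adjoin ℚ {ζ} = ⊥ := by
    apply eq_bot_of_inertia_fixes _ hfd
    intro ℓ hℓ A' hA' σ hσ x hx
    have hσζ : ∀ ζ' : Qb, ζ' ^ n = 1 → σ ζ' = ζ' := by
      intro ζ' hζ'
      by_cases hℓr : ℓ = r
      · subst hℓr
        obtain ⟨g, rfl⟩ := exists_smul_eq hℓ hA hA'
        rw [mem_inertiaSubgroupIn_smul_iff] at hσ
        have h2 := hcon _ hσ (g⁻¹ ζ') (by rw [← map_pow, hζ', map_one])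
        have h3 := congrArg g h2
        rw [← AlgEquiv.mul_apply, ← AlgEquiv.mul_apply, ← AlgEquiv.mul_apply] at h3
        have h5 : g * (g⁻¹ * σ * g) * g⁻¹ = σ := by group
        rw [h5, mul_inv_cancel] at h3
        exact h3
      · exact inertia_apply_rootOfUnity hℓ hA'
          (fun hd => hℓr ((Nat.prime_dvd_prime_iff_eq hℓ hr).1 (hℓ.dvd_of_dvd_pow hd))) hσ hζ'
    have h4 : IntermediateField.adjoin ℚ {ζ} ≤ IntermediateField.fixedField (Subgroup.zpowers σ) := by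
      rw [IntermediateField.adjoin_simple_le_iff, IntermediateField.mem_fixedField_iff]
      intro τ hτ
      obtain ⟨n, rfl⟩ := Subgroup.mem_zpowers_iff.1 hτ
      have h6 : σ ∈ MulAction.stabilizer GQ ζ := hσζ ζ hζ.pow_eq_one
      exact (MulAction.stabilizer GQ ζ).zpow_mem h6 n
    have h5 := h4 hx
    rw [IntermediateField.mem_fixedField_iff] at h5
    exact h5 σ (Subgroup.mem_zpowers σ)
  have h2 : ζ ∈ (⊥ : IntermediateField ℚ Qb) := h1 ▸ IntermediateField.mem_adjoin_simple_self ℚ ζ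
  obtain ⟨a, ha⟩ := IntermediateField.mem_bot.1 h2
  have ha' : a ^ n = 1 := by
    have := hζ.pow_eq_one
    rw [← ha, ← map_pow] at this
    exact (algebraMap ℚ Qb).injective (by rw [this, map_one])
  have h3 : a = 1 ∨ a = -1 := by
    have h4 : |a| ^ n = 1 := by rw [← abs_pow, ha', abs_one]
    have h5 : |a| = 1 := (pow_eq_one_iff_of_nonneg (abs_nonneg a) hn0).1 h4
    exact eq_or_eq_neg_of_abs_eq h5
  have h4 : ζ ^ 2 = 1 := by
    rw [← ha, ← map_pow]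
    rcases h3 with rfl | rfl <;> simp
  have h5 := Nat.le_of_dvd two_pos (hζ.dvd_of_pow_eq_one 2 h4)
  have h6 : 2 ^ 2 ≤ r ^ 2 := Nat.pow_le_pow_left hr.two_le 2
  omega

/-- a good inertia element at `r` -/
theorem exists_sigma {r : ℕ} (hr : r.Prime) {A : ValuationSubring Qb}
    (hA : A.LiesOverPrime r) (k : ℕ) : ∃ σ ∈ A.inertiaSubgroupIn ℚ, ∃ b : ℕ,
      (∀ ζ : Qb, ζ ^ (r ^ k) = 1 → σ ζ = ζ ^ b) ∧ b.Coprime r ∧
      ∃ u : ℤ, ((r ^ k : ℕ) : ℤ) ∣ ((b : ℤ) - 1) * u - r := by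
  obtain ⟨σ, hσ, ζ, hζ, hne⟩ := exists_inertia_moves hr hA
  obtain ⟨b, hb⟩ := exists_exp (pow_ne_zero (k + 2) hr.ne_zero) σ
  have hζ0 : ζ ≠ 0 := by
    rintro rfl
    rw [zero_pow (pow_ne_zero 2 hr.ne_zero)] at hζ
    exact zero_ne_one hζ
  have hbζ : σ ζ = ζ ^ b := hb ζ (by rw [pow_add, mul_comm, pow_mul, hζ, one_pow])
  have hndvd : ¬ ((r : ℤ) ^ 2 ∣ (b : ℤ) - 1) := by
    rintro ⟨j, hj⟩
    apply hne
    rw [hbζ, ← zpow_natCast, show (b : ℤ) = ((r ^ 2 : ℕ) : ℤ) * j + 1 by push_cast; linarith,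
      zpow_add₀ hζ0, zpow_mul, zpow_natCast, hζ, one_zpow, one_mul, zpow_one]
  have hcop : b.Coprime r := by
    rw [Nat.coprime_comm, hr.coprime_iff_not_dvd]
    rintro ⟨j, rfl⟩
    have : NeZero (r : Qb) := ⟨by exact_mod_cast hr.ne_zero⟩
    obtain ⟨ζ₀, hζ₀⟩ := HasEnoughRootsOfUnity.exists_primitiveRoot Qb r
    have h1 := hb ζ₀ (by rw [pow_succ', pow_mul, hζ₀.pow_eq_one, one_pow])
    rw [pow_mul, hζ₀.pow_eq_one, one_pow] at h1
    have h2 : ζ₀ = 1 := σ.injective (by rw [h1, map_one])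
    have h3 := hζ₀.dvd_of_pow_eq_one 1 (by rw [h2, one_pow])
    exact hr.not_dvd_one h3
  refine ⟨σ, hσ, b, fun ζ hζ => hb ζ (by rw [pow_add, pow_mul, hζ, one_pow]), hcop, ?_⟩
  -- `gcd (b - 1) (r ^ k) ∣ r`
  have hg : ((Int.gcd ((b : ℤ) - 1) ((r ^ k : ℕ) : ℤ)) : ℤ) ∣ r := by
    have h1 : Int.gcd ((b : ℤ) - 1) ((r ^ k : ℕ) : ℤ) ∣ r ^ k := by
      have := Int.gcd_dvd_right ((b : ℤ) - 1) ((r ^ k : ℕ) : ℤ)
      exact_mod_cast this
    obtain ⟨j, hj, hj'⟩ := (Nat.dvd_prime_pow hr).1 h1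
    have hj1 : j ≤ 1 := by
      by_contra hlt
      push Not at hlt
      apply hndvd
      have h2 := Int.gcd_dvd_left ((b : ℤ) - 1) ((r ^ k : ℕ) : ℤ)
      rw [hj'] at h2
      refine dvd_trans ?_ h2
      push_cast
      exact pow_dvd_pow _ hlt
    rw [hj']
    push_cast
    calc (r : ℤ) ^ j ∣ (r : ℤ) ^ 1 := pow_dvd_pow _ hj1
      _ = r := pow_one _
  obtain ⟨w, hw⟩ := hg
  refine ⟨Int.gcdA ((b : ℤ) - 1) ((r ^ k : ℕ) : ℤ) * w, ?_⟩
  have h1 := Int.gcd_eq_gcd_ab ((b : ℤ) - 1) ((r ^ k : ℕ) : ℤ)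
  refine ⟨- Int.gcdB ((b : ℤ) - 1) ((r ^ k : ℕ) : ℤ) * w, ?_⟩
  linear_combination (-w) * h1 - hw

/-- standing assumptions -/
structure Std (r k N : ℕ) (A : ValuationSubring Qb) (B : ℕ → ValuationSubring Qb)
    (R : Type) [CommRing R] {V : Type} [AddCommGroup V] [Module R V]
    (ρ : GQ →* AddMonoid.End V) (V0 : AddSubgroup V) (M M1 M2 : ℕ) : Prop where
  adm : Adm r k ρ
  loc : LocCond r k A ρ V0
  comm : ∀ (t : R) (σ : GQ) (v : V), ρ σ (t • v) = t • ρ σ v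
  stab : ∀ (t : R), ∀ v ∈ V0, t • v ∈ V0
  dec : ∀ σ ∈ A.decompositionSubgroup ℚ, ∀ v ∈ V0, ρ σ v ∈ V0
  unr : ∀ q, q.Prime → q ≠ r → q ≠ N → ∀ σ ∈ (B q).inertiaSubgroupIn ℚ, ρ σ = 1
  uni : ∀ σ ∈ (B N).inertiaSubgroupIn ℚ, ∀ τ ∈ (B N).inertiaSubgroupIn ℚ, ∀ v,
    ρ σ (ρ τ v - v) = ρ τ v - v
  quad : ∀ (g : GQ) (a : ℕ), (∀ ζ : Qb, ζ ^ (r ^ k) = 1 → g ζ = ζ ^ a) →
    ∃ t : R, ∀ v, ρ g (ρ g v) - t • ρ g v + a • v = 0
  frobr : ∃ φ ∈ A.decompositionSubgroup ℚ, ∃ T w1 w2 : R,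
    (∀ v, ρ φ (ρ φ v) - T • ρ φ v + r • v ∈ V0) ∧
    (∀ v : V, (w1 * ((1 + (r : R)) ^ 2 - T ^ 2)) • v = M1 • v) ∧
    (∀ v : V, (w2 * (1 + (r : R) - T)) • v = M2 • v)
  frobl : ∃ (g : GQ) (a : ℕ), a.Coprime r ∧ (∀ ζ : Qb, ζ ^ (r ^ k) = 1 → g ζ = ζ ^ a) ∧
    ∃ T w : R, (∀ v, ρ g (ρ g v) - T • ρ g v + a • v = 0) ∧
      ∀ v : V, (w * (1 + (a : R) - T)) • v = M • v

section

variable {r k N : ℕ} {A : ValuationSubring Qb} {B : ℕ → ValuationSubring Qb}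
  {R : Type} [CommRing R] {V : Type} [AddCommGroup V] [Module R V] [Finite V]
  {ρ : GQ →* AddMonoid.End V} {V0 : AddSubgroup V} {M M1 M2 : ℕ}

/-- exponents are prime to `r` -/
lemma coprime_of_exp (hr : r.Prime) {j : ℕ} (hj : j ≠ 0) {g : GQ} {a : ℕ}
    (ha : ∀ ζ : Qb, ζ ^ (r ^ j) = 1 → g ζ = ζ ^ a) : a.Coprime r := by
  rw [Nat.coprime_comm, hr.coprime_iff_not_dvd]
  rintro ⟨i, rfl⟩
  have : NeZero (r : Qb) := ⟨by exact_mod_cast hr.ne_zero⟩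
  obtain ⟨ζ₀, hζ₀⟩ := HasEnoughRootsOfUnity.exists_primitiveRoot Qb r
  have h1 := ha ζ₀ (by
    obtain ⟨j, rfl⟩ := Nat.exists_eq_succ_of_ne_zero hj
    rw [pow_succ', pow_mul, hζ₀.pow_eq_one, one_pow])
  rw [pow_mul, hζ₀.pow_eq_one, one_pow] at h1
  have h2 : ζ₀ = 1 := g.injective (by rw [h1, map_one])
  have h3 := hζ₀.dvd_of_pow_eq_one 1 (by rw [h2, one_pow])
  exact hr.not_dvd_one h3

/-- exponents can be chosen prime to `r` -/
lemma exists_exp_coprime (hr : r.Prime) (k : ℕ) (g : GQ) :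
    ∃ a : ℕ, a.Coprime r ∧ ∀ ζ : Qb, ζ ^ (r ^ k) = 1 → g ζ = ζ ^ a := by
  obtain ⟨a, ha⟩ := exists_exp (pow_ne_zero (k + 1) hr.ne_zero) g
  exact ⟨a, coprime_of_exp hr (Nat.succ_ne_zero k) ha, fun ζ hζ => ha ζ (by
    rw [pow_succ, pow_mul, hζ, one_pow])⟩

omit [Finite V] in
/-- multiplication by integers prime to `r` is injective -/
lemma Adm.eq_zero_of_coprime (h : Adm r k ρ) {a : ℕ} (ha : a.Coprime r) {v : V}
    (hv : a • v = 0) : v = 0 := by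
  have h1 : Nat.gcd a (r ^ k) = 1 := Nat.Coprime.pow_right k ha
  have h2 : addOrderOf v ∣ Nat.gcd a (r ^ k) :=
    Nat.dvd_gcd (addOrderOf_dvd_of_nsmul_eq_zero hv) (addOrderOf_dvd_of_nsmul_eq_zero (h.tors v))
  rw [h1, Nat.dvd_one, AddMonoid.addOrderOf_eq_one_iff] at h2
  exact h2

omit [Finite V] in
/-- division by integers prime to `r` in subgroups -/
lemma Adm.mem_of_coprime (h : Adm r k ρ) {a : ℕ} (ha : a.Coprime r) {W : AddSubgroup V} {v : V}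
    (hv : a • v ∈ W) : v ∈ W := by
  have h1 : IsCoprime (a : ℤ) ((r ^ k : ℕ) : ℤ) := Nat.isCoprime_iff_coprime.2 (Nat.Coprime.pow_right k ha)
  obtain ⟨x, y, hxy⟩ := h1
  have h2 : v = x • (a • v) + y • ((r ^ k) • v) := by
    rw [← natCast_zsmul v a, ← natCast_zsmul v (r ^ k), smul_smul, smul_smul, ← add_smul, hxy,
      one_smul]
  rw [h2, h.tors, smul_zero, add_zero]
  exact W.zsmul_mem hv x

/-- `ρ φ` restricted to a stable subgroup is surjective -/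
lemma inv_mem_of_stable {W : AddSubgroup V} {φ : GQ} (hφ : ∀ v ∈ W, ρ φ v ∈ W) :
    ∀ v ∈ W, ρ φ⁻¹ v ∈ W := by
  let f : W → W := fun w => ⟨ρ φ w, hφ w w.2⟩
  have hf : Function.Injective f := by
    intro a b hab
    have h1 : ρ φ (a : V) = ρ φ b := congrArg Subtype.val hab
    have h2 := congrArg (ρ φ⁻¹) h1
    rw [← end_mul_apply, ← end_mul_apply, ← map_mul, inv_mul_cancel, map_one] at h2
    exact Subtype.ext h2
  have hs := Finite.surjective_of_injective hf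
  intro v hv
  obtain ⟨w, hw⟩ := hs ⟨v, hv⟩
  have h1 : ρ φ (w : V) = v := congrArg Subtype.val hw
  rw [← h1, ← end_mul_apply, ← map_mul, inv_mul_cancel, map_one]
  exact w.2

/-- the operator `D` -/
structure DData (r k : ℕ) (A : ValuationSubring Qb) (R : Type) [CommRing R] {V : Type}
    [AddCommGroup V] [Module R V] (ρ : GQ →* AddMonoid.End V) (V0 : AddSubgroup V)
    (φ : GQ) (a : ℕ) (D : R) (s : ℤ) : Prop where
  h1 : ∀ v ∈ V0, D • v = s • ρ φ v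
  h2 : ∀ v, D • ρ φ v - (a * s) • v ∈ V0
  hs : ∃ u : ℤ, ((r ^ k : ℕ) : ℤ) ∣ s * u - r

omit [Finite V] in
theorem Std.exists_D (hr : r.Prime) (hA : A.LiesOverPrime r)
    (S : Std r k N A B R ρ V0 M M1 M2) {φ : GQ} (hφ : φ ∈ A.decompositionSubgroup ℚ) {a : ℕ}
    (ha : ∀ ζ : Qb, ζ ^ (r ^ k) = 1 → φ ζ = ζ ^ a) :
    ∃ (D : R) (s : ℤ), DData r k A R ρ V0 φ a D s := by
  obtain ⟨σ, hσ, b, hb, hbr, hu⟩ := exists_sigma hr hA k
  obtain ⟨t, ht⟩ := S.quad φ a ha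
  obtain ⟨t', ht'⟩ := S.quad (φ * σ) (a * b) (by
    intro ζ hζ
    rw [AlgEquiv.mul_apply, hb ζ hζ, map_pow, ha ζ hζ, ← pow_mul])
  have hVφ := S.dec φ hφ
  refine ⟨t' - t, (b : ℤ) - 1, ?_, ?_, hu⟩
  · -- on `V0`
    have key : ∀ v ∈ V0, (t' - t) • ρ φ v = ((b : ℤ) - 1) • ρ φ (ρ φ v) := by
      intro v hv
      have e1 := ht v
      have e2 := ht' v
      have e3 : ρ (φ * σ) v = b • ρ φ v := by
        rw [map_mul, end_mul_apply, S.loc.cyc σ hσ b hb v hv, map_nsmul]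
      have e4 : ρ (φ * σ) (ρ φ v) = b • ρ φ (ρ φ v) := by
        rw [map_mul, end_mul_apply, S.loc.cyc σ hσ b hb _ (hVφ v hv), map_nsmul]
      rw [e3, map_nsmul, e4] at e2
      have e5 : b • (b • ρ φ (ρ φ v) - t' • ρ φ v + a • v) = 0 := by
        rw [← e2]
        simp only [smul_add, smul_sub, smul_smul, mul_comm b a]
        congr 2
        rw [smul_comm]
      have e6 := S.adm.eq_zero_of_coprime hbr e5
      have e7 : (t' - t) • ρ φ v - ((b : ℤ) - 1) • ρ φ (ρ φ v) =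
          (ρ φ (ρ φ v) - t • ρ φ v + a • v) - (b • ρ φ (ρ φ v) - t' • ρ φ v + a • v) := by
        module
      rw [← sub_eq_zero, e7, e1, e6, sub_zero]
    intro v hv
    have h1 := key (ρ φ⁻¹ v) (S.dec _ (inv_mem hφ) v hv)
    rw [← end_mul_apply, ← map_mul, mul_inv_cancel, map_one] at h1
    exact h1
  · intro v
    have e1 := ht v
    have e2 := ht' v
    have e3 : ρ (φ * σ) v - ρ φ v ∈ V0 := by
      rw [map_mul, end_mul_apply, ← map_sub]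
      exact hVφ _ (S.loc.quot σ hσ v)
    have e4 : ρ (φ * σ) (ρ (φ * σ) v) - ρ φ (ρ φ v) ∈ V0 := by
      have e5 : ρ (φ * σ) (ρ (φ * σ) v) - ρ φ (ρ φ v) =
          ρ φ (ρ σ (ρ (φ * σ) v) - ρ (φ * σ) v) + ρ φ (ρ (φ * σ) v - ρ φ v) := by
        rw [map_sub, map_sub]
        conv_lhs => rw [map_mul, end_mul_apply]
        simp only [map_mul, end_mul_apply]
        abel
      rw [e5]
      exact V0.add_mem (hVφ _ (S.loc.quot σ hσ _)) (hVφ _ e3)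
    have e7 : (t' - t) • ρ φ v - ((a : ℤ) * ((b : ℤ) - 1)) • v =
        (ρ (φ * σ) (ρ (φ * σ) v) - ρ φ (ρ φ v)) - t' • (ρ (φ * σ) v - ρ φ v)
        - (ρ (φ * σ) (ρ (φ * σ) v) - t' • ρ (φ * σ) v + (a * b) • v)
        + (ρ φ (ρ φ v) - t • ρ φ v + a • v) := by
      module
    rw [e7, e1, e2, add_zero, sub_zero]
    exact V0.sub_mem e4 (S.stab _ _ e3)

end

end Fermat.Agent.Mazur
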