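import Fermat.Agent.Mazur.TD

set_option autoImplicit false
set_option linter.style.haveILetI false
set_option linter.unusedSectionVars false

/-!
# The height inequality (continued)
-/

noncomputable section

namespace Fermat.Agent.Mazur

open Function ModularCurve AlgebraicCurve
open Fermat.Agent.Pts Fermat.Agent.Cusp Polynomial

local notation "Qb" => AlgebraicClosure ℚ
local notation "GQ" => AlgebraicClosure ℚ ≃ₐ[ℚ] AlgebraicClosure ℚ

section Rat

/-- a rational number with nonnegative valuations has absolute value at least one -/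
lemma one_le_abs_of_padic {r : ℚ} (hr : r ≠ 0)
    (h : ∀ ℓ : ℕ, ℓ.Prime → 0 ≤ padicValRat ℓ r) : 1 ≤ |r| := by
  have hden : r.den = 1 := by
    by_contra hne
    obtain ⟨ℓ, hℓ, hdvd⟩ := Nat.exists_prime_and_dvd hne
    haveI : Fact ℓ.Prime := ⟨hℓ⟩
    have h1 := h ℓ hℓ
    have h2 : ¬ (ℓ : ℤ) ∣ r.num := by
      intro h3
      have h4 : ℓ ∣ r.num.natAbs := Int.natCast_dvd.1 h3
      have h5 := Nat.dvd_gcd h4 hdvd
      rw [r.reduced.gcd_eq_one] at h5
      exact hℓ.one_lt.ne' (Nat.dvd_one.1 h5)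
    rw [padicValRat, padicValInt.eq_zero_of_not_dvd h2] at h1
    have h6 : 1 ≤ padicValNat ℓ r.den :=
      one_le_padicValNat_of_dvd r.den_ne_zero hdvd
    rw [Nat.cast_zero, zero_sub] at h1
    omega
  have h1 : r = (r.num : ℚ) := (Rat.den_eq_one_iff r).1 hden |>.symm
  have h2 : r.num ≠ 0 := Rat.num_ne_zero.2 hr
  rw [h1]
  have h3 : (1 : ℤ) ≤ |r.num| := Int.one_le_abs h2
  exact_mod_cast h3

/-- the size of a rational number with prescribed valuations -/
lemma pow_le_of_padic {p : ℕ} (hp : p.Prime) {a q : ℚ} (hq : q ≠ 0) {d s n : ℕ}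
    (hden : a.den = d * p ^ s) (hd : ¬ p ∣ d)
    (h1 : ∀ ℓ : ℕ, ℓ.Prime → ℓ ≠ p → padicValRat ℓ q = n * padicValNat ℓ a.den)
    (h2 : -(s : ℤ) ≤ padicValRat p q) :
    (d : ℝ) ^ n ≤ (p : ℝ) ^ s * |(q : ℝ)| := by
  haveI := Fact.mk hp
  have hd0 : d ≠ 0 := by
    rintro rfl
    exact hd (dvd_zero _)
  have hp0 : (p : ℚ) ≠ 0 := by exact_mod_cast hp.ne_zero
  have hdq : (d : ℚ) ≠ 0 := by exact_mod_cast hd0
  set r : ℚ := q * (p : ℚ) ^ s / (d : ℚ) ^ n with hr
  have hr0 : r ≠ 0 := div_ne_zero (mul_ne_zero hq (pow_ne_zero _ hp0)) (pow_ne_zero _ hdq)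
  have key : 1 ≤ |r| := by
    refine one_le_abs_of_padic hr0 fun ℓ hℓ => ?_
    haveI := Fact.mk hℓ
    rw [hr, padicValRat.div (mul_ne_zero hq (pow_ne_zero _ hp0)) (pow_ne_zero _ hdq),
      padicValRat.mul hq (pow_ne_zero _ hp0), padicValRat.pow, padicValRat.pow,
      padicValRat.of_nat, padicValRat.of_nat]
    by_cases h : ℓ = p
    · subst h
      rw [padicValNat_self, padicValNat.eq_zero_of_not_dvd hd]
      push_cast
      linarith
    · have h3 : padicValNat ℓ p = 0 := by
        apply padicValNat.eq_zero_of_not_dvd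
        intro h4
        exact h ((Nat.prime_dvd_prime_iff_eq hℓ hp).1 h4)
      have h4 : padicValNat ℓ a.den = padicValNat ℓ d := by
        rw [hden, padicValNat.mul hd0 (pow_ne_zero _ hp.ne_zero), padicValNat.pow, h3,
          mul_zero, add_zero]
      rw [h1 ℓ hℓ h, h3, h4]
      push_cast
      linarith
  have h3 : |r| = |q| * (p : ℚ) ^ s / (d : ℚ) ^ n := by
    rw [hr, abs_div, abs_mul, abs_pow, abs_pow, Nat.abs_cast, Nat.abs_cast]
  rw [h3, le_div_iff₀ (by positivity), one_mul] at key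
  have h4 : ((d : ℚ) : ℝ) ^ n ≤ |(q : ℝ)| * ((p : ℚ) : ℝ) ^ s := by exact_mod_cast key
  push_cast at h4
  linarith

end Rat

section Height

variable {p : ℕ} [hpF : Fact p.Prime]

lemma exists_over_vE {x : Place Qb (JZ.FN Qb p)} {a : Qb} (ha : Red.HasVal x (Cusp.jE Qb p) a) :
    ∃ v : Qb, v ≠ 0 ∧ Red.HasVal x (vE p) v ∧ Red.HasVal x (uE p) ((p : Qb) ^ 12 / v) := by
  have hp0 : (p : Qb) ^ 12 ≠ 0 := pow_ne_zero _ (by exact_mod_cast hpF.out.ne_zero)
  have h0 : algebraMap Qb (JZ.FN Qb p) ((p : Qb) ^ 12) ≠ 0 := (_root_.map_ne_zero _).mpr hp0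
  have h1 : x.ord (uE p) = 0 := ord_uE_of_nonneg p x ha.nonneg
  have h2 : x.ord (vE p) = 0 := by
    rw [vE, Place.ord_mul _ h0 (inv_ne_zero (uE_ne_zero p)), Place.ord_inv, h1,
      FF.ord_algebraMap]
    norm_num
  obtain ⟨v, hv⟩ := Red.exists_hasVal (P := x) (f := vE p) (le_of_eq h2.symm)
  have hv0 : v ≠ 0 := by
    rintro rfl
    rcases Red.hasVal_zero_iff.1 hv with h | h
    · exact vE_ne_zero p h
    · omega
  refine ⟨v, hv0, hv, ?_⟩
  obtain ⟨u, hu⟩ := Red.exists_hasVal (P := x) (f := uE p) (le_of_eq h1.symm)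
  have h3 := hv.mul hu
  rw [vE_mul_uE] at h3
  have h4 := h3.unique (Red.hasVal_algebraMap x ((p : Qb) ^ 12))
  have h5 : (p : Qb) ^ 12 / v = u := by
    rw [← h4, mul_div_cancel_left₀ _ hv0]
  rw [h5]
  exact hu

lemma smul_vE (σ : GQ) : arithmeticGalois (modularFunctionFieldFull p) σ • vE p = vE p := by
  have h1 : vE p = algebraMap Qb (JZ.FN Qb p) ((p : Qb) ^ 12) * (uE p)⁻¹ := rfl
  rw [h1, smul_mul', smul_inv'', smul_uE, smul_algebraMap', map_pow, map_natCast]

lemma over_of_hasVal {x : Place Qb (JZ.FN Qb p)} {f : JZ.FN Qb p} {c : Qb}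
    (h : Red.HasVal x f c) : Over x f c := over_iff.2 (Red.hasVal_iff.1 h)

lemma exists_rat_of_fixed {c : Qb} (h : ∀ σ : GQ, σ c = c) : ∃ q : ℚ, (q : Qb) = c := by
  obtain ⟨q, hq⟩ := (InfiniteGalois.mem_range_algebraMap_iff_fixed (k := ℚ) c).2 h
  exact ⟨q, by rw [← hq]; rfl⟩

/-- **The height theorem.** -/
theorem height (x : Place Qb (JZ.FN Qb p)) (a : ℚ) (b : Qb) (ha0 : a ≠ 0)
    (hx : ∀ σ : GQ, arithmeticGalois (modularFunctionFieldFull p) σ • x = x)
    (ha : Red.HasVal x (Cusp.jE Qb p) (a : Qb)) (hb : Red.HasVal x (Cusp.jEN Qb p) b)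
    (hval : ∀ ℓ : ℕ, ℓ.Prime → ℓ ≠ p → ∀ A : ValuationSubring Qb, A.LiesOverPrime ℓ →
      1 < A.valuation (a : Qb) → A.valuation b = A.valuation (a : Qb) ^ p)
    {d s : ℕ} (hden : a.den = d * p ^ s) (hd : ¬ p ∣ d) :
    (d : ℝ) ^ (p - 1) ≤ (p : ℝ) ^ s * (5 * (p : ℝ) ^ 6 * (8 * |(a : ℝ)| + 1000)) := by
  haveI : Algebra.IsAlgebraic ℚ Qb := AlgebraicClosure.isAlgebraic ℚ
  letI : Algebra Qb ℂ := (IsAlgClosed.lift (R := ℚ) (S := Qb) (M := ℂ)).toRingHom.toAlgebra
  obtain ⟨Φ, hΦ⟩ := exists_isPV Qb p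
  obtain ⟨v, hv0, hv, hu⟩ := exists_over_vE ha
  have hp2 := hpF.out.two_le
  have hpq : (p : Qb) ^ 12 ≠ 0 := pow_ne_zero _ (by exact_mod_cast hpF.out.ne_zero)
  have hev := PV_eval hΦ (over_of_hasVal ha) (over_of_hasVal hv)
  have hev' := PV_eval' hΦ (over_of_hasVal hb) (over_of_hasVal hu)
  -- rationality
  obtain ⟨q, hq⟩ : ∃ q : ℚ, (q : Qb) = v := by
    apply exists_rat_of_fixed
    intro σ
    have h1 := (over_of_hasVal hv).smul (arithmeticGalois (modularFunctionFieldFull p) σ)
    rw [smul_vE, hx, baseAut_arithmeticGalois] at h1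
    exact h1.unique (over_of_hasVal hv)
  subst hq
  have hq0 : q ≠ 0 := by
    rintro rfl
    exact hv0 (by norm_num)
  -- archimedean
  have harch := arch_bound' hΦ hev
  have e1 : ∀ r : ℚ, ‖algebraMap Qb ℂ (r : Qb)‖ = |(r : ℝ)| := by
    intro r
    have : algebraMap Qb ℂ (r : Qb) = ((r : ℝ) : ℂ) := by
      rw [map_ratCast]
      push_cast
      rfl
    rw [this, Complex.norm_real, Real.norm_eq_abs]
  rw [e1, e1] at harch
  -- the finite places
  refine (pow_le_of_padic hpF.out hq0 hden hd (n := p - 1) ?_ ?_).trans ?_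
  · intro ℓ hℓ hℓp
    haveI := Fact.mk hℓ
    obtain ⟨A, hA⟩ := Frob.exists_liesOverPrime Qb hℓ
    have hp1 : A.valuation ((p : Qb) ^ 12) = 1 := by
      rw [map_pow, v_nat_eq_one hℓ hA hpF.out hℓp, one_pow]
    have hcast : ((p - 1 : ℕ) : ℤ) = (p : ℤ) - 1 := by
      push_cast [Nat.cast_sub hpF.out.one_lt.le]
      rfl
    by_cases hlt : 1 < A.valuation (a : Qb)
    · have hbv := hval ℓ hℓ hℓp A hA hlt
      have hb1 : 1 < A.valuation b := by
        rw [hbv]
        exact one_lt_pow₀ hlt (by omega)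
      have h1 := val_bad hΦ hlt hev hv0 hp1.le
      have hu0 : (p : Qb) ^ 12 / (q : Qb) ≠ 0 := div_ne_zero hpq hv0
      have h2 := val_bad hΦ hb1 hev' hu0 hp1.le
      rw [hp1] at h1 h2
      rw [map_div₀, hp1, one_div] at h2
      have hv0' : A.valuation (q : Qb) ≠ 0 := (Valuation.ne_zero_iff _).2 hv0
      have hvpos : 0 < A.valuation (q : Qb) := zero_lt_iff.2 hv0'
      have hα := hlt
      have hα0 : A.valuation (a : Qb) ≠ 0 := (zero_lt_one.trans hlt).ne'
      -- the sharp case
      have h3 : A.valuation (q : Qb) * A.valuation (a : Qb) ^ (p - 1) = 1 := by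
        rcases h1.1.lt_or_eq with h | h
        · exact h1.2 h
        · exfalso
          have hv1 : 1 < A.valuation (q : Qb) := by
            by_contra hle
            push Not at hle
            have := pow_le_one₀ (n := p) zero_le hle
            rw [h] at this
            exact absurd (one_lt_pow₀ hlt (show p - 1 ≠ 0 by omega)) this.not_gt
          have hu1 : (A.valuation (q : Qb))⁻¹ ^ p < A.valuation b ^ (p - 1) := by
            have h4 : (A.valuation (q : Qb))⁻¹ ^ p < 1 :=
              pow_lt_one₀ zero_le (inv_lt_one_of_one_lt₀ hv1) (by omega)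
            exact h4.trans (one_lt_pow₀ hb1 (by omega))
          have h5 := h2.2 hu1
          have h6 : A.valuation b ^ (p - 1) = A.valuation (q : Qb) := by
            rw [inv_mul_eq_one₀ hv0'] at h5
            exact h5.symm
          rw [← h6, hbv, ← pow_mul, ← pow_mul] at h
          have h7 : p * ((p - 1) * p) ≤ p - 1 := by
            by_contra hlt'
            push Not at hlt'
            exact absurd h (pow_lt_pow_right₀ hlt hlt').ne'
          have h8 : p - 1 < p * ((p - 1) * p) := by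
            have h9 : 1 ≤ p - 1 := by omega
            nlinarith [Nat.mul_le_mul hp2 hp2]
          omega
      rw [val_rat hℓ hA hq0, val_rat hℓ hA ha0, ← zpow_natCast, ← zpow_mul,
        ← zpow_add₀ (val_ne_zero hℓ), hcast] at h3
      have h4 : padicValRat ℓ q + padicValRat ℓ a * ((p : ℤ) - 1) = 0 := by
        have h5 := (zpow_le_zpow_iff_val hℓ hA (m := padicValRat ℓ q +
          padicValRat ℓ a * ((p : ℤ) - 1)) (n := 0)).1 (by rw [h3, zpow_zero])
        have h6 := (zpow_le_zpow_iff_val hℓ hA (n := padicValRat ℓ q +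
          padicValRat ℓ a * ((p : ℤ) - 1)) (m := 0)).1 (by rw [h3, zpow_zero])
        omega
      have h5 := (one_lt_val_iff hℓ hA ha0).1 hlt
      have h6 : padicValRat ℓ a = -(padicValNat ℓ a.den : ℤ) := by
        have h7 : ℓ ∣ a.den := by
          by_contra hnd
          rw [padicValRat, padicValNat.eq_zero_of_not_dvd hnd, Nat.cast_zero, sub_zero] at h5
          omega
        have h8 : ¬ (ℓ : ℤ) ∣ a.num := by
          intro h3
          have h4 : ℓ ∣ a.num.natAbs := Int.natCast_dvd.1 h3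
          have h5 := Nat.dvd_gcd h4 h7
          rw [a.reduced.gcd_eq_one] at h5
          exact hℓ.one_lt.ne' (Nat.dvd_one.1 h5)
        rw [padicValRat, padicValInt.eq_zero_of_not_dvd h8, Nat.cast_zero, zero_sub]
      rw [h6] at h4
      rw [hcast]
      linarith
    · push Not at hlt
      have h1 := val_good hΦ hlt hev
      rw [hp1] at h1
      have h2 : A.valuation (q : Qb) = 1 := le_antisymm h1.1 h1.2
      have h3 : padicValRat ℓ q = 0 := by
        rw [val_rat hℓ hA hq0] at h2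
        have h5 := (zpow_le_zpow_iff_val hℓ hA (m := padicValRat ℓ q) (n := 0)).1
          (by rw [h2, zpow_zero])
        have h6 := (zpow_le_zpow_iff_val hℓ hA (n := padicValRat ℓ q) (m := 0)).1
          (by rw [h2, zpow_zero])
        omega
      have h4 : ¬ ℓ ∣ a.den := by
        intro h7
        have h8 : ¬ (ℓ : ℤ) ∣ a.num := by
          intro h3
          have h4 : ℓ ∣ a.num.natAbs := Int.natCast_dvd.1 h3
          have h5 := Nat.dvd_gcd h4 h7
          rw [a.reduced.gcd_eq_one] at h5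
          exact hℓ.one_lt.ne' (Nat.dvd_one.1 h5)
        have h9 : padicValRat ℓ a < 0 := by
          rw [padicValRat, padicValInt.eq_zero_of_not_dvd h8, Nat.cast_zero, zero_sub]
          have : 1 ≤ padicValNat ℓ a.den := one_le_padicValNat_of_dvd a.den_ne_zero h7
          omega
        exact absurd ((one_lt_val_iff hℓ hA ha0).2 h9) (not_lt.2 hlt)
      rw [h3, padicValNat.eq_zero_of_not_dvd h4]
      simp
  · obtain ⟨A, hA⟩ := Frob.exists_liesOverPrime Qb hpF.out
    have hp1 : A.valuation ((p : Qb) ^ 12) ≤ 1 := by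
      rw [map_pow]
      exact pow_le_one₀ zero_le (val_lt_one hA).le
    have hs : padicValNat p a.den = s := by
      have hd0 : d ≠ 0 := by
        rintro rfl
        exact hd (dvd_zero _)
      rw [hden, padicValNat.mul hd0 (pow_ne_zero _ hpF.out.ne_zero), padicValNat.prime_pow,
        padicValNat.eq_zero_of_not_dvd hd, zero_add]
    have hle : A.valuation (q : Qb) ≤ max 1 (A.valuation (a : Qb)) := by
      by_cases hlt : 1 < A.valuation (a : Qb)
      · rw [max_eq_right hlt.le]
        have h1 := (val_bad hΦ hlt hev hv0 hp1).1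
        have h2 : A.valuation (q : Qb) ^ p ≤ A.valuation (a : Qb) ^ p :=
          h1.trans (pow_le_pow_right₀ hlt.le (Nat.sub_le _ _))
        exact (pow_le_pow_iff_left₀ zero_le zero_le (by omega)).1 h2
      · push Not at hlt
        rw [max_eq_left hlt]
        exact (val_good hΦ hlt hev).1
    have hge : -(s : ℤ) ≤ padicValRat p a := by
      rw [padicValRat, hs]
      have : (0 : ℤ) ≤ (padicValInt p a.num : ℤ) := by positivity
      omega
    rcases le_max_iff.1 hle with h | h
    · rw [val_rat hpF.out hA hq0, ← zpow_zero (A.valuation (p : Qb)),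
        zpow_le_zpow_iff_val hpF.out hA] at h
      have : (0 : ℤ) ≤ s := by positivity
      omega
    · rw [val_rat hpF.out hA hq0, val_rat hpF.out hA ha0,
        zpow_le_zpow_iff_val hpF.out hA] at h
      omega
  · gcongr

end Height

end Fermat.Agent.Mazur
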