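import Fermat.Agent.Mazur.S15Lib
import Fermat.Agent.Mazur.TD2
import Fermat.Agent.FreyC.Final

set_option autoImplicit false
set_option linter.style.haveILetI false
set_option linter.unusedSectionVars false

/-!
# The inputs of the theorem on cofixed lines
-/

noncomputable section

namespace Fermat.Agent.Mazur

open Function ModularCurve AlgebraicCurve
open Fermat.Agent.Pts Fermat.Agent.Cusp Polynomial

local notation "Qb" => AlgebraicClosure ℚ
local notation "GQ" => AlgebraicClosure ℚ ≃ₐ[ℚ] AlgebraicClosure ℚ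

/-- **(T-D)** -/
theorem heightStmt : FreyC.HeightStmt := by
  intro p _ hp x a b hx ha hb hval d s hden hd
  have hp0 : (1 : ℝ) ≤ p := by
    have : 1 ≤ p := by omega
    exact_mod_cast this
  rcases eq_or_ne a 0 with rfl | ha0
  · have h1 : d * p ^ s = 1 := by rw [← hden]; rfl
    have h2 : d = 1 := Nat.eq_one_of_mul_eq_one_right h1
    subst h2
    have h3 : (1 : ℝ) ≤ (p : ℝ) ^ 12 * (p : ℝ) ^ s :=
      one_le_mul_of_one_le_of_one_le (one_le_pow₀ hp0) (one_le_pow₀ hp0)
    rw [Nat.cast_one, one_pow, Rat.cast_zero, abs_zero, zero_add]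
    nlinarith
  · have h1 := height x a b ha0 hx ha hb hval hden hd
    refine h1.trans ?_
    have h2 : (0 : ℝ) ≤ |(a : ℝ)| := abs_nonneg _
    have h3 : (p : ℝ) ^ 6 ≤ (p : ℝ) ^ 12 := pow_le_pow_right₀ hp0 (by norm_num)
    have h4 : 5 * (8 * |(a : ℝ)| + 1000) ≤ 2 ^ 200 * (|(a : ℝ)| + 2 ^ 200) := by
      nlinarith
    have h5 : (0 : ℝ) ≤ (p : ℝ) ^ s := by positivity
    calc (p : ℝ) ^ s * (5 * (p : ℝ) ^ 6 * (8 * |(a : ℝ)| + 1000))
        = (p : ℝ) ^ 6 * (p : ℝ) ^ s * (5 * (8 * |(a : ℝ)| + 1000)) := by ring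
      _ ≤ (p : ℝ) ^ 12 * (p : ℝ) ^ s * (2 ^ 200 * (|(a : ℝ)| + 2 ^ 200)) := by gcongr
      _ = 2 ^ 200 * (p : ℝ) ^ 12 * (p : ℝ) ^ s * (|(a : ℝ)| + 2 ^ 200) := by ring

/-- **(CT)** in the form needed for the Frey curve -/
theorem sameCusp {p : ℕ} [hpF : Fact p.Prime] (hG : GeoInputs p)
    (hp' : p ∉ ({2, 3, 5, 7, 13} : Finset ℕ)) : FreyC.SameCusp p := by
  intro x a b hx ha hb h23 ℓ hℓ hℓp A hA haA hba
  haveI : Algebra.IsAlgebraic ℚ Qb := AlgebraicClosure.isAlgebraic ℚ
  letI : Algebra Qb ℂ := (IsAlgClosed.lift (R := ℚ) (S := Qb) (M := ℂ)).toRingHom.toAlgebra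
  have hp2 := hpF.out.two_le
  obtain ⟨Φ, hΦ⟩ := exists_isPhi Qb p
  have hab : Pts.ev a b Φ = 0 := by
    have h0 := hΦ.ev_eq
    have e1 : jpF Qb p = Cusp.jEN Qb p := by
      apply Subtype.ext
      change qExpand Qb p (jqModC Qb) = _
      rw [Cusp.coe_jEN]
      exact congrArg _ (ModFn.coeffMap_jqModC (algebraMap ℚ Qb)).symm
    rw [jF_eq, e1] at h0
    have h1 := (over_of_hasVal ha).ev (over_of_hasVal hb) Φ
    rw [h0] at h1
    have h2 := over_algebraMap x (0 : Qb)
    rw [map_zero] at h2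
    exact h1.unique h2
  have hval : ∀ A : ValuationSubring Qb, a ∉ A → 1 < A.valuation a := by
    intro A h
    rw [← not_le, A.valuation_le_one_iff]
    exact h
  -- at `2` and `3`
  have key : ∀ l : ℕ, l = 2 ∨ l = 3 → ∀ A : ValuationSubring Qb, A.LiesOverPrime l →
      b ∉ A ∧ a * b⁻¹ ∈ A := by
    intro l hl A hA
    obtain ⟨h1, h2⟩ := h23 l hl A hA
    have h3 := hval A h1
    rw [← A.valuation_le_one_iff, map_div₀, not_le] at h2
    have ha0 : A.valuation a ≠ 0 := (zero_lt_one.trans h3).ne'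
    have h4 : A.valuation a < A.valuation b := by
      rwa [one_lt_div₀ (zero_lt_iff.2 ha0)] at h2
    have hb0 : A.valuation b ≠ 0 := ((zero_lt_iff.2 ha0).trans h4).ne'
    refine ⟨?_, ?_⟩
    · rw [← A.valuation_le_one_iff, not_le]
      exact h3.trans h4
    · rw [← A.valuation_le_one_iff, map_mul, map_inv₀, ← div_eq_mul_inv,
        div_le_one₀ (zero_lt_iff.2 hb0)]
      exact h4.le
  -- at `ℓ`
  have ha1 := hval A haA
  have ha0 : A.valuation a ≠ 0 := (zero_lt_one.trans ha1).ne'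
  rw [← A.valuation_le_one_iff, map_div₀, div_le_one₀ (zero_lt_iff.2 ha0)] at hba
  have hs := hΦ.shape A a ha1
  have hab' := hab
  rw [ev_eq_eval hΦ] at hab'
  have hbp : A.valuation b ^ p = A.valuation a := by
    rcases hs.root_cases hp2 ha1 hab' with h | h
    · exfalso
      rw [h] at hba
      have h1 : A.valuation a ^ 1 < A.valuation a ^ p := pow_lt_pow_right₀ ha1 (by omega)
      rw [pow_one] at h1
      exact absurd hba (not_le.2 h1)
    · exact h
  have hb1 : 1 < A.valuation b := by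
    by_contra hle
    push Not at hle
    have := pow_le_one₀ (n := p) zero_le hle
    rw [hbp] at this
    exact absurd ha1 this.not_gt
  have hb0 : A.valuation b ≠ 0 := (zero_lt_one.trans hb1).ne'
  refine ct' hG hp' x hx ha hb (key 2 (Or.inl rfl)) (key 3 (Or.inr rfl)) hℓ hℓp hA ?_ ?_
  · rw [← A.valuation_le_one_iff, not_le]
    exact hb1
  · rw [← A.valuation_le_one_iff, map_mul, map_inv₀, not_le, ← hbp]
    obtain ⟨n, rfl⟩ := Nat.exists_eq_add_of_le hp2
    rw [show 2 + n = (n + 1) + 1 by ring, pow_succ, mul_assoc, mul_inv_cancel₀ hb0, mul_one]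
    exact one_lt_pow₀ hb1 (by omega)

/-- **(S12)** from the local inputs -/
theorem s12_of_geo (P : FreyPackage) (hp : 17 ≤ P.p)
    (hG : ∀ (p : ℕ) [Fact p.Prime], 17 ≤ p → GeoInputs p) :
    ¬ WeierstrassCurve.Affine.Point.HasGaloisStableCofixedLine (K := AlgebraicClosure ℚ) ℚ
      P.freyCurve P.p :=
  FreyC.frey_no_cofixed P hp heightStmt fun p _ hp17 => sameCusp (hG p hp17) (by
    intro h
    simp only [Finset.mem_insert, Finset.mem_singleton] at h
    omega)

end Fermat.Agent.Mazur
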