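import Fermat.Agent.Mazur.PV2
import Fermat.Agent.Mazur.Arch
import Fermat.Agent.Pts.Main
import Fermat.Agent.Cusp.Order

set_option autoImplicit false
set_option linter.style.haveILetI false
set_option linter.unusedSectionVars false

/-!
# The height inequality for rational points of `X_0(p)` with prescribed reductions
-/

noncomputable section

namespace Fermat.Agent.Mazur

open Function ModularCurve AlgebraicCurve ModularForm
open scoped IntermediateField MatrixGroups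
open Fermat.Agent.Pts Fermat.Agent.Cusp Polynomial
open UpperHalfPlane hiding I

local notation "Qb" => AlgebraicClosure ℚ
local notation "GQ" => AlgebraicClosure ℚ ≃ₐ[ℚ] AlgebraicClosure ℚ

section RatVal

variable {A : ValuationSubring Qb} {ℓ : ℕ}

lemma val_nat (hℓ : ℓ.Prime) (hA : A.LiesOverPrime ℓ) {n : ℕ} (hn : n ≠ 0) :
    A.valuation (n : Qb) = A.valuation (ℓ : Qb) ^ (padicValNat ℓ n : ℤ) := by
  haveI : Fact ℓ.Prime := ⟨hℓ⟩
  obtain ⟨k, m, hm, hnm⟩ := Nat.exists_eq_pow_mul_and_not_dvd hn ℓ hℓ.ne_one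
  have hm0 : m ≠ 0 := by
    rintro rfl
    exact hm (dvd_zero _)
  have h1 : padicValNat ℓ n = k := by
    rw [hnm, padicValNat.mul (pow_ne_zero _ hℓ.ne_zero) hm0, padicValNat.prime_pow,
      padicValNat.eq_zero_of_not_dvd hm, add_zero]
  have h2 : A.valuation (m : Qb) = 1 := by
    have := v_int_eq_one hℓ hA (n := (m : ℤ)) (by exact_mod_cast hm)
    simpa using this
  rw [h1, zpow_natCast, hnm, Nat.cast_mul, Nat.cast_pow, map_mul, map_pow, h2, mul_one]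

lemma val_rat (hℓ : ℓ.Prime) (hA : A.LiesOverPrime ℓ) {q : ℚ} (hq : q ≠ 0) :
    A.valuation (q : Qb) = A.valuation (ℓ : Qb) ^ (padicValRat ℓ q) := by
  haveI : Fact ℓ.Prime := ⟨hℓ⟩
  have hℓ0 : A.valuation (ℓ : Qb) ≠ 0 := by
    rw [Valuation.ne_zero_iff]
    exact_mod_cast hℓ.ne_zero
  have hnum : A.valuation ((q.num : ℤ) : Qb) = A.valuation (ℓ : Qb) ^ (padicValInt ℓ q.num : ℤ) := by
    have h1 := val_nat (A := A) hℓ hA (n := q.num.natAbs) (by simpa using hq)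
    rw [padicValInt, ← h1]
    rcases Int.natAbs_eq q.num with h | h
    · conv_lhs => rw [h]
      rw [Int.cast_natCast]
    · conv_lhs => rw [h]
      rw [Int.cast_neg, Int.cast_natCast, Valuation.map_neg]
  have hden := val_nat (A := A) hℓ hA (n := q.den) q.den_ne_zero
  have h3 : (q : Qb) = ((q.num : ℤ) : Qb) / ((q.den : ℕ) : Qb) := by
    conv_lhs => rw [← Rat.num_div_den q]
    push_cast
    rfl
  rw [h3, map_div₀, hnum, hden, padicValRat, zpow_sub₀ hℓ0]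

lemma val_lt_one (hA : A.LiesOverPrime ℓ) : A.valuation (ℓ : Qb) < 1 := v_lt_one_of_lies hA

lemma val_ne_zero (hℓ : ℓ.Prime) : A.valuation (ℓ : Qb) ≠ 0 := by
  rw [Valuation.ne_zero_iff]
  exact_mod_cast hℓ.ne_zero

lemma zpow_le_zpow_iff_val (hℓ : ℓ.Prime) (hA : A.LiesOverPrime ℓ) {m n : ℤ} :
    A.valuation (ℓ : Qb) ^ m ≤ A.valuation (ℓ : Qb) ^ n ↔ n ≤ m :=
  zpow_le_zpow_iff_right_of_lt_one₀ (zero_lt_iff.2 (val_ne_zero hℓ)) (val_lt_one hA)

lemma one_lt_val_iff (hℓ : ℓ.Prime) (hA : A.LiesOverPrime ℓ) {q : ℚ} (hq : q ≠ 0) :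
    1 < A.valuation (q : Qb) ↔ padicValRat ℓ q < 0 := by
  rw [val_rat hℓ hA hq, ← zpow_zero (A.valuation (ℓ : Qb)), ← not_le,
    zpow_le_zpow_iff_val hℓ hA, not_le]

end RatVal

section Unit

variable (p : ℕ) [hpF : Fact p.Prime]

/-- the function `p¹² Δ(pτ)/Δ(τ)` of the function field -/
def vE : JZ.FN Qb p := algebraMap Qb _ ((p : Qb) ^ 12) * (uE p)⁻¹

theorem coeffEmb_delta : coeffEmb Qb deltaSeries = dS Qb :=
  coeffMap_dS' (algebraMap ℚ Qb)

theorem coe_vE : (vE p : LaurentSeries Qb) = vS p Qb := by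
  have h1 : ((uE p : JZ.FN Qb p) : LaurentSeries Qb) =
      dS Qb * (qExpand Qb p (dS Qb))⁻¹ := by
    rw [coe_uE, modularUnitSeries, map_mul, map_inv₀, deltaSeriesN, coeffEmb_delta]
    congr 2
    rw [coeffEmb, ModFn.coeffMap_qExpand]
    congr 1
    exact coeffEmb_delta
  have h2 : (dS Qb)⁻¹ = dSi Qb := inv_eq_of_mul_eq_one_right (dS_mul_dSi Qb)
  have h3 : ((vE p : JZ.FN Qb p) : LaurentSeries Qb) =
      algebraMap Qb (LaurentSeries Qb) ((p : Qb) ^ 12) *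
        ((uE p : JZ.FN Qb p) : LaurentSeries Qb)⁻¹ := rfl
  rw [h3, h1, mul_inv, inv_inv, h2, algebraMap_laurent, vS, mul_comm (dSi Qb)]

theorem vE_ne_zero : vE p ≠ 0 := by
  have hp0 : (p : Qb) ^ 12 ≠ 0 := pow_ne_zero _ (by exact_mod_cast hpF.out.ne_zero)
  exact mul_ne_zero ((_root_.map_ne_zero _).mpr hp0) (inv_ne_zero (uE_ne_zero p))

theorem fricke_vE : fricke p (vE p) = uE p := by
  have hp0 : (p : Qb) ^ 12 ≠ 0 := pow_ne_zero _ (by exact_mod_cast hpF.out.ne_zero)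
  have h0 : algebraMap Qb (JZ.FN Qb p) ((p : Qb) ^ 12) ≠ 0 := (_root_.map_ne_zero _).mpr hp0
  rw [vE, map_mul, map_inv₀, fricke_uE, AlgEquiv.commutes, mul_inv, inv_inv, ← mul_assoc,
    mul_inv_cancel₀ h0, one_mul]

theorem vE_mul_uE : vE p * uE p = algebraMap Qb _ ((p : Qb) ^ 12) := by
  rw [vE, mul_assoc, inv_mul_cancel₀ (uE_ne_zero p), mul_one]

theorem jF_eq [Algebra Qb ℂ] : jF Qb p = Cusp.jE Qb p :=
  Subtype.ext (ModFn.coeffMap_jqModC (algebraMap ℚ Qb)).symm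

end Unit

section Arch

variable (p : ℕ) [hpF : Fact p.Prime]

theorem im_sc (z : ℍ) : (sc p z).im = p * z.im := by
  have := congrArg Complex.im (coe_sc p z)
  simpa using this

theorem norm_Vf_le (z : ℍ) :
    ‖Vf p z‖ ≤ (p : ℝ) ^ 6 / (‖discriminant z‖ * z.im ^ 6) := by
  have hp0 : (0 : ℝ) < p := by exact_mod_cast hpF.out.pos
  have h3 := norm_discriminant_mul_le (sc p z)
  have hzpos := z.im_pos
  have hΔz : 0 < ‖discriminant z‖ := norm_pos_iff.2 (discriminant_ne_zero z)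
  rw [im_sc, mul_pow] at h3
  rw [Vf, norm_div, norm_mul, norm_pow, Complex.norm_natCast]
  generalize ‖discriminant (sc p z)‖ = D' at h3 ⊢
  generalize ‖discriminant z‖ = D at hΔz ⊢
  generalize z.im = y at h3 hzpos ⊢
  have hD : 0 < D * y ^ 6 := mul_pos hΔz (pow_pos hzpos 6)
  rw [div_le_div_iff₀ hΔz hD]
  have e1 : (p : ℝ) ^ 12 * D' * (D * y ^ 6) =
      ((p : ℝ) ^ 6 * D) * (D' * ((p : ℝ) ^ 6 * y ^ 6)) := by ring
  rw [e1]
  have h4 : 0 ≤ (p : ℝ) ^ 6 * D := mul_nonneg (pow_nonneg hp0.le 6) hΔz.le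
  exact mul_le_of_le_one_right h4 h3

theorem norm_vc_le (c : Option (ZMod p)) (τ : ℍ) :
    ‖vc p c τ‖ ≤ (p : ℝ) ^ 6 / (‖discriminant τ‖ * τ.im ^ 6) := by
  rw [← norm_discriminant_smul (Eis.rep p c) τ]
  exact norm_Vf_le p (Eis.rep p c • τ)

theorem norm_vc_le' (c : Option (ZMod p)) {τ : ℍ} (hz : 3 ≤ 4 * τ.im ^ 2) :
    ‖vc p c τ‖ ≤ 5 * (p : ℝ) ^ 6 * (8 * ‖ModFn.jH τ‖ + 1000) := by
  have hp0 : (0 : ℝ) < p := by exact_mod_cast hpF.out.pos
  refine (norm_vc_le p c τ).trans ?_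
  have h5 := (norm_discriminant_bounds hz).1
  have h6 := exp_le_norm_j hz
  have h7 : Real.exp (2 * Real.pi * τ.im) = (Real.exp (-(2 * Real.pi * τ.im)))⁻¹ := by
    rw [Real.exp_neg, inv_inv]
  have h8 := Real.exp_pos (-(2 * Real.pi * τ.im))
  have e0 : ModFn.jH τ = ModularForm.E₄ τ ^ 3 / discriminant τ := rfl
  rw [← e0, h7] at h6
  generalize ‖ModFn.jH τ‖ = J at h6 ⊢
  generalize ‖discriminant τ‖ = D at h5 ⊢
  generalize Real.exp (-(2 * Real.pi * τ.im)) = r at h5 h6 h8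
  generalize τ.im = y at hz ⊢
  have hy6 : (27 / 64 : ℝ) ≤ y ^ 6 := by
    have h7 : (3 / 4 : ℝ) ≤ y ^ 2 := by linarith
    have h8 : y ^ 6 = (y ^ 2) ^ 3 := by ring
    rw [h8]
    exact le_trans (by norm_num) (pow_le_pow_left₀ (by norm_num) h7 3)
  have h4 : (1 / 5 : ℝ) * r ≤ D * y ^ 6 := by
    calc (1 / 5 : ℝ) * r ≤ ((1 / 2) * r) * (27 / 64) := by nlinarith
      _ ≤ D * y ^ 6 := mul_le_mul h5 hy6 (by norm_num) (le_trans (by positivity) h5)
  have h9 : 0 < (1 / 5 : ℝ) * r := by positivity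
  calc (p : ℝ) ^ 6 / (D * y ^ 6) ≤ (p : ℝ) ^ 6 / ((1 / 5 : ℝ) * r) :=
        div_le_div_of_nonneg_left (pow_nonneg hp0.le 6) h9 h4
    _ = 5 * (p : ℝ) ^ 6 * r⁻¹ := by
        field_simp
    _ ≤ 5 * (p : ℝ) ^ 6 * (8 * J + 1000) :=
        mul_le_mul_of_nonneg_left h6 (by positivity)

end Arch

section Point

variable {p : ℕ} [hpF : Fact p.Prime] [Algebra Qb ℂ] {Φ : Qb[X][X]} (hΦ : IsPV Qb p Φ)

include hΦ

theorem PV_eval {x : Place Qb (JZ.FN Qb p)} {a v : Qb} (ha : Over x (Cusp.jE Qb p) a)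
    (hv : Over x (vE p) v) : (Φ.map (evalRingHom a)).eval v = 0 := by
  have h0 := hΦ.ev_eq (vE p) (coe_vE p)
  rw [jF_eq] at h0
  have h1 := ha.ev hv Φ
  have h2 : Over x (Pts.ev (Cusp.jE Qb p) (vE p) Φ) 0 := by
    rw [h0]
    have := over_algebraMap x (0 : Qb)
    rwa [map_zero] at this
  have h3 := h1.unique h2
  rwa [ev_apply] at h3

theorem PV_eval' {x : Place Qb (JZ.FN Qb p)} {b u : Qb} (hb : Over x (Cusp.jEN Qb p) b)
    (hu : Over x (uE p) u) : (Φ.map (evalRingHom b)).eval u = 0 := by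
  have h0 := hΦ.ev_eq (vE p) (coe_vE p)
  rw [jF_eq] at h0
  have h00 : Pts.ev (Cusp.jEN Qb p) (uE p) Φ = 0 := by
    have h := map_ev (K := Qb) (S := JZ.FN Qb p) (T := JZ.FN Qb p)
      (fricke p : JZ.FN Qb p →+* JZ.FN Qb p) (fun a => (fricke p).commutes a)
      (Cusp.jE Qb p) (vE p) Φ
    rw [h0, map_zero] at h
    have e1 : (fricke p : JZ.FN Qb p →+* JZ.FN Qb p) (Cusp.jE Qb p) = Cusp.jEN Qb p :=
      fricke_j p
    have e2 : (fricke p : JZ.FN Qb p →+* JZ.FN Qb p) (vE p) = uE p := fricke_vE p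
    rw [e1, e2] at h
    exact h.symm
  have h1 := hb.ev hu Φ
  have h2 : Over x (Pts.ev (Cusp.jEN Qb p) (uE p) Φ) 0 := by
    rw [h00]
    have := over_algebraMap x (0 : Qb)
    rwa [map_zero] at this
  have h3 := h1.unique h2
  rwa [ev_apply] at h3

omit hΦ in
/-- the archimedean bound -/
theorem arch_bound' {Φ : Qb[X][X]} (hΦ : IsPV Qb p Φ) {a v : Qb}
    (h : (Φ.map (evalRingHom a)).eval v = 0) :
    ‖algebraMap Qb ℂ v‖ ≤ 5 * (p : ℝ) ^ 6 * (8 * ‖algebraMap Qb ℂ a‖ + 1000) := by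
  obtain ⟨τ₀, hτ₀⟩ := ModFn.jH_surjective (algebraMap Qb ℂ a)
  obtain ⟨γ, hγ⟩ := ModularGroup.exists_smul_mem_fd τ₀
  have hz := ModularGroup.three_le_four_mul_im_sq_of_mem_fd hγ
  obtain ⟨τ, hτ⟩ : ∃ τ, τ = γ • τ₀ := ⟨_, rfl⟩
  rw [← hτ] at hz
  have hj : algebraMap Qb ℂ a = ModFn.jH τ := by rw [hτ, ModFn.jH_smul, hτ₀]
  have h1 := hΦ.map_eq τ a hj
  have h2 : (Fv p τ).eval (algebraMap Qb ℂ v) = 0 := by
    rw [← h1, Polynomial.eval_map, Polynomial.eval₂_at_apply, h, map_zero]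
  rw [Fv, Polynomial.eval_prod, Finset.prod_eq_zero_iff] at h2
  obtain ⟨c, -, hc⟩ := h2
  rw [eval_sub, eval_X, eval_C, sub_eq_zero] at hc
  rw [hc, hj]
  exact norm_vc_le' p c hz

/-- the values at places with good reduction -/
theorem val_good {A : ValuationSubring Qb} {a v : Qb} (ha : A.valuation a ≤ 1)
    (h : (Φ.map (evalRingHom a)).eval v = 0) :
    A.valuation v ≤ 1 ∧ A.valuation ((p : Qb) ^ 12) ≤ A.valuation v := by
  have hm := hΦ.monic.map (evalRingHom a)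
  refine ⟨val_root_le_one _ hm (hΦ.low A a ha) h, ?_⟩
  have := const_le_val_root _ hm (hΦ.low A a ha) h
  rwa [hΦ.const] at this

/-- the values at places with multiplicative reduction -/
theorem val_bad {A : ValuationSubring Qb} {a v : Qb} (ha : 1 < A.valuation a)
    (h : (Φ.map (evalRingHom a)).eval v = 0) (hv : v ≠ 0)
    (hp1 : A.valuation ((p : Qb) ^ 12) ≤ 1) :
    (A.valuation v) ^ p ≤ A.valuation a ^ (p - 1) ∧
      ((A.valuation v) ^ p < A.valuation a ^ (p - 1) →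
        A.valuation v * A.valuation a ^ (p - 1) = A.valuation ((p : Qb) ^ 12)) := by
  have h1 := newtonV A.valuation hpF.out.two_le (hΦ.monic.map (evalRingHom a))
    (by rw [hΦ.monic.natDegree_map, hΦ.natDegree]) ha (hΦ.le A a ha) (hΦ.eq A a ha)
    (by rw [hΦ.const]; exact hp1) h hv
  rwa [hΦ.const] at h1

end Point

end Fermat.Agent.Mazur
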