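import Fermat.Agent.Mazur.DualRep

/-!
# Tame inertia acting on `r`-modules and cocycles
-/

set_option autoImplicit false

open scoped Pointwise
open Fermat.Agent.Frob Fermat.Agent.CFT

namespace Fermat.Agent.Mazur

local notation "Qb" => AlgebraicClosure ℚ
local notation "GQ" => AlgebraicClosure ℚ ≃ₐ[ℚ] AlgebraicClosure ℚ

/-- continuous cocycles -/
structure IsCoc {V : Type} [AddCommGroup V] (ρ : GQ →* AddMonoid.End V) (c : GQ → V) : Prop where
  coc : ∀ σ τ, c (σ * τ) = c σ + ρ σ (c τ)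
  lc : ∃ U ∈ galLevels ℚ Qb, ∀ σ ∈ U, c σ = 0

section Val

variable {B : ValuationSubring Qb}

lemma exists_pow_apply_eq (τ : GQ) (y : Qb) : ∃ n : ℕ, n ≠ 0 ∧ (τ ^ n) y = y := by
  have hfin : (Set.range (fun i : ℕ => (τ ^ i) y)).Finite := by
    apply Set.Finite.subset (Polynomial.rootSet_finite (minpoly ℚ y) Qb)
    rintro _ ⟨i, rfl⟩
    have hne : minpoly ℚ y ≠ 0 := minpoly.ne_zero (Algebra.IsIntegral.isIntegral y)
    rw [Polynomial.mem_rootSet]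
    refine ⟨hne, ?_⟩
    change Polynomial.aeval ((τ ^ i) y) (minpoly ℚ y) = 0
    have h1 : Polynomial.aeval ((τ ^ i) y) (minpoly ℚ y) =
        (τ ^ i) (Polynomial.aeval y (minpoly ℚ y)) :=
      Polynomial.aeval_algHom_apply ((τ ^ i : GQ) : Qb →ₐ[ℚ] Qb) y (minpoly ℚ y)
    rw [h1, minpoly.aeval, map_zero]
  obtain ⟨i, j, hij, h⟩ : ∃ i j : ℕ, i < j ∧ (τ ^ i) y = (τ ^ j) y := by
    by_contra hcon
    push Not at hcon
    have hinj : Function.Injective (fun i : ℕ => (τ ^ i) y) := by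
      intro a b hab
      rcases lt_trichotomy a b with h | h | h
      · exact absurd hab (hcon a b h)
      · exact h
      · exact absurd hab.symm (hcon b a h)
    exact Set.infinite_range_of_injective hinj hfin
  refine ⟨j - i, by omega, ?_⟩
  have h1 : τ ^ j = τ ^ i * τ ^ (j - i) := by rw [← pow_add]; congr 1; omega
  rw [h1, AlgEquiv.mul_apply] at h
  exact ((τ ^ i : GQ).injective h).symm

/-- elements of the decomposition group preserve the valuation -/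
lemma valuation_apply_eq {τ : GQ} (hτ : τ ∈ B.decompositionSubgroup ℚ) (y : Qb) :
    B.valuation (τ y) = B.valuation y := by
  by_cases hy : y = 0
  · rw [hy, map_zero]
  have key : ∀ y : Qb, y ≠ 0 → ¬ B.valuation (τ y) < B.valuation y := by
    intro y hy hlt
    obtain ⟨n, hn0, hn⟩ := exists_pow_apply_eq τ y
    have hpow : ∀ i : ℕ, B.valuation ((τ ^ i) (τ y / y)) < 1 := by
      intro i
      have h1 : τ y / y ∈ B.nonunits := by
        rw [ValuationSubring.mem_nonunits_iff, map_div₀]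
        have hpos : 0 < B.valuation y := by
          rw [zero_lt_iff, Ne, map_eq_zero]; exact hy
        rwa [div_lt_one₀ hpos]
      have h2 := (apply_mem_nonunits_iff (pow_mem hτ i)).2 h1
      exact (ValuationSubring.mem_nonunits_iff _).1 h2
    have hprod : ∀ m : ℕ, ∏ i ∈ Finset.range m, (τ ^ i) (τ y / y) = (τ ^ m) y / y := by
      intro m
      induction m with
      | zero => simp [div_self hy]
      | succ m ih =>
        rw [Finset.prod_range_succ, ih, map_div₀, ← AlgEquiv.mul_apply, ← pow_succ]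
        have h3 : (τ ^ m) y ≠ 0 := (map_ne_zero_iff _ (τ ^ m : GQ).injective).2 hy
        field_simp
    have h4 := hprod n
    rw [hn, div_self hy] at h4
    have h5 := congrArg B.valuation h4
    rw [map_prod, map_one] at h5
    have h6 : ∀ m : ℕ, m ≠ 0 → ∏ i ∈ Finset.range m, B.valuation ((τ ^ i) (τ y / y)) < 1 := by
      intro m hm
      induction m with
      | zero => exact absurd rfl hm
      | succ m ih =>
        rw [Finset.prod_range_succ]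
        by_cases hm0 : m = 0
        · subst hm0; simpa using hpow 0
        · exact mul_lt_one_of_lt_of_le (ih hm0) (hpow m).le
    exact (h6 n hn0).ne h5
  rcases lt_trichotomy (B.valuation (τ y)) (B.valuation y) with h | h | h
  · exact absurd h (key y hy)
  · exact h
  · exfalso
    refine key y⁻¹ (inv_ne_zero hy) ?_
    rw [map_inv₀, map_inv₀, map_inv₀]
    have hpos : 0 < B.valuation y := by
      rw [zero_lt_iff, Ne, map_eq_zero]; exact hy
    exact (inv_lt_inv₀ (hpos.trans h) hpos).2 h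

end Val

section Tame

variable {q : ℕ} {B : ValuationSubring Qb}

lemma exists_valuation_of_fixed (hq : q.Prime) (hB : B.LiesOverPrime q) {y : Qb} (hy : y ≠ 0)
    (h : ∀ τ ∈ B.inertiaSubgroupIn ℚ, τ y = y) :
    ∃ n : ℤ, B.valuation (y * (q : Qb) ^ (-n)) = 1 := by
  obtain ⟨n, h1, h2⟩ := Loc.exists_zpow_of_inertia hq hB hy h
  refine ⟨n, le_antisymm ((B.valuation_le_one_iff _).2 h1) ?_⟩
  have h3 := (B.valuation_le_one_iff _).2 h2
  rw [map_inv₀] at h3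
  exact (inv_le_one₀ (by
    rw [zero_lt_iff, Ne, map_eq_zero]
    exact mul_ne_zero hy (zpow_ne_zero _ (by exact_mod_cast hq.ne_zero)))).1 h3

lemma mem_decomposition_of_inertia {τ : GQ} (hτ : τ ∈ B.inertiaSubgroupIn ℚ) :
    τ ∈ B.decompositionSubgroup ℚ := ((mem_inertiaSubgroupIn_iff B τ).1 hτ).1

/-- the Kummer character on inertia -/
noncomputable def kumChar (hq : q.Prime) (hB : B.LiesOverPrime q) {m : ℕ} (hm : ¬ q ∣ m) (π : Qbˣ)
    (hπ : ((π : Qb)) ^ m = q) : B.inertiaSubgroupIn ℚ →* rootsOfUnity m Qb where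
  toFun σ := ⟨uact σ π / π, by
    rw [mem_rootsOfUnity, div_pow, ← map_pow, div_eq_one]
    apply Units.ext
    rw [coe_uact, Units.val_pow_eq_pow_val, hπ, map_natCast]⟩
  map_one' := by
    apply Subtype.ext
    apply Units.ext
    simp
  map_mul' σ τ := by
    apply Subtype.ext
    change uact (σ * τ : GQ) π / π = uact σ π / π * (uact τ π / π)
    have h1 : uact (σ : GQ) (uact τ π / π) = uact τ π / π := by
      apply Units.ext
      rw [coe_uact]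
      apply inertia_apply_rootOfUnity hq hB hm σ.2
      have h2 : (uact τ π / π) ^ m = 1 := by
        rw [div_pow, ← map_pow, div_eq_one]
        apply Units.ext
        rw [coe_uact, Units.val_pow_eq_pow_val, hπ, map_natCast]
      have := congrArg Units.val h2
      rwa [Units.val_pow_eq_pow_val] at this
    rw [map_div, ← uact_mul] at h1
    rw [div_eq_iff_eq_mul] at h1
    rw [h1]
    rw [mul_comm (uact (τ : GQ) π / π), mul_div_right_comm, ]

lemma coe_kumChar (hq : q.Prime) (hB : B.LiesOverPrime q) {m : ℕ} (hm : ¬ q ∣ m) {π : Qbˣ}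
    (hπ : ((π : Qb)) ^ m = q) (σ : B.inertiaSubgroupIn ℚ) :
    ((kumChar hq hB hm π hπ σ : rootsOfUnity m Qb) : Qbˣ) = uact σ π / π := rfl

lemma kumChar_eq_one_iff (hq : q.Prime) (hB : B.LiesOverPrime q) {m : ℕ} (hm : ¬ q ∣ m) {π : Qbˣ}
    (hπ : ((π : Qb)) ^ m = q) (σ : B.inertiaSubgroupIn ℚ) :
    kumChar hq hB hm π hπ σ = 1 ↔ (σ : GQ) (π : Qb) = π := by
  rw [← Subtype.coe_inj, coe_kumChar]
  change uact σ π / π = 1 ↔ _
  rw [div_eq_one, ← Units.val_inj, coe_uact]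

lemma exists_gen (hq : q.Prime) (hB : B.LiesOverPrime q) {m : ℕ} (hm : ¬ q ∣ m) {π : Qbˣ}
    (hπ : ((π : Qb)) ^ m = q) : ∃ τ₀ ∈ B.inertiaSubgroupIn ℚ, ∀ σ ∈ B.inertiaSubgroupIn ℚ,
      ∃ j : ℕ, ∃ κ ∈ B.inertiaSubgroupIn ℚ, κ (π : Qb) = π ∧ σ = τ₀ ^ j * κ := by
  have hm0 : m ≠ 0 := by rintro rfl; exact hm (dvd_zero q)
  have : NeZero m := ⟨hm0⟩
  obtain ⟨⟨_, τ₀, rfl⟩, hgen⟩ := IsCyclic.exists_generator (α := (kumChar hq hB hm π hπ).range)
  refine ⟨τ₀, τ₀.2, fun σ hσ => ?_⟩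
  have h1 := hgen ⟨_, ⟨σ, hσ⟩, rfl⟩
  rw [← mem_powers_iff_mem_zpowers] at h1
  obtain ⟨j, hj⟩ := h1
  have hj' : kumChar hq hB hm π hπ τ₀ ^ j = kumChar hq hB hm π hπ ⟨σ, hσ⟩ :=
    congrArg Subtype.val hj
  refine ⟨j, (τ₀ ^ j : GQ)⁻¹ * σ, mul_mem (inv_mem (pow_mem τ₀.2 j)) hσ, ?_, by group⟩
  have h2 := (kumChar_eq_one_iff hq hB hm hπ ((τ₀ ^ j)⁻¹ * ⟨σ, hσ⟩)).1 (by
    rw [map_mul, map_inv, map_pow, hj', inv_mul_cancel])
  exact h2

/-- elements fixed by the subgroup fixing an `m`-th root of `q` -/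
lemma exists_valuation_of_fixed_root (hq : q.Prime) (hB : B.LiesOverPrime q) {m : ℕ}
    (hm : ¬ q ∣ m) {π : Qbˣ} (hπ : ((π : Qb)) ^ m = q) {y : Qb} (hy : y ≠ 0)
    (h : ∀ τ ∈ B.inertiaSubgroupIn ℚ, τ (π : Qb) = π → τ y = y) :
    ∃ n : ℤ, B.valuation (y ^ m * (q : Qb) ^ (-n)) = 1 := by
  obtain ⟨τ₀, hτ₀, hgen⟩ := exists_gen hq hB hm hπ
  have hroot : ∀ κ ∈ B.inertiaSubgroupIn ℚ, κ (π : Qb) = π → ∀ i : ℕ,
      κ ((τ₀ ^ i) y) = (τ₀ ^ i) y := by
    intro κ hκ hκπ i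
    have h1 : kumChar hq hB hm π hπ ⟨κ, hκ⟩ = 1 := (kumChar_eq_one_iff hq hB hm hπ _).2 hκπ
    have hmem : (τ₀ ^ i)⁻¹ * κ * τ₀ ^ i ∈ B.inertiaSubgroupIn ℚ :=
      mul_mem (mul_mem (inv_mem (pow_mem hτ₀ i)) hκ) (pow_mem hτ₀ i)
    have e : (⟨(τ₀ ^ i)⁻¹ * κ * τ₀ ^ i, hmem⟩ : B.inertiaSubgroupIn ℚ) =
        ((⟨τ₀, hτ₀⟩ : B.inertiaSubgroupIn ℚ) ^ i)⁻¹ * ⟨κ, hκ⟩ * (⟨τ₀, hτ₀⟩ : B.inertiaSubgroupIn ℚ) ^ i := by
      apply Subtype.ext
      rw [Subgroup.coe_mul, Subgroup.coe_mul, Subgroup.coe_inv, Subgroup.coe_pow]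
    have h1' : kumChar hq hB hm π hπ ⟨(τ₀ ^ i)⁻¹ * κ * τ₀ ^ i, hmem⟩ = 1 := by
      rw [e, map_mul, map_mul, map_inv, h1, mul_one, inv_mul_cancel]
    have h2 := h _ hmem ((kumChar_eq_one_iff hq hB hm hπ _).1 h1')
    have h3 := congrArg (τ₀ ^ i : GQ) h2
    rw [← AlgEquiv.mul_apply, ← mul_assoc, ← mul_assoc, mul_inv_cancel, one_mul,
      AlgEquiv.mul_apply] at h3
    exact h3
  have hτm : (τ₀ ^ m) y = y := by
    apply h _ (pow_mem hτ₀ m)
    have e : (⟨τ₀ ^ m, pow_mem hτ₀ m⟩ : B.inertiaSubgroupIn ℚ) =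
        (⟨τ₀, hτ₀⟩ : B.inertiaSubgroupIn ℚ) ^ m := by
      apply Subtype.ext
      rw [Subgroup.coe_pow]
    have h1 : kumChar hq hB hm π hπ ⟨τ₀ ^ m, pow_mem hτ₀ m⟩ = 1 := by
      rw [e, map_pow]
      apply Subtype.ext
      rw [SubmonoidClass.coe_pow]
      exact (mem_rootsOfUnity _ _).1 (kumChar hq hB hm π hπ ⟨τ₀, hτ₀⟩).2
    exact (kumChar_eq_one_iff hq hB hm hπ _).1 h1
  have hne : ∀ i : ℕ, (τ₀ ^ i) y ≠ 0 := fun i => (map_ne_zero_iff _ (τ₀ ^ i : GQ).injective).2 hy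
  set z := ∏ i ∈ Finset.range m, (τ₀ ^ i) y with hz
  have hz0 : z ≠ 0 := Finset.prod_ne_zero_iff.2 fun i _ => hne i
  have hτz : τ₀ z = z := by
    have h1 : τ₀ z * y = z * y := by
      have h2 : τ₀ z = ∏ i ∈ Finset.range m, (τ₀ ^ (i + 1)) y := by
        rw [hz, map_prod]
        refine Finset.prod_congr rfl fun i _ => ?_
        rw [pow_succ', AlgEquiv.mul_apply]
      have h3 := Finset.prod_range_succ' (fun i => (τ₀ ^ i) y) m
      have h4 := Finset.prod_range_succ (fun i => (τ₀ ^ i) y) m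
      rw [h3] at h4
      simp only [pow_zero, AlgEquiv.one_apply] at h4
      rw [h2, h4, hτm]
    exact mul_right_cancel₀ hy h1
  have hfix : ∀ σ ∈ B.inertiaSubgroupIn ℚ, σ z = z := by
    intro σ hσ
    obtain ⟨j, κ, hκ, hκπ, rfl⟩ := hgen σ hσ
    have h1 : κ z = z := by
      rw [hz, map_prod]
      exact Finset.prod_congr rfl fun i _ => hroot κ hκ hκπ i
    rw [AlgEquiv.mul_apply, h1]
    clear h1 hroot hκπ hκ hσ
    induction j with
    | zero => rfl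
    | succ j ih => rw [pow_succ, AlgEquiv.mul_apply, hτz, ih]
  obtain ⟨n, hn⟩ := exists_valuation_of_fixed hq hB hz0 hfix
  refine ⟨n, ?_⟩
  rw [map_mul] at hn ⊢
  rw [← hn]
  congr 1
  rw [hz, map_prod, map_pow]
  rw [Finset.prod_congr rfl fun i _ => valuation_apply_eq
    (mem_decomposition_of_inertia (pow_mem hτ₀ i)) y, Finset.prod_const, Finset.card_range]

/-- homomorphisms to roots of unity are Kummer characters -/
lemma char_eq_zero (hq : q.Prime) (hB : B.LiesOverPrime q) {H : Subgroup GQ}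
    (hH : H ≤ B.inertiaSubgroupIn ℚ) {m m' : ℕ} (hm : ¬ q ∣ m) (hm' : ¬ q ∣ m')
    (hPH : ∀ y : Qb, y ≠ 0 → (∀ σ ∈ H, σ y = y) →
      ∃ n : ℤ, B.valuation (y ^ m * (q : Qb) ^ (-n)) = 1)
    {h : GQ → Additive Qbˣ} (hadd : ∀ σ ∈ H, ∀ τ ∈ H, h (σ * τ) = h σ + h τ)
    (htor : ∀ σ ∈ H, m' • h σ = 0) (hlc : ∃ U ∈ galLevels ℚ Qb, ∀ σ ∈ H, σ ∈ U → h σ = 0)
    {π : Qbˣ} (hπ : (π : Qb) ^ (m * m') = q) {σ : GQ} (hσ : σ ∈ H) (hσπ : σ (π : Qb) = π) :
    h σ = 0 := by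
  have hfix : ∀ σ ∈ H, ∀ τ ∈ H, uact σ (h τ).toMul = (h τ).toMul := by
    intro σ hσ τ hτ
    apply Units.ext
    rw [coe_uact]
    apply inertia_apply_rootOfUnity hq hB hm' (hH hσ)
    have h1 := congrArg Additive.toMul (htor τ hτ)
    rw [toMul_nsmul] at h1
    have h2 := congrArg Units.val h1
    rwa [Units.val_pow_eq_pow_val] at h2
  obtain ⟨β, hβ⟩ := hilb90 H (fun σ => (h σ).toMul) (by
    intro σ hσ τ hτ
    rw [hfix σ hσ τ hτ, hadd σ hσ τ hτ, toMul_add]) (by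
    obtain ⟨U, hU, h1⟩ := hlc
    refine ⟨U, hU, fun σ hσ u hu huU => ?_⟩
    rw [hadd σ hσ u hu, h1 u hu huU, add_zero])
  have hpow : ∀ σ ∈ H, σ ((β : Qb) ^ m') = (β : Qb) ^ m' := by
    intro σ hσ
    have h1 : uact σ (β ^ m') = β ^ m' := by
      rw [map_pow, hβ σ hσ, mul_pow, ← toMul_nsmul, htor σ hσ, toMul_zero, one_mul]
    have h2 := congrArg Units.val h1
    simpa using h2
  obtain ⟨n, hn⟩ := hPH _ (pow_ne_zero m' β.ne_zero) hpow
  have hq0 : (q : Qb) ≠ 0 := by exact_mod_cast hq.ne_zero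
  have hmm : ¬ q ∣ m * m' := fun h => (hq.dvd_mul.1 h).elim hm hm'
  have hmm0 : m * m' ≠ 0 := by intro h0; rw [h0] at hmm; exact hmm (dvd_zero q)
  -- `γ = β / π ^ n`
  set γ : Qbˣ := β * π ^ (-n) with hγ
  have hγpow : (γ : Qb) ^ (m * m') = ((β : Qb) ^ m') ^ m * (q : Qb) ^ (-n) := by
    rw [hγ, Units.val_mul, Units.val_zpow_eq_zpow_val, mul_pow, ← zpow_natCast ((π : Qb) ^ (-n)),
      ← zpow_mul, mul_comm (-n), zpow_mul, zpow_natCast, hπ, ← pow_mul, mul_comm m m']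
  have hγv : B.valuation (γ : Qb) = 1 := by
    have h1 : B.valuation (γ : Qb) ^ (m * m') = 1 := by rw [← map_pow, hγpow, hn]
    exact eq_one_of_pow_eq_one_val hmm0 h1
  have hσγ : σ (γ : Qb) = γ := by
    apply inertia_apply_eq_of_unit hq hB hmm (hH hσ) hγv
    rw [hγpow, map_mul, map_pow, hpow σ hσ, map_zpow₀, map_natCast]
  have hσγ' : uact σ γ = γ := Units.ext hσγ
  have hσπ' : uact σ π = π := Units.ext hσπ
  have hσβ : uact σ β = β := by
    rw [hγ, map_mul, map_zpow, hσπ'] at hσγ'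
    exact mul_right_cancel hσγ'
  have h3 := hβ σ hσ
  rw [hσβ] at h3
  apply Additive.toMul.injective
  exact (mul_eq_right.1 h3.symm)

end Tame

section TameGen

variable {r k q : ℕ} {B : ValuationSubring Qb} {V : Type} [AddCommGroup V] [Finite V]
  {ρ : GQ →* AddMonoid.End V}

lemma exists_root (q : ℕ) (hq : q ≠ 0) {n : ℕ} (hn : n ≠ 0) : ∃ π : Qbˣ, (π : Qb) ^ n = q := by
  obtain ⟨z, hz⟩ := IsAlgClosed.exists_pow_nat_eq (q : Qb) (Nat.pos_of_ne_zero hn)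
  have hz0 : z ≠ 0 := by
    rintro rfl
    rw [zero_pow hn] at hz
    exact hq (by exact_mod_cast hz.symm)
  exact ⟨Units.mk0 z hz0, hz⟩

omit [Finite V] in
lemma IsCoc.map_one {c : GQ → V} (h : IsCoc ρ c) : c 1 = 0 := by
  have h1 := h.coc 1 1
  rw [one_mul, _root_.map_one] at h1
  change c 1 = c 1 + c 1 at h1
  simpa using h1

/-- tame inertia acts through a procyclic group -/
theorem exists_tame_gen (hr : r.Prime) (hq : q.Prime) (hqr : q ≠ r) (hB : B.LiesOverPrime q)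
    (hadm : Adm r k ρ) (huni : ∀ σ ∈ B.inertiaSubgroupIn ℚ, ∀ τ ∈ B.inertiaSubgroupIn ℚ, ∀ v,
      ρ σ (ρ τ v - v) = ρ τ v - v) :
    ∃ τ₀ ∈ B.inertiaSubgroupIn ℚ,
      (∀ σ ∈ B.inertiaSubgroupIn ℚ, ∃ n : ℕ, ρ σ = ρ (τ₀ ^ n) ∧
        ∀ c : GQ → V, IsCoc ρ c → c σ = c (τ₀ ^ n)) ∧
      (∀ φ : GQ, B.IsFrobeniusAt φ q → ρ (φ * τ₀ * φ⁻¹) = ρ (τ₀ ^ q) ∧
        ∀ c : GQ → V, IsCoc ρ c → c (φ * τ₀ * φ⁻¹) = c (τ₀ ^ q)) := by
  have hqrk : ¬ q ∣ r ^ k := fun h => hqr ((Nat.prime_dvd_prime_iff_eq hq hr).1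
    (hq.dvd_of_dvd_pow h))
  have hqm : ¬ q ∣ r ^ k * r ^ k := fun h => (hq.dvd_mul.1 h).elim hqrk hqrk
  have hrk0 : r ^ k ≠ 0 := pow_ne_zero k hr.ne_zero
  obtain ⟨π, hπ⟩ := exists_root q hq.ne_zero (mul_ne_zero hrk0 hrk0)
  have hπk : ((π ^ (r ^ k) : Qbˣ) : Qb) ^ (r ^ k) = q := by
    rw [Units.val_pow_eq_pow_val, ← pow_mul, hπ]
  -- the action is trivial on elements fixing `π ^ (r ^ k)`
  have hρ : ∀ σ ∈ B.inertiaSubgroupIn ℚ, σ ((π ^ (r ^ k) : Qbˣ) : Qb) = ((π ^ (r ^ k) : Qbˣ) : Qb) →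
      ρ σ = 1 := by
    intro σ hσ hσπ
    apply End_ext
    intro v
    change ρ σ v = v
    rw [← sub_eq_zero]
    apply char_ext
    intro l
    rw [map_zero]
    refine char_eq_zero (h := fun σ => l (ρ σ v - v)) (m := 1) (m' := r ^ k) hq hB
      (H := B.inertiaSubgroupIn ℚ) le_rfl hq.not_dvd_one hqrk ?_ ?_ ?_ ?_
      (π := π ^ (r ^ k)) (by rw [one_mul]; exact hπk) hσ hσπ
    · intro y hy hfix
      simp only [pow_one]
      exact exists_valuation_of_fixed hq hB hy hfix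
    · intro σ hσ τ hτ
      rw [← map_add]
      congr 1
      have h1 := huni σ hσ τ hτ v
      rw [map_sub, ← end_mul_apply, ← map_mul] at h1
      rw [sub_eq_iff_eq_add] at h1
      rw [h1]; abel
    · intro σ hσ
      exact hadm.nsmul_char l _
    · obtain ⟨U, hU, h⟩ := hadm.level
      refine ⟨U, hU, fun σ _ hσU => ?_⟩
      rw [h σ hσU]
      change l (v - v) = 0
      rw [sub_self, map_zero]
  have hck : ∀ c : GQ → V, IsCoc ρ c → ∀ σ ∈ B.inertiaSubgroupIn ℚ, σ (π : Qb) = π → c σ = 0 := by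
    intro c hc σ hσ hσπ
    apply char_ext
    intro l
    rw [map_zero]
    let H : Subgroup GQ :=
      { carrier := {σ | σ ∈ B.inertiaSubgroupIn ℚ ∧
          σ ((π ^ (r ^ k) : Qbˣ) : Qb) = ((π ^ (r ^ k) : Qbˣ) : Qb)}
        mul_mem' := fun {a b} ha hb => ⟨mul_mem ha.1 hb.1, by
          rw [AlgEquiv.mul_apply, hb.2, ha.2]⟩
        one_mem' := ⟨one_mem _, rfl⟩
        inv_mem' := fun {a} ha => ⟨inv_mem ha.1, by
          conv_lhs => rw [← ha.2]
          rw [← AlgEquiv.mul_apply, inv_mul_cancel]; rfl⟩ }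
    refine char_eq_zero (h := fun σ => l (c σ)) (m := r ^ k) (m' := r ^ k) hq hB
      (H := H) (fun σ hσ => hσ.1) hqrk hqrk ?_ ?_ ?_ ?_
      (π := π) hπ (σ := σ) ⟨hσ, ?_⟩ hσπ
    · intro y hy hfix
      exact exists_valuation_of_fixed_root hq hB hqrk hπk hy (fun τ hτ hτπ => hfix τ ⟨hτ, hτπ⟩)
    · intro σ hσ τ hτ
      rw [hc.coc, hρ σ hσ.1 hσ.2, map_add]; rfl
    · intro σ hσ
      exact hadm.nsmul_char l _
    · obtain ⟨U, hU, h⟩ := hc.lc
      refine ⟨U, hU, fun σ _ hσU => ?_⟩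
      rw [h σ hσU, map_zero]
    · rw [Units.val_pow_eq_pow_val, map_pow, hσπ]
  have hboth : ∀ κ ∈ B.inertiaSubgroupIn ℚ, κ (π : Qb) = π → ρ κ = 1 ∧
      ∀ c : GQ → V, IsCoc ρ c → c κ = 0 := by
    intro κ hκ hκπ
    refine ⟨hρ κ hκ (by rw [Units.val_pow_eq_pow_val, map_pow, hκπ]), fun c hc => hck c hc κ hκ hκπ⟩
  obtain ⟨τ₀, hτ₀, hgen⟩ := exists_gen hq hB hqm hπ
  refine ⟨τ₀, hτ₀, ?_, ?_⟩
  · intro σ hσ
    obtain ⟨j, κ, hκ, hκπ, rfl⟩ := hgen σ hσ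
    obtain ⟨h1, h2⟩ := hboth κ hκ hκπ
    refine ⟨j, by rw [map_mul, h1, mul_one], fun c hc => ?_⟩
    rw [hc.coc, h2 c hc, map_zero, add_zero]
  · intro φ hφ
    have hφD := hφ.mem_decompositionSubgroup
    -- `φ τ₀ φ⁻¹` lies in inertia
    have hmem : φ * τ₀ * φ⁻¹ ∈ B.inertiaSubgroupIn ℚ := by
      rw [mem_inertiaSubgroupIn_iff] at hτ₀ ⊢
      refine ⟨mul_mem (mul_mem hφD hτ₀.1) (inv_mem hφD), fun x hx => ?_⟩
      have hx' : φ⁻¹ x ∈ B := (apply_mem_iff (inv_mem hφD)).2 hx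
      have h1 := hτ₀.2 _ hx'
      have h2 := (apply_mem_nonunits_iff hφD).2 h1
      rw [map_sub, ← AlgEquiv.mul_apply, ← AlgEquiv.mul_apply, ← AlgEquiv.mul_apply,
        mul_inv_cancel] at h2
      rw [mul_assoc]
      exact h2
    have hcop : (r ^ k * r ^ k).Coprime q := (hq.coprime_iff_not_dvd.2 hqm).symm
    have hchar : kumChar hq hB hqm π hπ ⟨φ * τ₀ * φ⁻¹, hmem⟩ =
        kumChar hq hB hqm π hπ ((⟨τ₀, hτ₀⟩ : B.inertiaSubgroupIn ℚ) ^ q) := by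
      rw [map_pow]
      apply Subtype.ext
      rw [SubmonoidClass.coe_pow, coe_kumChar, coe_kumChar]
      change uact (φ * τ₀ * φ⁻¹) π / π = (uact τ₀ π / π) ^ q
      -- `φ⁻¹ π = ζ π`
      have hroot : ∀ σ : GQ, (uact σ π / π) ^ (r ^ k * r ^ k) = 1 := by
        intro σ
        rw [div_pow, ← map_pow, div_eq_one]
        apply Units.ext
        rw [coe_uact, Units.val_pow_eq_pow_val, hπ, map_natCast]
      have hfr : ∀ x : Qbˣ, x ^ (r ^ k * r ^ k) = 1 → uact φ x = x ^ q := by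
        intro x hx
        apply Units.ext
        rw [coe_uact, Units.val_pow_eq_pow_val]
        apply CycChar.frobenius_apply_eq hB hcop hφ
        have := congrArg Units.val hx
        rwa [Units.val_pow_eq_pow_val] at this
      have hτfix : ∀ x : Qbˣ, x ^ (r ^ k * r ^ k) = 1 → uact τ₀ x = x := by
        intro x hx
        apply Units.ext
        rw [coe_uact]
        apply inertia_apply_rootOfUnity hq hB hqm hτ₀
        have := congrArg Units.val hx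
        rwa [Units.val_pow_eq_pow_val] at this
      have e1 : uact φ⁻¹ π = (uact φ⁻¹ π / π) * π := by rw [div_mul_cancel]
      have e2 : uact τ₀ π = (uact τ₀ π / π) * π := by rw [div_mul_cancel]
      rw [uact_mul, uact_mul]
      rw [e1, map_mul, hτfix _ (hroot φ⁻¹), e2, ← mul_assoc, mul_right_comm, ← e1, map_mul,
        ← uact_mul, mul_inv_cancel, ← e2, hfr _ (hroot τ₀)]
      have e3 : uact (1 : GQ) π = π := Units.ext rfl
      rw [e3, mul_div_assoc]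
      exact mul_div_cancel _ _
    have hker : ((τ₀ ^ q)⁻¹ * (φ * τ₀ * φ⁻¹)) (π : Qb) = π := by
      have h1 := (kumChar_eq_one_iff hq hB hqm hπ
        (((⟨τ₀, hτ₀⟩ : B.inertiaSubgroupIn ℚ) ^ q)⁻¹ * ⟨φ * τ₀ * φ⁻¹, hmem⟩)).1 (by
          rw [map_mul, map_inv, hchar, inv_mul_cancel])
      exact h1
    obtain ⟨h1, h2⟩ := hboth _ (mul_mem (inv_mem (pow_mem hτ₀ q)) hmem) hker
    have hdec : φ * τ₀ * φ⁻¹ = τ₀ ^ q * ((τ₀ ^ q)⁻¹ * (φ * τ₀ * φ⁻¹)) := by group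
    constructor
    · rw [hdec, map_mul, h1, mul_one]
    · intro c hc
      rw [hdec, hc.coc, h2 c hc, map_zero, add_zero]

end TameGen

end Fermat.Agent.Mazur
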