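import Fermat.Agent.Mazur.Descent

/-!
# The Eisenstein part of the torsion of a Galois module, and the descent for points
-/

set_option autoImplicit false

open scoped Pointwise
open Fermat.Agent.Frob Fermat.Agent.CFT

namespace Fermat.Agent.Mazur

local notation "Qb" => AlgebraicClosure ℚ
local notation "GQ" => AlgebraicClosure ℚ ≃ₐ[ℚ] AlgebraicClosure ℚ

section Defs

variable (J : Type) [AddCommGroup J] {R : Type} [CommRing R] [Module R J]

/-- the `𝔪`-primary part of the `n`-torsion -/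
def VK (mI : Ideal R) (n : ℕ) : Submodule R J where
  carrier := {x | n • x = 0 ∧ ∃ j, ∀ t ∈ mI ^ j, t • x = 0}
  add_mem' := by
    rintro a b ⟨h1, j, hj⟩ ⟨h2, j', hj'⟩
    refine ⟨by rw [nsmul_add, h1, h2, add_zero], j + j', fun t ht => ?_⟩
    rw [smul_add, hj t (Ideal.pow_le_pow_right (Nat.le_add_right _ _) ht),
      hj' t (Ideal.pow_le_pow_right (Nat.le_add_left _ _) ht), add_zero]
  zero_mem' := ⟨smul_zero _, 0, fun t _ => smul_zero t⟩
  smul_mem' := by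
    rintro s a ⟨h1, j, hj⟩
    refine ⟨by rw [smul_comm, h1, smul_zero], j, fun t ht => by rw [smul_comm, hj t ht, smul_zero]⟩

variable {J}

lemma mem_VK {mI : Ideal R} {n : ℕ} {x : J} :
    x ∈ VK J mI n ↔ n • x = 0 ∧ ∃ j, ∀ t ∈ mI ^ j, t • x = 0 := Iff.rfl

variable [DistribMulAction GQ J]

lemma smul_nsmul_comm (σ : GQ) (n : ℕ) (x : J) : σ • (n • x) = n • (σ • x) :=
  map_nsmul (DistribSMul.toAddMonoidHom J σ) n x

/-- the Galois action on `VK` -/
noncomputable def VKrep (hcomm : ∀ (t : R) (σ : GQ) (x : J), σ • (t • x) = t • (σ • x))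
    (mI : Ideal R) (n : ℕ) : GQ →* AddMonoid.End (VK J mI n) where
  toFun σ :=
    { toFun := fun x => ⟨σ • (x : J), by
        obtain ⟨h1, j, hj⟩ := x.2
        exact ⟨by rw [← smul_nsmul_comm, h1, smul_zero], j, fun t ht => by
          rw [← hcomm, hj t ht, smul_zero]⟩⟩
      map_zero' := Subtype.ext (smul_zero σ)
      map_add' := fun x y => Subtype.ext (smul_add σ _ _) }
  map_one' := End_ext fun x => Subtype.ext (one_smul GQ _)
  map_mul' σ τ := End_ext fun x => Subtype.ext (mul_smul σ τ _)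

@[simp] lemma coe_VKrep (hcomm : ∀ (t : R) (σ : GQ) (x : J), σ • (t • x) = t • (σ • x))
    (mI : Ideal R) (n : ℕ) (σ : GQ) (x : VK J mI n) :
    ((VKrep hcomm mI n σ x : VK J mI n) : J) = σ • (x : J) := rfl

end Defs

/-- inputs of the Eisenstein descent -/
structure EisInput (r N : ℕ) (J : Type) [AddCommGroup J] [DistribMulAction GQ J] (R : Type)
    [CommRing R] [Module R J] (mI : Ideal R) (A : ValuationSubring Qb)
    (B : ℕ → ValuationSubring Qb) (K0 : AddSubgroup J) (M M1 M2 : ℕ) : Prop where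
  comm : ∀ (t : R) (σ : GQ) (x : J), σ • (t • x) = t • (σ • x)
  level : ∀ x : J, ∃ E : IntermediateField ℚ Qb, FiniteDimensional ℚ E ∧
    ∀ σ : GQ, (∀ y ∈ E, σ y = y) → σ • x = x
  finTor : ∀ n : ℕ, n ≠ 0 → Finite (tor J n)
  div : ∀ n : ℕ, n ≠ 0 → ∀ x : J, ∃ y, n • y = x
  rmem : (r : R) ∈ mI
  unr : ∀ q, q.Prime → q ≠ r → q ≠ N → ∀ σ ∈ (B q).inertiaSubgroupIn ℚ, ∀ x : J,
    (∃ n : ℕ, (r ^ n) • (σ • x - x) = 0) → σ • x = x
  uni : ∀ σ ∈ (B N).inertiaSubgroupIn ℚ, ∀ τ ∈ (B N).inertiaSubgroupIn ℚ, ∀ x : J,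
    (∃ n : ℕ, (r ^ n) • x = 0) → σ • (τ • x - x) = τ • x - x
  quad : ∀ k : ℕ, k ≠ 0 → ∀ (g : GQ) (a : ℕ), (∀ ζ : Qb, ζ ^ (r ^ k) = 1 → g ζ = ζ ^ a) →
    ∃ t : R, t - 1 - (a : R) ∈ mI ∧ ∀ x : J, (r ^ k) • x = 0 →
      g • g • x - t • g • x + a • x = 0
  kerA : ∀ σ ∈ A.inertiaSubgroupIn ℚ, ∀ x : J, σ • x - x ∈ K0
  decA : ∀ σ ∈ A.decompositionSubgroup ℚ, ∀ x ∈ K0, σ • x ∈ K0
  stab : ∀ (t : R), ∀ x ∈ K0, t • x ∈ K0
  cyc : ∀ σ ∈ A.inertiaSubgroupIn ℚ, ∀ k a : ℕ, (∀ ζ : Qb, ζ ^ (r ^ k) = 1 → σ ζ = ζ ^ a) →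
    ∀ x ∈ K0, x ∈ VK J mI (r ^ k) → σ • x = a • x
  frobr : ∃ φ ∈ A.decompositionSubgroup ℚ, ∃ T w1 w2 : R,
    (∀ x : J, φ • φ • x - T • φ • x + r • x ∈ K0) ∧
    (∀ x : J, (∃ n : ℕ, (r ^ n) • x = 0) → (w1 * ((1 + (r : R)) ^ 2 - T ^ 2)) • x = M1 • x) ∧
    (∀ x : J, (∃ n : ℕ, (r ^ n) • x = 0) → (w2 * (1 + (r : R) - T)) • x = M2 • x)
  frobl : ∃ a : ℕ, a.Coprime r ∧ ∃ T w : R,
    (∀ x : J, (∃ n : ℕ, (r ^ n) • x = 0) → (w * (1 + (a : R) - T)) • x = M • x) ∧
    ∃ g : GQ, ∀ k : ℕ, (∀ ζ : Qb, ζ ^ (r ^ k) = 1 → g ζ = ζ ^ a) ∧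
      ∀ x : J, (r ^ k) • x = 0 → g • g • x - T • g • x + a • x = 0

section Main

variable {r N : ℕ} {J : Type} [AddCommGroup J] [DistribMulAction GQ J] {R : Type}
  [CommRing R] [Module R J] {mI : Ideal R} {A : ValuationSubring Qb}
  {B : ℕ → ValuationSubring Qb} {K0 : AddSubgroup J} {M M1 M2 : ℕ}

lemma EisInput.finite_VK (I : EisInput r N J R mI A B K0 M M1 M2) {n : ℕ} (hn : n ≠ 0) :
    Finite (VK J mI n) := by
  have := I.finTor n hn
  exact Finite.of_injective (fun x : VK J mI n => (⟨(x : J), x.2.1⟩ : tor J n)) (by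
    intro a b hab
    exact Subtype.ext (congrArg (fun y : tor J n => (y : J)) hab))

/-- a level for a finite family -/
lemma exists_level_finite {ι : Type} [Finite ι] (P : ι → GQ → Prop)
    (h : ∀ i, ∃ U ∈ galLevels ℚ Qb, ∀ σ ∈ U, P i σ) :
    ∃ U ∈ galLevels ℚ Qb, ∀ σ ∈ U, ∀ i, P i σ := by
  classical
  have := Fintype.ofFinite ι
  suffices H : ∀ s : Finset ι, ∃ U ∈ galLevels ℚ Qb, ∀ σ ∈ U, ∀ i ∈ s, P i σ by
    obtain ⟨U, hU, hP⟩ := H Finset.univ
    exact ⟨U, hU, fun σ hσ i => hP σ hσ i (Finset.mem_univ i)⟩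
  intro s
  induction s using Finset.induction_on with
  | empty => exact ⟨⊤, Levels.top_mem, fun _ _ i hi => absurd hi (Finset.notMem_empty i)⟩
  | insert i s _ ih =>
    obtain ⟨U, hU, hP⟩ := ih
    obtain ⟨U', hU', hP'⟩ := h i
    refine ⟨U ⊓ U', Levels.inf_mem hU hU', fun σ hσ j hj => ?_⟩
    rcases Finset.mem_insert.1 hj with rfl | hj
    · exact hP' σ hσ.2
    · exact hP σ hσ.1 j hj

lemma EisInput.exists_level (I : EisInput r N J R mI A B K0 M M1 M2) (x : J) :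
    ∃ U ∈ galLevels ℚ Qb, ∀ σ ∈ U, σ • x = x := by
  obtain ⟨E, hE, h⟩ := I.level x
  exact ⟨E.fixingSubgroup, mem_galLevels.2 ⟨E, hE, le_rfl⟩, fun σ hσ =>
    h σ ((IntermediateField.mem_fixingSubgroup_iff _ _).1 hσ)⟩

lemma EisInput.adm (I : EisInput r N J R mI A B K0 M M1 M2) (hr : r.Prime) {k : ℕ} (hk : k ≠ 0) :
    Adm r k (VKrep I.comm mI (r ^ k)) where
  tors v := Subtype.ext v.2.1
  level := by
    have := I.finite_VK (pow_ne_zero k hr.ne_zero)
    obtain ⟨U, hU, h⟩ := exists_level_finite (fun (x : VK J mI (r ^ k)) σ => σ • (x : J) = x)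
      (fun x => I.exists_level (x : J))
    exact ⟨U, hU, fun σ hσ => End_ext fun x => Subtype.ext (h σ hσ x)⟩
  nilp σ a ha := by
    obtain ⟨b, hb⟩ := exists_exp (pow_ne_zero k hr.ne_zero) σ
    obtain ⟨t, ht, hrel⟩ := I.quad k hk σ b hb
    -- `b ≡ a`
    have hmod : (r : ℤ) ∣ (b : ℤ) - a := by
      have : NeZero (r : Qb) := ⟨by exact_mod_cast hr.ne_zero⟩
      obtain ⟨ζ₀, hζ₀⟩ := HasEnoughRootsOfUnity.exists_primitiveRoot Qb r
      apply dvd_of_pow_eq hr.ne_zero hζ₀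
      rw [← ha ζ₀ hζ₀.pow_eq_one, ← hb ζ₀]
      obtain ⟨j, rfl⟩ := Nat.exists_eq_succ_of_ne_zero hk
      rw [pow_succ', pow_mul, hζ₀.pow_eq_one, one_pow]
    obtain ⟨m, hm⟩ := hmod
    set u : R := t - 1 - (a : R) with hu
    have hab : ((a : R) - (b : R)) ∈ mI := by
      have h1 : ((a : R) - (b : R)) = (-(m : R)) * (r : R) := by
        have := congrArg (Int.cast : ℤ → R) hm
        push_cast at this
        linear_combination -this
      rw [h1]
      exact mI.mul_mem_left _ I.rmem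
    have hu' : u ∈ mI := by
      have h1 : u = (t - 1 - (b : R)) - ((a : R) - (b : R)) := by rw [hu]; ring
      rw [h1]
      exact mI.sub_mem ht hab
    -- a uniform nilpotency exponent
    have hfin := I.finite_VK (pow_ne_zero k hr.ne_zero)
    obtain ⟨j, hj⟩ : ∃ j, ∀ x : VK J mI (r ^ k), ∀ s ∈ mI ^ j, s • x = 0 := by
      choose f hf using fun x : VK J mI (r ^ k) => x.2.2
      obtain ⟨j, hj⟩ := (Set.finite_range f).bddAbove
      exact ⟨j, fun x s hs => Subtype.ext (hf x s (Ideal.pow_le_pow_right (hj ⟨x, rfl⟩) hs))⟩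
    set ρ := VKrep I.comm mI (r ^ k) with hρ
    have hcomm : ∀ (s : R) (x : VK J mI (r ^ k)), ρ σ (s • x) = s • ρ σ x := fun s x =>
      Subtype.ext (I.comm s σ x)
    -- the operator as an element of `𝔪`
    have hop : ∀ x, ((ρ σ - 1) * (ρ σ - (a : AddMonoid.End (VK J mI (r ^ k))))) x =
        u • ρ σ x + ((a : R) - (b : R)) • x := by
      intro x
      have h1 : ρ σ (ρ σ x) - t • ρ σ x + b • x = 0 := Subtype.ext (hrel x x.2.1)
      change ρ σ (ρ σ x - (a : AddMonoid.End (VK J mI (r ^ k))) x) -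
        (ρ σ x - (a : AddMonoid.End (VK J mI (r ^ k))) x) = _
      rw [AddMonoid.End.natCast_apply, map_sub, map_nsmul]
      have h2 : ρ σ (ρ σ x) = t • ρ σ x - b • x := by
        rw [← sub_eq_zero, ← h1]; abel
      rw [h2, hu]
      simp only [← Nat.cast_smul_eq_nsmul R]
      module
    refine ⟨j, ?_⟩
    apply End_ext
    -- `P ^ i x` lies in `𝔪 ^ i V`
    have key : ∀ i : ℕ, ∀ x : VK J mI (r ^ k),
        ((((ρ σ - 1) * (ρ σ - (a : AddMonoid.End (VK J mI (r ^ k))))) ^ i) x) ∈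
          (mI ^ i) • (⊤ : Submodule R (VK J mI (r ^ k))) := by
      intro i
      induction i with
      | zero => intro x; rw [pow_zero, pow_zero, Ideal.one_eq_top, Submodule.top_smul]; trivial
      | succ i ih =>
        intro x
        rw [show ((ρ σ - 1) * (ρ σ - (a : AddMonoid.End (VK J mI (r ^ k))))) ^ (i + 1) =
          ((ρ σ - 1) * (ρ σ - (a : AddMonoid.End (VK J mI (r ^ k))))) *
          ((ρ σ - 1) * (ρ σ - (a : AddMonoid.End (VK J mI (r ^ k))))) ^ i from pow_succ' _ _,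
          end_mul_apply, hop]
        have h1 := ih x
        have h2 : ∀ y ∈ (mI ^ i) • (⊤ : Submodule R (VK J mI (r ^ k))),
            ρ σ y ∈ (mI ^ i) • (⊤ : Submodule R (VK J mI (r ^ k))) := by
          intro y hy
          refine Submodule.smul_induction_on hy (fun s hs z _ => ?_) (fun z w hz hw => ?_)
          · rw [hcomm]; exact Submodule.smul_mem_smul hs trivial
          · rw [map_add]; exact Submodule.add_mem _ hz hw
        rw [pow_succ', mul_smul]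
        exact Submodule.add_mem _ (Submodule.smul_mem_smul hu' (h2 _ h1))
          (Submodule.smul_mem_smul hab h1)
    intro x
    have h1 := key j x
    have h2 : ∀ y ∈ (mI ^ j) • (⊤ : Submodule R (VK J mI (r ^ k))), y = 0 := by
      intro y hy
      refine Submodule.smul_induction_on hy (fun s hs z _ => hj z s hs) (fun z w hz hw => ?_)
      rw [hz, hw, add_zero]
    exact h2 _ h1

/-- the subgroup `V⁰` -/
def VK0 (mI : Ideal R) (n : ℕ) (K0 : AddSubgroup J) : AddSubgroup (VK J mI n) :=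
  K0.comap (VK J mI n).toAddSubgroup.subtype

omit [DistribMulAction GQ J] in
lemma mem_VK0 {n : ℕ} {x : VK J mI n} : x ∈ VK0 mI n K0 ↔ (x : J) ∈ K0 := Iff.rfl

theorem EisInput.std (I : EisInput r N J R mI A B K0 M M1 M2) (hr : r.Prime) {k : ℕ}
    (hk : k ≠ 0) :
    Std r k N A B R (VKrep I.comm mI (r ^ k)) (VK0 mI (r ^ k) K0) M M1 M2 where
  adm := I.adm hr hk
  loc :=
    { quot := fun σ hσ v => I.kerA σ hσ v
      cyc := fun σ hσ a ha v hv => Subtype.ext (I.cyc σ hσ k a ha v hv v.2) }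
  comm t σ v := Subtype.ext (I.comm t σ v)
  stab t v hv := I.stab t v hv
  dec σ hσ v hv := I.decA σ hσ v hv
  unr q hq hqr hqN σ hσ := End_ext fun v => Subtype.ext (I.unr q hq hqr hqN σ hσ v ⟨k, by
    rw [nsmul_sub, ← smul_nsmul_comm, v.2.1, smul_zero, sub_zero]⟩)
  uni σ hσ τ hτ v := Subtype.ext (I.uni σ hσ τ hτ v ⟨k, v.2.1⟩)
  quad g a ha := by
    obtain ⟨t, -, h⟩ := I.quad k hk g a ha
    exact ⟨t, fun v => Subtype.ext (h v v.2.1)⟩
  frobr := by
    obtain ⟨φ, hφ, T, w1, w2, h1, h2, h3⟩ := I.frobr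
    exact ⟨φ, hφ, T, w1, w2, fun v => h1 v, fun v => Subtype.ext (h2 v ⟨k, v.2.1⟩),
      fun v => Subtype.ext (h3 v ⟨k, v.2.1⟩)⟩
  frobl := by
    obtain ⟨a, har, T, w, hw, g, hg⟩ := I.frobl
    exact ⟨g, a, har, (hg k).1, T, w, fun v => Subtype.ext ((hg k).2 v v.2.1),
      fun v => Subtype.ext (hw v ⟨k, v.2.1⟩)⟩

/-- the uniform constant -/
noncomputable def bigK (r N : ℕ) (J : Type) [AddCommGroup J] (M M1 M2 : ℕ) : ℕ :=
  Nat.card (tor J (M * (r * M1))) ^ 2 *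
    (r * M1 * (r * M2 * Nat.card (tor J M) ^ 2)) * Nat.card (tor J (M * (r * M1))) ^ 2 *
    ((N - 1) * (N ^ 2 - 1))

omit [DistribMulAction GQ J] in
lemma card_tor_VK_dvd (mI : Ideal R) (n m : ℕ) :
    Nat.card (tor (VK J mI n) m) ∣ Nat.card (tor J m) := by
  let f : tor (VK J mI n) m →+ tor J m :=
    { toFun := fun x => ⟨((x : VK J mI n) : J), congrArg Subtype.val (mem_tor.1 x.2)⟩
      map_zero' := rfl
      map_add' := fun _ _ => rfl }
  have hf : Function.Injective f := by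
    intro a b hab
    have h5 : ((a : VK J mI n) : J) = ((b : VK J mI n) : J) :=
      congrArg (fun x : tor J m => (x : J)) hab
    exact Subtype.ext (Subtype.ext h5)
  exact AddSubgroup.card_dvd_of_injective f hf

omit [DistribMulAction GQ J] in
lemma descK_dvd_bigK (mI : Ideal R) (n : ℕ) :
    descK r N (VK J mI n) M M1 M2 ∣ bigK r N J M M1 M2 := by
  have h1 := card_tor_VK_dvd (J := J) mI n (M * (r * M1))
  have h2 := card_tor_VK_dvd (J := J) mI n M
  unfold descK bigK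
  exact mul_dvd_mul (mul_dvd_mul (mul_dvd_mul (pow_dvd_pow_of_dvd h1 2)
    (mul_dvd_mul dvd_rfl (mul_dvd_mul dvd_rfl (pow_dvd_pow_of_dvd h2 2))))
    (pow_dvd_pow_of_dvd h1 2)) dvd_rfl

/-- **Descent for rational points.** -/
theorem EisInput.descent (I : EisInput r N J R mI A B K0 M M1 M2) (hr : r.Prime) (hN : N.Prime)
    (hNr : N ≠ r) (hA : A.LiesOverPrime r) (hB : ∀ q, q.Prime → (B q).LiesOverPrime q)
    {k : ℕ} (hk : k ≠ 0) {e : R} (he : ∀ x : J, (r ^ k) • x = 0 → e • x ∈ VK J mI (r ^ k))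
    {y : J} (hy : ∀ σ : GQ, σ • y = y) :
    ∃ z : J, (∀ σ : GQ, σ • z = z) ∧ bigK r N J M M1 M2 • (e • y) = (r ^ k) • z := by
  have hfin := I.finite_VK (pow_ne_zero k hr.ne_zero)
  obtain ⟨z, hz⟩ := I.div (r ^ k) (pow_ne_zero k hr.ne_zero) y
  have htor : ∀ σ : GQ, (r ^ k) • (σ • z - z) = 0 := by
    intro σ
    rw [nsmul_sub, ← smul_nsmul_comm, hz, hy, sub_self]
  let c : GQ → VK J mI (r ^ k) := fun σ => ⟨e • (σ • z - z), he _ (htor σ)⟩
  have hc : IsCoc (VKrep I.comm mI (r ^ k)) c :=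
    { coc := fun σ τ => Subtype.ext (by
        change e • ((σ * τ) • z - z) = e • (σ • z - z) + σ • (e • (τ • z - z))
        have h1 : (σ * τ) • z - z = (σ • z - z) + σ • (τ • z - z) := by
          rw [mul_smul, smul_sub]; abel
        rw [I.comm, ← smul_add, h1])
      lc := by
        obtain ⟨U, hU, h⟩ := I.exists_level z
        refine ⟨U, hU, fun σ hσ => Subtype.ext ?_⟩
        change e • (σ • z - z) = 0
        rw [h σ hσ, sub_self, smul_zero] }
  obtain ⟨w, hw⟩ := (I.std hr hk).descent hr hN hNr hA hB hc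
    (fun q hq hqr hqN σ hσ => Subtype.ext (by
      change e • (σ • z - z) = 0
      rw [I.unr q hq hqr hqN σ hσ z ⟨k, htor σ⟩, sub_self, smul_zero]))
    (fun σ hσ => I.stab e _ (I.kerA σ hσ z))
  set K := descK r N (VK J mI (r ^ k)) M M1 M2 with hK
  obtain ⟨d, hd⟩ := descK_dvd_bigK (r := r) (N := N) (J := J) (M := M) (M1 := M1) (M2 := M2) mI
    (r ^ k)
  refine ⟨d • (K • (e • z) - (w : J)), fun σ => ?_, ?_⟩
  · have h1 : K • (e • (σ • z - z)) = σ • (w : J) - (w : J) := congrArg Subtype.val (hw σ)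
    have h2 : σ • (K • (e • z) - (w : J)) = K • (e • z) - (w : J) := by
      rw [smul_sub, smul_nsmul_comm, I.comm]
      rw [smul_sub, nsmul_sub] at h1
      rw [sub_eq_sub_iff_sub_eq_sub, h1]
    rw [smul_nsmul_comm, h2]
  · rw [hd, ← hK, smul_comm (r ^ k) d, nsmul_sub, w.2.1, sub_zero, mul_comm K d, mul_smul]
    congr 1
    rw [smul_comm (r ^ k) K, smul_comm (r ^ k) e z, hz]

end Main

end Fermat.Agent.Mazur
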