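import Fermat.Agent.Mazur.TameN

/-!
# The valuation pairing at `r`
-/

set_option autoImplicit false

open scoped Pointwise
open Fermat.Agent.Frob Fermat.Agent.CFT

namespace Fermat.Agent.Mazur

local notation "Qb" => AlgebraicClosure ℚ
local notation "GQ" => AlgebraicClosure ℚ ≃ₐ[ℚ] AlgebraicClosure ℚ

/-- Kummer generator of valuation `n` -/
def HasV (r m : ℕ) (A : ValuationSubring Qb) (g : GQ → Additive Qbˣ) (n : ℤ) : Prop :=
  ∃ β : Qbˣ, (∀ σ ∈ A.inertiaSubgroupIn ℚ, uact σ β = (g σ).toMul * β) ∧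
    A.valuation ((β : Qb) ^ m * (r : Qb) ^ (-n)) = 1

/-- cocycles on inertia with values in roots of unity -/
structure TwCoc (m : ℕ) (A : ValuationSubring Qb) (g : GQ → Additive Qbˣ) : Prop where
  coc : ∀ σ ∈ A.inertiaSubgroupIn ℚ, ∀ τ ∈ A.inertiaSubgroupIn ℚ,
    g (σ * τ) = g σ + aact σ (g τ)
  tor : ∀ σ ∈ A.inertiaSubgroupIn ℚ, m • g σ = 0
  lc : ∃ U ∈ galLevels ℚ Qb, ∀ σ ∈ A.inertiaSubgroupIn ℚ, σ ∈ U → g σ = 0

section HasV

variable {r m : ℕ} {A : ValuationSubring Qb} {g g' : GQ → Additive Qbˣ} {n n' : ℤ}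

lemma HasV.add (hr : r ≠ 0) (h : HasV r m A g n) (h' : HasV r m A g' n') :
    HasV r m A (g + g') (n + n') := by
  obtain ⟨β, h1, h2⟩ := h
  obtain ⟨β', h1', h2'⟩ := h'
  refine ⟨β * β', fun σ hσ => ?_, ?_⟩
  · rw [map_mul, h1 σ hσ, h1' σ hσ, Pi.add_apply, toMul_add]
    exact mul_mul_mul_comm _ _ _ _
  · have hr0 : (r : Qb) ≠ 0 := by exact_mod_cast hr
    have e : ((β * β' : Qbˣ) : Qb) ^ m * (r : Qb) ^ (-(n + n')) =
        ((β : Qb) ^ m * (r : Qb) ^ (-n)) * ((β' : Qb) ^ m * (r : Qb) ^ (-n')) := by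
      rw [Units.val_mul, mul_pow, neg_add, zpow_add₀ hr0]; ring
    rw [e, map_mul, h2, h2', one_mul]

lemma HasV.neg (h : HasV r m A g n) : HasV r m A (-g) (-n) := by
  obtain ⟨β, h1, h2⟩ := h
  refine ⟨β⁻¹, fun σ hσ => ?_, ?_⟩
  · rw [map_inv, h1 σ hσ, Pi.neg_apply, toMul_neg, mul_inv]
  · have e : ((β⁻¹ : Qbˣ) : Qb) ^ m * (r : Qb) ^ (-(-n)) = ((β : Qb) ^ m * (r : Qb) ^ (-n))⁻¹ := by
      rw [Units.val_inv_eq_inv_val, inv_pow, mul_inv, neg_neg, zpow_neg, inv_inv]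
    rw [e, map_inv₀, h2, inv_one]

lemma HasV.zero : HasV r m A 0 0 :=
  ⟨1, fun σ _ => by rw [map_one]; exact (one_mul 1).symm, by simp⟩

lemma HasV.congr (h : HasV r m A g n) (hg : ∀ σ ∈ A.inertiaSubgroupIn ℚ, g σ = g' σ) :
    HasV r m A g' n := by
  obtain ⟨β, h1, h2⟩ := h
  exact ⟨β, fun σ hσ => by rw [h1 σ hσ, hg σ hσ], h2⟩

/-- a unit generator has valuation `0` -/
lemma HasV.of_unit {β : Qbˣ} (hβ : ∀ σ ∈ A.inertiaSubgroupIn ℚ, uact σ β = (g σ).toMul * β)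
    (hv : A.valuation (β : Qb) = 1) : HasV r m A g 0 :=
  ⟨β, hβ, by rw [neg_zero, zpow_zero, mul_one, map_pow, hv, one_pow]⟩

lemma zpow_eq_one_val (hA : A.LiesOverPrime r) {n : ℤ}
    (h : A.valuation ((r : Qb) ^ n) = 1) : n = 0 := by
  have hvq : A.valuation (r : Qb) < 1 := (ValuationSubring.mem_nonunits_iff _).1 hA
  rw [map_zpow₀] at h
  by_contra hne
  rcases lt_or_gt_of_ne hne with hlt | hgt
  · obtain ⟨m, hm⟩ := Int.eq_ofNat_of_zero_le (by omega : 0 ≤ -n)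
    have h3 : A.valuation (r : Qb) ^ (-n) = 1 := by rw [zpow_neg, h, inv_one]
    rw [hm, zpow_natCast] at h3
    have hm0 : m ≠ 0 := by rintro rfl; simp at hm; omega
    exact hvq.ne (eq_one_of_pow_eq_one_val hm0 h3)
  · obtain ⟨m, hm⟩ := Int.eq_ofNat_of_zero_le (by omega : 0 ≤ n)
    rw [hm, zpow_natCast] at h
    have hm0 : m ≠ 0 := by rintro rfl; simp at hm; omega
    exact hvq.ne (eq_one_of_pow_eq_one_val hm0 h)

lemma HasV.dvd_of_zero (hr : r.Prime) (hA : A.LiesOverPrime r)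
    (h : HasV r m A g n) (hg : ∀ σ ∈ A.inertiaSubgroupIn ℚ, g σ = 0) : (m : ℤ) ∣ n := by
  obtain ⟨β, h1, h2⟩ := h
  obtain ⟨j, hj⟩ := exists_valuation_of_fixed hr hA β.ne_zero (by
    intro τ hτ
    have h3 := h1 τ hτ
    rw [hg τ hτ, toMul_zero, one_mul] at h3
    have h4 := congrArg Units.val h3
    simpa using h4)
  have hr0 : (r : Qb) ≠ 0 := by exact_mod_cast hr.ne_zero
  have e : (r : Qb) ^ ((m : ℤ) * j - n) =
      ((β : Qb) ^ m * (r : Qb) ^ (-n)) * (((β : Qb) * (r : Qb) ^ (-j)) ^ m)⁻¹ := by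
    rw [mul_pow, ← zpow_natCast ((r : Qb) ^ (-j)), ← zpow_mul, mul_inv, ← zpow_neg, sub_eq_add_neg,
      zpow_add₀ hr0]
    have hβ : (β : Qb) ^ m ≠ 0 := pow_ne_zero _ β.ne_zero
    field_simp
    ring_nf
  have h5 := zpow_eq_one_val hA (n := (m : ℤ) * j - n) (by
    rw [e, map_mul, map_inv₀, map_pow A.valuation, h2, hj, one_pow, inv_one, mul_one])
  exact ⟨j, by omega⟩

lemma HasV.unique (hr : r.Prime) (hA : A.LiesOverPrime r)
    (h : HasV r m A g n) (h' : HasV r m A g n') : (m : ℤ) ∣ n - n' := by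
  have h1 := h.add hr.ne_zero h'.neg
  exact (sub_eq_add_neg n n') ▸ h1.dvd_of_zero hr hA (fun σ _ => by
    rw [Pi.add_apply, Pi.neg_apply, add_neg_cancel])

lemma HasV.exists_unit (hr : r.Prime) (h : HasV r m A g n) (hm : m ≠ 0) (hn : (m : ℤ) ∣ n) :
    ∃ β : Qbˣ, A.valuation (β : Qb) = 1 ∧
      ∀ σ ∈ A.inertiaSubgroupIn ℚ, uact σ β = (g σ).toMul * β := by
  obtain ⟨β, h1, h2⟩ := h
  obtain ⟨j, rfl⟩ := hn
  have hr0 : (r : Qb) ≠ 0 := by exact_mod_cast hr.ne_zero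
  have hu : ∀ σ : GQ, uact σ (Units.mk0 (r : Qb) hr0) = Units.mk0 (r : Qb) hr0 := fun σ =>
    Units.ext (by rw [coe_uact]; simp)
  refine ⟨β * (Units.mk0 (r : Qb) hr0) ^ (-j), ?_, fun σ hσ => ?_⟩
  · have h3 : A.valuation ((β * (Units.mk0 (r : Qb) hr0) ^ (-j) : Qbˣ) : Qb) ^ m = 1 := by
      rw [← map_pow, ← h2]
      congr 1
      rw [Units.val_mul, Units.val_zpow_eq_zpow_val, Units.val_mk0, mul_pow,
        ← zpow_natCast ((r : Qb) ^ (-j)), ← zpow_mul]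
      congr 2
      ring
    exact eq_one_of_pow_eq_one_val hm h3
  · rw [map_mul, map_zpow, hu, h1 σ hσ, mul_assoc]

/-- existence -/
lemma TwCoc.exists_hasV (hr : r.Prime) (hA : A.LiesOverPrime r) (h : TwCoc m A g) :
    ∃ n, HasV r m A g n := by
  obtain ⟨β, hβ⟩ := hilb90 (A.inertiaSubgroupIn ℚ) (fun σ => (g σ).toMul) (by
    intro σ hσ τ hτ
    rw [h.coc σ hσ τ hτ, toMul_add, toMul_aact]) (by
    obtain ⟨U, hU, h1⟩ := h.lc
    refine ⟨U, hU, fun σ hσ u hu huU => ?_⟩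
    rw [h.coc σ hσ u hu, h1 u hu huU, map_zero, add_zero])
  have hpow : ∀ σ ∈ A.inertiaSubgroupIn ℚ, σ ((β : Qb) ^ m) = (β : Qb) ^ m := by
    intro σ hσ
    have h1 : uact σ (β ^ m) = β ^ m := by
      rw [map_pow, hβ σ hσ, mul_pow, ← toMul_nsmul, h.tor σ hσ, toMul_zero, one_mul]
    have h2 := congrArg Units.val h1
    simpa using h2
  obtain ⟨n, hn⟩ := exists_valuation_of_fixed hr hA (pow_ne_zero m β.ne_zero) hpow
  exact ⟨n, β, hβ, hn⟩

lemma HasV.conj {φ : GQ} (hφ : φ ∈ A.decompositionSubgroup ℚ) (h : HasV r m A g n) :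
    HasV r m A (fun σ => aact φ (g (φ⁻¹ * σ * φ))) n := by
  obtain ⟨β, h1, h2⟩ := h
  refine ⟨uact φ β, fun σ hσ => ?_, ?_⟩
  · have hmem : φ⁻¹ * σ * φ ∈ A.inertiaSubgroupIn ℚ := by
      rw [mem_inertiaSubgroupIn_iff] at hσ ⊢
      refine ⟨mul_mem (mul_mem (inv_mem hφ) hσ.1) hφ, fun x hx => ?_⟩
      have hx' : φ x ∈ A := (apply_mem_iff hφ).2 hx
      have h3 := hσ.2 _ hx'
      have h4 := (apply_mem_nonunits_iff (inv_mem hφ)).2 h3
      rw [map_sub, ← AlgEquiv.mul_apply, ← AlgEquiv.mul_apply, ← AlgEquiv.mul_apply,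
        inv_mul_cancel] at h4
      rw [mul_assoc]
      exact h4
    have h3 := congrArg (uact φ) (h1 _ hmem)
    rw [← uact_mul, ← mul_assoc, ← mul_assoc, mul_inv_cancel, one_mul, uact_mul, map_mul] at h3
    exact h3
  · rw [coe_uact]
    have e : φ (β : Qb) ^ m * (r : Qb) ^ (-n) = φ ((β : Qb) ^ m * (r : Qb) ^ (-n)) := by
      rw [map_mul, map_pow, map_zpow₀, map_natCast]
    rw [e, valuation_apply_eq hφ, h2]

/-- the valuation of a cocycle -/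
noncomputable def PV (r m : ℕ) (A : ValuationSubring Qb) (g : GQ → Additive Qbˣ) : ZMod m := by
  classical exact if h : ∃ n, HasV r m A g n then ((h.choose : ℤ) : ZMod m) else 0

lemma PV_eq (hr : r.Prime) (hA : A.LiesOverPrime r) (h : HasV r m A g n) :
    PV r m A g = (n : ZMod m) := by
  have hex : ∃ n, HasV r m A g n := ⟨n, h⟩
  rw [PV, dif_pos hex]
  have h1 := (hex.choose_spec).unique hr hA h
  exact ((ZMod.intCast_eq_intCast_iff_dvd_sub _ _ _).2 h1).symm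

lemma TwCoc.hasV (hr : r.Prime) (hA : A.LiesOverPrime r) (h : TwCoc m A g) :
    ∃ n : ℤ, HasV r m A g n ∧ PV r m A g = n := by
  obtain ⟨n, hn⟩ := h.exists_hasV hr hA
  exact ⟨n, hn, PV_eq hr hA hn⟩

lemma TwCoc.add (h : TwCoc m A g) (h' : TwCoc m A g') : TwCoc m A (g + g') where
  coc σ hσ τ hτ := by
    simp only [Pi.add_apply, h.coc σ hσ τ hτ, h'.coc σ hσ τ hτ, map_add]
    exact add_add_add_comm _ _ _ _
  tor σ hσ := by rw [Pi.add_apply, nsmul_add, h.tor σ hσ, h'.tor σ hσ, add_zero]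
  lc := by
    obtain ⟨U, hU, h1⟩ := h.lc
    obtain ⟨U', hU', h1'⟩ := h'.lc
    exact ⟨U ⊓ U', Levels.inf_mem hU hU', fun σ hσ hσU => by
      rw [Pi.add_apply, h1 σ hσ hσU.1, h1' σ hσ hσU.2, add_zero]⟩

lemma TwCoc.neg (h : TwCoc m A g) : TwCoc m A (-g) where
  coc σ hσ τ hτ := by
    simp only [Pi.neg_apply, h.coc σ hσ τ hτ, map_neg]
    exact neg_add _ _
  tor σ hσ := by
    rw [Pi.neg_apply]
    exact (neg_nsmul (g σ) m).trans (by rw [h.tor σ hσ, neg_zero])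
  lc := by
    obtain ⟨U, hU, h1⟩ := h.lc
    exact ⟨U, hU, fun σ hσ hσU => by rw [Pi.neg_apply, h1 σ hσ hσU, neg_zero]⟩

lemma TwCoc.zero : TwCoc m A 0 where
  coc σ _ τ _ := by simp only [Pi.zero_apply, map_zero, add_zero]
  tor σ _ := nsmul_zero _
  lc := ⟨⊤, Levels.top_mem, fun _ _ _ => rfl⟩

lemma PV_add (hr : r.Prime) (hA : A.LiesOverPrime r) (h : TwCoc m A g) (h' : TwCoc m A g') :
    PV r m A (g + g') = PV r m A g + PV r m A g' := by
  obtain ⟨n, h1, h2⟩ := h.hasV hr hA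
  obtain ⟨n', h1', h2'⟩ := h'.hasV hr hA
  rw [PV_eq hr hA (h1.add hr.ne_zero h1'), h2, h2']
  push_cast; rfl

lemma PV_zero (hr : r.Prime) (hA : A.LiesOverPrime r) : PV r m A 0 = 0 := by
  rw [PV_eq hr hA HasV.zero, Int.cast_zero]

lemma PV_neg (hr : r.Prime) (hA : A.LiesOverPrime r) (h : TwCoc m A g) :
    PV r m A (-g) = - PV r m A g := by
  obtain ⟨n, h1, h2⟩ := h.hasV hr hA
  rw [PV_eq hr hA h1.neg, h2, Int.cast_neg]

lemma TwCoc.nsmul (h : TwCoc m A g) (n : ℕ) : TwCoc m A (n • g) := by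
  induction n with
  | zero => rw [zero_smul]; exact TwCoc.zero
  | succ n ih => rw [succ_nsmul]; exact ih.add h

lemma PV_nsmul (hr : r.Prime) (hA : A.LiesOverPrime r) (h : TwCoc m A g) (n : ℕ) :
    PV r m A (n • g) = n * PV r m A g := by
  induction n with
  | zero => rw [zero_smul, PV_zero hr hA, Nat.cast_zero, zero_mul]
  | succ n ih => rw [succ_nsmul, PV_add hr hA (h.nsmul n) h, ih]; push_cast; ring

lemma PV_congr (hr : r.Prime) (hA : A.LiesOverPrime r) (h : TwCoc m A g)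
    (hg : ∀ σ ∈ A.inertiaSubgroupIn ℚ, g σ = g' σ) : PV r m A g = PV r m A g' := by
  obtain ⟨n, h1, h2⟩ := h.hasV hr hA
  rw [h2, PV_eq hr hA (h1.congr hg)]

lemma PV_unit (hr : r.Prime) (hA : A.LiesOverPrime r) {β : Qbˣ}
    (hβ : ∀ σ ∈ A.inertiaSubgroupIn ℚ, uact σ β = (g σ).toMul * β)
    (hv : A.valuation (β : Qb) = 1) : PV r m A g = 0 := by
  rw [PV_eq hr hA (HasV.of_unit hβ hv), Int.cast_zero]

lemma PV_conj (hr : r.Prime) (hA : A.LiesOverPrime r) {φ : GQ}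
    (hφ : φ ∈ A.decompositionSubgroup ℚ) (h : TwCoc m A g) :
    PV r m A (fun σ => aact φ (g (φ⁻¹ * σ * φ))) = PV r m A g := by
  obtain ⟨n, h1, h2⟩ := h.hasV hr hA
  rw [h2, PV_eq hr hA (h1.conj hφ)]

lemma TwCoc.exists_unit (hr : r.Prime) (hA : A.LiesOverPrime r) (h : TwCoc m A g) (hm : m ≠ 0)
    (h0 : PV r m A g = 0) : ∃ β : Qbˣ, A.valuation (β : Qb) = 1 ∧
      ∀ σ ∈ A.inertiaSubgroupIn ℚ, uact σ β = (g σ).toMul * β := by
  obtain ⟨n, h1, h2⟩ := h.hasV hr hA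
  rw [h0] at h2
  exact h1.exists_unit hr hm ((ZMod.intCast_zmod_eq_zero_iff_dvd n m).1 h2.symm)

end HasV

section Coc

variable {r k : ℕ} {A : ValuationSubring Qb} {V : Type} [AddCommGroup V]
  {ρ : GQ →* AddMonoid.End V} {V0 : AddSubgroup V} {c c' : GQ → V}

lemma IsCoc.add (h : IsCoc ρ c) (h' : IsCoc ρ c') : IsCoc ρ (c + c') where
  coc σ τ := by simp only [Pi.add_apply, h.coc, h'.coc, map_add]; abel
  lc := by
    obtain ⟨U, hU, h1⟩ := h.lc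
    obtain ⟨U', hU', h1'⟩ := h'.lc
    exact ⟨U ⊓ U', Levels.inf_mem hU hU', fun σ hσU => by
      rw [Pi.add_apply, h1 σ hσU.1, h1' σ hσU.2, add_zero]⟩

lemma IsCoc.map (h : IsCoc ρ c) {f : V →+ V} (hf : ∀ σ v, f (ρ σ v) = ρ σ (f v)) :
    IsCoc ρ (fun σ => f (c σ)) where
  coc σ τ := by rw [h.coc, map_add, hf]
  lc := by
    obtain ⟨U, hU, h1⟩ := h.lc
    exact ⟨U, hU, fun σ hσU => by rw [h1 σ hσU, map_zero]⟩

lemma IsCoc.neg (h : IsCoc ρ c) : IsCoc ρ (-c) where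
  coc σ τ := by simp only [Pi.neg_apply, h.coc, map_neg]; abel
  lc := by
    obtain ⟨U, hU, h1⟩ := h.lc
    exact ⟨U, hU, fun σ hσU => by rw [Pi.neg_apply, h1 σ hσU, neg_zero]⟩

lemma IsCoc.nsmul (h : IsCoc ρ c) (n : ℕ) : IsCoc ρ (n • c) where
  coc σ τ := by simp only [Pi.smul_apply, h.coc, nsmul_add, map_nsmul]
  lc := by
    obtain ⟨U, hU, h1⟩ := h.lc
    exact ⟨U, hU, fun σ hσU => by rw [Pi.smul_apply, h1 σ hσU, nsmul_zero]⟩

/-- coboundaries -/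
noncomputable def bd (ρ : GQ →* AddMonoid.End V) (v : V) : GQ → V := fun σ => ρ σ v - v

lemma bd_apply (v : V) (σ : GQ) : bd ρ v σ = ρ σ v - v := rfl

lemma bd_add (v w : V) : bd ρ (v + w) = bd ρ v + bd ρ w := by
  funext σ; simp only [bd_apply, Pi.add_apply, map_add]; abel

lemma IsCoc.bd (h : Adm r k ρ) (v : V) : IsCoc ρ (bd ρ v) where
  coc σ τ := by
    simp only [bd_apply, map_sub, map_mul, end_mul_apply]; abel
  lc := by
    obtain ⟨U, hU, h1⟩ := h.level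
    exact ⟨U, hU, fun σ hσ => by rw [bd_apply, h1 σ hσ]; exact sub_self v⟩

/-- cocycles with the condition at `A` -/
structure CocA (A : ValuationSubring Qb) (ρ : GQ →* AddMonoid.End V) (V0 : AddSubgroup V)
    (c : GQ → V) : Prop extends IsCoc ρ c where
  atA : ∀ σ ∈ A.inertiaSubgroupIn ℚ, c σ ∈ V0

lemma CocA.add (h : CocA A ρ V0 c) (h' : CocA A ρ V0 c') : CocA A ρ V0 (c + c') where
  toIsCoc := h.toIsCoc.add h'.toIsCoc
  atA σ hσ := V0.add_mem (h.atA σ hσ) (h'.atA σ hσ)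

lemma CocA.neg (h : CocA A ρ V0 c) : CocA A ρ V0 (-c) where
  toIsCoc := h.toIsCoc.neg
  atA σ hσ := V0.neg_mem (h.atA σ hσ)

lemma CocA.nsmul (h : CocA A ρ V0 c) (n : ℕ) : CocA A ρ V0 (n • c) where
  toIsCoc := h.toIsCoc.nsmul n
  atA σ hσ := V0.nsmul_mem (h.atA σ hσ) n

lemma CocA.bd (h : Adm r k ρ) (hloc : LocCond r k A ρ V0) (v : V) : CocA A ρ V0 (bd ρ v) where
  toIsCoc := IsCoc.bd h v
  atA σ hσ := hloc.quot σ hσ v

lemma CocA.twCoc (hr : r.Prime) (hadm : Adm r k ρ) (hloc : LocCond r k A ρ V0)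
    (h : CocA A ρ V0 c) (l : V →+ Additive Qbˣ) : TwCoc (r ^ k) A (fun σ => l (c σ)) where
  coc σ hσ τ hτ := by
    obtain ⟨a, ha⟩ := exists_exp (pow_ne_zero k hr.ne_zero) σ
    rw [h.coc, map_add, hloc.cyc σ hσ a ha _ (h.atA τ hτ), map_nsmul,
      aact_eq_nsmul ha (hadm.nsmul_char l _)]
  tor σ _ := hadm.nsmul_char l _
  lc := by
    obtain ⟨U, hU, h1⟩ := h.lc
    exact ⟨U, hU, fun σ _ hσU => by rw [h1 σ hσU, map_zero]⟩

/-- the pairing -/
noncomputable def PL (r k : ℕ) (A : ValuationSubring Qb) (l : V →+ Additive Qbˣ) (c : GQ → V) :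
    ZMod (r ^ k) := PV r (r ^ k) A (fun σ => l (c σ))

variable (hr : r.Prime) (hA : A.LiesOverPrime r) (hadm : Adm r k ρ) (hloc : LocCond r k A ρ V0)

include hr hA hadm hloc

lemma PL_add (h : CocA A ρ V0 c) (h' : CocA A ρ V0 c') (l : V →+ Additive Qbˣ) :
    PL r k A l (c + c') = PL r k A l c + PL r k A l c' := by
  rw [PL, PL, PL, ← PV_add hr hA (h.twCoc hr hadm hloc l) (h'.twCoc hr hadm hloc l)]
  congr 1
  funext σ
  exact map_add l _ _

lemma PL_neg (h : CocA A ρ V0 c) (l : V →+ Additive Qbˣ) :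
    PL r k A l (-c) = - PL r k A l c := by
  rw [PL, PL, ← PV_neg hr hA (h.twCoc hr hadm hloc l)]
  congr 1
  funext σ
  exact map_neg l _

lemma PL_nsmul (h : CocA A ρ V0 c) (l : V →+ Additive Qbˣ) (n : ℕ) :
    PL r k A l (n • c) = n * PL r k A l c := by
  rw [PL, PL, ← PV_nsmul hr hA (h.twCoc hr hadm hloc l)]
  congr 1
  funext σ
  exact map_nsmul l _ _

lemma PL_nsmul_left (h : CocA A ρ V0 c) (l : V →+ Additive Qbˣ) (n : ℕ) :
    PL r k A (n • l) c = n * PL r k A l c := by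
  rw [PL, PL, ← PV_nsmul hr hA (h.twCoc hr hadm hloc l)]
  rfl

lemma PL_congr (h : CocA A ρ V0 c) {l l' : V →+ Additive Qbˣ}
    (hg : ∀ σ ∈ A.inertiaSubgroupIn ℚ, l (c σ) = l' (c' σ)) : PL r k A l c = PL r k A l' c' :=
  PV_congr hr hA (h.twCoc hr hadm hloc l) hg

/-- vanishing of the pairing for coboundaries of `V0` -/
lemma PL_bd_of_mem {v : V} (hv : v ∈ V0) (l : V →+ Additive Qbˣ) : PL r k A l (bd ρ v) = 0 := by
  have hv1 : A.valuation (((l v).toMul : Qbˣ) : Qb) = 1 := by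
    have h1 := congrArg Additive.toMul (hadm.nsmul_char l v)
    rw [toMul_nsmul] at h1
    have h2 := congrArg Units.val h1
    rw [Units.val_pow_eq_pow_val, toMul_zero, Units.val_one] at h2
    have h3 : A.valuation (((l v).toMul : Qbˣ) : Qb) ^ (r ^ k) = 1 := by
      rw [← map_pow, h2, map_one]
    exact eq_one_of_pow_eq_one_val (pow_ne_zero k hr.ne_zero) h3
  apply PV_unit hr hA (β := (l v).toMul) _ hv1
  intro σ hσ
  obtain ⟨a, ha⟩ := exists_exp (pow_ne_zero k hr.ne_zero) σ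
  rw [← toMul_aact, bd_apply, map_sub, hloc.cyc σ hσ a ha v hv, map_nsmul,
    aact_eq_nsmul ha (hadm.nsmul_char l _), toMul_sub, div_mul_cancel]

/-- Frobenius equivariance -/
lemma PL_frob {φ : GQ} (hφ : φ ∈ A.decompositionSubgroup ℚ) {a : ℕ}
    (ha : ∀ ζ : Qb, ζ ^ (r ^ k) = 1 → φ ζ = ζ ^ a) (h : CocA A ρ V0 c)
    (l : V →+ Additive Qbˣ) :
    PL r k A (l.comp (ρ φ : V →+ V)) c =
      a * (PL r k A l c + PL r k A l (bd ρ (c φ))) := by
  have hcb := CocA.bd hadm hloc (c φ)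
  have h1 := PV_conj hr hA hφ (h.twCoc hr hadm hloc (l.comp (ρ φ : V →+ V)))
  rw [← PL_add hr hA hadm hloc h hcb, PL, PL, ← h1, ← PV_nsmul hr hA ((h.add hcb).twCoc hr hadm hloc l)]
  congr 1
  funext σ
  change aact φ (l (ρ φ (c (φ⁻¹ * σ * φ)))) = a • l (c σ + bd ρ (c φ) σ)
  have e : ρ φ (c (φ⁻¹ * σ * φ)) = c σ + bd ρ (c φ) σ := by
    have h2 : c (φ * (φ⁻¹ * σ * φ)) = c φ + ρ φ (c (φ⁻¹ * σ * φ)) := h.coc _ _
    have h3 : φ * (φ⁻¹ * σ * φ) = σ * φ := by group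
    rw [h3, h.coc] at h2
    rw [bd_apply, eq_comm, ← sub_eq_iff_eq_add'.2 h2]
    abel
  rw [e, aact_eq_nsmul ha (hadm.nsmul_char l _)]

end Coc

end Fermat.Agent.Mazur
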