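import Fermat.Agent.Mazur.Std

/-!
# The valuation condition at `r` is automatic up to bounded index
-/

set_option autoImplicit false

open scoped Pointwise
open Fermat.Agent.Frob Fermat.Agent.CFT

namespace Fermat.Agent.Mazur

local notation "Qb" => AlgebraicClosure ℚ
local notation "GQ" => AlgebraicClosure ℚ ≃ₐ[ℚ] AlgebraicClosure ℚ

variable {r k N : ℕ} {A : ValuationSubring Qb} {B : ℕ → ValuationSubring Qb}
  {R : Type} [CommRing R] {V : Type} [AddCommGroup V] [Module R V]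
  {ρ : GQ →* AddMonoid.End V} {V0 : AddSubgroup V} {M M1 M2 : ℕ}

section

variable (hr : r.Prime) (hA : A.LiesOverPrime r) (hadm : Adm r k ρ) (hloc : LocCond r k A ρ V0)

include hr hA hadm hloc in
lemma PL_of_zsmul {c c' : GQ → V} (h : CocA A ρ V0 c) {l l' : V →+ Additive Qbˣ} (n : ℤ)
    (hg : ∀ σ ∈ A.inertiaSubgroupIn ℚ, l' (c' σ) = n • l (c σ)) :
    PL r k A l' c' = n * PL r k A l c := by
  obtain ⟨m, rfl | rfl⟩ := n.eq_nat_or_neg
  · rw [← PL_congr hr hA hadm hloc (h.nsmul m) (l := l) (l' := l') (c' := c') (fun σ hσ => by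
      rw [hg σ hσ, natCast_zsmul, Pi.smul_apply, map_nsmul]), PL_nsmul hr hA hadm hloc h]
    push_cast; rfl
  · rw [← PL_congr hr hA hadm hloc (h.nsmul m).neg (l := l) (l' := l') (c' := c') (fun σ hσ => by
      rw [hg σ hσ, neg_smul, natCast_zsmul, Pi.neg_apply, Pi.smul_apply, map_neg, map_nsmul]),
      PL_neg hr hA hadm hloc (h.nsmul m), PL_nsmul hr hA hadm hloc h]
    push_cast; ring

/-- the pairing with coboundaries -/
noncomputable def delta (l : V →+ Additive Qbˣ) : V →+ ZMod (r ^ k) :=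
  AddMonoidHom.mk' (fun v => PL r k A l (bd ρ v)) (fun v w => by
    rw [bd_add, PL_add hr hA hadm hloc (CocA.bd hadm hloc v) (CocA.bd hadm hloc w)])

lemma delta_apply (l : V →+ Additive Qbˣ) (v : V) :
    delta hr hA hadm hloc l v = PL r k A l (bd ρ v) := rfl

end

lemma isUnit_of_coprime {a : ℕ} (ha : a.Coprime r) : IsUnit ((a : ℕ) : ZMod (r ^ k)) :=
  (ZMod.unitOfCoprime a (Nat.Coprime.pow_right k ha)).isUnit

/-- coboundaries satisfy the valuation condition up to `r * M1`. -/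
theorem Std.delta_eq_zero (hr : r.Prime) (hA : A.LiesOverPrime r)
    (S : Std r k N A B R ρ V0 M M1 M2) (l : V →+ Additive Qbˣ) (v : V) :
    ((r * M1 : ℕ) : ZMod (r ^ k)) * delta hr hA S.adm S.loc l v = 0 := by
  obtain ⟨φ, hφ, T, w1, w2, hT, hw1, hw2⟩ := S.frobr
  obtain ⟨a, har, ha⟩ := exists_exp_coprime hr k φ
  obtain ⟨D, s, hD1, hD2, u, hu⟩ := S.exists_D hr hA hφ ha
  have hVφ := S.dec φ hφ
  set δ := delta hr hA S.adm S.loc l with hδ
  have hδ0 : ∀ v ∈ V0, δ v = 0 := fun v hv => PL_bd_of_mem hr hA S.adm S.loc hv l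
  have hF : ∀ v, PL r k A (l.comp (ρ φ : V →+ V)) (bd ρ v) = a * δ (ρ φ v) := by
    intro v
    rw [PL_frob hr hA S.adm S.loc hφ ha (CocA.bd S.adm S.loc v) l]
    congr 1
    have h1 : δ (ρ φ v) = δ v + δ (ρ φ v - v) := by rw [← map_add]; congr 1; abel
    rw [h1]; rfl
  have hDv : ∀ v, δ (D • v) = s * (a * δ (ρ φ v)) := by
    intro v
    rw [← hF]
    refine PL_of_zsmul hr hA S.adm S.loc (CocA.bd S.adm S.loc v) s (fun σ hσ => ?_)
    have h1 : bd ρ (D • v) σ = D • bd ρ v σ := by rw [bd_apply, bd_apply, S.comm, smul_sub]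
    rw [h1, hD1 (bd ρ v σ) (S.loc.quot σ hσ v), map_zsmul]
    rfl
  have hunit : IsUnit ((a : ℕ) : ZMod (r ^ k)) := isUnit_of_coprime har
  have hsu : ((s : ℤ) : ZMod (r ^ k)) * u = r := by
    have h1 := (ZMod.intCast_zmod_eq_zero_iff_dvd (s * u - r) (r ^ k)).2 hu
    push_cast at h1
    exact sub_eq_zero.1 h1
  have key : ∀ v, (r : ZMod (r ^ k)) * δ (ρ φ (ρ φ v) - v) = 0 := by
    intro v
    have h1 := hDv (ρ φ v)
    have h2 : δ (D • ρ φ v) = (a * s) * δ v := by
      have h3 := hδ0 _ (hD2 v)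
      rw [map_sub, map_zsmul, sub_eq_zero, zsmul_eq_mul] at h3
      rw [h3]; push_cast; rfl
    rw [h2] at h1
    have h4 : (a : ZMod (r ^ k)) * (s * δ (ρ φ (ρ φ v) - v)) = 0 := by
      rw [map_sub]; linear_combination -h1
    have h5 := hunit.mul_left_cancel (h4.trans (mul_zero _).symm)
    rw [← hsu]
    linear_combination (u : ZMod (r ^ k)) * h5
  -- the relation for `T`
  have main : ∀ x, (r : ZMod (r ^ k)) * δ (((1 + (r : R)) ^ 2 - T ^ 2) • x) = 0 := by
    intro x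
    set y := (T ^ 2 - 1 - 2 * (r : R)) • x - ρ φ (ρ φ x) with hy
    have hmem : (ρ φ (ρ φ y) - y) - ((1 + (r : R)) ^ 2 - T ^ 2) • x ∈ V0 := by
      have e : (ρ φ (ρ φ y) - y) - ((1 + (r : R)) ^ 2 - T ^ 2) • x =
          - ((ρ φ (ρ φ (ρ φ (ρ φ x))) - T • ρ φ (ρ φ (ρ φ x)) + r • (ρ φ (ρ φ x))) +
            T • (ρ φ (ρ φ (ρ φ x)) - T • ρ φ (ρ φ x) + r • (ρ φ x)) +
            (r : R) • (ρ φ (ρ φ x) - T • ρ φ x + r • x)) := by
        rw [hy]
        simp only [map_sub, S.comm]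
        have hr1 : ∀ z : V, r • z = (r : R) • z := fun z => (Nat.cast_smul_eq_nsmul R r z).symm
        simp only [hr1]
        module
      rw [e]
      exact V0.neg_mem (V0.add_mem (V0.add_mem (hT _) (S.stab _ _ (hT _))) (S.stab _ _ (hT _)))
    have h1 := hδ0 _ hmem
    rw [map_sub, sub_eq_zero] at h1
    rw [← h1]
    exact key y
  have h1 := main (w1 • v)
  rw [smul_smul, mul_comm _ w1, hw1, map_nsmul, nsmul_eq_mul] at h1
  push_cast
  linear_combination h1

/-- Frobenius acts on the pairing of cocycles by the cyclotomic character, up to `r * M1`. -/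
theorem Std.PL_apply_eq_zero (hr : r.Prime) (hA : A.LiesOverPrime r)
    (S : Std r k N A B R ρ V0 M M1 M2) [Finite V] {φ : GQ} (hφ : φ ∈ A.decompositionSubgroup ℚ)
    {a : ℕ} (ha : ∀ ζ : Qb, ζ ^ (r ^ k) = 1 → φ ζ = ζ ^ a)
    {D : R} {s : ℤ} (hD : DData r k A R ρ V0 φ a D s) {K : ℕ}
    (hK : ∀ v ∈ V0, D • v = (a * s) • v → K • v = 0)
    {c : GQ → V} (hc : CocA A ρ V0 c) (l : V →+ Additive Qbˣ) :
    ((r * M1 * K : ℕ) : ZMod (r ^ k)) * PL r k A l c = 0 := by
  obtain ⟨hD1, hD2, u, hu⟩ := hD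
  -- choose `l'`
  let E : V0 →+ V :=
    { toFun := fun v => D • (v : V) - (a * s) • (v : V)
      map_zero' := by simp
      map_add' := fun v w => by
        simp only [AddSubgroup.coe_add, smul_add]; abel }
  have hEker : ∀ v : V0, E v = 0 → K • (l (v : V)) = 0 := by
    intro v hv
    rw [← map_nsmul, hK v v.2 (sub_eq_zero.1 hv), map_zero]
  obtain ⟨l', hl'⟩ : ∃ l' : V →+ Additive Qbˣ, ∀ v : V0, l' (E v) = K • l (v : V) := by
    -- descend to the range
    have hex : ∀ w : E.range, ∃ v : V0, E v = w := fun w => w.2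
    choose pick hpick using hex
    have hlin : ∀ v v' : V0, E v = E v' → K • l (v : V) = K • l (v' : V) := by
      intro v v' h
      have h4 := hEker (v - v') (by rw [map_sub, h, sub_self])
      rw [AddSubgroup.coe_sub, map_sub] at h4
      have h5 : K • l (v : V) - K • l (v' : V) = 0 := by
        rw [← h4, ← nsmul_sub]
      exact sub_eq_zero.1 h5
    let m : E.range →+ Additive Qbˣ :=
      { toFun := fun w => K • l ((pick w : V0) : V)
        map_zero' := hEker _ (by rw [hpick]; rfl)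
        map_add' := fun w w' => by
          have h1 := hlin (pick (w + w')) (pick w + pick w') (by
            rw [map_add, hpick, hpick, hpick]; rfl)
          rw [h1, AddSubgroup.coe_add, map_add, nsmul_add] }
    obtain ⟨l', hl'⟩ := exists_char_extend E.range m
    refine ⟨l', fun v => ?_⟩
    have h1 := hl' ⟨E v, v, rfl⟩
    rw [h1]
    exact hlin _ _ (by rw [hpick])
  have hEc : CocA A ρ V0 (fun σ => D • c σ - (a * s) • c σ) :=
    { coc := fun σ τ => by
        rw [hc.coc, map_sub, S.comm, map_zsmul, smul_add, smul_add]; abel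
      lc := by
        obtain ⟨U, hU, h1⟩ := hc.lc
        exact ⟨U, hU, fun σ hσ => by rw [h1 σ hσ, smul_zero, smul_zero, sub_zero]⟩
      atA := fun σ hσ => V0.sub_mem (S.stab _ _ (hc.atA σ hσ)) (V0.zsmul_mem (hc.atA σ hσ) _) }
  have hDc : CocA A ρ V0 (fun σ => D • c σ) :=
    { coc := fun σ τ => by
        rw [hc.coc, S.comm, smul_add]
      lc := by
        obtain ⟨U, hU, h1⟩ := hc.lc
        exact ⟨U, hU, fun σ hσ => by rw [h1 σ hσ, smul_zero]⟩
      atA := fun σ hσ => S.stab _ _ (hc.atA σ hσ) }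
  have e1 : (K : ZMod (r ^ k)) * PL r k A l c = PL r k A l' (fun σ => D • c σ - (a * s) • c σ) := by
    rw [← PL_nsmul_left hr hA S.adm S.loc hc]
    refine PL_congr hr hA S.adm S.loc hc (fun σ hσ => ?_)
    exact (hl' ⟨c σ, hc.atA σ hσ⟩).symm
  have e2 : PL r k A l' (fun σ => D • c σ - (a * s) • c σ) =
      PL r k A l' (fun σ => D • c σ) - (a * s) * PL r k A l' c := by
    have e3 : PL r k A l' (fun σ => (-(a * s : ℤ)) • c σ) = ((-(a * s : ℤ) : ℤ) : ZMod (r ^ k)) *
        PL r k A l' c :=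
      PL_of_zsmul hr hA S.adm S.loc hc _ (fun σ hσ => by rw [map_zsmul])
    have e4 : CocA A ρ V0 (fun σ => (-(a * s : ℤ)) • c σ) :=
      { coc := fun σ τ => by
          rw [hc.coc, map_zsmul, smul_add]
        lc := by
          obtain ⟨U, hU, h1⟩ := hc.lc
          exact ⟨U, hU, fun σ hσ => by rw [h1 σ hσ, smul_zero]⟩
        atA := fun σ hσ => V0.zsmul_mem (hc.atA σ hσ) _ }
    have e5 : (fun σ => D • c σ - (a * s) • c σ) = (fun σ => D • c σ) +
        (fun σ => (-(a * s : ℤ)) • c σ) := by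
      funext σ
      rw [Pi.add_apply, neg_smul, sub_eq_add_neg]
    rw [e5, PL_add hr hA S.adm S.loc hDc e4, e3]
    push_cast; ring
  have e3 : PL r k A l' (fun σ => D • c σ) = s * PL r k A (l'.comp (ρ φ : V →+ V)) c := by
    refine PL_of_zsmul hr hA S.adm S.loc hc s (fun σ hσ => ?_)
    rw [hD1 (c σ) (hc.atA σ hσ), map_zsmul]
    rfl
  have e4 := PL_frob hr hA S.adm S.loc hφ ha hc l'
  have e5 := S.delta_eq_zero hr hA l' (c φ)
  rw [delta_apply] at e5
  rw [Nat.cast_mul, mul_assoc, e1, e2, e3, e4]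
  linear_combination (s * a : ZMod (r ^ k)) * e5

/-- elements on which `D = a s`. -/
theorem Std.mem_of_D (S : Std r k N A B R ρ V0 M M1 M2) :
    ∃ φ ∈ A.decompositionSubgroup ℚ, ∀ a : ℕ, a.Coprime r →
      (∀ ζ : Qb, ζ ^ (r ^ k) = 1 → φ ζ = ζ ^ a) → ∀ (D : R) (s : ℤ),
      DData r k A R ρ V0 φ a D s → ∀ v, D • v = (a * s) • v → (r * M2) • v ∈ V0 := by
  obtain ⟨φ, hφ, T, w1, w2, hT, hw1, hw2⟩ := S.frobr
  refine ⟨φ, hφ, fun a har ha D s ⟨hD1, hD2, u, hu⟩ v hv => ?_⟩
  have key : ∀ v, D • v = (a * s) • v → r • (ρ φ v - v) ∈ V0 := by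
    intro v hv
    have h1 := hD2 v
    have h2 : D • ρ φ v = (a * s) • ρ φ v := by rw [← S.comm, hv, map_zsmul]
    rw [h2, ← smul_sub, mul_smul, natCast_zsmul] at h1
    have h3 := S.adm.mem_of_coprime har h1
    obtain ⟨j, hj⟩ := hu
    have h4 : r • (ρ φ v - v) = u • (s • (ρ φ v - v)) := by
      rw [smul_smul, mul_comm u s, show s * u = ((r ^ k : ℕ) : ℤ) * j + r by linarith, add_smul,
        mul_comm, mul_smul, natCast_zsmul, natCast_zsmul, S.adm.tors, smul_zero, zero_add]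
    rw [h4]
    exact V0.zsmul_mem h3 u
  have main : ∀ v, D • v = (a * s) • v → r • ((1 + (r : R) - T) • v) ∈ V0 := by
    intro v hv
    have hv' : D • ρ φ v = (a * s) • ρ φ v := by rw [← S.comm, hv, map_zsmul]
    have h1 := key v hv
    have h2 := key _ hv'
    have e : r • ((1 + (r : R) - T) • v) = r • (ρ φ (ρ φ v) - T • ρ φ v + r • v) -
        r • (ρ φ (ρ φ v) - ρ φ v) - r • (ρ φ v - v) + T • (r • (ρ φ v - v)) := by
      have hr1 : ∀ z : V, r • z = (r : R) • z := fun z => (Nat.cast_smul_eq_nsmul R r z).symm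
      simp only [hr1]
      module
    rw [e]
    exact V0.add_mem (V0.sub_mem (V0.sub_mem (V0.nsmul_mem (hT v) r) h2) h1) (S.stab _ _ h1)
  have h1 := main (w2 • v) (by rw [smul_smul, mul_comm, mul_smul, hv]; exact smul_comm _ _ _)
  rw [smul_smul, mul_comm _ w2, hw2, smul_smul] at h1
  exact h1

end Fermat.Agent.Mazur
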